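import Fermat.Agent.Lowering.P1.Brauer.Global
import Fermat.Agent.Lowering.P1.Primes.Basic
import Fermat.Agent.Lowering.P1.TWBound.Local
import Fermat.Agent.Lowering.P1.TWBound.Pairing

/-!
# The invariants

The invariants of classes with values in the cyclotomic line, their sum formula, and the detection
at auxiliary primes, from the norm theorem, the cyclotomic layer and the tame facts.
-/

set_option autoImplicit false
set_option linter.style.haveILetI false
set_option linter.unusedSectionVars false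
set_option maxHeartbeats 1000000

noncomputable section

open scoped Pointwise

namespace FLTAgent.Lowering.P1.Brauer

open Primes

local notation "LL" => AlgebraicClosure ℚ
local notation "GG" => (AlgebraicClosure ℚ ≃ₐ[ℚ] AlgebraicClosure ℚ)
local notation "Dec" => ValuationSubring.decompositionSubgroup ℚ

variable {p : ℕ} [Fact p.Prime] (D : Datum p) {ζ : LL} (hζ : IsPrimitiveRoot ζ p)
  {V : ValuationSubring LL}

include hζ in
theorem apply_zeta_pow (σ : GG) (x : ZMod p) : σ (ζ ^ x.val) = ζ ^ (D.om σ * x).val := by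
  rw [map_pow, D.det_cyclo σ ζ hζ.pow_eq_one, ← pow_mul, ZMod.val_mul]
  exact pow_eq_pow_mod _ hζ.pow_eq_one

theorem expCochain_of_mem {H : Subgroup GG} (c : ↥H → ↥H → ZMod p) {g h : GG} (hg : g ∈ H)
    (hh : h ∈ H) : expCochain ζ H c g h = ζ ^ (c ⟨g, hg⟩ ⟨h, hh⟩).val := by
  simp only [expCochain, dif_pos hg, dif_pos hh]

include hζ in
theorem expCochain_add {H : Subgroup GG} (c c' : ↥H → ↥H → ZMod p) :
    expCochain ζ H (c + c') = fun g h => expCochain ζ H c g h * expCochain ζ H c' g h := by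
  funext g h
  by_cases hg : g ∈ H
  · by_cases hh : h ∈ H
    · rw [expCochain_of_mem _ hg hh, expCochain_of_mem _ hg hh, expCochain_of_mem _ hg hh,
        ← zeta_pow_val_add hζ]
      rfl
    · simp [expCochain, hh]
  · simp [expCochain, hg]

include hζ in
theorem exp_pow {H : Subgroup GG} (c : ↥H → ↥H → ZMod p) :
    Cob H fun g h => expCochain ζ H c g h ^ p :=
  (cob_one (H := H)).congr fun g hg h hh => by
    rw [expCochain_of_mem c hg hh, ← pow_mul, mul_comm, pow_mul, hζ.pow_eq_one, one_pow]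

include hζ in
theorem coc_exp {c : ↥(Dec V) → ↥(Dec V) → ZMod p} (hc : c ∈ D.cocycles₂ (Dec V).subtype) :
    Coc (Dec V) (expCochain ζ (Dec V) c) := by
  obtain ⟨⟨F, hF, hlev⟩, hh⟩ := hc
  refine ⟨⟨F, hF, fun g hg g' hg' s hs hsE s' hs' hsE' => ?_⟩, fun g hg h hh' => ?_,
    fun g hg h hh' j hj => ?_⟩
  · rw [expCochain_of_mem c (mul_mem hg hs) (mul_mem hg' hs'), expCochain_of_mem c hg hg']
    exact congrArg (fun x : ZMod p => ζ ^ x.val) (hlev ⟨g, hg⟩ ⟨g', hg'⟩ ⟨s, hs⟩ ⟨s', hs'⟩ hsE hsE')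
  · rw [expCochain_of_mem c hg hh']
    exact pow_ne_zero _ (hζ.ne_zero (NeZero.ne p))
  · rw [expCochain_of_mem c hh' hj, expCochain_of_mem c hg (mul_mem hh' hj),
      expCochain_of_mem c (mul_mem hg hh') hj, expCochain_of_mem c hg hh', apply_zeta_pow D hζ,
      ← zeta_pow_val_add hζ, ← zeta_pow_val_add hζ]
    refine congrArg (fun x : ZMod p => ζ ^ x.val) ?_
    have h1 := hh ⟨g, hg⟩ ⟨h, hh'⟩ ⟨j, hj⟩
    change D.om g * c ⟨h, hh'⟩ ⟨j, hj⟩ - _ + _ - _ = 0 at h1
    simp only [MulMemClass.mk_mul_mk] at h1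
    linear_combination h1

theorem om_mul (σ τ : GG) : D.om (σ * τ) = D.om σ * D.om τ := by
  simp [Datum.om, Matrix.det_mul]

theorem bdy₂_mem {G : Type} [Group G] (ι : G →* GG) {f : G → ZMod p} (hf : LevC ι f) :
    D.bdy₂ ι f ∈ D.cocycles₂ ι := by
  obtain ⟨F, hF, hlev⟩ := hf
  obtain ⟨L, hL, hl⟩ := D.level
  obtain ⟨N, hN, hNn, hle⟩ := exists_normal_le (F ⊔ L)
  refine ⟨⟨N, hN, fun g h s t hs ht => ?_⟩, fun g h j => ?_⟩
  · have hs' : D.rb (ι s) = 1 := hl _ ((IntermediateField.mem_fixingSubgroup_iff L _).1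
      (IntermediateField.fixingSubgroup_antitone (le_sup_right.trans hle) hs))
    have hom : D.om (ι (g * s)) = D.om (ι g) := by
      rw [map_mul, om_mul, om_of_rb D hs', mul_one]
    have h1 : f (h * t) = f h :=
      hlev h t (IntermediateField.fixingSubgroup_antitone (le_sup_left.trans hle) ht)
    have h2 : f (g * s) = f g :=
      hlev g s (IntermediateField.fixingSubgroup_antitone (le_sup_left.trans hle) hs)
    have h3 : f (g * s * (h * t)) = f (g * h) := by
      rw [show g * s * (h * t) = g * h * ((h⁻¹ * s * h) * t) by group]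
      refine hlev _ _ (IntermediateField.fixingSubgroup_antitone (le_sup_left.trans hle) ?_)
      rw [map_mul, map_mul, map_mul, map_inv]
      exact mul_mem (fix_conj hs (ι h)) ht
    simp only [Datum.bdy₂, hom, h1, h2, h3]
  · simp only [Datum.bdy₂, map_mul, om_mul, mul_assoc]
    ring

include hζ in
theorem cob_exp_bdy {f : ↥(Dec V) → ZMod p} (hf : LevC (Dec V).subtype f) :
    Cob (Dec V) (expCochain ζ (Dec V) (D.bdy₂ (Dec V).subtype f)) := by
  classical
  obtain ⟨F, hF, hlev⟩ := hf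
  refine ⟨fun g => if hg : g ∈ Dec V then ζ ^ (f ⟨g, hg⟩).val else 1,
    ⟨F, hF, fun g hg s hs hsE => ?_⟩, fun g hg => ?_, fun g hg h hh => ?_⟩
  · simp only [dif_pos hg, dif_pos (mul_mem hg hs)]
    exact congrArg (fun x : ZMod p => ζ ^ x.val) (hlev ⟨g, hg⟩ ⟨s, hs⟩ hsE)
  · simp only [dif_pos hg]
    exact pow_ne_zero _ (hζ.ne_zero (NeZero.ne p))
  · have hne : ζ ^ (f ⟨g * h, mul_mem hg hh⟩).val ≠ 0 := pow_ne_zero _ (hζ.ne_zero (NeZero.ne p))
    rw [expCochain_of_mem _ hg hh, dlt, dif_pos hg, dif_pos hh, dif_pos (mul_mem hg hh),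
      apply_zeta_pow D hζ, eq_div_iff hne, ← zeta_pow_val_add hζ, ← zeta_pow_val_add hζ]
    refine congrArg (fun x : ZMod p => ζ ^ x.val) ?_
    simp only [Datum.bdy₂, MulMemClass.mk_mul_mk, Subgroup.coe_subtype]
    ring

include hζ in
/-- The roots of unity are in the local field at an auxiliary prime. -/
theorem fix_zeta {n q : ℕ} (hq : D.IsAuxPrime n q) (hV : V.LiesOverPrime q) :
    ∀ σ ∈ Dec V, σ ζ = ζ := by
  obtain ⟨hqp, hqb, hdvd, -, -⟩ := hq
  have hpr : p.Prime := Fact.out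
  obtain ⟨φ, hφ⟩ := Frobenius.exists_isFrobeniusAt V q hqp hV
  have hne : ¬ q ∣ p := fun h =>
    hqb ((Nat.prime_dvd_prime_iff_eq hqp hpr).1 h ▸ D.p_mem)
  have hζ0 : ζ ≠ 0 := hζ.ne_zero hpr.ne_zero
  have hζV : ζ ∈ V := Kronecker.mem_of_pow_eq_one V hpr.ne_zero hζ.pow_eq_one
  have hinv : ζ⁻¹ ∈ V :=
    Kronecker.mem_of_pow_eq_one V hpr.ne_zero (by rw [inv_pow, hζ.pow_eq_one, inv_one])
  have hζq : ζ ^ q = ζ := by
    obtain ⟨t, ht⟩ := hdvd
    rw [show q = q - 1 + 1 from (Nat.sub_add_cancel hqp.one_le).symm, pow_succ, ht, pow_mul,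
      hζ.pow_eq_one, one_pow, one_mul]
  have hfφ : φ ζ = ζ := by
    have h := ((Frobenius.isFrobeniusAt_iff V φ q).1 hφ).2 ζ hζV
    rw [hζq] at h
    have h1 : φ ζ * ζ⁻¹ - 1 ∈ V.nonunits := by
      rw [show φ ζ * ζ⁻¹ - 1 = (φ ζ - ζ) * ζ⁻¹ by rw [sub_mul, mul_inv_cancel₀ hζ0]]
      rw [← SetLike.mem_coe, ← ValuationSubring.image_maximalIdeal] at h ⊢
      obtain ⟨u, hu, hu'⟩ := h
      exact ⟨u * ⟨_, hinv⟩, Ideal.mul_mem_right _ _ hu, by rw [← hu']; rfl⟩
    have h2 := Reducible.eq_one_of_sub_one_mem_nonunits (p := p)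
      (by rw [mul_pow, ← map_pow, hζ.pow_eq_one, map_one, inv_pow, hζ.pow_eq_one, inv_one, one_mul])
      (Reducible.natCast_notMem_nonunits hqp hV hne) h1
    rwa [mul_inv_eq_one₀ hζ0] at h2
  obtain ⟨L, hL, hlev⟩ := D.level
  obtain ⟨N, hN, hNn, hLN⟩ := exists_normal_le L
  intro τ hτ
  obtain ⟨i, ν, σ, hσ, hν, rfl⟩ := P6.exists_pow_mul_inertia_mul V hqp hV hφ N hτ
  have hfix : ∀ x : GG, D.rb x = 1 → x ζ = ζ := fun x hx => by
    rw [D.det_cyclo x ζ hζ.pow_eq_one, hx, Units.val_one, Matrix.det_one, ZMod.val_one, pow_one]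
  have hpow : (φ ^ i) ζ = ζ := by
    clear hτ
    induction i with
    | zero => rfl
    | succ i ih => rw [pow_succ, AlgEquiv.mul_apply, hfφ, ih]
  rw [AlgEquiv.mul_apply, AlgEquiv.mul_apply,
    hfix σ (D.unramified q hqp hqb V hV σ hσ),
    hfix ν (hlev ν fun x hx => (IntermediateField.mem_fixingSubgroup_iff N ν).1 hν x (hLN hx)), hpow]

variable (Y : CycloLayer p) (hloc : LocalFacts)

/-- The invariant on cocycles of a decomposition group. -/
def invOn (hex : ∃ l : ℕ, l.Prime ∧ V.LiesOverPrime l) :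
    ↥(D.cocycles₂ (Dec V).subtype) →ₗ[ZMod p] ZMod p :=
  AddMonoidHom.toZModLinearMap p (AddMonoidHom.mk'
    (fun c => invH Y V (Dec V) (expCochain ζ (Dec V) c.1)) fun c c' => by
      obtain ⟨l, hl, hV⟩ := hex
      rw [Submodule.coe_add, expCochain_add hζ,
        invH_mul Y hl hV hloc (by have := D.p_gt; omega) localSub_self (coc_exp D hζ c.2)
          (exp_pow hζ _) (coc_exp D hζ c'.2) (exp_pow hζ _)])

variable (V) in
/-- The invariant, extended linearly. -/
def invFun : (↥(Dec V) → ↥(Dec V) → ZMod p) →ₗ[ZMod p] ZMod p :=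
  letI := Classical.propDecidable (∃ l : ℕ, l.Prime ∧ V.LiesOverPrime l)
  if h : ∃ l : ℕ, l.Prime ∧ V.LiesOverPrime l then
    (LinearMap.exists_extend (invOn D hζ Y hloc h)).choose else 0

theorem invFun_eq {l : ℕ} (hl : l.Prime) (hV : V.LiesOverPrime l)
    {c : ↥(Dec V) → ↥(Dec V) → ZMod p} (hc : c ∈ D.cocycles₂ (Dec V).subtype) :
    invFun D hζ V Y hloc c = invH Y V (Dec V) (expCochain ζ (Dec V) c) := by
  have hex : ∃ l : ℕ, l.Prime ∧ V.LiesOverPrime l := ⟨l, hl, hV⟩
  rw [invFun, dif_pos hex]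
  exact LinearMap.congr_fun (LinearMap.exists_extend (invOn D hζ Y hloc hex)).choose_spec ⟨c, hc⟩

/-- A place over every prime. -/
def placeAt (l : ℕ) : ValuationSubring LL :=
  if h : l.Prime then (Frobenius.exists_liesOverPrime l h).choose else ⊤

theorem placeAt_spec {l : ℕ} (h : l.Prime) : (placeAt l).LiesOverPrime l := by
  rw [placeAt, dif_pos h]
  exact (Frobenius.exists_liesOverPrime l h).choose_spec

theorem natCast_val_sum {n : ℕ} (hn : 0 < n) {ι : Type} (s : Finset ι) (t : ι → ZMod p) :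
    (((∑ i ∈ s, t i).val * p ^ (n - 1) : ℕ) : ZMod (p ^ n)) =
      ∑ i ∈ s, (((t i).val * p ^ (n - 1) : ℕ) : ZMod (p ^ n)) := by
  classical
  induction s using Finset.induction_on with
  | empty => simp
  | insert i s his ih =>
    rw [Finset.sum_insert his, Finset.sum_insert his, natCast_val_add hn, ih]

include hloc in
/-- The sum formula. -/
theorem sum_invFun_eq_zero (hnorm : TargetNormTheorem) (S : Finset ℕ) (hbad : D.bad ⊆ S)
    (hpr : ∀ l ∈ S, l.Prime) {c : GG → GG → ZMod p} (hc : c ∈ D.cocycles₂ (MonoidHom.id GG))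
    (hun : ∀ l : ℕ, l.Prime → l ∉ S → ∀ W : ValuationSubring LL, W.LiesOverPrime l →
      ∀ σ ∈ W.inertiaSubgroupIn ℚ, ∀ g h : GG, c (g * σ) h = c g h ∧ c g (h * σ) = c g h)
    (V : ℕ → ValuationSubring LL) (hV : ∀ l ∈ S, (V l).LiesOverPrime l) :
    ∑ l ∈ S, invFun D hζ (V l) Y hloc (fun g h => c g h) = 0 := by
  classical
  have hp := (Fact.out : p.Prime)
  have hp2 : p ≠ 2 := by have := D.p_gt; omega
  set cg : GG → GG → LL := fun g h => ζ ^ (c g h).val
  have hcg : Coc (⊤ : Subgroup GG) cg := by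
    obtain ⟨⟨F, hF, hlev⟩, hh⟩ := hc
    refine ⟨⟨F, hF, fun g _ g' _ s _ hsE s' _ hsE' => congrArg (fun x : ZMod p => ζ ^ x.val)
      (hlev g g' s s' hsE hsE')⟩, fun _ _ _ _ => pow_ne_zero _ (hζ.ne_zero (NeZero.ne p)),
      fun g _ h _ j _ => ?_⟩
    simp only [cg]
    rw [apply_zeta_pow D hζ, ← zeta_pow_val_add hζ, ← zeta_pow_val_add hζ]
    refine congrArg (fun x : ZMod p => ζ ^ x.val) ?_
    have h1 := hh g h j
    simp only [MonoidHom.id_apply] at h1
    linear_combination h1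
  have htg : Cob (⊤ : Subgroup GG) fun g h => cg g h ^ p :=
    (cob_one (H := (⊤ : Subgroup GG))).congr fun g _ h _ => by
      simp only [cg]
      rw [← pow_mul, mul_comm, pow_mul, hζ.pow_eq_one, one_pow]
  have hopen : OpenIn (⊤ : Subgroup GG) ⊤ := ⟨⊥, inferInstance, inf_le_left⟩
  have hout : ∀ (l : ℕ) (W : ValuationSubring LL), l.Prime → W.LiesOverPrime l → l ∉ S →
      Cob ((⊤ : Subgroup GG) ⊓ Dec W) cg := fun l W hl hW hlS => by
    refine cob_of_unramified (p := p) hloc hl hW (hopen.localSub W) (hcg.mono inf_le_left)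
      (fun g _ h _ => ?_) (fun σ hσ => ?_) (fun g _ h _ σ hσ => ?_)
    · simp only [cg]
      rw [← pow_mul, mul_comm, pow_mul, hζ.pow_eq_one, one_pow]
    · have h1 : D.rb σ = 1 :=
        D.unramified l hl (fun hlb => hlS (hbad hlb)) W hW σ (Subgroup.mem_inf.1 hσ).2
      simp only [cg]
      rw [apply_zeta_pow D hζ, om_of_rb D h1, one_mul]
    · obtain ⟨e1, e2⟩ := hun l hl hlS W hW σ (Subgroup.mem_inf.1 hσ).2 g h
      simp only [cg, e1, e2, and_self]
  obtain ⟨n, hn, hlayer⟩ := exists_eq_layer hnorm hloc (lt_trans (by norm_num) D.p_gt) Y hopen hcg htg S hout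
  obtain ⟨b, hb0, hb, hsim⟩ := hlayer n le_rfl
  obtain ⟨T, hT⟩ := exists_finset_eq_one hb0
  set S' := S ∪ T.filter Nat.Prime
  have hpr' : ∀ l ∈ S', l.Prime := fun l hl => by
    rcases Finset.mem_union.1 hl with h | h
    exacts [hpr l h, (Finset.mem_filter.1 h).2]
  let V' : ℕ → ValuationSubring LL := fun l => if l ∈ S then V l else placeAt l
  have hV' : ∀ l ∈ S', (V' l).LiesOverPrime l := fun l hl => by
    by_cases h : l ∈ S
    · simp only [V', if_pos h]; exact hV l h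
    · simp only [V', if_neg h]; exact placeAt_spec (hpr' l hl)
  have hlocal : ∀ l ∈ S', HasInv Y (V' l) (Dec (V' l)) n cg (invH Y (V' l) (Dec (V' l)) cg) ∧
      Y.Φ (V' l) n b = (((invH Y (V' l) (Dec (V' l)) cg).val * p ^ (n - 1) : ℕ) : ZMod (p ^ n)) := by
    intro l hl
    have hle : Dec (V' l) ≤ (⊤ : Subgroup GG) := le_top
    have hs : Sim (Dec (V' l)) cg (symR (p ^ n) (Y.ψ n) b) := hsim.mono hle
    obtain ⟨t, ht⟩ := dvd_phi Y (hpr' l hl) (hV' l hl) localSub_self hn hb0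
      (fun σ hσ => hb σ (hle hσ)) ((Sim.cob_iff (hs.pow p)).1 (htg.mono hle))
    have hI : HasInv Y (V' l) (Dec (V' l)) n cg t := ⟨b, hb0, fun σ hσ => hb σ (hle hσ), hs, ht⟩
    rw [invH_eq Y (hpr' l hl) (hV' l hl) localSub_self hn hI]
    refine ⟨hI, ?_⟩
    rwa [nrm_of_fixed (localSub_self (V := V' l)).openIn fun σ hσ => hb σ (hle hσ),
      Subgroup.relIndex_self, pow_one] at ht
  have hprod := Y.product n b hb0 (fun σ => hb σ (Subgroup.mem_top σ)) S'
    (Finset.mem_union_left _ (hbad D.p_mem)) hpr' (fun l hl hlS W hW => hT l W hl hW fun h =>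
      hlS (Finset.mem_union_right _ (Finset.mem_filter.2 ⟨h, hl⟩))) V' hV'
  rw [Finset.sum_congr rfl fun l hl => (hlocal l hl).2, ← natCast_val_sum hn] at hprod
  have h0 : ∑ l ∈ S', invH Y (V' l) (Dec (V' l)) cg = 0 :=
    eq_of_natCast_mul hn (hprod.trans (by rw [ZMod.val_zero, zero_mul, Nat.cast_zero]))
  rw [← h0, ← Finset.sum_subset (Finset.subset_union_left (s₁ := S) (s₂ := T.filter Nat.Prime))]
  · refine Finset.sum_congr rfl fun l hl => ?_
    have hVl : V' l = V l := if_pos hl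
    have hmem : (fun g h : ↥(Dec (V l)) => c g h) ∈ D.cocycles₂ (Dec (V l)).subtype := by
      obtain ⟨⟨F, hF, hlev⟩, hh⟩ := hc
      exact ⟨⟨F, hF, fun g h s t hs ht => hlev g h s t hs ht⟩, fun g h j => hh g h j⟩
    rw [invFun_eq D hζ Y hloc (hpr l hl) (hV l hl) hmem, hVl]
    refine invH_congr Y (hpr l hl) (hV l hl) hloc hp2 localSub_self (hcg.mono le_top)
      (htg.mono le_top) (Sim.of_eq fun g hg h hh => ?_)
    rw [expCochain_of_mem _ hg hh]
  · intro l hl hlS
    refine invH_of_cob Y (hpr' l hl) (hV' l hl) localSub_self ?_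
    exact (hout l (V' l) (hpr' l hl) (hV' l hl) hlS).mono (le_inf le_top le_rfl)

/-- **The invariants exist.** -/
theorem targetInvariants_of (hloc : LocalFacts) (hnorm : TargetNormTheorem)
    (hlayer : TargetLayer) (htame : TargetTame) : TargetInvariants := by
  intro p _ D k _ _ _
  haveI : NeZero (p : LL) := ⟨Nat.cast_ne_zero.2 (Fact.out : p.Prime).ne_zero⟩
  obtain ⟨ζ, hζ⟩ := HasEnoughRootsOfUnity.exists_primitiveRoot LL p
  obtain ⟨Y⟩ := hlayer hloc p (lt_trans (by norm_num) D.p_gt)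
  refine ⟨{
    inv := fun V => invFun D hζ V Y hloc
    inv_bdy := fun l V hl hV f hf => ?_
    sum_eq_zero := fun S hbad hpr c hc hun V hV =>
      sum_invFun_eq_zero D hζ Y hloc hnorm S hbad hpr hc hun V hV
    tame_bound := fun q V hq hV => (htame hloc p D k q V hq hV).1
    tame_detect := fun q V hq hV y hy hpair => ?_ }⟩
  · rw [invFun_eq D hζ Y hloc hl hV (bdy₂_mem D _ hf)]
    exact invH_of_cob Y hl hV localSub_self (cob_exp_bdy D hζ hf)
  · by_contra hy'
    obtain ⟨x, hx, φ, hne⟩ := (htame hloc p D k q V hq hV).2 ζ hζ y hy hy'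
    refine hne ?_
    have hmem : (fun g h => φ (D.cup k (Dec V).subtype x y g h)) ∈
        D.cocycles₂ (Dec V).subtype := by
      obtain ⟨⟨F, hF, hlev⟩, -, hhz⟩ := hx
      obtain ⟨⟨F', hF', hlev'⟩, -, hhy⟩ := hy
      obtain ⟨L, hL, hl⟩ := D.level
      refine ⟨⟨F ⊔ F' ⊔ L, inferInstance, fun g h s t hs ht => ?_⟩, fun g h j => ?_⟩
      · have hs' : D.rb ((Dec V).subtype s) = 1 := hl _ ((IntermediateField.mem_fixingSubgroup_iff L _).1
          (IntermediateField.fixingSubgroup_antitone le_sup_right hs))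
        simp only [Datum.cup]
        rw [hlev g s (IntermediateField.fixingSubgroup_antitone (le_sup_left.trans le_sup_left) hs),
          hlev' h t (IntermediateField.fixingSubgroup_antitone (le_sup_right.trans le_sup_left) ht),
          map_mul, tw_mul, tw_of_rb D k 1 hs']
      · rw [← TWBound.dual_algebraMap_mul k φ, ← map_sub, ← map_add, ← map_sub]
        convert map_zero φ using 2
        simp only [Datum.cup]
        rw [hhz g h, hhy h j, ← trace_tw_mul, map_mul, tw_mul]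
        simp only [add_mul, mul_add, Matrix.trace_add, map_add]
        ring
    refine cob_of_invH_eq_zero Y hq.1 hV hloc (by have := D.p_gt; omega) localSub_self hζ
      (fix_zeta D hζ hq hV) ?_ (coc_exp D hζ hmem) (exp_pow hζ _) ?_
    · rw [Subgroup.relIndex_self]
      exact Nat.Prime.not_dvd_one Fact.out
    · rw [← invFun_eq D hζ Y hloc hq.1 hV hmem]
      exact hpair x hx φ

end FLTAgent.Lowering.P1.Brauer
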