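import Fermat.Agent.Lowering.P1.Brauer.Cochain

/-!
# Classes split by a cyclic extension

A level-constant class on `H` dying on the kernel of a surjective character `ψ : H → ZMod n` is
the symbol of an element fixed by `H`, which is unique up to norms.
-/

set_option autoImplicit false
set_option linter.style.haveILetI false

noncomputable section

namespace FLTAgent.Lowering.P1.Brauer

local notation "LL" => AlgebraicClosure ℚ
local notation "GG" => (AlgebraicClosure ℚ ≃ₐ[ℚ] AlgebraicClosure ℚ)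

/-- A surjective character of an open kernel on `H`, with a chosen generator. -/
structure CycChar (H : Subgroup GG) (n : ℕ) where
  ψ : GG → ZMod n
  gen : GG
  one_lt : 1 < n
  mul : ∀ σ ∈ H, ∀ τ ∈ H, ψ (σ * τ) = ψ σ + ψ τ
  gen_mem : gen ∈ H
  ψ_gen : ψ gen = 1
  lev : LevOn H ψ

namespace CycChar

variable {H : Subgroup GG} {n : ℕ} (χ : CycChar H n)

theorem neZero (χ : CycChar H n) : NeZero n := ⟨by have := χ.one_lt; omega⟩

theorem map_one' : χ.ψ 1 = 0 := by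
  have h := χ.mul 1 (one_mem H) 1 (one_mem H)
  rwa [one_mul, left_eq_add] at h

theorem map_inv' {σ : GG} (hσ : σ ∈ H) : χ.ψ σ⁻¹ = -χ.ψ σ := by
  have h := χ.mul σ hσ σ⁻¹ (inv_mem hσ)
  rw [mul_inv_cancel, χ.map_one'] at h
  exact eq_neg_of_add_eq_zero_right h.symm

/-- The kernel. -/
def ker : Subgroup GG where
  carrier := {σ | σ ∈ H ∧ χ.ψ σ = 0}
  one_mem' := ⟨one_mem H, χ.map_one'⟩
  mul_mem' := fun {a b} ha hb => ⟨mul_mem ha.1 hb.1, by rw [χ.mul a ha.1 b hb.1, ha.2, hb.2, add_zero]⟩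
  inv_mem' := fun {a} ha => ⟨inv_mem ha.1, by rw [χ.map_inv' ha.1, ha.2, neg_zero]⟩

theorem ker_le : χ.ker ≤ H := fun _ h => h.1

theorem openIn : OpenIn χ.ker H := by
  obtain ⟨E, hE, h⟩ := χ.lev
  refine ⟨E, hE, fun s hs => ⟨hs.1, ?_⟩⟩
  have := h 1 (one_mem H) s hs.1 hs.2
  rwa [one_mul, χ.map_one'] at this

theorem pow_mem' (i : ℕ) : χ.gen ^ i ∈ H := pow_mem χ.gen_mem i

theorem ψ_pow (i : ℕ) : χ.ψ (χ.gen ^ i) = i := by
  induction i with
  | zero => simp [χ.map_one']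
  | succ i ih =>
    rw [pow_succ, χ.mul _ (χ.pow_mem' i) _ χ.gen_mem, ih, χ.ψ_gen, Nat.cast_succ]

theorem mem_ker_of_eq {σ τ : GG} (hσ : σ ∈ H) (hτ : τ ∈ H) (h : χ.ψ σ = χ.ψ τ) :
    σ⁻¹ * τ ∈ χ.ker :=
  ⟨mul_mem (inv_mem hσ) hτ, by rw [χ.mul _ (inv_mem hσ) _ hτ, χ.map_inv' hσ, h, neg_add_cancel]⟩

theorem conj_mem {σ t : GG} (hσ : σ ∈ H) (ht : t ∈ χ.ker) : σ⁻¹ * t * σ ∈ χ.ker :=
  ⟨mul_mem (mul_mem (inv_mem hσ) ht.1) hσ, by
    rw [χ.mul _ (mul_mem (inv_mem hσ) ht.1) _ hσ, χ.mul _ (inv_mem hσ) _ ht.1, χ.map_inv' hσ,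
      ht.2, add_zero, neg_add_cancel]⟩

/-- Write an element through the generator. -/
theorem exists_eq_pow_mul {σ : GG} (hσ : σ ∈ H) :
    ∃ t ∈ χ.ker, σ = χ.gen ^ (χ.ψ σ).val * t := by
  haveI := χ.neZero
  exact ⟨_, χ.mem_ker_of_eq (χ.pow_mem' _) hσ (by rw [χ.ψ_pow, ZMod.natCast_zmod_val]),
    (mul_inv_cancel_left _ _).symm⟩

theorem apply_eq_pow {σ : GG} (hσ : σ ∈ H) {x : LL} (hx : ∀ t ∈ χ.ker, t x = x) :
    σ x = (χ.gen ^ (χ.ψ σ).val) x := by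
  obtain ⟨t, ht, he⟩ := χ.exists_eq_pow_mul hσ
  conv_lhs => rw [he, AlgEquiv.mul_apply, hx t ht]

theorem fixed_pow {x : LL} (hx : ∀ t ∈ χ.ker, t x = x) (i : ℕ) :
    ∀ t ∈ χ.ker, t ((χ.gen ^ i) x) = (χ.gen ^ i) x := by
  intro t ht
  have h : t * χ.gen ^ i = χ.gen ^ i * ((χ.gen ^ i)⁻¹ * t * χ.gen ^ i) := by group
  rw [← AlgEquiv.mul_apply, h, AlgEquiv.mul_apply, hx _ (χ.conj_mem (χ.pow_mem' i) ht)]

theorem fixed_of_gen {x : LL} (hx : ∀ t ∈ χ.ker, t x = x) (hg : χ.gen x = x) {σ : GG}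
    (hσ : σ ∈ H) : σ x = x := by
  rw [χ.apply_eq_pow hσ hx]
  generalize (χ.ψ σ).val = i
  induction i with
  | zero => rfl
  | succ i ih => rw [pow_succ, AlgEquiv.mul_apply, hg, ih]

/-- The symbol of `χ` and an element. -/
def sym (b : LL) (σ τ : GG) : LL := if n ≤ (χ.ψ σ).val + (χ.ψ τ).val then b else 1

/-- Norms from the extension. -/
def IsNorm (b : LL) : Prop :=
  ∃ y : LL, y ≠ 0 ∧ (∀ t ∈ χ.ker, t y = y) ∧ ∏ i ∈ Finset.range n, (χ.gen ^ i) y = b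

theorem sym_mul (a b : LL) (σ τ : GG) : χ.sym (a * b) σ τ = χ.sym a σ τ * χ.sym b σ τ := by
  unfold sym
  split_ifs <;> simp

theorem sym_pow (a : LL) (m : ℕ) (σ τ : GG) : χ.sym (a ^ m) σ τ = χ.sym a σ τ ^ m := by
  unfold sym
  split_ifs <;> simp

theorem levOn_val : LevOn H fun σ => (χ.ψ σ).val := χ.lev.map ZMod.val

theorem coc_sym {b : LL} (hb0 : b ≠ 0) (hb : ∀ σ ∈ H, σ b = b) : Coc H (χ.sym b) where
  lev := by
    obtain ⟨E, hE, h⟩ := χ.lev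
    exact ⟨E, hE, fun g hg g' hg' s hs hsE s' hs' hsE' => by
      simp only [sym, h g hg s hs hsE, h g' hg' s' hs' hsE']⟩
  ne σ _ τ _ := by unfold sym; split_ifs <;> simp [hb0]
  assoc σ hσ τ hτ ρ hρ := by
    haveI := χ.neZero
    have key : ∀ i j : ZMod n, (if n ≤ i.val + j.val then b else 1) =
        b ^ ((i.val + j.val) / n) := by
      intro i j
      have h1 := ZMod.val_lt i
      have h2 := ZMod.val_lt j
      split_ifs with h
      · rw [Nat.div_eq_of_lt_le (k := 1) (by omega) (by omega), pow_one]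
      · rw [Nat.div_eq_of_lt (by omega), pow_zero]
    simp only [sym, key, map_pow, hb σ hσ]
    rw [χ.mul τ hτ ρ hρ, χ.mul σ hσ τ hτ, ZMod.val_add, ZMod.val_add]
    rw [← pow_add, ← pow_add]
    congr 1
    set a := (χ.ψ σ).val
    set c := (χ.ψ τ).val
    set e := (χ.ψ ρ).val
    have hn : 0 < n := by have := χ.one_lt; omega
    have h1 := Nat.div_add_mod (c + e) n
    have h2 := Nat.div_add_mod (a + c) n
    have h3 := Nat.add_mul_div_left (a + (c + e) % n) ((c + e) / n) hn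
    have h4 := Nat.add_mul_div_left ((a + c) % n + e) ((a + c) / n) hn
    rw [show a + (c + e) % n + n * ((c + e) / n) = a + c + e by omega] at h3
    rw [show (a + c) % n + e + n * ((a + c) / n) = a + c + e by omega] at h4
    omega


/-- A norm gives a trivial symbol. -/
theorem cob_sym_of_norm {b : LL} (h : χ.IsNorm b) :
    Cob H (χ.sym b) := by
  haveI := χ.neZero
  obtain ⟨y, hy0, hy, hprod⟩ := h
  let F : ℕ → LL := fun m => ∏ k ∈ Finset.range m, (χ.gen ^ k) y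
  have hF0 : ∀ m, F m ≠ 0 := fun m =>
    Finset.prod_ne_zero_iff.2 fun k _ => (EmbeddingLike.map_ne_zero_iff).2 hy0
  have hFfix : ∀ m, ∀ t ∈ χ.ker, t (F m) = F m := fun m t ht => by
    simp only [F, map_prod]
    exact Finset.prod_congr rfl fun k _ => χ.fixed_pow hy k t ht
  have hadd : ∀ i j, F (i + j) = F i * (χ.gen ^ i) (F j) := fun i j => by
    simp only [F, map_prod, Finset.prod_range_add, ← AlgEquiv.mul_apply, ← pow_add]
  refine ⟨fun σ => F (χ.ψ σ).val, χ.levOn_val.map F, fun σ _ => hF0 _, fun σ hσ τ hτ => ?_⟩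
  simp only [sym, dlt]
  rw [χ.apply_eq_pow hσ (hFfix _), mul_comm, ← hadd, χ.mul σ hσ τ hτ, ZMod.val_add]
  have h1 := ZMod.val_lt (χ.ψ σ)
  have h2 := ZMod.val_lt (χ.ψ τ)
  split_ifs with hc
  · rw [Nat.mod_eq_sub_mod hc, Nat.mod_eq_of_lt (by omega)]
    conv_rhs => rw [← Nat.add_sub_cancel' hc, hadd]
    rw [show F n = b from hprod, Nat.add_sub_cancel_left]
    have hgn : ∀ x : LL, (∀ t ∈ χ.ker, t x = x) → (χ.gen ^ n) x = x := fun x hx =>
      hx _ ⟨χ.pow_mem' n, by rw [χ.ψ_pow, ZMod.natCast_self]⟩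
    rw [hgn _ (hFfix _), mul_div_cancel_right₀ _ (hF0 _)]
  · rw [Nat.mod_eq_of_lt (by omega), div_self (hF0 _)]

/-- A trivial symbol comes from a norm. -/
theorem norm_of_cob_sym {b : LL} (h : Cob H (χ.sym b)) : χ.IsNorm b := by
  haveI := χ.neZero
  obtain ⟨f, hf, hne, hsym⟩ := h
  have hker : ∀ s ∈ χ.ker, ∀ t : GG, χ.sym b s t = 1 ∧ χ.sym b t s = 1 := fun s hs t => by
    have := ZMod.val_lt (χ.ψ t)
    constructor <;> simp only [sym, hs.2, ZMod.val_zero] <;> rw [if_neg (by omega)]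
  obtain ⟨v, hv0, hv⟩ := hilbert90 (hf.mono χ.ker_le) (fun σ hσ => hne σ hσ.1) fun σ hσ τ hτ => by
    have h1 := (hsym σ hσ.1 τ hτ.1).symm.trans (hker σ hσ τ).1
    rw [dlt, div_eq_one_iff_eq (hne _ (mul_mem hσ.1 hτ.1))] at h1
    exact h1.symm
  let g : GG → LL := fun σ => f σ * v / σ v
  have hvne : ∀ σ : GG, σ v ≠ 0 := fun σ => (EmbeddingLike.map_ne_zero_iff).2 hv0
  have hg : ∀ σ ∈ H, ∀ τ ∈ H, χ.sym b σ τ * g (σ * τ) = σ (g τ) * g σ := fun σ hσ τ hτ => by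
    have h1 := hsym σ hσ τ hτ
    rw [dlt, eq_div_iff (hne _ (mul_mem hσ hτ))] at h1
    simp only [g, map_mul, map_div₀, AlgEquiv.mul_apply]
    have := hvne σ
    have := hvne τ
    have : σ (τ v) ≠ 0 := (EmbeddingLike.map_ne_zero_iff).2 (hvne τ)
    field_simp
    linear_combination h1
  have hg1 : ∀ t ∈ χ.ker, g t = 1 := fun t ht => by
    simp only [g, hv t ht, div_mul_cancel₀ _ hv0, div_self (hvne t)]
  have hgright : ∀ σ ∈ H, ∀ t ∈ χ.ker, g (σ * t) = g σ := fun σ hσ t ht => by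
    have := hg σ hσ t ht.1
    rwa [(hker t ht σ).2, hg1 t ht, map_one, one_mul, one_mul] at this
  have hgfix : ∀ σ ∈ H, ∀ t ∈ χ.ker, t (g σ) = g σ := fun σ hσ t ht => by
    have := hg t ht.1 σ hσ
    rw [(hker t ht σ).1, one_mul, hg1 t ht, mul_one] at this
    rw [← this, show t * σ = σ * (σ⁻¹ * t * σ) by group, hgright σ hσ _ (χ.conj_mem hσ ht)]
  have hy0 : g χ.gen ≠ 0 := div_ne_zero (mul_ne_zero (hne _ χ.gen_mem) hv0) (hvne _)
  refine ⟨g χ.gen, hy0, hgfix _ χ.gen_mem, ?_⟩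
  have hP : ∀ m, m < n → ∏ k ∈ Finset.range m, (χ.gen ^ k) (g χ.gen) = g (χ.gen ^ m) := by
    intro m hm
    induction m with
    | zero => simp [hg1 1 (one_mem _)]
    | succ m ih =>
      have hs : χ.sym b (χ.gen ^ m) χ.gen = 1 := by
        simp only [sym, χ.ψ_pow, χ.ψ_gen, ZMod.val_cast_of_lt (show m < n by omega)]
        haveI : Fact (1 < n) := ⟨χ.one_lt⟩
        rw [ZMod.val_one, if_neg (by omega)]
      have h1 := hg _ (χ.pow_mem' m) _ χ.gen_mem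
      rw [hs, one_mul, ← pow_succ] at h1
      rw [Finset.prod_range_succ, ih (by omega), h1, mul_comm]
  obtain ⟨m, rfl⟩ : ∃ m, n = m + 1 := ⟨n - 1, by have := χ.one_lt; omega⟩
  have hs : χ.sym b (χ.gen ^ m) χ.gen = b := by
    simp only [sym, χ.ψ_pow, χ.ψ_gen, ZMod.val_cast_of_lt (Nat.lt_succ_self m)]
    haveI : Fact (1 < m + 1) := ⟨χ.one_lt⟩
    rw [ZMod.val_one, if_pos le_rfl]
  have h1 := hg _ (χ.pow_mem' m) _ χ.gen_mem
  rw [hs, ← pow_succ, hg1 _ ⟨χ.pow_mem' _, by rw [χ.ψ_pow, ZMod.natCast_self]⟩, mul_one] at h1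
  rw [Finset.prod_range_succ, hP m (Nat.lt_succ_self m), h1, mul_comm]

/-- A cocycle trivial when one variable is in the kernel is the symbol of an explicit product. -/
theorem sym_of_normalised {c₃ : GG → GG → LL} (hc₃ : Coc H c₃)
    (hB' : ∀ σ ∈ H, ∀ t ∈ χ.ker, c₃ σ t = 1) (hA : ∀ t ∈ χ.ker, ∀ τ ∈ H, c₃ t τ = 1) :
    (∏ k ∈ Finset.range n, c₃ (χ.gen ^ k) χ.gen) ≠ 0 ∧
      (∀ σ ∈ H, σ (∏ k ∈ Finset.range n, c₃ (χ.gen ^ k) χ.gen) =
        ∏ k ∈ Finset.range n, c₃ (χ.gen ^ k) χ.gen) ∧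
      Cob H fun σ τ => c₃ σ τ / χ.sym (∏ k ∈ Finset.range n, c₃ (χ.gen ^ k) χ.gen) σ τ := by
  haveI := χ.neZero
  have hR : ∀ σ ∈ H, ∀ τ ∈ H, ∀ t ∈ χ.ker, c₃ σ (τ * t) = c₃ σ τ := fun σ hσ τ hτ t ht => by
    have h1 := hc₃.assoc σ hσ τ hτ t ht.1
    rwa [hB' τ hτ t ht, map_one, one_mul, hB' _ (mul_mem hσ hτ) t ht, one_mul] at h1
  have hL : ∀ σ ∈ H, ∀ τ ∈ H, ∀ t ∈ χ.ker, c₃ (σ * t) τ = c₃ σ τ := fun σ hσ τ hτ t ht => by
    have h1 := hc₃.assoc σ hσ t ht.1 τ hτ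
    rw [hA t ht τ hτ, map_one, one_mul, hB' σ hσ t ht, mul_one,
      show t * τ = τ * (τ⁻¹ * t * τ) by group, hR σ hσ τ hτ _ (χ.conj_mem hτ ht)] at h1
    exact h1.symm
  have hF : ∀ σ ∈ H, ∀ τ ∈ H, ∀ t ∈ χ.ker, t (c₃ σ τ) = c₃ σ τ := fun σ hσ τ hτ t ht => by
    have h1 := hc₃.assoc t ht.1 σ hσ τ hτ
    rwa [hA t ht _ (mul_mem hσ hτ), hA t ht σ hσ, mul_one, mul_one,
      show t * σ = σ * (σ⁻¹ * t * σ) by group, hL σ hσ τ hτ _ (χ.conj_mem hσ ht)] at h1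
  let s : GG := χ.gen
  let P : ℕ → LL := fun m => ∏ k ∈ Finset.range m, c₃ (s ^ k) s
  have hP0 : ∀ m, P m ≠ 0 := fun m =>
    Finset.prod_ne_zero_iff.2 fun k _ => hc₃.ne _ (χ.pow_mem' k) _ χ.gen_mem
  have hPfix : ∀ m, ∀ t ∈ χ.ker, t (P m) = P m := fun m t ht => by
    simp only [P, map_prod]
    exact Finset.prod_congr rfl fun k _ => hF _ (χ.pow_mem' k) _ χ.gen_mem t ht
  have hformula : ∀ i j : ℕ, c₃ (s ^ i) (s ^ j) * (P i * (s ^ i) (P j)) = P (i + j) := by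
    intro i j
    induction j with
    | zero =>
      have : P 0 = 1 := Finset.prod_range_zero _
      simp [this, hB' _ (χ.pow_mem' i) 1 (one_mem _), pow_zero, s]
    | succ j ih =>
      have h1 := hc₃.assoc _ (χ.pow_mem' i) _ (χ.pow_mem' j) _ χ.gen_mem
      rw [← pow_succ, ← pow_add] at h1
      have h2 : P (j + 1) = P j * c₃ (s ^ j) s := Finset.prod_range_succ _ _
      have h3 : P (i + (j + 1)) = P (i + j) * c₃ (s ^ (i + j)) s := Finset.prod_range_succ _ _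
      rw [h2, h3, map_mul, ← ih]
      linear_combination (P i * (s ^ i) (P j)) * h1
  have hn : s ^ n ∈ χ.ker := ⟨χ.pow_mem' n, by rw [χ.ψ_pow, ZMod.natCast_self]⟩
  have hper : ∀ m, P (n + m) = P n * P m := by
    intro m
    simp only [P, Finset.prod_range_add]
    congr 1
    refine Finset.prod_congr rfl fun k _ => ?_
    rw [add_comm, pow_add, hL _ (χ.pow_mem' k) _ χ.gen_mem _ hn]
  have hbgen : χ.gen (P n) = P n := by
    have h1 := hformula 1 n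
    rw [pow_one, hB' _ χ.gen_mem _ hn, one_mul, add_comm 1 n, hper, mul_comm] at h1
    exact mul_right_cancel₀ (hP0 1) h1
  refine ⟨hP0 n, fun σ hσ => χ.fixed_of_gen (hPfix n) hbgen hσ, ?_⟩
  exact
    ⟨fun σ => (P (χ.ψ σ).val)⁻¹, χ.levOn_val.map fun m => (P m)⁻¹, fun σ _ => inv_ne_zero (hP0 _),
      fun σ hσ τ hτ => by
        obtain ⟨t₁, ht₁, he₁⟩ := χ.exists_eq_pow_mul hσ
        obtain ⟨t₂, ht₂, he₂⟩ := χ.exists_eq_pow_mul hτ
        set i := (χ.ψ σ).val with hi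
        set j := (χ.ψ τ).val with hj
        have hcs : c₃ σ τ = c₃ (s ^ i) (s ^ j) := by
          rw [he₁, he₂, hL _ (χ.pow_mem' i) _ (mul_mem (χ.pow_mem' j) ht₂.1) t₁ ht₁,
            hR _ (χ.pow_mem' i) _ (χ.pow_mem' j) t₂ ht₂]
        beta_reduce
        rw [dlt_inv, dlt, χ.apply_eq_pow hσ (hPfix _), χ.mul σ hσ τ hτ, ZMod.val_add, inv_div,
          hcs, ← hi, ← hj]
        have hne : P i * (s ^ i) (P j) ≠ 0 :=
          mul_ne_zero (hP0 i) ((EmbeddingLike.map_ne_zero_iff).2 (hP0 j))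
        have h1 := hformula i j
        have hi' := ZMod.val_lt (χ.ψ σ)
        have hj' := ZMod.val_lt (χ.ψ τ)
        simp only [sym, ← hi, ← hj]
        split_ifs with hc'
        · rw [Nat.mod_eq_sub_mod hc', Nat.mod_eq_of_lt (by omega)]
          rw [← Nat.add_sub_cancel' hc', hper] at h1
          rw [div_eq_div_iff (hP0 n) (by rw [mul_comm]; exact hne)]
          linear_combination h1
        · rw [Nat.mod_eq_of_lt (by omega), div_one, eq_div_iff (by rw [mul_comm]; exact hne)]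
          linear_combination h1⟩

/-- A class dying on the kernel is a symbol. -/
theorem exists_eq_sym {c : GG → GG → LL} (hc : Coc H c) (h : Cob χ.ker c) :
    ∃ b : LL, b ≠ 0 ∧ (∀ σ ∈ H, σ b = b) ∧ Cob H fun σ τ => c σ τ / χ.sym b σ τ := by
  classical
  haveI := χ.neZero
  obtain ⟨c₂, hc₂, hd, hB, hright⟩ := exists_normalised hc χ.ker_le χ.openIn h
  obtain ⟨E₀, hE₀, hE₀c⟩ := hc₂.lev
  have hu : ∀ i : ZMod n, ∃ u : LL, u ≠ 0 ∧
      ∀ t ∈ χ.ker, c₂ t (χ.gen ^ i.val) = t u / u := by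
    intro i
    have hi : χ.gen ^ i.val ∈ H := χ.pow_mem' _
    refine hilbert90 ⟨E₀, hE₀, fun g hg s hs hsE => ?_⟩ (fun t ht => hc₂.ne t ht.1 _ hi)
      fun σ hσ τ hτ => ?_
    · have := hE₀c g hg.1 _ hi s hs.1 hsE 1 (one_mem H) (one_mem _)
      rwa [mul_one] at this
    · have h1 := hc₂.assoc σ hσ.1 τ hτ.1 _ hi
      rw [hB σ hσ.1 τ hτ, mul_one,
        show τ * χ.gen ^ i.val = χ.gen ^ i.val * ((χ.gen ^ i.val)⁻¹ * τ * χ.gen ^ i.val) by group,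
        hright σ hσ.1 _ hi _ (χ.conj_mem hi hτ)] at h1
      exact h1.symm
  choose u hu0 hu using hu
  let g : GG → LL := fun τ => if χ.ψ τ = 0 then 1 else u (χ.ψ τ)
  have hg : LevOn H g := χ.lev.map fun i => if i = 0 then 1 else u i
  have hg0 : ∀ σ ∈ H, g σ ≠ 0 := fun σ _ => by
    simp only [g]; split_ifs
    exacts [one_ne_zero, hu0 _]
  let c₃ : GG → GG → LL := fun σ τ => c₂ σ τ / dlt g σ τ
  have hc₃ : Coc H c₃ := hc₂.div (coc_dlt hg hg0)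
  have hB' : ∀ σ ∈ H, ∀ t ∈ χ.ker, c₃ σ t = 1 := fun σ hσ t ht => by
    have e : g (σ * t) = g σ := by simp only [g, χ.mul σ hσ t ht.1, ht.2, add_zero]
    simp only [c₃, dlt, e, show g t = 1 from if_pos ht.2, map_one, one_mul,
      div_self (hg0 σ hσ), hB σ hσ t ht, div_one]
  have hA : ∀ t ∈ χ.ker, ∀ τ ∈ H, c₃ t τ = 1 := fun t ht τ hτ => by
    obtain ⟨t', ht', he⟩ := χ.exists_eq_pow_mul hτ
    have h1 : c₂ t τ = c₂ t (χ.gen ^ (χ.ψ τ).val) := by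
      conv_lhs => rw [he]
      exact hright t ht.1 _ (χ.pow_mem' _) t' ht'
    have e : g (t * τ) = g τ := by simp only [g, χ.mul t ht.1 τ hτ, ht.2, zero_add]
    simp only [c₃, dlt, e, show g t = 1 from if_pos ht.2, mul_one, h1]
    by_cases h0 : χ.ψ τ = 0
    · simp only [g, if_pos h0, h0, ZMod.val_zero, pow_zero, map_one, div_one]
      exact hB t ht.1 1 (one_mem _)
    · simp only [g, if_neg h0, hu _ t ht]
      exact div_self (div_ne_zero ((EmbeddingLike.map_ne_zero_iff).2 (hu0 _)) (hu0 _))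
  obtain ⟨hP0, hPH, hlast⟩ := χ.sym_of_normalised hc₃ hB' hA
  refine ⟨_, hP0, hPH, ?_⟩
  have hd3 : Cob H fun σ τ => c₂ σ τ / c₃ σ τ := ⟨g, hg, hg0, fun σ hσ τ hτ => by
    simp only [c₃]
    rw [div_div_cancel₀ (hc₂.ne σ hσ τ hτ)]⟩
  refine ((hd.mul hd3).mul hlast).congr fun σ hσ τ hτ => ?_
  rw [div_mul_div_cancel₀ (hc₂.ne σ hσ τ hτ), div_mul_div_cancel₀ (hc₃.ne σ hσ τ hτ)]

end CycChar

end FLTAgent.Lowering.P1.Brauer
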