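import Fermat.Agent.Lowering.P1.LocalInterface
import Fermat.Agent.Lowering.P1.Brauer.Cyclic
import Fermat.Agent.Places.Basic
import Fermat.Agent.MW.WeakSquares
import Fermat.Agent.FlatLocal.Basic

/-!
# Open subgroups of decomposition groups

Every such subgroup comes from a number field, so the local facts apply: norm index, norms of units
in unramified towers, a uniformiser, and the cyclic structure modulo inertia.
-/

set_option autoImplicit false
set_option linter.style.haveILetI false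
set_option linter.unusedSectionVars false

noncomputable section

open scoped Pointwise
open IsLocalRing

namespace FLTAgent.Lowering.P1.Brauer

local notation "LL" => AlgebraicClosure ℚ
local notation "GG" => (AlgebraicClosure ℚ ≃ₐ[ℚ] AlgebraicClosure ℚ)
local notation "ZB" => integralClosure ℤ (AlgebraicClosure ℚ)

local instance (priority := 900) isAlgebraicLL : Algebra.IsAlgebraic ℚ LL :=
  AlgebraicClosure.isAlgebraic ℚ

local instance (priority := 900) normalLL : Normal ℚ LL :=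
  normal_iff.2 fun x => ⟨integral_coe x, IsAlgClosed.splits _⟩

local instance (priority := 900) isGaloisLL : IsGalois ℚ LL where

/-- The subgroup generated by `A` and the elements fixing `E` is the group of a number field. -/
theorem exists_field_of_sup (A : Subgroup GG) (E : IntermediateField ℚ LL)
    [FiniteDimensional ℚ E] :
    ∃ L : IntermediateField ℚ LL, FiniteDimensional ℚ L ∧ galOf L = A ⊔ E.fixingSubgroup := by
  set S := A ⊔ E.fixingSubgroup
  have hle : E.fixingSubgroup ≤ S := le_sup_right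
  have hop : IsOpen (S : Set GG) :=
    Subgroup.isOpen_mono hle (IntermediateField.fixingSubgroup_isOpen E)
  have hcl : IsClosed (S : Set GG) := Subgroup.isClosed_of_isOpen _ hop
  have hfix : (IntermediateField.fixedField S).fixingSubgroup = S :=
    InfiniteGalois.fixingSubgroup_fixedField ⟨S, hcl⟩
  exact ⟨_, (InfiniteGalois.isOpen_iff_finite _).1 (by rw [hfix]; exact hop), hfix⟩

theorem fix_normal (E : IntermediateField ℚ LL) [Normal ℚ E] : E.fixingSubgroup.Normal :=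
  ⟨fun s hs g => by simpa using fix_conj hs g⁻¹⟩

theorem galOf_le_iff {L K : IntermediateField ℚ LL} : galOf K ≤ galOf L ↔ L ≤ K := by
  refine ⟨fun h => ?_, fun h => IntermediateField.fixingSubgroup_antitone h⟩
  rw [← InfiniteGalois.fixedField_fixingSubgroup L, ← InfiniteGalois.fixedField_fixingSubgroup K]
  exact IntermediateField.fixedField_antitone h

theorem sup_inf_dec {D A : Subgroup GG} {E : IntermediateField ℚ LL} [Normal ℚ E]
    (hA : A ≤ D) (hE : D ⊓ E.fixingSubgroup ≤ A) : (A ⊔ E.fixingSubgroup) ⊓ D = A := by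
  haveI := fix_normal E
  refine le_antisymm ?_ (le_inf le_sup_left hA)
  rintro x ⟨hx, hxD⟩
  obtain ⟨a, ha, e, he, rfl⟩ := Subgroup.mem_sup_of_normal_right.1 hx
  exact mul_mem ha (hE ⟨by simpa using mul_mem (inv_mem (hA ha)) hxD, he⟩)

variable {H : Subgroup GG} (V : ValuationSubring LL)

local notation "Dec" => ValuationSubring.decompositionSubgroup ℚ

/-- `H` is an open subgroup of the decomposition group at `V`. -/
structure LocalSub (H : Subgroup GG) : Prop where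
  le : H ≤ V.decompositionSubgroup ℚ
  openIn : OpenIn H (V.decompositionSubgroup ℚ)

variable {V}

theorem localSub_galOf (L : IntermediateField ℚ LL) [FiniteDimensional ℚ L] :
    LocalSub V (galOf L ⊓ V.decompositionSubgroup ℚ) :=
  ⟨inf_le_right, L, inferInstance, fun _ hx => ⟨hx.2, hx.1⟩⟩

theorem localSub_self : LocalSub V (V.decompositionSubgroup ℚ) :=
  ⟨le_rfl, ⊥, inferInstance, inf_le_left⟩

theorem OpenIn.trans {A B C : Subgroup GG} (h : OpenIn A B) (h' : OpenIn B C) : OpenIn A C := by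
  obtain ⟨E, hE, hle⟩ := h
  obtain ⟨E', hE', hle'⟩ := h'
  exact ⟨E ⊔ E', inferInstance, fun x hx => hle
    ⟨hle' ⟨hx.1, IntermediateField.fixingSubgroup_antitone le_sup_right hx.2⟩,
      IntermediateField.fixingSubgroup_antitone le_sup_left hx.2⟩⟩

theorem OpenIn.inf {A B C : Subgroup GG} (h : OpenIn A C) (h' : OpenIn B C) :
    OpenIn (A ⊓ B) C := by
  obtain ⟨E, hE, hle⟩ := h
  obtain ⟨E', hE', hle'⟩ := h'
  exact ⟨E ⊔ E', inferInstance, fun x hx =>
    ⟨hle ⟨hx.1, IntermediateField.fixingSubgroup_antitone le_sup_left hx.2⟩,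
      hle' ⟨hx.1, IntermediateField.fixingSubgroup_antitone le_sup_right hx.2⟩⟩⟩

theorem LocalSub.ker {n : ℕ} (hH : LocalSub V H) (χ : CycChar H n) : LocalSub V χ.ker :=
  ⟨χ.ker_le.trans hH.le, χ.openIn.trans hH.openIn⟩

/-- The index-`p` pair of number fields behind a character. -/
theorem exists_global {p : ℕ} (hH : LocalSub V H) (χ : CycChar H p) (z : LL)
    (hz : ∀ σ ∈ H, σ z = z) :
    ∃ L K : IntermediateField ℚ LL, FiniteDimensional ℚ L ∧ FiniteDimensional ℚ K ∧ L ≤ K ∧ z ∈ L ∧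
      (∀ σ ∈ galOf L, ∀ τ ∈ galOf K, σ * τ * σ⁻¹ ∈ galOf K) ∧
      (galOf K).relIndex (galOf L) = p ∧ galOf L ⊓ V.decompositionSubgroup ℚ = H ∧
      galOf K ⊓ V.decompositionSubgroup ℚ = χ.ker := by
  obtain ⟨E₀, hE₀, hle₀⟩ := (hH.ker χ).openIn
  haveI : FiniteDimensional ℚ (IntermediateField.adjoin ℚ ({z} : Set LL)) :=
    IntermediateField.adjoin.finiteDimensional (integral_coe z)
  obtain ⟨E, hEf, hEn, hE₀E'⟩ := exists_normal_le (E₀ ⊔ IntermediateField.adjoin ℚ ({z} : Set LL))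
  have hE₀E : E₀ ≤ E := le_sup_left.trans hE₀E'
  haveI := fix_normal E
  have hEker : V.decompositionSubgroup ℚ ⊓ E.fixingSubgroup ≤ χ.ker := fun x hx =>
    hle₀ ⟨hx.1, IntermediateField.fixingSubgroup_antitone hE₀E hx.2⟩
  obtain ⟨L, hLf, hL⟩ := exists_field_of_sup H E
  obtain ⟨K, hKf, hK⟩ := exists_field_of_sup χ.ker E
  have hKL : galOf K ≤ galOf L := by rw [hK, hL]; exact sup_le_sup_right χ.ker_le _
  have hLD : galOf L ⊓ V.decompositionSubgroup ℚ = H := by
    rw [hL]; exact sup_inf_dec hH.le (hEker.trans χ.ker_le)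
  have hKD : galOf K ⊓ V.decompositionSubgroup ℚ = χ.ker := by
    rw [hK]; exact sup_inf_dec (hH.ker χ).le hEker
  -- the coset of an element of the bigger group
  have hmem : ∀ a ∈ H, ∀ e ∈ E.fixingSubgroup, (a * e ∈ galOf K ↔ χ.ψ a = 0) := by
    intro a ha e he
    rw [hK]
    refine ⟨fun h => ?_, fun h => mul_mem (le_sup_left (α := Subgroup GG) ⟨ha, h⟩)
      (le_sup_right (α := Subgroup GG) he)⟩
    have h1 : a ∈ (χ.ker ⊔ E.fixingSubgroup) ⊓ V.decompositionSubgroup ℚ :=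
      ⟨by simpa using mul_mem h (inv_mem (le_sup_right (α := Subgroup GG) he)), hH.le ha⟩
    rw [sup_inf_dec (hH.ker χ).le hEker] at h1
    exact h1.2
  have hzL : z ∈ L := by
    rw [← InfiniteGalois.fixedField_fixingSubgroup L, IntermediateField.mem_fixedField_iff]
    intro σ hσ
    replace hσ : σ ∈ galOf L := hσ
    rw [hL] at hσ
    obtain ⟨a, ha, e, he, rfl⟩ := Subgroup.mem_sup_of_normal_right.1 hσ
    rw [AlgEquiv.mul_apply, (IntermediateField.mem_fixingSubgroup_iff _ _).1 he z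
      (hE₀E' (le_sup_right (a := E₀) (IntermediateField.mem_adjoin_simple_self ℚ z))), hz a ha]
  refine ⟨L, K, hLf, hKf, galOf_le_iff.1 hKL, hzL, fun σ hσ τ hτ => ?_, ?_, hLD, hKD⟩
  · rw [hL] at hσ
    rw [hK] at hτ ⊢
    obtain ⟨a, ha, e, he, rfl⟩ := Subgroup.mem_sup_of_normal_right.1 hσ
    obtain ⟨b, hb, e', he', rfl⟩ := Subgroup.mem_sup_of_normal_right.1 hτ
    rw [show a * e * (b * e') * (a * e)⁻¹ =
      a * b * a⁻¹ * (a * (b⁻¹ * e * b * e' * e⁻¹) * a⁻¹) by group]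
    refine mul_mem (le_sup_left (α := Subgroup GG) ?_) (le_sup_right (α := Subgroup GG) ?_)
    · simpa using χ.conj_mem (inv_mem ha) hb
    · refine (fix_normal E).conj_mem _ (mul_mem (mul_mem ?_ he') (inv_mem he)) a
      simpa using (fix_normal E).conj_mem _ he b⁻¹
  · haveI := χ.neZero
    rw [Subgroup.relIndex, Subgroup.index]
    have hdec : ∀ x : ↥(galOf L), ∃ a ∈ H, ∃ e ∈ E.fixingSubgroup, (x : GG) = a * e := fun x => by
      obtain ⟨a, ha, e, he, h⟩ := Subgroup.mem_sup_of_normal_right.1 (hL.le x.2)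
      exact ⟨a, ha, e, he, h.symm⟩
    choose A hA B hB hAB using hdec
    have hinv : ∀ x y : ↥(galOf L), (x : GG)⁻¹ * y ∈ galOf K ↔ χ.ψ (A x) = χ.ψ (A y) := by
      intro x y
      have h1 : (x : GG)⁻¹ * y =
          (A x)⁻¹ * A y * ((A y)⁻¹ * A x * (B x)⁻¹ * ((A x)⁻¹ * A y) * B y) := by
        rw [hAB x, hAB y]; group
      have he : (A y)⁻¹ * A x * (B x)⁻¹ * ((A x)⁻¹ * A y) * B y ∈ E.fixingSubgroup := by
        refine mul_mem ?_ (hB y)
        simpa [mul_assoc] using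
          (fix_normal E).conj_mem _ (inv_mem (hB x)) ((A y)⁻¹ * A x)
      rw [h1, hmem _ (mul_mem (inv_mem (hA x)) (hA y)) _ he, χ.mul _ (inv_mem (hA x)) _ (hA y),
        χ.map_inv' (hA x), neg_add_eq_zero]
    have hgen : ∀ i : ℕ, χ.gen ^ i ∈ galOf L := fun i => by
      rw [hL]; exact le_sup_left (α := Subgroup GG) (χ.pow_mem' i)
    refine (Nat.card_congr (Equiv.ofBijective (Quotient.lift (fun x => χ.ψ (A x)) fun x y h => ?_)
      ⟨?_, fun i => ?_⟩)).trans (Nat.card_zmod p)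
    · exact (hinv x y).1 (by simpa [Subgroup.mem_subgroupOf] using QuotientGroup.leftRel_apply.1 h)
    · intro x y
      induction x using Quotient.inductionOn with
      | h x =>
        induction y using Quotient.inductionOn with
        | h y =>
          intro h
          exact Quotient.sound (QuotientGroup.leftRel_apply.2
            (by simpa [Subgroup.mem_subgroupOf] using (hinv x y).2 h))
    · refine ⟨Quotient.mk _ ⟨χ.gen ^ i.val, hgen _⟩, ?_⟩
      show χ.ψ (A ⟨χ.gen ^ i.val, hgen _⟩) = i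
      set x : ↥(galOf L) := ⟨χ.gen ^ i.val, hgen _⟩
      have h1 : (A x)⁻¹ * χ.gen ^ i.val ∈ E.fixingSubgroup := by
        show (A x)⁻¹ * (x : GG) ∈ _
        rw [hAB x, inv_mul_cancel_left]
        exact hB x
      have h2 := hEker (Subgroup.mem_inf.2 ⟨mul_mem (inv_mem (hH.le (hA x))) (hH.le (χ.pow_mem' _)), h1⟩)
      have h3 := h2.2
      rw [χ.mul _ (inv_mem (hA x)) _ (χ.pow_mem' _), χ.map_inv' (hA x), χ.ψ_pow,
        ZMod.natCast_zmod_val, neg_add_eq_zero] at h3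
      exact h3

theorem prod_range_eq_zmod {n : ℕ} [NeZero n] (F : ZMod n → LL) :
    ∏ i ∈ Finset.range n, F i = ∏ x : ZMod n, F x := by
  refine Finset.prod_bij (fun i _ => (i : ZMod n)) (fun i _ => Finset.mem_univ _)
    (fun i hi j hj h => ?_) (fun x _ => ⟨x.val, Finset.mem_range.2 (ZMod.val_lt x),
      ZMod.natCast_zmod_val x⟩) fun i _ => rfl
  rw [ZMod.natCast_eq_natCast_iff', Nat.mod_eq_of_lt (Finset.mem_range.1 hi),
    Nat.mod_eq_of_lt (Finset.mem_range.1 hj)] at h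
  exact h

/-- The two notions of norm agree. -/
theorem isNormOn_iff {p : ℕ} [Fact p.Prime] (χ : CycChar H p) {L K : IntermediateField ℚ LL}
    (hL : galOf L ⊓ V.decompositionSubgroup ℚ = H)
    (hK : galOf K ⊓ V.decompositionSubgroup ℚ = χ.ker) (b : LL) :
    IsNormOn p L K (V.decompositionSubgroup ℚ) b ↔ χ.IsNorm b := by
  constructor
  · rintro ⟨y, hy0, hy, h⟩
    refine ⟨y, hy0, fun t ht => hy t (hK.symm ▸ ht), h _ (hL.symm ▸ χ.gen_mem) fun hg => ?_⟩
    have h1 : χ.gen ∈ galOf K ⊓ V.decompositionSubgroup ℚ :=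
      ⟨hg, (hL.symm ▸ χ.gen_mem : χ.gen ∈ galOf L ⊓ V.decompositionSubgroup ℚ).2⟩
    rw [hK] at h1
    exact one_ne_zero (α := ZMod p) (by rw [← χ.ψ_gen]; exact h1.2)
  · rintro ⟨y, hy0, hy, h⟩
    refine ⟨y, hy0, fun t ht => hy t (hK ▸ ht), fun σ hσ hσK => ?_⟩
    have hσH : σ ∈ H := hL ▸ hσ
    have ha : χ.ψ σ ≠ 0 := fun h0 =>
      hσK ((hK.symm ▸ (⟨hσH, h0⟩ : σ ∈ χ.ker) : σ ∈ galOf K ⊓ V.decompositionSubgroup ℚ).1)
    have hψ : ∀ i : ℕ, χ.ψ (σ ^ i) = (i : ZMod p) * χ.ψ σ := fun i => by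
      induction i with
      | zero => simp [χ.map_one']
      | succ i ih => rw [pow_succ, χ.mul _ (pow_mem hσH i) _ hσH, ih, Nat.cast_succ]; ring
    let F : ZMod p → LL := fun x => (χ.gen ^ x.val) y
    have h1 : ∏ i ∈ Finset.range p, (σ ^ i) y = ∏ i ∈ Finset.range p, F ((i : ZMod p) * χ.ψ σ) :=
      Finset.prod_congr rfl fun i _ => by rw [χ.apply_eq_pow (pow_mem hσH i) hy, hψ]
    have h2 : ∏ i ∈ Finset.range p, (χ.gen ^ i) y = ∏ i ∈ Finset.range p, F (i : ZMod p) :=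
      Finset.prod_congr rfl fun i hi => by
        simp only [F, ZMod.val_cast_of_lt (Finset.mem_range.1 hi)]
    rw [h1, prod_range_eq_zmod (fun x => F (x * χ.ψ σ)), ← h, h2, prod_range_eq_zmod F]
    exact Fintype.prod_bijective (· * χ.ψ σ) (mul_left_injective₀ ha).bijective_of_finite _ _
      fun _ => rfl

theorem mem_localField {L : IntermediateField ℚ LL}
    (hL : galOf L ⊓ V.decompositionSubgroup ℚ = H) {b : LL} :
    b ∈ localField L V ↔ ∀ σ ∈ H, σ b = b := by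
  rw [localField, IntermediateField.mem_fixedField_iff, hL]

variable (hloc : LocalFacts) {l : ℕ} (hl : l.Prime) (hV : V.LiesOverPrime l)

include hloc hl hV in
/-- The norm index. -/
theorem local_index {p : ℕ} [Fact p.Prime] {ζ : LL} (hζ : IsPrimitiveRoot ζ p)
    (hζH : ∀ σ ∈ H, σ ζ = ζ) (hH : LocalSub V H) (χ : CycChar H p) :
    ∃ b₀ : LL, b₀ ≠ 0 ∧ (∀ σ ∈ H, σ b₀ = b₀) ∧ ¬ χ.IsNorm b₀ ∧
      ∀ b : LL, b ≠ 0 → (∀ σ ∈ H, σ b = b) → ∃ i < p, χ.IsNorm (b * b₀ ^ i) := by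
  obtain ⟨L, K, hLf, hKf, hLK, hζL, hn, hidx, hLD, hKD⟩ := exists_global hH χ ζ hζH
  have hns : ¬ galOf L ⊓ V.decompositionSubgroup ℚ ≤ galOf K := fun h => by
    have h1 : χ.gen ∈ galOf K ⊓ V.decompositionSubgroup ℚ :=
      ⟨h (hLD.symm ▸ χ.gen_mem), hH.le χ.gen_mem⟩
    rw [hKD] at h1
    exact one_ne_zero (α := ZMod p) (by rw [← χ.ψ_gen]; exact h1.2)
  obtain ⟨b₀, hb₀L, hb₀, hnot, hall⟩ :=
    hloc.index p L K hLf hKf hLK ⟨ζ, hζL, hζ⟩ hn hidx l V hl hV hns
  refine ⟨b₀, hb₀, fun σ hσ => ?_, fun h => hnot ((isNormOn_iff χ hLD hKD b₀).2 h),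
    fun b hb hbH => ?_⟩
  · rw [← hLD] at hσ
    exact (IntermediateField.mem_fixingSubgroup_iff _ _).1 hσ.1 b₀ hb₀L
  · obtain ⟨i, hi, hN⟩ := hall b ((mem_localField hLD).2 hbH) hb
    exact ⟨i, hi, (isNormOn_iff χ hLD hKD _).1 hN⟩

include hloc hl hV in
/-- Units are norms in an unramified extension of degree `p`. -/
theorem unit_norm {p : ℕ} [Fact p.Prime] (hH : LocalSub V H) (χ : CycChar H p)
    (hI : H ⊓ V.inertiaSubgroupIn ℚ ≤ χ.ker) {b : LL} (hb0 : b ≠ 0) (hb : ∀ σ ∈ H, σ b = b)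
    (hbV : b ∈ V) (hbV' : b⁻¹ ∈ V) : χ.IsNorm b := by
  obtain ⟨L, K, hLf, hKf, hLK, -, hn, hidx, hLD, hKD⟩ := exists_global hH χ 1 fun σ _ => map_one σ
  refine (isNormOn_iff χ hLD hKD b).1 (hloc.unitNorm p L K hLf hKf hLK hn hidx l V hl hV
    (fun σ hσ hσI => ?_) b ((mem_localField hLD).2 hb) hb0 hbV hbV')
  have h1 : σ ∈ χ.ker := hI ⟨hLD ▸ ⟨hσ, Places.inertia_le_decomposition V hσI⟩, hσI⟩
  rw [← hKD] at h1
  exact h1.1

theorem valuation_map {σ : GG} (hσ : σ ∈ V.decompositionSubgroup ℚ) (x : LL) :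
    V.valuation (σ x) = V.valuation x :=
  FlatLocal.val_map ⟨σ, hσ⟩ x

theorem prod_range_mul (F : ℕ → LL) (a q : ℕ) :
    ∏ k ∈ Finset.range (a * q), F k = ∏ j ∈ Finset.range q, ∏ i ∈ Finset.range a, F (i + a * j) := by
  induction q with
  | zero => simp
  | succ q ih =>
    rw [mul_add, mul_one, Finset.prod_range_add, Finset.prod_range_succ _ q, ih]
    exact congrArg (_ * ·) (Finset.prod_congr rfl fun i _ => by rw [add_comm])

include hloc hl hV in
/-- Units are norms in an unramified tower. -/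
theorem unit_norm_tower {p : ℕ} [Fact p.Prime] (m : ℕ) (hH : LocalSub V H)
    (χ : CycChar H (p ^ (m + 1))) (hI : H ⊓ V.inertiaSubgroupIn ℚ ≤ χ.ker) {b : LL} (hb0 : b ≠ 0)
    (hb : ∀ σ ∈ H, σ b = b) (hbV : b ∈ V) (hbV' : b⁻¹ ∈ V) :
    χ.IsNorm b ∧ ∃ y : LL, y ≠ 0 ∧ (∀ t ∈ χ.ker, t y = y) ∧ y ∈ V ∧ y⁻¹ ∈ V ∧
      ∏ i ∈ Finset.range (p ^ (m + 1)), (χ.gen ^ i) y = b := by
  suffices key : ∃ y : LL, y ≠ 0 ∧ (∀ t ∈ χ.ker, t y = y) ∧ y ∈ V ∧ y⁻¹ ∈ V ∧
      ∏ i ∈ Finset.range (p ^ (m + 1)), (χ.gen ^ i) y = b by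
    obtain ⟨y, hy0, hy, h1, h2, h⟩ := key
    exact ⟨⟨y, hy0, hy, h⟩, y, hy0, hy, h1, h2, h⟩
  have hp := (Fact.out : p.Prime)
  have hval : V.valuation b = 1 := by
    refine le_antisymm ((V.valuation_le_one_iff _).2 hbV) ?_
    have := (V.valuation_le_one_iff _).2 hbV'
    rwa [map_inv₀, inv_le_one₀ (zero_lt_iff.2 ((Valuation.ne_zero_iff _).2 hb0))] at this
  have hunit : ∀ {y : LL} (N : ℕ), N ≠ 0 → (∏ i ∈ Finset.range N, (χ.gen ^ i) y = b) →
      y ∈ V ∧ y⁻¹ ∈ V := by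
    intro y N hN h
    have h1 : V.valuation y ^ N = 1 := by
      rw [← hval, ← h, map_prod, Finset.prod_congr rfl fun i _ =>
        valuation_map (hH.le (χ.pow_mem' i)) y, Finset.prod_const, Finset.card_range]
    have h2 : V.valuation y = 1 := (pow_eq_one_iff_of_nonneg zero_le hN).1 h1
    exact ⟨(V.valuation_le_one_iff _).1 h2.le,
      (V.valuation_le_one_iff _).1 (by rw [map_inv₀, h2, inv_one])⟩
  induction m with
  | zero =>
    let χ₁ : CycChar H p :=
      { ψ := fun σ => ((χ.ψ σ).val : ZMod p)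
        gen := χ.gen
        one_lt := hp.one_lt
        mul := fun σ hσ τ hτ => by
          haveI := χ.neZero
          rw [χ.mul σ hσ τ hτ, ← Nat.cast_add, ZMod.natCast_eq_natCast_iff', ZMod.val_add]
          exact Nat.mod_mod_of_dvd _ (dvd_pow_self p (by omega))
        gen_mem := χ.gen_mem
        ψ_gen := by
          haveI : Fact (1 < p ^ (0 + 1)) := ⟨χ.one_lt⟩
          rw [χ.ψ_gen, ZMod.val_one, Nat.cast_one]
        lev := χ.lev.map fun x => (x.val : ZMod p) }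
    have hker : χ₁.ker = χ.ker := by
      haveI := χ.neZero
      ext σ
      refine and_congr_right fun _ => ?_
      show ((χ.ψ σ).val : ZMod p) = 0 ↔ χ.ψ σ = 0
      rw [ZMod.natCast_eq_zero_iff, ← ZMod.val_eq_zero]
      have := ZMod.val_lt (χ.ψ σ)
      exact ⟨fun h => Nat.eq_zero_of_dvd_of_lt h (by simpa using this), fun h => by rw [h]; exact dvd_zero p⟩
    obtain ⟨y, hy0, hy, h⟩ := unit_norm hloc hl hV hH χ₁ (hker.symm ▸ hI) hb0 hb hbV hbV'
    have h' : ∏ i ∈ Finset.range (p ^ (0 + 1)), (χ.gen ^ i) y = b := by simpa using h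
    obtain ⟨h1, h2⟩ := hunit _ (by simp [hp.ne_zero]) h'
    exact ⟨y, hy0, hker ▸ hy, h1, h2, h'⟩
  | succ m ih =>
    haveI := χ.neZero
    have hpm : 1 < p ^ (m + 1) := Nat.one_lt_pow (by omega) hp.one_lt
    let χ₁ : CycChar H (p ^ (m + 1)) :=
      { ψ := fun σ => ((χ.ψ σ).val : ZMod (p ^ (m + 1)))
        gen := χ.gen
        one_lt := hpm
        mul := fun σ hσ τ hτ => by
          rw [χ.mul σ hσ τ hτ, ← Nat.cast_add, ZMod.natCast_eq_natCast_iff', ZMod.val_add]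
          exact Nat.mod_mod_of_dvd _ (pow_dvd_pow p (by omega))
        gen_mem := χ.gen_mem
        ψ_gen := by
          haveI : Fact (1 < p ^ (m + 1 + 1)) := ⟨χ.one_lt⟩
          rw [χ.ψ_gen, ZMod.val_one, Nat.cast_one]
        lev := χ.lev.map fun x => (x.val : ZMod (p ^ (m + 1))) }
    have hle : χ.ker ≤ χ₁.ker := fun σ hσ => ⟨hσ.1, by
      show ((χ.ψ σ).val : ZMod (p ^ (m + 1))) = 0
      rw [hσ.2, ZMod.val_zero, Nat.cast_zero]⟩
    obtain ⟨y, hy0, hy, hyV, hyV', h⟩ := ih χ₁ (hI.trans hle) fun {z} N hN hz => hunit N hN hz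
    have hpowmem : χ.gen ^ p ^ (m + 1) ∈ χ₁.ker := ⟨χ.pow_mem' _, by
      show ((χ.ψ _).val : ZMod (p ^ (m + 1))) = 0
      rw [χ.ψ_pow, ZMod.val_natCast, ZMod.natCast_eq_zero_iff]
      exact (Nat.dvd_mod_iff (pow_dvd_pow p (by omega))).2 dvd_rfl⟩
    have hdvd : ∀ σ ∈ χ₁.ker, p ^ (m + 1) ∣ (χ.ψ σ).val := fun σ hσ =>
      (ZMod.natCast_eq_zero_iff _ _).1 hσ.2
    let χ₂ : CycChar χ₁.ker p :=
      { ψ := fun σ => (((χ.ψ σ).val / p ^ (m + 1) : ℕ) : ZMod p)
        gen := χ.gen ^ p ^ (m + 1)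
        one_lt := hp.one_lt
        mul := fun σ hσ τ hτ => by
          rw [χ.mul σ hσ.1 τ hτ.1, ← Nat.cast_add, ZMod.natCast_eq_natCast_iff', ZMod.val_add]
          obtain ⟨a, ha⟩ := hdvd σ hσ
          obtain ⟨c, hc⟩ := hdvd τ hτ
          have hP : 0 < p ^ (m + 1) := pow_pos hp.pos _
          rw [ha, hc, ← mul_add, pow_succ p (m + 1), Nat.mul_mod_mul_left, Nat.mul_div_cancel_left _ hP,
            Nat.mul_div_cancel_left _ hP, Nat.mul_div_cancel_left _ hP, Nat.mod_mod]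
        gen_mem := hpowmem
        ψ_gen := by
          rw [χ.ψ_pow, ZMod.val_natCast, Nat.mod_eq_of_lt (Nat.pow_lt_pow_right hp.one_lt (by omega)),
            Nat.div_self (pow_pos hp.pos _), Nat.cast_one]
        lev := (χ.lev.mono χ₁.ker_le).map fun x => ((x.val / p ^ (m + 1) : ℕ) : ZMod p) }
    have hker₂ : χ₂.ker = χ.ker := by
      ext σ
      refine ⟨fun hσ => ⟨hσ.1.1, ?_⟩, fun hσ => ⟨hle hσ, ?_⟩⟩
      · obtain ⟨a, ha⟩ := hdvd σ hσ.1
        have h2 : (((χ.ψ σ).val / p ^ (m + 1) : ℕ) : ZMod p) = 0 := hσ.2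
        rw [ha, Nat.mul_div_cancel_left _ (pow_pos hp.pos _), ZMod.natCast_eq_zero_iff] at h2
        refine (ZMod.val_eq_zero _).1 ?_
        have := ZMod.val_lt (χ.ψ σ)
        rw [ha, pow_succ p (m + 1)] at this
        rw [ha, Nat.eq_zero_of_dvd_of_lt h2 (Nat.lt_of_mul_lt_mul_left this), mul_zero]
      · show (((χ.ψ σ).val / p ^ (m + 1) : ℕ) : ZMod p) = 0
        rw [hσ.2, ZMod.val_zero, Nat.zero_div, Nat.cast_zero]
    obtain ⟨w, hw0, hw, hprod⟩ := unit_norm hloc hl hV (hH.ker χ₁) χ₂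
      (hker₂.symm ▸ (inf_le_inf_right _ χ₁.ker_le).trans hI) hy0 (fun σ hσ => hy σ hσ) hyV hyV'
    have h' : ∏ k ∈ Finset.range (p ^ (m + 1 + 1)), (χ.gen ^ k) w = b := by
      rw [show Finset.range (p ^ (m + 1 + 1)) = Finset.range (p ^ (m + 1) * p) by rw [pow_succ p (m + 1)],
        prod_range_mul, Finset.prod_comm, ← h]
      refine Finset.prod_congr rfl fun i _ => ?_
      rw [← hprod, map_prod]
      refine Finset.prod_congr rfl fun j _ => ?_
      show (χ.gen ^ (i + p ^ (m + 1) * j)) w = (χ.gen ^ i) (((χ.gen ^ p ^ (m + 1)) ^ j) w)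
      rw [← AlgEquiv.mul_apply, ← pow_mul, ← pow_add]
    obtain ⟨h1, h2⟩ := hunit _ (pow_ne_zero _ hp.ne_zero) h'
    exact ⟨w, hw0, hker₂ ▸ hw, h1, h2, h'⟩

include hl hV in
/-- A uniformiser, once the number field is dense. -/
theorem exists_uniformiser (hdense : LocalDense) (hH : LocalSub V H) :
    ∃ π : LL, π ≠ 0 ∧ V.valuation π < 1 ∧ (∀ σ ∈ H, σ π = π) ∧
      ∀ z : LL, z ≠ 0 → (∀ σ ∈ H, σ z = z) → ∃ k : ℤ, V.valuation z = V.valuation π ^ k := by
  classical
  obtain ⟨E₀, hE₀, hle₀⟩ := hH.openIn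
  obtain ⟨E, hEf, hEn, hE₀E⟩ := exists_normal_le E₀
  obtain ⟨L, hLf, hL⟩ := exists_field_of_sup H E
  have hLD : galOf L ⊓ V.decompositionSubgroup ℚ = H := by
    rw [hL]
    exact sup_inf_dec hH.le fun x hx =>
      hle₀ ⟨hx.1, IntermediateField.fixingSubgroup_antitone hE₀E hx.2⟩
  haveI : NumberField L := ⟨⟩
  let f : (NumberField.RingOfIntegers L) →+* ZB := ((algebraMap L LL).comp (algebraMap (NumberField.RingOfIntegers L) L)).codRestrict
    (ZB).toSubring fun c => c.2.algebraMap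
  let P : Ideal (NumberField.RingOfIntegers L) := (Frobenius.centre V).comap f
  haveI : P.IsPrime := Ideal.IsPrime.comap _
  have hmem : ∀ c : (NumberField.RingOfIntegers L), c ∈ P ↔ V.valuation ((c : L) : LL) < 1 := fun c => by
    rw [Ideal.mem_comap, Frobenius.mem_centre_iff, ValuationSubring.mem_nonunits_iff]
    rfl
  have hle1 : ∀ c : (NumberField.RingOfIntegers L), V.valuation ((c : L) : LL) ≤ 1 := fun c =>
    (V.valuation_le_one_iff _).2 (Frobenius.integralClosure_le V (f c))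
  have h1 : ∀ c : (NumberField.RingOfIntegers L), c ∉ P → V.valuation ((c : L) : LL) = 1 := fun c hc =>
    le_antisymm (hle1 c) (not_lt.1 fun h => hc ((hmem c).2 h))
  have hlP : ((l : ℕ) : (NumberField.RingOfIntegers L)) ∈ P := (hmem _).2 (by
    have := V.mem_nonunits_iff.1 hV
    simpa using this)
  have hP : P ≠ ⊥ := fun h => by
    rw [h, Ideal.mem_bot, Nat.cast_eq_zero] at hlP
    exact hl.ne_zero hlP
  obtain ⟨π, hπP, hπP2⟩ : ∃ π ∈ P, π ∉ P ^ 2 := by
    have hlt := Ideal.pow_right_strictAnti P hP (Ideal.IsPrime.ne_top inferInstance)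
      (show 1 < 2 by omega)
    simp only [pow_one] at hlt
    exact SetLike.exists_of_lt hlt
  have hπ0 : π ≠ 0 := fun h => hπP2 (h ▸ zero_mem _)
  have hexpπ : MW.expAt P π = 1 := by
    have ha : 1 ≤ MW.expAt P π := (MW.pow_dvd_iff_le_expAt hP hπ0 1).1 (by
      rw [pow_one, Ideal.dvd_iff_le, Ideal.span_singleton_le_iff_mem]; exact hπP)
    have hb : ¬ 2 ≤ MW.expAt P π := fun h => hπP2 (by
      have := (MW.pow_dvd_iff_le_expAt hP hπ0 2).2 h
      rwa [Ideal.dvd_iff_le, Ideal.span_singleton_le_iff_mem] at this)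
    omega
  have hkey : ∀ b : (NumberField.RingOfIntegers L), b ≠ 0 → V.valuation ((b : L) : LL) =
      V.valuation ((π : L) : LL) ^ MW.expAt P b := by
    intro b hb
    set n := MW.expAt P b
    obtain ⟨I, hI⟩ : P ^ n ∣ Ideal.span {b} := (MW.pow_dvd_iff_le_expAt hP hb n).2 le_rfl
    have hπn : π ^ n ≠ 0 := pow_ne_zero _ hπ0
    have hexp : MW.expAt P (π ^ n) = n := by
      have : ∀ k, MW.expAt P (π ^ k) = k := fun k => by
        induction k with
        | zero => rw [pow_zero]; exact (MW.expAt_eq_zero_iff hP one_ne_zero).2 ((Ideal.ne_top_iff_one P).1 (Ideal.IsPrime.ne_top inferInstance))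
        | succ k ih => rw [pow_succ, MW.expAt_mul P (pow_ne_zero _ hπ0) hπ0, ih, hexpπ]
      exact this n
    obtain ⟨J, hJ⟩ : P ^ n ∣ Ideal.span {π ^ n} := (MW.pow_dvd_iff_le_expAt hP hπn n).2 hexp.ge
    have hnot : ¬ J ≤ P := fun hle => by
      have h2 : P ^ (n + 1) ∣ Ideal.span {π ^ n} := by
        rw [hJ, pow_succ]; exact mul_dvd_mul_left _ (Ideal.dvd_iff_le.2 hle)
      have := (MW.pow_dvd_iff_le_expAt hP hπn _).1 h2
      omega
    obtain ⟨d, hdJ, hdP⟩ := SetLike.not_le_iff_exists.1 hnot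
    have hbmem : b ∈ P ^ n := by
      rw [← Ideal.span_singleton_le_iff_mem, ← Ideal.dvd_iff_le]
      exact ⟨I, hI⟩
    have hmem' := Ideal.mul_mem_mul hbmem hdJ
    rw [← hJ, Ideal.mem_span_singleton] at hmem'
    obtain ⟨c, hc⟩ := hmem'
    have hd0 : d ≠ 0 := fun e => hdP (e ▸ P.zero_mem)
    have hc0 : c ≠ 0 := fun e => mul_ne_zero hb hd0 (by rw [hc, e, mul_zero])
    have hcP : c ∉ P := fun hcP => by
      have e := congrArg (MW.expAt P) hc
      rw [MW.expAt_mul P hb hd0, MW.expAt_mul P hπn hc0, hexp,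
        (MW.expAt_eq_zero_iff hP hd0).2 hdP] at e
      have := (MW.expAt_eq_zero_iff hP hc0).not.2 (not_not.2 hcP)
      omega
    have e := congrArg (fun x : (NumberField.RingOfIntegers L) => V.valuation ((x : L) : LL)) hc
    simp only [map_mul, map_pow, MulMemClass.coe_mul, SubmonoidClass.coe_pow] at e
    rwa [h1 d hdP, mul_one, h1 c hcP, mul_one] at e
  have hπfix : ∀ σ ∈ H, σ ((π : L) : LL) = ((π : L) : LL) := fun σ hσ =>
    (IntermediateField.mem_fixingSubgroup_iff _ _).1 (hLD.symm ▸ hσ : σ ∈ galOf L ⊓ _).1 _ (π : L).2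
  refine ⟨((π : L) : LL), by simpa using hπ0, (hmem π).1 hπP, hπfix, fun z hz0 hz => ?_⟩
  have hπv : V.valuation ((π : L) : LL) ≠ 0 := (Valuation.ne_zero_iff _).2 (by simpa using hπ0)
  -- approximate
  have hsmall : V.valuation (z * ((π : L) : LL)) < V.valuation z := by
    rw [map_mul]
    exact mul_lt_of_lt_one_right (zero_lt_iff.2 ((Valuation.ne_zero_iff _).2 hz0)) ((hmem π).1 hπP)
  obtain ⟨a, haL, ha⟩ := hdense L hLf l V hl hV z ((mem_localField hLD).2 hz)
    (z * ((π : L) : LL)) (mul_ne_zero hz0 (by simpa using hπ0))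
  have hva : V.valuation a = V.valuation z := by
    have h := V.valuation.map_sub_swap z a
    rw [show a = z + (a - z) by ring]
    exact Valuation.map_add_eq_of_lt_left _ (h ▸ lt_of_le_of_lt ha hsmall)
  have ha0 : a ≠ 0 := fun h => hz0 ((Valuation.zero_iff _).1 (by rw [← hva, h, map_zero]))
  obtain ⟨b, c, hc0, hbc⟩ := IsFractionRing.div_surjective (A := (NumberField.RingOfIntegers L)) (⟨a, haL⟩ : L)
  have hb0 : b ≠ 0 := fun h => by
    rw [h, map_zero, zero_div] at hbc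
    exact ha0 (congrArg Subtype.val hbc.symm)
  have hc : c ≠ 0 := nonZeroDivisors.ne_zero hc0
  refine ⟨(MW.expAt P b : ℤ) - MW.expAt P c, ?_⟩
  have e : a = ((b : L) : LL) / ((c : L) : LL) := (congrArg Subtype.val hbc).symm
  rw [← hva, e, map_div₀, hkey b hb0, hkey c hc, zpow_sub₀ hπv, zpow_natCast, zpow_natCast]

include hl hV in
/-- Modulo inertia and any open subgroup the decomposition group is cyclic. -/
theorem exists_generator (hH : LocalSub V H) {U : Subgroup GG}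
    (hI : H ⊓ V.inertiaSubgroupIn ℚ ≤ U) (hU : OpenIn U H) :
    ∃ φ ∈ H, ∀ σ ∈ H, ∃ j : ℕ, (φ ^ j)⁻¹ * σ ∈ U := by
  classical
  haveI : Fact l.Prime := ⟨hl⟩
  obtain ⟨E₀, hE₀, hle₀⟩ := hH.openIn
  obtain ⟨E₁, hE₁, hle₁⟩ := hU
  obtain ⟨E, hEf, hEn, hEE⟩ := exists_normal_le (E₀ ⊔ E₁)
  haveI := fix_normal E
  haveI : NumberField E := ⟨⟩
  haveI := FrobTrace.charP_residueField hV
  letI := ZMod.algebra (ResidueField V) l
  haveI := FrobTrace.isAlgebraic_residueField hV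
  let f : (NumberField.RingOfIntegers E) →+* ZB := ((algebraMap E LL).comp (algebraMap (NumberField.RingOfIntegers E) E)).codRestrict
    (ZB).toSubring fun c => c.2.algebraMap
  let r : (NumberField.RingOfIntegers E) →+* ResidueField V := (residue V).comp
    (((ZB).val.toRingHom.codRestrict V.toSubring (Frobenius.integralClosure_le V)).comp f)
  let bas := Module.Free.chooseBasis ℤ (NumberField.RingOfIntegers E)
  let F := IntermediateField.adjoin (ZMod l) (Set.range fun i => r (bas i))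
  haveI : FiniteDimensional (ZMod l) F := IntermediateField.finiteDimensional_adjoin fun x _ =>
    (Algebra.IsAlgebraic.isAlgebraic x).isIntegral
  haveI : Finite F := Module.finite_of_finite (ZMod l)
  have hrF : ∀ c, r c ∈ F := fun c => by
    rw [← bas.sum_repr c, map_sum]
    refine sum_mem fun i _ => ?_
    rw [zsmul_eq_mul, map_mul, map_intCast]
    exact mul_mem (intCast_mem F _) (IntermediateField.subset_adjoin _ _ ⟨i, rfl⟩)
  haveI : IsGalois (ZMod l) F := inferInstance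
  let toAlg : ↥H →* (ResidueField V ≃ₐ[ZMod l] ResidueField V) :=
    { toFun := fun σ => AlgEquiv.ofRingEquiv
        (f := MulSemiringAction.toRingEquiv ↥(V.decompositionSubgroup ℚ) (ResidueField V)
          ⟨(σ : GG), hH.le σ.2⟩) fun x => by
          obtain ⟨n, rfl⟩ := ZMod.natCast_zmod_surjective x
          simp
      map_one' := AlgEquiv.ext fun x => one_smul ↥(V.decompositionSubgroup ℚ) x
      map_mul' := fun σ τ => AlgEquiv.ext fun x =>
        mul_smul (⟨(σ : GG), hH.le σ.2⟩ : ↥(V.decompositionSubgroup ℚ)) ⟨(τ : GG), hH.le τ.2⟩ x }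
  haveI : Normal (ZMod l) F := IsGalois.to_normal
  let R : ↥H →* (F ≃ₐ[ZMod l] F) := (AlgEquiv.restrictNormalHom F).comp toAlg
  obtain ⟨⟨g, hg⟩, hgen⟩ := IsCyclic.exists_monoid_generator (α := R.range)
  obtain ⟨φ, rfl⟩ := hg
  refine ⟨φ, φ.2, fun σ hσ => ?_⟩
  obtain ⟨j, hj⟩ := Submonoid.mem_powers_iff _ _ |>.1 (hgen ⟨R ⟨σ, hσ⟩, ⟨σ, hσ⟩, rfl⟩)
  refine ⟨j, ?_⟩
  set τ : ↥H := (φ ^ j)⁻¹ * ⟨σ, hσ⟩
  have hτ : R τ = 1 := by
    rw [map_mul, map_inv, map_pow, inv_mul_eq_one]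
    exact congrArg Subtype.val hj
  have hfix : ∀ c : (NumberField.RingOfIntegers E), toAlg τ (r c) = r c := fun c => by
    have := AlgEquiv.restrictNormal_commutes (toAlg τ) F ⟨r c, hrF c⟩
    rw [show (toAlg τ).restrictNormal F = R τ from rfl, hτ] at this
    simpa using this.symm
  show (τ : GG) ∈ U
  have hcong : ∀ b : FixedPoints.subalgebra ℤ ZB E.fixingSubgroup,
      (τ : GG) • (b : ZB) - b ∈ Frobenius.centre V := by
    intro b
    have hbE : ((b : ZB) : LL) ∈ E := by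
      refine (InfiniteGalois.fixedField_fixingSubgroup E).le ?_
      rw [IntermediateField.mem_fixedField_iff]
      intro s hs
      exact congrArg Subtype.val (b.2 ⟨s, hs⟩)
    have hint : IsIntegral ℤ (⟨_, hbE⟩ : E) :=
      (isIntegral_algebraMap_iff (algebraMap E LL).injective).1 (b : ZB).2
    have := hfix ⟨⟨_, hbE⟩, hint⟩
    rw [Frobenius.mem_centre_iff]
    have hbV : ((b : ZB) : LL) ∈ V := Frobenius.integralClosure_le V b
    have hτV := Places.smul_mem_of_decomposition V (hH.le τ.2) hbV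
    have e : residue V ⟨_, hτV⟩ = residue V ⟨_, hbV⟩ := this
    rw [← sub_eq_zero, ← map_sub, residue_eq_zero_iff, ← ValuationSubring.coe_mem_nonunits_iff] at e
    exact e
  obtain ⟨h, hh, hi⟩ := Places.exists_mul_mem_inertia V E.fixingSubgroup
    (InfiniteGalois.fixingSubgroup_isClosed E) (τ : GG) hcong
  have hEle : V.decompositionSubgroup ℚ ⊓ E.fixingSubgroup ≤ H := fun x hx => hle₀
    ⟨hx.1, IntermediateField.fixingSubgroup_antitone (le_sup_left.trans hEE) hx.2⟩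
  have hhH : h ∈ H := hEle ⟨by
    simpa using mul_mem (Places.inertia_le_decomposition V hi) (inv_mem (hH.le τ.2)), hh⟩
  have h1 : h * (τ : GG) ∈ U := hI ⟨mul_mem hhH τ.2, hi⟩
  have h2 : h ∈ U := hle₁ ⟨hhH, IntermediateField.fixingSubgroup_antitone (le_sup_right.trans hEE) hh⟩
  simpa using mul_mem (inv_mem h2) h1

end FLTAgent.Lowering.P1.Brauer
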