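import Fermat.Agent.Lowering.P1.Brauer.LayerSymbol
import Fermat.Agent.Lowering.P1.Brauer.Place

/-!
# The cyclotomic layer with its local symbols
-/

set_option autoImplicit false
set_option linter.style.haveILetI false
set_option linter.unusedSectionVars false

noncomputable section

open scoped Pointwise

namespace FLTAgent.Lowering.P1.Brauer.Layer

local notation "LL" => AlgebraicClosure ℚ
local notation "GG" => (AlgebraicClosure ℚ ≃ₐ[ℚ] AlgebraicClosure ℚ)

variable {p : ℕ} [hp : Fact p.Prime]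

theorem psi_levOn (H : Subgroup GG) (n : ℕ) : LevOn H (psi p n) := by
  obtain ⟨E, hE, h⟩ := psi_lev (p := p) n
  exact ⟨E, hE, fun g _ s _ hsE => h g s hsE⟩

/-- Away from `p` a trivial symbol forces the value to be zero. -/
theorem phi_cob_away (hp2 : p ≠ 2) {l : ℕ} {V : ValuationSubring LL} (hl : l.Prime)
    (hV : V.LiesOverPrime l) (hlp : l ≠ p) (n : ℕ) {a : LL}
    (ha : ∀ σ ∈ V.decompositionSubgroup ℚ, σ a = a) (ha0 : a ≠ 0)
    (hcob : Cob (V.decompositionSubgroup ℚ) (symR (p ^ n) (psi p n) a)) : phi p V n a = 0 := by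
  have hln : ¬ p ∣ l := fun h => hlp ((Nat.prime_dvd_prime_iff_eq hp.out hl).1 h).symm
  obtain ⟨k, r, hrep⟩ := exists_rep hl hV n ha ha0
  rw [phi_eq hrep, symVal, if_neg hlp]
  obtain ⟨e, he⟩ := exists_padic_lam hp2 hln hl.one_lt
  haveI : NeZero (p ^ n) := ⟨(pow_pos hp.out.pos _).ne'⟩
  obtain ⟨⟨φ, hφD, hφ⟩, himage⟩ := exists_psi_frob hl hV hlp hp2 n
  -- the image of the character
  rcases Nat.lt_or_ge e n with hen | hen
  swap
  · have hzero : lam n (l : ZMod (p ^ (n + 1))) = 0 := by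
      obtain ⟨u, -, hu⟩ := he (e + 1) (Nat.lt_succ_self e)
      have hd : p ^ n ∣ p ^ (e + 1) := pow_dvd_pow p (by omega)
      have hcompat : ∀ d, n ≤ d → ((lam d (l : ZMod (p ^ (d + 1)))).val : ZMod (p ^ n)) =
          lam n (l : ZMod (p ^ (n + 1))) := by
        intro d hd'
        induction d, hd' using Nat.le_induction with
        | base => exact ZMod.natCast_zmod_val _
        | succ d hd' ih =>
          haveI : NeZero (p ^ (d + 1)) := ⟨(pow_pos hp.out.pos _).ne'⟩
          rw [← ih, ← lam_compat hp2 d hln, ZMod.val_natCast, ZMod.natCast_eq_natCast_iff',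
            Nat.mod_mod_of_dvd _ (pow_dvd_pow p hd')]
      haveI : NeZero (p ^ (e + 1)) := ⟨(pow_pos hp.out.pos _).ne'⟩
      rw [← hcompat (e + 1) (by omega), hu]
      have : ((((p : ZMod (p ^ (e + 1))) ^ e * u).val : ℕ) : ZMod (p ^ n)) =
          ZMod.castHom hd (ZMod (p ^ n)) ((p : ZMod (p ^ (e + 1))) ^ e * u) := by
        conv_rhs => rw [← ZMod.natCast_zmod_val ((p : ZMod (p ^ (e + 1))) ^ e * u)]
        rw [map_natCast]
      rw [this, map_mul, map_pow, map_natCast, ← Nat.cast_pow,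
        (ZMod.natCast_eq_zero_iff _ _).2 (pow_dvd_pow p hen), zero_mul]
    rw [hzero, mul_zero]
  obtain ⟨u, hu, huv⟩ := he n hen
  obtain ⟨n', hn'⟩ : ∃ n', n = e + (n' + 1) := ⟨n - e - 1, by omega⟩
  obtain ⟨u, rfl⟩ := hu
  have hdvd : ∀ σ ∈ V.decompositionSubgroup ℚ, p ^ e ∣ (psi p n σ).val := by
    intro σ hσ
    obtain ⟨j, hj⟩ := himage σ hσ
    rw [hj, huv, show (j : ZMod (p ^ n)) * ((p : ZMod (p ^ n)) ^ e * u) =
      ((p ^ e : ℕ) : ZMod (p ^ n)) * ((j : ZMod (p ^ n)) * u) by push_cast; ring,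
      ← ZMod.natCast_zmod_val ((j : ZMod (p ^ n)) * (u : ZMod (p ^ n))), ← Nat.cast_mul, ZMod.val_natCast]
    exact (Nat.dvd_mod_iff (pow_dvd_pow p (by omega))).2 (dvd_mul_right _ _)
  have hgen : psi p n (φ ^ (↑u⁻¹ : ZMod (p ^ n)).val) = ((p ^ e : ℕ) : ZMod (p ^ n)) := by
    rw [psi_pow hp2, hφ, huv, ZMod.natCast_zmod_val, mul_comm, mul_assoc, Units.mul_inv, mul_one]
    push_cast; rfl
  have hsplit : p ^ n = p ^ e * p ^ (n' + 1) := by rw [hn', pow_add]
  haveI : NeZero (p ^ (n' + 1)) := ⟨(pow_pos hp.out.pos _).ne'⟩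
  have hpe : 0 < p ^ e := pow_pos hp.out.pos _
  let χ : CycChar (V.decompositionSubgroup ℚ) (p ^ (n' + 1)) :=
    { ψ := fun σ => (((psi p n σ).val / p ^ e : ℕ) : ZMod (p ^ (n' + 1)))
      gen := φ ^ (↑u⁻¹ : ZMod (p ^ n)).val
      one_lt := Nat.one_lt_pow (by omega) hp.out.one_lt
      mul := fun σ hσ τ hτ => by
        obtain ⟨i, hi⟩ := hdvd σ hσ
        obtain ⟨j, hj⟩ := hdvd τ hτ
        rw [psi_mul hp2, ZMod.val_add, hi, hj, ← mul_add, hsplit, Nat.mul_mod_mul_left,
          Nat.mul_div_cancel_left _ hpe, Nat.mul_div_cancel_left _ hpe, Nat.mul_div_cancel_left _ hpe,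
          ← Nat.cast_add, ZMod.natCast_eq_natCast_iff', Nat.mod_mod]
      gen_mem := pow_mem hφD _
      ψ_gen := by
        rw [hgen, ZMod.val_natCast, Nat.mod_eq_of_lt (Nat.pow_lt_pow_right hp.out.one_lt (by omega)),
          Nat.div_self hpe, Nat.cast_one]
      lev := (psi_levOn _ n).map fun x => ((x.val / p ^ e : ℕ) : ZMod (p ^ (n' + 1))) }
  have hval : ∀ σ ∈ V.decompositionSubgroup ℚ, (psi p n σ).val = p ^ e * (χ.ψ σ).val := by
    intro σ hσ
    obtain ⟨i, hi⟩ := hdvd σ hσ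
    show _ = p ^ e * (((psi p n σ).val / p ^ e : ℕ) : ZMod (p ^ (n' + 1))).val
    rw [hi, Nat.mul_div_cancel_left _ hpe, ZMod.val_natCast, Nat.mod_eq_of_lt]
    have := ZMod.val_lt (psi p n σ)
    rw [hi, hsplit] at this
    exact Nat.lt_of_mul_lt_mul_left this
  have hcob' : Cob (V.decompositionSubgroup ℚ) (χ.sym a) :=
    hcob.congr fun σ hσ τ hτ => by
      rw [χ.sym_eq]; exact (symR_scale hsplit hpe (hval σ hσ) (hval τ hτ) a).symm
  obtain ⟨y, hy0, hy, hprod⟩ := χ.norm_of_cob_sym hcob'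
  obtain ⟨i, hi⟩ := Mazur.exists_zpow_valuation V hl hV hy0 fun σ hσ =>
    hy σ ⟨Places.inertia_le_decomposition V hσ, by
      show (((psi p n σ).val / p ^ e : ℕ) : ZMod (p ^ (n' + 1))) = 0
      rw [psi_inertia hl hV hlp hp2 n hσ, ZMod.val_zero, Nat.zero_div, Nat.cast_zero]⟩
  have hk : k = (p ^ (n' + 1) : ℕ) * i := by
    refine Mazur.zpow_valuation_injective V hl hV ?_
    show V.valuation (l : LL) ^ k = V.valuation (l : LL) ^ (((p ^ (n' + 1) : ℕ) : ℤ) * i)
    rw [← hrep.2.2.1, mul_comm, zpow_mul, ← hi, zpow_natCast, ← hprod, map_prod,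
      Finset.prod_congr rfl fun j _ => valuation_map (pow_mem (pow_mem hφD _) j) y, Finset.prod_const,
      Finset.card_range]
  rw [hk, huv]
  push_cast
  rw [show ((p : ZMod (p ^ n)) ^ (n' + 1) * (i : ZMod (p ^ n))) * ((p : ZMod (p ^ n)) ^ e * u) =
    (p : ZMod (p ^ n)) ^ n * ((i : ZMod (p ^ n)) * u) by
      rw [← mul_assoc ((p : ZMod (p ^ n)) ^ n),
        show (p : ZMod (p ^ n)) ^ n = (p : ZMod (p ^ n)) ^ e * (p : ZMod (p ^ n)) ^ (n' + 1) by
          rw [← pow_add, ← hn']]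
      ring,
    ← Nat.cast_pow, ZMod.natCast_self, zero_mul]

/-- Global norms have trivial symbols away from `p`; by the product formula also at `p`. -/
theorem phi_cob_p (hp2 : p ≠ 2) {V : ValuationSubring LL} (hV : V.LiesOverPrime p) (n : ℕ) {a : LL}
    (ha : ∀ σ ∈ V.decompositionSubgroup ℚ, σ a = a) (ha0 : a ≠ 0)
    (hcob : Cob (V.decompositionSubgroup ℚ) (symR (p ^ n) (psi p n) a)) : phi p V n a = 0 := by
  classical
  haveI := Mazur.isGalois_QQb
  rcases Nat.eq_zero_or_pos n with rfl | hn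
  · haveI : Subsingleton (ZMod (p ^ 0)) := ⟨fun x y => by revert x y; rw [pow_zero]; decide⟩
    exact Subsingleton.elim _ _
  haveI : NeZero (p ^ n) := ⟨(pow_pos hp.out.pos _).ne'⟩
  have hlt : 1 < p ^ n := Nat.one_lt_pow hn.ne' hp.out.one_lt
  obtain ⟨g, hgD, hg⟩ := exists_psi_dec hV hp2 n 1
  let χ : CycChar (V.decompositionSubgroup ℚ) (p ^ n) :=
    { ψ := psi p n, gen := g, one_lt := hlt, mul := fun σ _ τ _ => psi_mul hp2 n σ τ, gen_mem := hgD
      ψ_gen := hg, lev := psi_levOn _ n }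
  let χG : CycChar (⊤ : Subgroup GG) (p ^ n) :=
    { ψ := psi p n, gen := g, one_lt := hlt, mul := fun σ _ τ _ => psi_mul hp2 n σ τ
      gen_mem := Subgroup.mem_top g, ψ_gen := hg, lev := psi_levOn _ n }
  obtain ⟨y, hy0, hy, hprod⟩ := χ.norm_of_cob_sym (hcob.congr fun σ _ τ _ => by rw [χ.sym_eq])
  -- the number field of the layer
  obtain ⟨E, hE, hEψ⟩ := psi_lev (p := p) n
  obtain ⟨K, hKfin, hK⟩ := exists_field_of_sup χG.ker E
  have hKker : galOf K = χG.ker := by
    rw [hK]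
    refine sup_eq_left.2 fun s hs => ⟨Subgroup.mem_top s, ?_⟩
    show psi p n s = 0
    have h1 := hEψ 1 s hs
    rw [one_mul] at h1
    rw [h1, ← pow_zero (1 : GG), psi_pow hp2, Nat.cast_zero, zero_mul]
  have hyK : y ∈ localField K V := Loc.mem_localField.2 fun σ hσ => hy σ ⟨hσ.2, by
    have : σ ∈ χG.ker := hKker ▸ hσ.1
    exact this.2⟩
  obtain ⟨y', hy'K, hyy'⟩ := Loc.targetDense K hKfin p V hp.out hV y hyK (y * (p : LL) ^ (n + 1))
    (mul_ne_zero hy0 (pow_ne_zero _ (Nat.cast_ne_zero.2 hp.out.ne_zero)))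
  have hlt1 : V.valuation ((p : LL) ^ (n + 1)) < 1 := by
    rw [map_pow]; exact pow_lt_one₀ zero_le (Mazur.valuation_natCast_lt_one V hV) (by omega)
  have hy'v : V.valuation y' = V.valuation y := by
    rw [show y' = y - (y - y') by ring, Valuation.map_sub_eq_of_lt_left]
    refine hyy'.trans_lt ?_
    rw [map_mul]
    exact mul_lt_of_lt_one_right (Mazur.valuation_pos V hy0) hlt1
  have hy'0 : y' ≠ 0 := fun e => by
    rw [e, map_zero] at hy'v
    exact hy0 ((Valuation.zero_iff _).1 hy'v.symm)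
  -- the norms are close
  set a' := ∏ i ∈ Finset.range (p ^ n), (g ^ i) y' with ha'
  have ha'0 : a' ≠ 0 := Finset.prod_ne_zero_iff.2 fun i _ => (map_ne_zero_iff _ (g ^ i).injective).2 hy'0
  have hy'fix : ∀ t ∈ χG.ker, t y' = y' := fun t ht =>
    (IntermediateField.mem_fixingSubgroup_iff _ _).1 (hKker.symm ▸ ht : t ∈ galOf K) y' hy'K
  have ha'fix : ∀ σ : GG, σ a' = a' := by
    intro σ
    refine χG.fixed_of_gen (x := a') (fun t ht => ?_) ?_ (Subgroup.mem_top σ)
    · rw [ha', map_prod]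
      exact Finset.prod_congr rfl fun i _ => χG.fixed_pow hy'fix i t ht
    · rw [ha', map_prod]
      show ∏ i ∈ Finset.range (p ^ n), g ((g ^ i) y') = _
      conv_lhs => arg 2; ext i; rw [← AlgEquiv.mul_apply, ← pow_succ']
      refine Loc.prod_succ_eq (fun i => (g ^ i) y') ?_
      have hmem : g ^ (p ^ n) ∈ χG.ker := ⟨Subgroup.mem_top _, by
        show psi p n _ = 0
        rw [psi_pow hp2, ZMod.natCast_self, zero_mul]⟩
      show (g ^ (p ^ n)) y' = (g ^ 0) y'
      rw [hy'fix _ hmem, pow_zero, AlgEquiv.one_apply]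
  have hprod' : a = ∏ i ∈ Finset.range (p ^ n), (g ^ i) y := hprod.symm
  have hclose : V.valuation (a' / a - 1) ≤ V.valuation ((p : LL) ^ (n + 1)) := by
    rw [ha', hprod', ← Finset.prod_div_distrib]
    have key : ∀ m, V.valuation ((∏ i ∈ Finset.range m, (g ^ i) y' / (g ^ i) y) - 1) ≤
        V.valuation ((p : LL) ^ (n + 1)) := by
      intro m
      induction m with
      | zero => simp
      | succ m ih =>
        have h1 : V.valuation ((g ^ m) y' / (g ^ m) y - 1) ≤ V.valuation ((p : LL) ^ (n + 1)) := by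
          rw [← map_div₀, show (g ^ m) (y' / y) - 1 = (g ^ m) (y' / y - 1) by rw [map_sub, map_one],
            valuation_map (pow_mem hgD m), div_sub_one hy0, map_div₀,
            div_le_iff₀ (Mazur.valuation_pos V hy0), ← map_mul, mul_comm, Valuation.map_sub_swap]
          exact hyy'
        rw [Finset.prod_range_succ, show ∀ x z : LL, x * z - 1 = (x - 1) * z + (z - 1) by
          intro x z; ring]
        refine Valuation.map_add_le _ ?_ h1
        rw [map_mul]
        refine (mul_le_of_le_one_right' ?_).trans ih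
        rw [map_div₀, valuation_map (pow_mem hgD m), valuation_map (pow_mem hgD m), hy'v,
          div_self ((Valuation.ne_zero_iff _).2 hy0)]
    exact key _
  obtain ⟨k, r, hrep⟩ := exists_rep hp.out hV n ha ha0
  have hrep' : Rep V p n a' k r := by
    obtain ⟨-, -, hk, hr⟩ := hrep
    have hpk : V.valuation (p : LL) ≠ 0 := Mazur.valuation_natCast_ne_zero V hp.out
    refine ⟨hp.out, hV, ?_, ?_⟩
    · rw [show a' = a * (a' / a) by field_simp, map_mul,
        Loc.val_eq_one_of_near hlt1 hclose, mul_one, hk]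
    · rw [show a' / (p : LL) ^ k - r = (a / (p : LL) ^ k) * (a' / a - 1) + (a / (p : LL) ^ k - r) by
        field_simp; ring]
      refine Valuation.map_add_le _ ?_ hr
      rw [map_mul, map_div₀, map_zpow₀, hk, div_self (zpow_ne_zero _ hpk), one_mul]
      exact hclose
  rw [phi_eq hrep, ← phi_eq hrep']
  -- the product formula
  have hglob : Cob (⊤ : Subgroup GG) (symR (p ^ n) (psi p n) a') :=
    (χG.cob_sym_of_norm ⟨y', hy'0, hy'fix, rfl⟩).congr fun σ _ τ _ => by rw [χG.sym_eq]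
  obtain ⟨q, hq⟩ := IntermediateField.mem_bot.1 ((InfiniteGalois.mem_bot_iff_fixed a').2 ha'fix)
  rw [eq_ratCast] at hq
  have hq0 : q ≠ 0 := fun e => ha'0 (by rw [← hq, e]; simp)
  let S : Finset ℕ := insert p (q.num.natAbs.primeFactors ∪ q.den.primeFactors)
  have hS : ∀ l ∈ S, l.Prime := fun l hl => by
    rcases Finset.mem_insert.1 hl with rfl | hl
    · exact hp.out
    · rcases Finset.mem_union.1 hl with hl | hl <;> exact Nat.prime_of_mem_primeFactors hl
  have hout : ∀ l : ℕ, l.Prime → l ∉ S → ∀ W : ValuationSubring LL, W.LiesOverPrime l →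
      W.valuation a' = 1 := by
    intro l hl hlS W hW
    simp only [S, Finset.mem_insert, Finset.mem_union, not_or, Nat.mem_primeFactors] at hlS
    have h1 : ¬ l ∣ q.num.natAbs := fun h => hlS.2.1 ⟨hl, h, by simpa using hq0⟩
    have h2 : ¬ l ∣ q.den := fun h => hlS.2.2 ⟨hl, h, q.den_nz⟩
    have habs : W.valuation (q.num : LL) = 1 := by
      rcases Int.natAbs_eq q.num with h | h
      · rw [h, Int.cast_natCast]; exact val_natCast_eq_one hl hW h1
      · rw [h, Int.cast_neg, Int.cast_natCast, Valuation.map_neg]; exact val_natCast_eq_one hl hW h1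
    rw [← hq, Rat.cast_def, map_div₀, habs, val_natCast_eq_one hl hW h2, div_one]
  let W : ℕ → ValuationSubring LL := fun l =>
    if h : l.Prime ∧ l ≠ p then (Frobenius.exists_liesOverPrime l h.1).choose else V
  have hW : ∀ l ∈ S, (W l).LiesOverPrime l := fun l hl => by
    simp only [W]
    split_ifs with h
    · exact (Frobenius.exists_liesOverPrime l h.1).choose_spec
    · obtain rfl : l = p := by_contra fun hne => h ⟨hS l hl, hne⟩
      exact hV
  have hsum := phi_product hp2 n ha'0 ha'fix (Finset.mem_insert_self p _) hS hout W hW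
  rw [Finset.sum_eq_single p (fun l hl hne => phi_cob_away hp2 (hS l hl) (hW l hl) hne n
    (fun σ _ => ha'fix σ) ha'0 (hglob.mono le_top)) (fun h => absurd (Finset.mem_insert_self p _) h)]
    at hsum
  simpa [W] using hsum

/-- The layer. -/
def layer (hp2 : p ≠ 2) : CycloLayer p where
  ψ := psi p
  lev := psi_lev
  mul := psi_mul hp2
  surj n := by
    obtain ⟨V, hV⟩ := Frobenius.exists_liesOverPrime p hp.out
    obtain ⟨σ, -, hσ⟩ := exists_psi_dec hV hp2 n 1
    exact ⟨σ, hσ⟩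
  compat := psi_compat hp2
  big l V hl hV := by
    by_cases hlp : l = p
    · subst hlp
      exact ⟨0, fun n => by
        obtain ⟨σ, hσ, h⟩ := exists_psi_dec hV hp2 n 1
        exact ⟨σ, hσ, by rw [h, pow_zero]⟩⟩
    · obtain ⟨e, he⟩ := exists_padic_lam hp2
        (fun h => hlp ((Nat.prime_dvd_prime_iff_eq hp.out hl).1 h).symm) hl.one_lt
      refine ⟨e, fun n => ?_⟩
      haveI : NeZero (p ^ n) := ⟨(pow_pos hp.out.pos _).ne'⟩
      rcases Nat.lt_or_ge e n with hen | hen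
      · obtain ⟨u, ⟨u, rfl⟩, hu⟩ := he n hen
        obtain ⟨⟨φ, hφD, hφ⟩, -⟩ := exists_psi_frob hl hV hlp hp2 n
        exact ⟨φ ^ (↑u⁻¹ : ZMod (p ^ n)).val, pow_mem hφD _, by
          rw [psi_pow hp2, hφ, hu, ZMod.natCast_zmod_val, mul_comm, mul_assoc, Units.mul_inv, mul_one]⟩
      · refine ⟨1, one_mem _, ?_⟩
        rw [← pow_zero (1 : GG), psi_pow hp2, Nat.cast_zero, zero_mul, ← Nat.cast_pow,
          (ZMod.natCast_eq_zero_iff _ _).2 (pow_dvd_pow p hen)]
  Φ := phi p
  Φ_mul _ _ hl hV n _ _ ha hb ha0 hb0 := phi_mul hp2 hl hV n ha hb ha0 hb0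
  Φ_compat _ _ hl hV n _ ha ha0 := phi_compat hp2 hl hV n ha ha0
  Φ_conj γ _ _ hl hV n _ ha ha0 := phi_conj γ hl hV n ha ha0
  Φ_cob l V hl hV n a ha ha0 hcob := by
    by_cases hlp : l = p
    · subst hlp; exact phi_cob_p hp2 hV n ha ha0 hcob
    · exact phi_cob_away hp2 hl hV hlp n ha ha0 hcob
  Φ_surj l V hl hV n hn := by
    obtain ⟨σ, hσ, hσne⟩ := hn
    by_cases hlp : l = p
    · subst hlp
      obtain ⟨r, hr, hrt⟩ := exists_lam_eq hp2 n 1
      refine ⟨(r : LL), Nat.cast_ne_zero.2 fun e => hr (e ▸ dvd_zero _), fun σ => map_natCast σ r,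
        fun h => hσne ?_⟩
      rw [phi_natCast hl hV hr, symVal, if_pos rfl, hrt, neg_eq_zero] at h
      rw [← mul_one (psi l n σ), h, mul_zero]
    · refine ⟨(l : LL), Nat.cast_ne_zero.2 hl.ne_zero, fun σ => map_natCast σ l, fun h => hσne ?_⟩
      obtain ⟨j, hj⟩ := (exists_psi_frob hl hV hlp hp2 n).2 σ hσ
      rw [← zpow_one (l : LL), phi_prime_zpow hl hV, symVal, if_neg hlp, Int.cast_one, one_mul] at h
      rw [hj, h, mul_zero]
  Φ_unit _ _ hl hV hlp n _ ha hv := phi_unit hl hV hlp n ha hv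
  product n _ ha0 ha _ hpS hS hout V hV := phi_product hp2 n ha0 ha hpS hS hout V hV

end FLTAgent.Lowering.P1.Brauer.Layer

namespace FLTAgent.Lowering.P1.Brauer

/-- **The cyclotomic layer exists.** -/
theorem targetLayer : TargetLayer := fun _ _ _ hp3 => ⟨Layer.layer (by omega)⟩

end FLTAgent.Lowering.P1.Brauer
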