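import Fermat.Agent.Lowering.P1.Brauer.LocalTriv

/-!
# Unramified classes are locally trivial
-/

set_option autoImplicit false
set_option linter.style.haveILetI false
set_option linter.unusedSectionVars false
set_option maxHeartbeats 1000000

noncomputable section

open scoped Pointwise

namespace FLTAgent.Lowering.P1.Brauer

local notation "LL" => AlgebraicClosure ℚ
local notation "GG" => (AlgebraicClosure ℚ ≃ₐ[ℚ] AlgebraicClosure ℚ)

variable {H : Subgroup GG} {p : ℕ} [Fact p.Prime] {l : ℕ} {V : ValuationSubring LL}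

theorem conj_mem_inertia_dec {σ φ : GG} (hσ : σ ∈ V.inertiaSubgroupIn ℚ)
    (hφ : φ ∈ V.decompositionSubgroup ℚ) : φ⁻¹ * σ * φ ∈ V.inertiaSubgroupIn ℚ := by
  have h := Places.conj_mem_inertia V hσ φ⁻¹
  rwa [MulAction.mem_stabilizer_iff.1 (inv_mem hφ), inv_inv] at h

theorem valuation_eq_one_of_pow {x : LL} {n : ℕ} (hn : n ≠ 0) (h : x ^ n = 1) :
    V.valuation x = 1 :=
  (pow_eq_one_iff_of_nonneg zero_le hn).1 (by rw [← map_pow, h, map_one])

variable (hloc : LocalFacts) (hl : l.Prime) (hV : V.LiesOverPrime l)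

include hloc hl hV in
/-- A class with roots of unity as values, constant modulo inertia, is trivial. -/
theorem cob_of_unramified (hH : LocalSub V H) {c : GG → GG → LL} (hc : Coc H c)
    (hμ : ∀ σ ∈ H, ∀ τ ∈ H, c σ τ ^ p = 1)
    (hI : ∀ σ ∈ H ⊓ V.inertiaSubgroupIn ℚ, σ (c 1 1) = c 1 1)
    (hun : ∀ g ∈ H, ∀ h ∈ H, ∀ σ ∈ H ⊓ V.inertiaSubgroupIn ℚ,
      c (g * σ) h = c g h ∧ c g (h * σ) = c g h) : Cob H c := by
  classical
  have hp := (Fact.out : p.Prime)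
  obtain ⟨E₁, hE₁, hlev⟩ := hc.lev
  haveI : FiniteDimensional ℚ (IntermediateField.adjoin ℚ ({c 1 1} : Set LL)) :=
    IntermediateField.adjoin.finiteDimensional (integral_coe _)
  obtain ⟨E, hEf, hEn, hle⟩ :=
    exists_normal_le (E₁ ⊔ IntermediateField.adjoin ℚ ({c 1 1} : Set LL))
  haveI := fix_normal E
  set U := ((H ⊓ V.inertiaSubgroupIn ℚ) ⊔ E.fixingSubgroup) ⊓ H with hU
  have hdec : ∀ u ∈ U, ∃ i ∈ H ⊓ V.inertiaSubgroupIn ℚ, ∃ e ∈ H,
      e ∈ E.fixingSubgroup ∧ u = i * e := by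
    intro u hu
    obtain ⟨hu1, hu2⟩ := Subgroup.mem_inf.1 hu
    obtain ⟨i, hi, e, he, rfl⟩ := Subgroup.mem_sup_of_normal_right.1 hu1
    exact ⟨i, hi, e, by simpa using mul_mem (inv_mem (Subgroup.mem_inf.1 hi).1) hu2, he, rfl⟩
  have hE1' : ∀ e ∈ E.fixingSubgroup, e ∈ E₁.fixingSubgroup := fun e he =>
    IntermediateField.fixingSubgroup_antitone (le_sup_left.trans hle) he
  have hUl : ∀ u ∈ U, ∀ g ∈ H, ∀ h ∈ H, c (g * u) h = c g h ∧ c g (h * u) = c g h := by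
    intro u hu g hg h hh
    obtain ⟨i, hi, e, heH, he, rfl⟩ := hdec u hu
    constructor
    · have := hlev (g * i) (mul_mem hg hi.1) h hh e heH (hE1' e he) 1 (one_mem H) (one_mem _)
      rw [mul_one, mul_assoc] at this
      exact this.trans (hun g hg h hh i hi).1
    · have := hlev g hg (h * i) (mul_mem hh hi.1) 1 (one_mem H) (one_mem _) e heH (hE1' e he)
      rw [mul_one, mul_assoc] at this
      exact this.trans (hun g hg h hh i hi).2
  have hUfix : ∀ u ∈ U, u (c 1 1) = c 1 1 := by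
    intro u hu
    obtain ⟨i, hi, e, -, he, rfl⟩ := hdec u hu
    rw [AlgEquiv.mul_apply, (IntermediateField.mem_fixingSubgroup_iff _ _).1 he _
      (hle (le_sup_right (a := E₁) (IntermediateField.mem_adjoin_simple_self ℚ _))), hI i hi]
  have hUH : U ≤ H := inf_le_right
  have hUconj : ∀ φ ∈ H, ∀ u ∈ U, φ⁻¹ * u * φ ∈ U := by
    intro φ hφ u hu
    obtain ⟨i, hi, e, heH, he, rfl⟩ := hdec u hu
    refine Subgroup.mem_inf.2 ⟨?_, mul_mem (mul_mem (inv_mem hφ) (mul_mem hi.1 heH)) hφ⟩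
    rw [show φ⁻¹ * (i * e) * φ = φ⁻¹ * i * φ * (φ⁻¹ * e * φ) by group]
    exact mul_mem (le_sup_left (α := Subgroup GG) (Subgroup.mem_inf.2
      ⟨mul_mem (mul_mem (inv_mem hφ) hi.1) hφ, conj_mem_inertia_dec hi.2 (hH.le hφ)⟩))
      (le_sup_right (α := Subgroup GG) (fix_conj he φ))
  have hUI : H ⊓ V.inertiaSubgroupIn ℚ ≤ U := le_inf le_sup_left inf_le_left
  have hUE : ∀ s ∈ H, s ∈ E.fixingSubgroup → s ∈ U := fun s hs hsE =>
    Subgroup.mem_inf.2 ⟨le_sup_right (α := Subgroup GG) hsE, hs⟩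
  have hUo : OpenIn U H := ⟨E, hEf, fun x hx => hUE x hx.1 hx.2⟩
  obtain ⟨φ, hφ, hgen⟩ := exists_generator hl hV hH hUI hUo
  -- the order of the generator modulo `U`
  haveI : Finite (↥H ⧸ U.subgroupOf H) := hUo.finite_quotient
  have hex : ∃ N, 0 < N ∧ φ ^ N ∈ U := by
    obtain ⟨a, b, hab, he⟩ : ∃ a b : ℕ, a < b ∧ (QuotientGroup.mk (⟨φ, hφ⟩ ^ a) :
        ↥H ⧸ U.subgroupOf H) = QuotientGroup.mk (⟨φ, hφ⟩ ^ b) := by
      obtain ⟨a, b, hne, he⟩ := Finite.exists_ne_map_eq_of_infinite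
        fun a : ℕ => (QuotientGroup.mk (⟨φ, hφ⟩ ^ a) : ↥H ⧸ U.subgroupOf H)
      rcases Nat.lt_or_gt_of_ne hne with h | h
      exacts [⟨a, b, h, he⟩, ⟨b, a, h, he.symm⟩]
    refine ⟨b - a, by omega, ?_⟩
    have h := QuotientGroup.eq.1 he
    rw [Subgroup.mem_subgroupOf] at h
    simp only [Subgroup.coe_mul, Subgroup.coe_inv, SubgroupClass.coe_pow] at h
    rwa [show φ ^ b = φ ^ a * φ ^ (b - a) by rw [← pow_add, Nat.add_sub_cancel' hab.le],
      inv_mul_cancel_left] at h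
  let N := Nat.find hex
  obtain ⟨hN0, hNU⟩ : 0 < N ∧ φ ^ N ∈ U := Nat.find_spec hex
  have hdvd : ∀ a : ℕ, φ ^ a ∈ U → N ∣ a := fun a ha => by
    refine Nat.dvd_of_mod_eq_zero ?_
    by_contra h
    refine Nat.find_min hex (Nat.mod_lt a hN0) ⟨Nat.pos_of_ne_zero h, ?_⟩
    have h1 : φ ^ (a % N) = φ ^ a * ((φ ^ N) ^ (a / N))⁻¹ := by
      rw [eq_mul_inv_iff_mul_eq, ← pow_mul, ← pow_add, Nat.mod_add_div]
    rw [h1]
    exact mul_mem ha (inv_mem (pow_mem hNU _))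
  have huniq : ∀ (σ : GG) (a b : ℕ), (φ ^ a)⁻¹ * σ ∈ U → (φ ^ b)⁻¹ * σ ∈ U →
      (a : ZMod N) = b := by
    intro σ a b ha hb
    wlog hab : a ≤ b generalizing a b
    · exact (this b a hb ha (le_of_not_ge hab)).symm
    obtain ⟨d, rfl⟩ := Nat.exists_eq_add_of_le hab
    have h := mul_mem ha (inv_mem hb)
    rw [mul_inv_rev, mul_assoc, mul_inv_cancel_left, inv_inv, pow_add, inv_mul_cancel_left] at h
    rw [Nat.cast_add, (ZMod.natCast_eq_zero_iff d N).2 (hdvd d h), add_zero]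
  let ψ : GG → ZMod N := fun σ => if h : σ ∈ H then ((hgen σ h).choose : ℕ) else 0
  have hψ : ∀ σ ∈ H, ∀ j : ℕ, (φ ^ j)⁻¹ * σ ∈ U → ψ σ = j := fun σ hσ j hj => by
    simp only [ψ, dif_pos hσ]
    exact huniq σ _ _ (hgen σ hσ).choose_spec hj
  have hψ' : ∀ σ ∈ H, ∃ j : ℕ, (φ ^ j)⁻¹ * σ ∈ U ∧ ψ σ = j := fun σ hσ => by
    obtain ⟨j, hj⟩ := hgen σ hσ
    exact ⟨j, hj, hψ σ hσ j hj⟩
  have hmul : ∀ σ ∈ H, ∀ τ ∈ H, ψ (σ * τ) = ψ σ + ψ τ := fun σ hσ τ hτ => by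
    obtain ⟨a, ha, hsa⟩ := hψ' σ hσ
    obtain ⟨b, hb, hsb⟩ := hψ' τ hτ
    rw [hsa, hsb, ← Nat.cast_add]
    refine hψ _ (mul_mem hσ hτ) _ ?_
    rw [show (φ ^ (a + b))⁻¹ * (σ * τ) =
      (φ ^ b)⁻¹ * ((φ ^ a)⁻¹ * σ) * φ ^ b * ((φ ^ b)⁻¹ * τ) by rw [pow_add]; group]
    exact mul_mem (hUconj _ (pow_mem hφ b) _ ha) hb
  have hzero : ∀ σ ∈ H, ψ σ = 0 ↔ σ ∈ U := fun σ hσ => by
    obtain ⟨j, hj, hsj⟩ := hψ' σ hσ
    rw [hsj, ZMod.natCast_eq_zero_iff]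
    refine ⟨fun h => ?_, fun h => hdvd j (by simpa using inv_mem (mul_mem hj (inv_mem h)))⟩
    obtain ⟨t, rfl⟩ := h
    rw [pow_mul] at hj
    simpa using mul_mem (pow_mem hNU t) hj
  have hlevψ : LevOn H ψ := ⟨E, hEf, fun g hg s hs hsE => by
    rw [hmul g hg s hs, (hzero s hs).2 (hUE s hs hsE), add_zero]⟩
  -- normalise
  have hzne : c 1 1 ≠ 0 := hc.ne 1 (one_mem H) 1 (one_mem H)
  let c₃ : GG → GG → LL := fun σ τ => c σ τ / dlt (fun _ => c 1 1) σ τ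
  have hc₃ : Coc H c₃ := hc.div (coc_dlt (levOn_const _) fun _ _ => hzne)
  have hd : ∀ σ τ : GG, dlt (fun _ => c 1 1) σ τ = σ (c 1 1) := fun σ τ => by
    simp [dlt, hzne]
  have hB' : ∀ σ ∈ H, ∀ t ∈ U, c₃ σ t = 1 := fun σ hσ t ht => by
    have h := (hUl t ht σ hσ 1 (one_mem H)).2
    rw [one_mul] at h
    simp only [c₃, hd, h, hc.one_right hσ]
    exact div_self ((EmbeddingLike.map_ne_zero_iff).2 hzne)
  have hA' : ∀ t ∈ U, ∀ τ ∈ H, c₃ t τ = 1 := fun t ht τ hτ => by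
    have h := (hUl t ht 1 (one_mem H) τ hτ).1
    rw [one_mul] at h
    simp only [c₃, hd, h, hc.one_left hτ, hUfix t ht]
    exact div_self hzne
  have hμ₃ : ∀ σ ∈ H, ∀ τ ∈ H, c₃ σ τ ^ p = 1 := fun σ hσ τ hτ => by
    simp only [c₃, hd, div_pow, ← map_pow, hμ σ hσ τ hτ, hμ 1 (one_mem H) 1 (one_mem H), map_one,
      div_self one_ne_zero]
  refine ((sim_of_cob_div (c' := c₃) ?_ fun σ hσ τ hτ => hc₃.ne σ hσ τ hτ).cob_iff).2 ?_
  · exact ⟨fun _ => c 1 1, levOn_const _, fun _ _ => hzne, fun σ hσ τ hτ => by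
      simp only [c₃]; rw [div_div_cancel₀ (hc.ne σ hσ τ hτ)]⟩
  rcases Nat.lt_or_ge 1 N with hN1 | hN1
  swap
  · refine (cob_one (H := H)).congr fun σ hσ τ hτ => hB' σ hσ τ ?_
    obtain ⟨j, hj⟩ := hgen τ hτ
    have h1 : φ ∈ U := by simpa [show N = 1 by omega] using hNU
    simpa using mul_mem (pow_mem h1 j) hj
  haveI : NeZero N := ⟨by omega⟩
  have hψpow : ∀ a : ℕ, ψ (φ ^ a) = a := fun a =>
    hψ _ (pow_mem hφ a) a (by rw [inv_mul_cancel]; exact one_mem U)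
  obtain ⟨a, m, hpm, hNm⟩ := Nat.exists_eq_pow_mul_and_not_dvd (show N ≠ 0 by omega) p hp.ne_one
  -- the part of order prime to `p` is killed by the corestriction
  have hm0 : 0 < m := Nat.pos_of_ne_zero fun h => by simp [h] at hNm; omega
  haveI : NeZero m := ⟨hm0.ne'⟩
  have hmN : m ∣ N := ⟨p ^ a, by rw [hNm, mul_comm]⟩
  let f : ↥H →* Multiplicative (ZMod m) :=
    { toFun := fun σ => Multiplicative.ofAdd (ZMod.castHom hmN (ZMod m) (ψ (σ : GG)))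
      map_one' := by
        rw [Subgroup.coe_one, (hzero 1 (one_mem H)).2 (one_mem U), map_zero, ofAdd_zero]
      map_mul' := fun σ τ => by
        rw [Subgroup.coe_mul, hmul _ σ.2 _ τ.2, map_add, ofAdd_add] }
  have hf : Function.Surjective f := fun x => ⟨⟨φ ^ (Multiplicative.toAdd x).val, pow_mem hφ _⟩, by
    show Multiplicative.ofAdd (ZMod.castHom hmN (ZMod m) (ψ (φ ^ _))) = x
    rw [hψpow, map_natCast, ZMod.natCast_zmod_val, ofAdd_toAdd]⟩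
  set A := preImg f (⊥ : Subgroup (Multiplicative (ZMod m)))
  have hmemA : ∀ σ, σ ∈ A ↔ σ ∈ H ∧ m ∣ (ψ σ).val := fun σ => by
    rw [mem_preImg]
    have key : ∀ h : σ ∈ H, f ⟨σ, h⟩ = 1 ↔ m ∣ (ψ σ).val := fun h => by
      show Multiplicative.ofAdd (ZMod.castHom hmN (ZMod m) (ψ σ)) = 1 ↔ _
      rw [ofAdd_eq_one, ← ZMod.natCast_eq_zero_iff]
      conv_lhs => rw [← ZMod.natCast_zmod_val (ψ σ), map_natCast]
    simp only [Subgroup.mem_bot]
    exact ⟨fun ⟨h, h'⟩ => ⟨h, (key h).1 h'⟩, fun ⟨h, h'⟩ => ⟨h, (key h).2 h'⟩⟩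
  have hAH : A ≤ H := preImg_le f ⊥
  have hUA : U ≤ A := fun σ hσ => (hmemA σ).2 ⟨hUH hσ, by
    rw [(hzero σ (hUH hσ)).2 hσ, ZMod.val_zero]; exact dvd_zero m⟩
  have hAo : OpenIn A H := ⟨E, hEf, fun x hx => hUA (hUE x hx.1 hx.2)⟩
  have hcobA : Cob A c₃ := by
    rcases Nat.eq_zero_or_pos a with ha | ha
    · refine (cob_one (H := A)).congr fun σ hσ τ hτ => hB' σ (hAH hσ) τ ((hzero τ (hAH hτ)).1 ?_)
      have hNm' : N = m := by rw [hNm, ha, pow_zero, one_mul]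
      have h := ((hmemA τ).1 hτ).2
      rw [← hNm'] at h
      exact (ZMod.val_eq_zero _).1 (Nat.eq_zero_of_dvd_of_lt h (ZMod.val_lt _))
    let χA : CycChar A (p ^ a) :=
      { ψ := fun σ => (((ψ σ).val / m : ℕ) : ZMod (p ^ a))
        gen := φ ^ m
        one_lt := Nat.one_lt_pow ha.ne' hp.one_lt
        mul := fun σ hσ τ hτ => by
          obtain ⟨x, hx⟩ := ((hmemA σ).1 hσ).2
          obtain ⟨y, hy⟩ := ((hmemA τ).1 hτ).2
          rw [hmul σ (hAH hσ) τ (hAH hτ), ← Nat.cast_add, ZMod.natCast_eq_natCast_iff', ZMod.val_add,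
            hx, hy, ← mul_add, hNm, mul_comm (p ^ a) m, Nat.mul_mod_mul_left,
            Nat.mul_div_cancel_left _ hm0, Nat.mul_div_cancel_left _ hm0,
            Nat.mul_div_cancel_left _ hm0, Nat.mod_mod]
        gen_mem := (hmemA _).2 ⟨pow_mem hφ m, by
          rw [hψpow, ZMod.val_natCast]; exact (Nat.dvd_mod_iff hmN).2 dvd_rfl⟩
        ψ_gen := by
          rw [hψpow, ZMod.val_natCast, Nat.mod_eq_of_lt, Nat.div_self hm0, Nat.cast_one]
          rw [hNm]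
          exact lt_mul_left hm0 (Nat.one_lt_pow ha.ne' hp.one_lt)
        lev := (hlevψ.mono hAH).map fun x => ((x.val / m : ℕ) : ZMod (p ^ a)) }
    have hkerA : ∀ t, t ∈ χA.ker ↔ t ∈ U := by
      intro t
      constructor
      · rintro ⟨htA, ht⟩
        refine (hzero t (hAH htA)).1 ?_
        obtain ⟨x, hx⟩ := ((hmemA t).1 htA).2
        have ht' : (((ψ t).val / m : ℕ) : ZMod (p ^ a)) = 0 := ht
        rw [hx, Nat.mul_div_cancel_left _ hm0, ZMod.natCast_eq_zero_iff] at ht'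
        have hlt := ZMod.val_lt (ψ t)
        rw [hx] at hlt
        refine (ZMod.val_eq_zero _).1 ?_
        rw [hx, Nat.eq_zero_of_dvd_of_lt ht' (Nat.lt_of_mul_lt_mul_left (hlt.trans_eq
          (by rw [hNm, mul_comm]))), mul_zero]
      · intro htU
        refine ⟨hUA htU, ?_⟩
        show (((ψ t).val / m : ℕ) : ZMod (p ^ a)) = 0
        rw [(hzero t (hUH htU)).2 htU, ZMod.val_zero, Nat.zero_div, Nat.cast_zero]
    obtain ⟨hb0, hb, hcob⟩ := χA.sym_of_normalised (hc₃.mono hAH)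
      (fun σ hσ t ht => hB' σ (hAH hσ) t ((hkerA t).1 ht))
      (fun t ht τ hτ => hA' t ((hkerA t).1 ht) τ (hAH hτ))
    set b := ∏ k ∈ Finset.range (p ^ a), c₃ (χA.gen ^ k) χA.gen
    have hbp : b ^ p = 1 := by
      rw [← Finset.prod_pow]
      exact Finset.prod_eq_one fun k _ => hμ₃ _ (hAH (χA.pow_mem' k)) _ (hAH χA.gen_mem)
    have hbv : V.valuation b = 1 := valuation_eq_one_of_pow hp.ne_zero hbp
    obtain ⟨a', rfl⟩ : ∃ a', a = a' + 1 := ⟨a - 1, by omega⟩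
    have hN' := (unit_norm_tower hloc hl hV a' ⟨hAH.trans hH.le, hAo.trans hH.openIn⟩ χA
      (fun σ hσ => (hkerA σ).2 (hUI (Subgroup.mem_inf.2
        ⟨hAH (Subgroup.mem_inf.1 hσ).1, (Subgroup.mem_inf.1 hσ).2⟩))) hb0 hb
      ((V.valuation_le_one_iff _).1 hbv.le)
      ((V.valuation_le_one_iff _).1 (by rw [map_inv₀, hbv, inv_one]))).1
    exact ((sim_of_cob_div hcob fun σ hσ τ hτ => by rw [χA.sym_eq]; exact symR_ne _ hb0 σ τ).cob_iff).2
      (χA.cob_sym_of_norm hN')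
  refine cob_of_coprime hp.one_lt ((cob_one (H := H)).congr hμ₃)
    (cob_pow_index hc₃ hAH hAo hcobA) ?_
  rw [preImg_index f hf, Subgroup.index_bot, Nat.card_congr Multiplicative.toAdd, Nat.card_zmod]
  exact ((Nat.Prime.coprime_iff_not_dvd hp).2 hpm).symm

end FLTAgent.Lowering.P1.Brauer
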