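import Fermat.Agent.Lowering.P1.Brauer.LocalInv
import Fermat.Agent.Lowering.P1.Brauer.Unramified

/-!
# Classes killed by `p` which are locally trivial, and symbols of the layers

A class of an open subgroup which is killed by `p` and locally trivial everywhere is trivial (from
the norm theorem). So a class trivial outside finitely many primes is a symbol of a layer.
-/

set_option autoImplicit false
set_option linter.style.haveILetI false
set_option linter.unusedSectionVars false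
set_option maxHeartbeats 1000000

noncomputable section

open scoped Pointwise

namespace FLTAgent.Lowering.P1.Brauer

local notation "LL" => AlgebraicClosure ℚ
local notation "GG" => (AlgebraicClosure ℚ ≃ₐ[ℚ] AlgebraicClosure ℚ)
local notation "Dec" => ValuationSubring.decompositionSubgroup ℚ

local instance (priority := 900) isAlgebraicLL' : Algebra.IsAlgebraic ℚ LL :=
  AlgebraicClosure.isAlgebraic ℚ

local instance (priority := 900) normalLL' : Normal ℚ LL :=
  normal_iff.2 fun x => ⟨integral_coe x, IsAlgClosed.splits _⟩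

local instance (priority := 900) isGaloisLL' : IsGalois ℚ LL where

theorem valuation_natCast_eq_one {l : ℕ} (hl : l.Prime) {V : ValuationSubring LL}
    (hV : V.LiesOverPrime l) {m : ℕ} (hm : ¬ l ∣ m) : V.valuation (m : LL) = 1 := by
  have hle : ∀ k : ℕ, V.valuation (k : LL) ≤ 1 := fun k =>
    (V.valuation_le_one_iff _).2 (natCast_mem V.toSubring k)
  have hlt : V.valuation (l : LL) < 1 := V.mem_nonunits_iff.1 hV
  refine le_antisymm (hle m) (not_lt.1 fun hlm => ?_)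
  obtain ⟨u, hu⟩ := Nat.exists_mul_mod_eq_one_of_coprime
    ((Nat.Prime.coprime_iff_not_dvd hl).2 hm).symm hl.one_lt
  have h1 : ((m * u : ℕ) : LL) = 1 + ((m * u / l : ℕ) : LL) * (l : LL) := by
    conv_lhs => rw [← Nat.mod_add_div (m * u) l, hu.2]
    push_cast
    ring
  have h2 : V.valuation ((m * u : ℕ) : LL) < 1 := by
    rw [Nat.cast_mul, map_mul]
    exact (mul_le_of_le_one_right' (hle u)).trans_lt hlm
  rw [h1, Valuation.map_one_add_of_lt] at h2
  · exact lt_irrefl 1 h2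
  · rw [map_mul]
    exact (mul_le_of_le_one_left' (hle _)).trans_lt hlt

theorem exists_finset_le_one (b : LL) :
    ∃ S : Finset ℕ, ∀ (l : ℕ) (V : ValuationSubring LL), l.Prime → V.LiesOverPrime l → l ∉ S →
      V.valuation b ≤ 1 := by
  obtain ⟨m, hm0, hint⟩ := ((IsFractionRing.isAlgebraic_iff ℤ ℚ LL).2
    (Algebra.IsAlgebraic.isAlgebraic b)).exists_integral_multiple
  refine ⟨m.natAbs.primeFactors, fun l V hl hV hlS => ?_⟩
  have hndvd : ¬ l ∣ m.natAbs := fun h =>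
    hlS (Nat.mem_primeFactors.2 ⟨hl, h, Int.natAbs_ne_zero.2 hm0⟩)
  have h1 := (V.valuation_le_one_iff _).2 (Frobenius.integralClosure_le V ⟨_, hint⟩)
  have hm1 : V.valuation (m : LL) = 1 := by
    obtain ⟨k, rfl | rfl⟩ := m.eq_nat_or_neg
    · rw [Int.cast_natCast]
      exact valuation_natCast_eq_one hl hV (by simpa using hndvd)
    · rw [Int.cast_neg, Int.cast_natCast, Valuation.map_neg]
      exact valuation_natCast_eq_one hl hV (by simpa using hndvd)
  simpa [zsmul_eq_mul, hm1] using h1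

theorem exists_finset_eq_one {b : LL} (hb : b ≠ 0) :
    ∃ S : Finset ℕ, ∀ (l : ℕ) (V : ValuationSubring LL), l.Prime → V.LiesOverPrime l → l ∉ S →
      V.valuation b = 1 := by
  obtain ⟨S, hS⟩ := exists_finset_le_one b
  obtain ⟨T, hT⟩ := exists_finset_le_one b⁻¹
  refine ⟨S ∪ T, fun l V hl hV h => le_antisymm (hS l V hl hV fun hh => h (Finset.mem_union_left _ hh)) ?_⟩
  have h2 := hT l V hl hV fun hh => h (Finset.mem_union_right _ hh)
  rwa [map_inv₀, inv_le_one₀ (zero_lt_iff.2 ((Valuation.ne_zero_iff _).2 hb))] at h2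

/-- Almost all primes are unramified in a number field. -/
theorem exists_finset_unramified (E : IntermediateField ℚ LL) [FiniteDimensional ℚ E] :
    ∃ S : Finset ℕ, ∀ (l : ℕ) (V : ValuationSubring LL), l.Prime → V.LiesOverPrime l → l ∉ S →
      V.inertiaSubgroupIn ℚ ≤ E.fixingSubgroup := by
  classical
  let bas := Module.Free.chooseBasis ℚ E
  obtain ⟨N, hNf, hNn, hEN⟩ := exists_normal_le E
  let W : Finset LL := (Finset.univ.image fun i => ((bas i : E) : LL)) ∪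
    (Finset.univ.image fun x : (N ≃ₐ[ℚ] N) × Module.Free.ChooseBasisIndex ℚ E =>
      ((x.1 ⟨_, hEN (bas x.2).2⟩ : N) : LL) - ((bas x.2 : E) : LL))
  have hex : ∀ w : LL, ∃ S : Finset ℕ, w = 0 ∨ ∀ (l : ℕ) (V : ValuationSubring LL), l.Prime →
      V.LiesOverPrime l → l ∉ S → V.valuation w = 1 := fun w => by
    rcases eq_or_ne w 0 with h | h
    · exact ⟨∅, Or.inl h⟩
    · obtain ⟨S, hS⟩ := exists_finset_eq_one h
      exact ⟨S, Or.inr hS⟩
  choose T hT using hex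
  refine ⟨W.biUnion T, fun l V hl hV hlS σ hσ => ?_⟩
  have hgood : ∀ w ∈ W, w = 0 ∨ V.valuation w = 1 := fun w hw =>
    (hT w).imp_right fun h => h l V hl hV fun hh => hlS (Finset.mem_biUnion.2 ⟨w, hw, hh⟩)
  have hfix : ∀ i, σ ((bas i : E) : LL) = ((bas i : E) : LL) := fun i => by
    have hx : ((bas i : E) : LL) ∈ V := by
      refine (V.valuation_le_one_iff _).1 ?_
      rcases hgood _ (Finset.mem_union_left _ (Finset.mem_image.2 ⟨i, Finset.mem_univ _, rfl⟩))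
        with h | h
      · rw [h, map_zero]; exact zero_le
      · exact h.le
    by_contra hne
    have h1 := hgood _ (Finset.mem_union_right _ (Finset.mem_image.2
      ⟨(AlgEquiv.restrictNormalHom N σ, i), Finset.mem_univ _, rfl⟩))
    have h3 : ((AlgEquiv.restrictNormalHom N σ ⟨_, hEN (bas i).2⟩ : N) : LL) = σ ((bas i : E) : LL) :=
      AlgEquiv.restrictNormal_commutes σ N ⟨_, hEN (bas i).2⟩
    rw [h3] at h1
    have h2 := V.mem_nonunits_iff.1 (((Places.mem_inertia_iff V).1 hσ).2 _ hx)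
    rcases h1 with h1 | h1
    · exact hne (sub_eq_zero.1 h1)
    · exact h2.ne h1
  rw [IntermediateField.mem_fixingSubgroup_iff]
  intro x hx
  have e := bas.sum_repr (⟨x, hx⟩ : E)
  have e2 : x = ∑ i, (bas.repr ⟨x, hx⟩ i) • ((bas i : E) : LL) := by
    have h := congrArg E.val e.symm
    rw [map_sum] at h
    exact h
  rw [e2, map_sum]
  exact Finset.sum_congr rfl fun i _ => by
    rw [Algebra.smul_def, map_mul, AlgEquiv.commutes, hfix i]

/-! ### Open subgroups -/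

theorem exists_field_of_open {A : Subgroup GG} (hA : OpenIn A ⊤) :
    ∃ L : IntermediateField ℚ LL, FiniteDimensional ℚ L ∧ galOf L = A := by
  obtain ⟨E, hE, hle⟩ := hA
  obtain ⟨L, hL, h⟩ := exists_field_of_sup A E
  exact ⟨L, hL, h.trans (sup_eq_left.2 (by simpa using hle))⟩

theorem mem_of_galOf_fixed {L : IntermediateField ℚ LL} {b : LL}
    (hb : ∀ σ ∈ galOf L, σ b = b) : b ∈ L := by
  rw [← InfiniteGalois.fixedField_fixingSubgroup L, IntermediateField.mem_fixedField_iff]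
  exact hb

theorem OpenIn.localSub {A : Subgroup GG} (hA : OpenIn A ⊤) (V : ValuationSubring LL) :
    LocalSub V (A ⊓ Dec V) := by
  obtain ⟨E, hE, hle⟩ := hA
  exact ⟨inf_le_right, E, hE, fun x hx => Subgroup.mem_inf.2
    ⟨hle (Subgroup.mem_inf.2 ⟨Subgroup.mem_top _, (Subgroup.mem_inf.1 hx).2⟩),
      (Subgroup.mem_inf.1 hx).1⟩⟩

variable {p : ℕ} [Fact p.Prime] (hnorm : TargetNormTheorem) (hloc : LocalFacts) (hp3 : 2 < p)

/-- Locally trivial everywhere. -/
def LocallyTrivial (H : Subgroup GG) (c : GG → GG → LL) : Prop :=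
  ∀ (l : ℕ) (V : ValuationSubring LL), l.Prime → V.LiesOverPrime l → Cob (H ⊓ Dec V) c

theorem LocallyTrivial.mono {H H' : Subgroup GG} {c : GG → GG → LL} (h : LocallyTrivial H c)
    (hle : H' ≤ H) : LocallyTrivial H' c :=
  fun l V hl hV => (h l V hl hV).mono (inf_le_inf_right _ hle)

include hnorm hloc hp3 in
/-- One step of the Sylow tower. -/
theorem cob_step {A : Subgroup GG} (hA : OpenIn A ⊤) {ζ : LL} (hζ : IsPrimitiveRoot ζ p)
    (hζA : ∀ σ ∈ A, σ ζ = ζ) (χ : CycChar A p) {c : GG → GG → LL} (hc : Coc A c)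
    (hker : Cob χ.ker c) (hlt : LocallyTrivial A c) : Cob A c := by
  obtain ⟨b, hb0, hb, hd⟩ := χ.exists_eq_sym hc hker
  have hs : Sim A c (χ.sym b) :=
    sim_of_cob_div hd fun σ _ τ _ => by rw [χ.sym_eq]; exact symR_ne _ hb0 σ τ
  obtain ⟨L, hLf, hL⟩ := exists_field_of_open hA
  obtain ⟨K, hKf, hK⟩ := exists_field_of_open (χ.openIn.trans hA)
  have hLK : L ≤ K := galOf_le_iff.1 (by rw [hK, hL]; exact χ.ker_le)
  have hn : ∀ σ ∈ galOf L, ∀ τ ∈ galOf K, σ * τ * σ⁻¹ ∈ galOf K := fun σ hσ τ hτ => by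
    rw [hK] at hτ ⊢
    rw [hL] at hσ
    simpa using χ.conj_mem (inv_mem hσ) hτ
  have hidx : (galOf K).relIndex (galOf L) = p := by rw [hK, hL]; exact (ker_relIndex χ).2
  refine hs.cob_iff.2 (χ.cob_sym_of_norm ?_)
  have hN := hnorm hloc p hp3 L K hLf hKf hLK ⟨ζ, mem_of_galOf_fixed (hL.symm ▸ hζA), hζ⟩ hn hidx b
    (mem_of_galOf_fixed (hL.symm ▸ hb)) hb0 fun l V hl hV => ?_
  · obtain ⟨y, hy0, hy, hprod⟩ := hN
    refine ⟨y, hy0, fun t ht => hy t (Subgroup.mem_inf.2 ⟨hK.symm ▸ ht, Subgroup.mem_top t⟩),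
      hprod _ (Subgroup.mem_inf.2 ⟨hL.symm ▸ χ.gen_mem, Subgroup.mem_top _⟩) fun h => ?_⟩
    rw [hK] at h
    exact one_ne_zero (α := ZMod p) (by rw [← χ.ψ_gen]; exact h.2)
  by_cases hsplit : A ⊓ Dec V ≤ χ.ker
  · refine ⟨b, hb0, fun σ hσ => hb σ (χ.ker_le ?_), fun σ hσ hσK => (hσK ?_).elim⟩
    · rw [hK] at hσ; exact (Subgroup.mem_inf.1 hσ).1
    · rw [hL] at hσ
      rw [hK]
      exact hsplit hσ
  obtain ⟨σ₁, hσ₁, hσ₁'⟩ := SetLike.not_le_iff_exists.1 hsplit
  let χV : CycChar (A ⊓ Dec V) p := CycChar.ofNe (ψ := χ.ψ)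
    (fun σ hσ τ hτ => χ.mul σ hσ.1 τ hτ.1) (χ.lev.mono inf_le_left)
    ⟨σ₁, hσ₁, fun h => hσ₁' ⟨(Subgroup.mem_inf.1 hσ₁).1, h⟩⟩
  have hkerV : galOf K ⊓ Dec V = χV.ker := by
    rw [hK]
    ext σ
    exact ⟨fun h => ⟨Subgroup.mem_inf.2 ⟨χ.ker_le h.1, h.2⟩, h.1.2⟩,
      fun h => ⟨⟨h.1.1, h.2⟩, h.1.2⟩⟩
  refine (isNormOn_iff χV (by rw [hL]) hkerV b).2 (χV.norm_of_cob_sym ?_)
  exact ((hs.mono inf_le_left).cob_iff).1 (hlt l V hl hV)

include hnorm hloc hp3 in
theorem cob_of_locally_mu {H : Subgroup GG} (hH : OpenIn H ⊤) {ζ : LL} (hζ : IsPrimitiveRoot ζ p)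
    (hζH : ∀ σ ∈ H, σ ζ = ζ) {c : GG → GG → LL} (hc : Coc H c)
    (ht : Cob H fun σ τ => c σ τ ^ p) (hlt : LocallyTrivial H c) : Cob H c := by
  classical
  obtain ⟨E₀, hE₀, hle₀⟩ := hH
  obtain ⟨E, hEf, hEn, hE₀E, hS⟩ := exists_cob_level hc (E₀ := E₀)
  have hEH : E.fixingSubgroup ≤ H := fun s hs => hle₀ (Subgroup.mem_inf.2
    ⟨Subgroup.mem_top s, IntermediateField.fixingSubgroup_antitone hE₀E hs⟩)
  let R : ↥H →* (E ≃ₐ[ℚ] E) := (AlgEquiv.restrictNormalHom E).comp H.subtype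
  have hker : ∀ x : ↥H, R x = 1 → (x : GG) ∈ E.fixingSubgroup := fun x hx => by
    rw [IntermediateField.mem_fixingSubgroup_iff]
    intro y hy
    have h := AlgEquiv.restrictNormal_commutes (x : GG) E ⟨y, hy⟩
    rw [show (x : GG).restrictNormal E = R x from rfl, hx] at h
    simpa using h.symm
  have hSle : ∀ Q : Subgroup R.range, E.fixingSubgroup ≤ preImg R.rangeRestrict Q :=
    fun Q σ hσE => by
    have h1 : R ⟨σ, hEH hσE⟩ = 1 := AlgEquiv.ext fun y => Subtype.ext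
      ((AlgEquiv.restrictNormal_commutes σ E y).trans
        ((IntermediateField.mem_fixingSubgroup_iff _ _).1 hσE _ y.2))
    refine mem_preImg.2 ⟨hEH hσE, ?_⟩
    rw [show R.rangeRestrict ⟨σ, hEH hσE⟩ = 1 from Subtype.ext h1]
    exact one_mem Q
  have hopen : ∀ Q : Subgroup R.range, OpenIn (preImg R.rangeRestrict Q) ⊤ := fun Q =>
    ⟨E, hEf, inf_le_right.trans (hSle Q)⟩
  obtain ⟨P⟩ : Nonempty (Sylow p R.range) := inferInstance
  suffices key : ∀ Q : Subgroup R.range, Q ≤ P → Cob (preImg R.rangeRestrict Q) c by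
    have hcop : ¬ p ∣ (preImg R.rangeRestrict P).relIndex H := by
      rw [preImg_index _ R.rangeRestrict_surjective]
      exact P.not_dvd_index
    exact cob_of_coprime (Fact.out : p.Prime).one_lt ht
      (cob_pow_index hc (preImg_le _ _) ⟨E, hEf, inf_le_right.trans (hSle P)⟩ (key P le_rfl))
      ((Nat.Prime.coprime_iff_not_dvd Fact.out).2 hcop).symm
  intro Q
  induction hQc : Nat.card Q using Nat.strong_induction_on generalizing Q with
  | h n ih =>
    intro hQP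
    subst hQc
    by_cases hbot : Q = ⊥
    · refine hS.mono fun σ hσ => ?_
      obtain ⟨hσH, hq⟩ := mem_preImg.1 hσ
      rw [hbot, Subgroup.mem_bot] at hq
      exact Subgroup.mem_inf.2 ⟨hσH, hker ⟨σ, hσH⟩ (congrArg Subtype.val hq)⟩
    have hpg : IsPGroup p Q := P.isPGroup'.to_le hQP
    obtain ⟨k, hk⟩ := hpg.exists_card_eq
    have hk0 : k ≠ 0 := fun h0 => hbot (Subgroup.card_eq_one.1 (by rw [hk, h0, pow_zero]))
    obtain ⟨Q₁, hQ₁⟩ := Sylow.exists_subgroup_card_pow_prime p (n := k - 1) (G := Q)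
      (hk ▸ pow_dvd_pow p (Nat.sub_le k 1))
    have hidx : Q₁.index = p := by
      have h := Q₁.card_mul_index
      rw [hQ₁, hk] at h
      have h2 : p ^ k = p ^ (k - 1) * p := by rw [← pow_succ]; congr 1; omega
      exact mul_left_cancel₀ (pow_ne_zero _ (Fact.out : p.Prime).ne_zero) (h.trans h2)
    haveI : Q₁.Normal := Subgroup.normal_of_index_eq_minFac_card
      (by rw [hidx, hk, (Fact.out : p.Prime).pow_minFac hk0])
    let Q' : Subgroup R.range := Q₁.map Q.subtype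
    have hQ'Q : Q' ≤ Q := Subgroup.map_subtype_le _
    have hlt' : Nat.card Q' < Nat.card Q := by
      rw [show Nat.card Q' = Nat.card Q₁ from
        (Nat.card_congr (Subgroup.equivMapOfInjective Q₁ Q.subtype Q.subtype_injective).toEquiv).symm,
        hQ₁, hk]
      exact Nat.pow_lt_pow_right (Fact.out : p.Prime).one_lt (by omega)
    have hcob := ih _ hlt' Q' rfl (hQ'Q.trans hQP)
    obtain ⟨ψ, hadd, hzero⟩ := exists_quot_char R.rangeRestrict Q₁ hidx
    set A := preImg R.rangeRestrict Q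
    by_cases hAB : A ≤ preImg R.rangeRestrict Q'
    · exact hcob.mono hAB
    obtain ⟨σ₁, hσ₁, hσ₁'⟩ := SetLike.not_le_iff_exists.1 hAB
    have hlev : LevOn A ψ := ⟨E, hEf, fun g hg s hs hsE => by
      rw [hadd g hg s hs, (hzero s hs).2 (hSle Q' hsE), add_zero]⟩
    let χA : CycChar A p :=
      CycChar.ofNe hadd hlev ⟨σ₁, hσ₁, fun h => hσ₁' ((hzero σ₁ hσ₁).1 h)⟩
    exact cob_step hnorm hloc hp3 (hopen Q) hζ (fun σ hσ => hζH σ (preImg_le _ _ hσ)) χA
      (hc.mono (preImg_le _ _)) (hcob.mono fun σ hσ => (hzero σ hσ.1).1 hσ.2)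
      (hlt.mono (preImg_le _ _))

include hnorm hloc hp3 in
/-- A class killed by `p` and locally trivial everywhere is trivial. -/
theorem cob_of_locally {H : Subgroup GG} (hH : OpenIn H ⊤) {c : GG → GG → LL} (hc : Coc H c)
    (ht : Cob H fun σ τ => c σ τ ^ p) (hlt : LocallyTrivial H c) : Cob H c := by
  have hp := (Fact.out : p.Prime)
  haveI : NeZero (p : LL) := ⟨Nat.cast_ne_zero.2 hp.ne_zero⟩
  obtain ⟨ζ, hζ⟩ := HasEnoughRootsOfUnity.exists_primitiveRoot LL p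
  have h1 := cob_of_locally_mu hnorm hloc hp3 ((openIn_inf_fixZ hζ H).trans hH) hζ
    (fun σ hσ => (mem_fixZ hζ).1 (Subgroup.mem_inf.1 hσ).2) (hc.mono inf_le_left)
    (ht.mono inf_le_left) (hlt.mono inf_le_left)
  exact cob_of_coprime hp.one_lt ht (cob_pow_index hc inf_le_left (openIn_inf_fixZ hζ H) h1)
    ((Nat.Prime.coprime_iff_not_dvd hp).2 (fixZ_relIndex hζ H)).symm

include hnorm hloc hp3 in
/-- A class trivial outside finitely many primes is a symbol of every high enough layer. -/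
theorem exists_eq_layer (Y : CycloLayer p) {H : Subgroup GG} (hH : OpenIn H ⊤)
    {c : GG → GG → LL} (hc : Coc H c) (ht : Cob H fun σ τ => c σ τ ^ p) (S : Finset ℕ)
    (hS : ∀ (l : ℕ) (V : ValuationSubring LL), l.Prime → V.LiesOverPrime l → l ∉ S →
      Cob (H ⊓ Dec V) c) :
    ∃ n₁, 0 < n₁ ∧ ∀ n, n₁ ≤ n → ∃ b : LL, b ≠ 0 ∧ (∀ σ ∈ H, σ b = b) ∧
      Sim H c (symR (p ^ n) (Y.ψ n) b) := by
  classical
  have hp := (Fact.out : p.Prime)
  obtain ⟨E₀, hE₀, hle₀⟩ := hH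
  obtain ⟨E, hEf, hEn, hE₀E⟩ := exists_normal_le E₀
  have hEH : ∀ s ∈ E.fixingSubgroup, s ∈ H := fun s hs => hle₀ (Subgroup.mem_inf.2
    ⟨Subgroup.mem_top s, IntermediateField.fixingSubgroup_antitone hE₀E hs⟩)
  have hH' : OpenIn H ⊤ := ⟨E₀, hE₀, hle₀⟩
  set N := Nat.card (E ≃ₐ[ℚ] E)
  have hN : 0 < N := Nat.card_pos
  have hpowH : ∀ σ : GG, σ ^ N ∈ H := fun σ => hEH _ (by
    rw [IntermediateField.mem_fixingSubgroup_iff]
    intro x hx
    have h1 : AlgEquiv.restrictNormalHom E (σ ^ N) = 1 := by rw [map_pow]; exact pow_card_eq_one'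
    have h2 := AlgEquiv.restrictNormal_commutes (σ ^ N) E ⟨x, hx⟩
    exact h2.symm.trans (congrArg (fun f : E ≃ₐ[ℚ] E => ((f ⟨x, hx⟩ : E) : LL)) h1))
  -- the image bound is the same for all places over one prime
  have hbound : ∀ l : ℕ, ∃ e : ℕ, ∀ (V : ValuationSubring LL), l.Prime → V.LiesOverPrime l →
      ∀ n, ∃ σ ∈ Dec V, Y.ψ n σ = (p : ZMod (p ^ n)) ^ e := fun l => by
    by_cases h : l.Prime ∧ ∃ V : ValuationSubring LL, V.LiesOverPrime l
    · obtain ⟨hl, V₀, hV₀⟩ := h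
      obtain ⟨e, he⟩ := Y.big l V₀ hl hV₀
      refine ⟨e, fun V _ hV n => ?_⟩
      obtain ⟨g, rfl⟩ := Places.exists_smul_eq hl hV₀ hV
      obtain ⟨σ, hσ, hσe⟩ := he n
      refine ⟨g * σ * g⁻¹, ?_, ?_⟩
      · rw [MulAction.mem_stabilizer_iff, smul_smul, inv_mul_cancel_right, mul_smul,
          MulAction.mem_stabilizer_iff.1 hσ]
      · have hg : Y.ψ n g⁻¹ = -Y.ψ n g := by
          have h := Y.mul n g g⁻¹
          rw [mul_inv_cancel, psi_one Y n] at h
          exact eq_neg_of_add_eq_zero_right h.symm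
        rw [Y.mul, Y.mul, hg, hσe]
        ring
    · exact ⟨0, fun V hl hV => (h ⟨hl, V, hV⟩).elim⟩
  choose e he using hbound
  refine ⟨S.sup e + N + 1, Nat.succ_pos _, fun n hn => ?_⟩
  haveI : NeZero (p ^ n) := ⟨pow_ne_zero _ hp.ne_zero⟩
  have hNp : ¬ p ^ (N + 1) ∣ N := fun h => by
    have h2 := Nat.le_of_dvd hN h
    have h3 := Nat.lt_pow_self (n := N + 1) hp.one_lt
    omega
  obtain ⟨σ₀, hσ₀⟩ := Y.surj n
  have hne : ∃ σ ∈ H, Y.ψ n σ ≠ 0 := ⟨σ₀ ^ N, hpowH σ₀, fun h => by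
    rw [psi_pow, hσ₀, mul_one, ZMod.natCast_eq_zero_iff] at h
    exact hNp ((pow_dvd_pow p (by omega)).trans h)⟩
  obtain ⟨t, htn, χ, hval, hzero⟩ := exists_scaled (fun σ _ τ _ => Y.mul n σ τ) (psi_levOn Y n) hne
  have hcob : Cob χ.ker c := by
    refine cob_of_locally hnorm hloc hp3 (χ.openIn.trans hH') (hc.mono χ.ker_le)
      (ht.mono χ.ker_le) fun l V hl hV => ?_
    by_cases hlS : l ∈ S
    swap
    · exact (hS l V hl hV hlS).mono (inf_le_inf_right _ χ.ker_le)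
    obtain ⟨σ, hσ, hσe⟩ := he l V hl hV n
    have hneV : ∃ τ ∈ H ⊓ Dec V, Y.ψ n τ ≠ 0 :=
      ⟨σ ^ N, Subgroup.mem_inf.2 ⟨hpowH σ, pow_mem hσ N⟩, fun h => by
        rw [psi_pow, hσe, ← Nat.cast_pow, ← Nat.cast_mul, ZMod.natCast_eq_zero_iff] at h
        have hes : e l ≤ S.sup e := Finset.le_sup hlS
        have h1 : p ^ (N + 1) * p ^ e l ∣ N * p ^ e l := by
          rw [← pow_add]
          exact (pow_dvd_pow p (by omega)).trans h
        exact hNp (Nat.dvd_of_mul_dvd_mul_right (pow_pos hp.pos _) h1)⟩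
    obtain ⟨t', -, χV, -, hzeroV⟩ :=
      exists_scaled (fun σ _ τ _ => Y.mul n σ τ) (psi_levOn Y n) hneV
    refine ((cob_ker_of_torsion hloc hl hV (by omega) (hH'.localSub V) (hc.mono inf_le_left)
      (ht.mono inf_le_left) χV.red).mono χV.ker_le_red).mono fun τ hτ => ?_
    obtain ⟨h1, h2⟩ := Subgroup.mem_inf.1 hτ
    exact (hzeroV τ (Subgroup.mem_inf.2 ⟨χ.ker_le h1, h2⟩)).1 ((hzero τ (χ.ker_le h1)).2 h1)
  obtain ⟨b, hb0, hb, hd⟩ := χ.exists_eq_sym hc hcob
  exact ⟨b, hb0, hb, (sim_of_cob_div hd fun σ _ τ _ => by rw [χ.sym_eq]; exact symR_ne _ hb0 σ τ).trans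
    (Sim.of_eq fun σ hσ τ hτ => (layer_sym Y htn χ hval b σ hσ τ hτ).symm)⟩

end FLTAgent.Lowering.P1.Brauer
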