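import Fermat.Agent.Lowering.P1.Brauer.Conj
import Fermat.Agent.Lowering.P1.Brauer.Global

/-!
# Reciprocity of the norm residue symbols of a Kummer extension

The local symbol is the invariant of the symbol of the character, and the sum formula is the product
formula of a high cyclotomic layer, decomposed along the places over each prime.
-/

set_option autoImplicit false
set_option linter.style.haveILetI false
set_option linter.unusedSectionVars false
set_option maxHeartbeats 1000000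

noncomputable section

open scoped Pointwise

namespace FLTAgent.Lowering.P1.Brauer

local notation "LL" => AlgebraicClosure ℚ
local notation "GG" => (AlgebraicClosure ℚ ≃ₐ[ℚ] AlgebraicClosure ℚ)
local notation "Dec" => ValuationSubring.decompositionSubgroup ℚ

theorem prime_unique {V : ValuationSubring LL} {l l' : ℕ} (hl : l.Prime) (hl' : l'.Prime)
    (hV : V.LiesOverPrime l) (hV' : V.LiesOverPrime l') : l = l' := by
  by_contra h
  have h1 := valuation_natCast_eq_one hl hV (m := l')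
    fun hd => h ((Nat.prime_dvd_prime_iff_eq hl hl').1 hd)
  exact (V.mem_nonunits_iff.1 hV').ne h1

theorem open_top_of_field (L : IntermediateField ℚ LL) [FiniteDimensional ℚ L] :
    OpenIn (galOf L) ⊤ :=
  ⟨L, inferInstance, inf_le_right⟩

theorem natCast_val_sum' {p : ℕ} [Fact p.Prime] {n : ℕ} (hn : 0 < n) {ι : Type} (s : Finset ι)
    (t : ι → ZMod p) : (((∑ i ∈ s, t i).val * p ^ (n - 1) : ℕ) : ZMod (p ^ n)) =
      ∑ i ∈ s, (((t i).val * p ^ (n - 1) : ℕ) : ZMod (p ^ n)) := by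
  classical
  induction s using Finset.induction_on with
  | empty => simp
  | insert i s his ih =>
    rw [Finset.sum_insert his, Finset.sum_insert his, natCast_val_add hn, ih]

/-- Orbits of places under a subgroup. -/
def placeKey (A : Subgroup GG) (V : ValuationSubring LL) : Set (ValuationSubring LL) :=
  {W | ∃ σ ∈ A, σ • V = W}

theorem placeKey_eq_iff {A : Subgroup GG} {V W : ValuationSubring LL} :
    placeKey A V = placeKey A W ↔ ∃ σ ∈ A, σ • V = W := by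
  refine ⟨fun h => ?_, fun ⟨σ, hσ, h⟩ => ?_⟩
  · have h1 : W ∈ placeKey A W := ⟨1, one_mem A, one_smul _ _⟩
    rwa [← h] at h1
  · subst h
    ext X
    constructor
    · rintro ⟨τ, hτ, rfl⟩
      exact ⟨τ * σ⁻¹, mul_mem hτ (inv_mem hσ), by rw [mul_smul, inv_smul_smul]⟩
    · rintro ⟨τ, hτ, rfl⟩
      exact ⟨τ * σ, mul_mem hτ hσ, mul_smul _ _ _⟩

variable {p : ℕ} [Fact p.Prime] (hloc : LocalFacts) (hp3 : 2 < p) (Y : CycloLayer p)
  {L : IntermediateField ℚ LL} [FiniteDimensional ℚ L] (χ : CycChar (galOf L) p) {b : LL}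

theorem mem_fixed (hbL : b ∈ L) : ∀ σ ∈ galOf L, σ b = b := fun _ hσ =>
  (IntermediateField.mem_fixingSubgroup_iff _ _).1 hσ b hbL

theorem coc_local (hb0 : b ≠ 0) (hbL : b ∈ L) (V : ValuationSubring LL) :
    Coc (galOf L ⊓ Dec V) (χ.sym b) :=
  (χ.coc_sym hb0 (mem_fixed hbL)).mono inf_le_left

theorem tor_local (hb0 : b ≠ 0) (hbL : b ∈ L) (V : ValuationSubring LL) :
    Cob (galOf L ⊓ Dec V) fun σ τ => χ.sym b σ τ ^ p :=
  (cob_sym_pow_p χ hb0 (mem_fixed hbL)).mono inf_le_left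

/-- The norm residue symbol. -/
def theta (V : ValuationSubring LL) (b : LL) : ZMod p :=
  invH Y V (galOf L ⊓ Dec V) (χ.sym b)

/-- Local norms and local triviality. -/
theorem isNormOn_iff_cob {K : IntermediateField ℚ LL} (hK : galOf K = χ.ker) (hb0 : b ≠ 0)
    (hbL : b ∈ L) (V : ValuationSubring LL) :
    IsNormOn p L K (Dec V) b ↔ Cob (galOf L ⊓ Dec V) (χ.sym b) := by
  by_cases hsplit : galOf L ⊓ Dec V ≤ χ.ker
  · refine ⟨fun _ => ?_, fun _ => ⟨b, hb0, fun σ hσ => mem_fixed hbL σ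
      (χ.ker_le (hK ▸ (Subgroup.mem_inf.1 hσ).1)), fun σ hσ hσK => (hσK (hK ▸ hsplit hσ)).elim⟩⟩
    exact (cob_symR_ker χ b).mono hsplit
  obtain ⟨σ₁, hσ₁, hσ₁'⟩ := SetLike.not_le_iff_exists.1 hsplit
  let χV : CycChar (galOf L ⊓ Dec V) p := CycChar.ofNe (ψ := χ.ψ)
    (fun σ hσ τ hτ => χ.mul σ hσ.1 τ hτ.1) (χ.lev.mono inf_le_left)
    ⟨σ₁, hσ₁, fun h => hσ₁' ⟨(Subgroup.mem_inf.1 hσ₁).1, h⟩⟩
  have hkerV : galOf K ⊓ Dec V = χV.ker := by
    rw [hK]
    ext σ
    exact ⟨fun h => ⟨Subgroup.mem_inf.2 ⟨χ.ker_le h.1, h.2⟩, h.1.2⟩,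
      fun h => ⟨⟨h.1.1, h.2⟩, h.1.2⟩⟩
  rw [isNormOn_iff χV rfl hkerV b]
  exact ⟨χV.cob_sym_of_norm, χV.norm_of_cob_sym⟩

include hloc in
theorem isNormOn_unit {K : IntermediateField ℚ LL} (hK : galOf K = χ.ker) (hbL : b ∈ L)
    (hb0 : b ≠ 0) {l : ℕ} {V : ValuationSubring LL} (hl : l.Prime) (hV : V.LiesOverPrime l)
    (hI : ∀ σ ∈ galOf L, σ ∈ V.inertiaSubgroupIn ℚ → σ ∈ galOf K)
    (hb : b ∈ V) (hb' : b⁻¹ ∈ V) : IsNormOn p L K (Dec V) b := by
  by_cases hsplit : galOf L ⊓ Dec V ≤ χ.ker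
  · exact (isNormOn_iff_cob χ hK hb0 hbL V).2 ((cob_symR_ker χ b).mono hsplit)
  obtain ⟨σ₁, hσ₁, hσ₁'⟩ := SetLike.not_le_iff_exists.1 hsplit
  let χV : CycChar (galOf L ⊓ Dec V) p := CycChar.ofNe (ψ := χ.ψ)
    (fun σ hσ τ hτ => χ.mul σ hσ.1 τ hτ.1) (χ.lev.mono inf_le_left)
    ⟨σ₁, hσ₁, fun h => hσ₁' ⟨(Subgroup.mem_inf.1 hσ₁).1, h⟩⟩
  refine (isNormOn_iff_cob χ hK hb0 hbL V).2 (χV.cob_sym_of_norm (unit_norm hloc hl hV
    (localSub_galOf L) χV (fun σ hσ => ⟨(Subgroup.mem_inf.1 hσ).1, ?_⟩) hb0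
    (fun σ hσ => mem_fixed hbL σ (Subgroup.mem_inf.1 hσ).1) hb hb'))
  have h1 : σ ∈ galOf K := hI σ (Subgroup.mem_inf.1 (Subgroup.mem_inf.1 hσ).1).1
    (Subgroup.mem_inf.1 hσ).2
  rw [hK] at h1
  exact h1.2

include hloc hp3 in
theorem theta_conj (γ : GG) (lam : ZMod p) (hγ : ∀ σ, γ * σ * γ⁻¹ ∈ galOf L ↔ σ ∈ galOf L)
    (hψ : ∀ σ ∈ galOf L, χ.ψ (γ * σ * γ⁻¹) = lam * χ.ψ σ) {l : ℕ} {V : ValuationSubring LL}
    (hl : l.Prime) (hV : V.LiesOverPrime l) (hbL : b ∈ L) (hb0 : b ≠ 0) :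
    theta Y χ (γ • V) (γ b) = lam * theta Y χ V b := by
  have hp2 : p ≠ 2 := by omega
  have hmem : ∀ σ, σ ∈ galOf L ↔ γ⁻¹ * σ * γ ∈ galOf L := fun σ => by
    rw [← hγ (γ⁻¹ * σ * γ), show γ * (γ⁻¹ * σ * γ) * γ⁻¹ = σ by group]
  have hH : conjH γ (galOf L ⊓ Dec V) = galOf L ⊓ Dec (γ • V) := SetLike.ext fun σ => by
    rw [mem_conjH, Subgroup.mem_inf, Subgroup.mem_inf, mem_dec_smul, ← hmem σ]
  have hγb : γ b ∈ L := mem_of_galOf_fixed fun σ hσ => by
    have h1 := congrArg γ (mem_fixed hbL _ ((hmem σ).1 hσ))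
    rwa [← AlgEquiv.mul_apply, show γ * (γ⁻¹ * σ * γ) = σ * γ by group, AlgEquiv.mul_apply] at h1
  have hγb0 : γ b ≠ 0 := (EmbeddingLike.map_ne_zero_iff).2 hb0
  have hV' := Places.liesOverPrime_smul V γ hV
  have hψ' : ∀ σ ∈ galOf L, χ.ψ σ = lam * χ.ψ (γ⁻¹ * σ * γ) := fun σ hσ => by
    rw [← hψ _ ((hmem σ).1 hσ), show γ * (γ⁻¹ * σ * γ) * γ⁻¹ = σ by group]
  set H' := galOf L ⊓ Dec (γ • V)
  set ψc : GG → ZMod p := fun σ => χ.ψ (γ⁻¹ * σ * γ)
  have hmul : ∀ σ ∈ H', ∀ τ ∈ H', ψc (σ * τ) = ψc σ + ψc τ := fun σ hσ τ hτ => by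
    simp only [ψc]
    rw [← χ.mul _ ((hmem σ).1 hσ.1) _ ((hmem τ).1 hτ.1)]
    congr 1
    group
  have hlev : LevOn H' ψc := by
    have h := (χ.lev.mono (inf_le_left : galOf L ⊓ Dec V ≤ galOf L)).conj γ
    rwa [hH] at h
  have hs : Sim H' (χ.sym (γ b)) fun σ τ => symR p ψc (γ b) σ τ ^ lam.val := by
    refine (Sim.of_eq fun σ hσ τ hτ => ?_).trans (sim_symR_smul hmul hlev lam.val hγb0
      fun σ hσ => mem_fixed hγb σ hσ.1)
    rw [χ.sym_eq]
    simp only [symR, ψc, ZMod.natCast_zmod_val, ← hψ' σ hσ.1, ← hψ' τ hτ.1]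
  have hconj : conjC γ (χ.sym b) = symR p ψc (γ b) := by
    funext σ τ
    simp only [conjC, χ.sym_eq, symR, ψc]
    split_ifs
    exacts [rfl, map_one γ]
  have h0 := invH_conj Y hl hV hloc hp2 γ (localSub_galOf L) (coc_local χ hb0 hbL V)
    (tor_local χ hb0 hbL V)
  rw [hH, hconj] at h0
  have hc' : Coc H' (symR p ψc (γ b)) := by
    by_cases h : ∃ σ ∈ H', ψc σ ≠ 0
    · exact (CycChar.ofNe hmul hlev h).coc_sym hγb0 fun σ hσ => mem_fixed hγb σ hσ.1
    · push Not at h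
      exact ⟨⟨⊥, inferInstance, fun g hg _ _ s hs _ _ _ _ => by
          rw [symR_zero _ (h _ (mul_mem hg hs)), symR_zero _ (h g hg)]⟩,
        fun σ hσ τ _ => by rw [symR_zero _ (h σ hσ)]; exact one_ne_zero,
        fun σ hσ τ hτ ρ _ => by
          rw [symR_zero _ (h τ hτ), symR_zero _ (h σ hσ), symR_zero _ (h _ (mul_mem hσ hτ)),
            symR_zero _ (h σ hσ), map_one]⟩
  have ht' : Cob H' fun σ τ => symR p ψc (γ b) σ τ ^ p :=
    cob_symR_pow_self hmul hlev hγb0 fun σ hσ => mem_fixed hγb σ hσ.1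
  show invH Y (γ • V) H' (χ.sym (γ b)) = lam * invH Y V (galOf L ⊓ Dec V) (χ.sym b)
  rw [← h0]
  have e := invH_congr Y hl hV' hloc hp2 (localSub_galOf L) (coc_local χ hγb0 hγb (γ • V))
    (tor_local χ hγb0 hγb (γ • V)) hs
  rw [← e, invH_pow Y hl hV' hloc hp2 (localSub_galOf L) hc' ht', ZMod.natCast_zmod_val]

include hloc hp3 in
theorem theta_orbit {σ : GG} (hσ : σ ∈ galOf L) {l : ℕ} {V : ValuationSubring LL} (hl : l.Prime)
    (hV : V.LiesOverPrime l) (hbL : b ∈ L) (hb0 : b ≠ 0) :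
    theta Y χ (σ • V) b = theta Y χ V b := by
  have h := theta_conj hloc hp3 Y χ σ 1 (fun τ => ⟨fun h => by
      simpa [mul_assoc] using mul_mem (mul_mem (inv_mem hσ) h) hσ,
    fun h => mul_mem (mul_mem hσ h) (inv_mem hσ)⟩) (fun τ hτ => by
      rw [χ.mul _ (mul_mem hσ hτ) _ (inv_mem hσ), χ.mul _ hσ _ hτ, χ.map_inv' hσ]
      ring) hl hV hbL hb0
  rwa [mem_fixed hbL σ hσ, one_mul] at h

include hloc hp3 in
/-- The sum formula. -/
theorem theta_sum (hnorm : TargetNormTheorem) {K : IntermediateField ℚ LL} (hK : galOf K = χ.ker)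
    (hbL : b ∈ L) (hb0 : b ≠ 0) (R : Finset (ValuationSubring LL))
    (hR : ∀ V ∈ R, ∃ l : ℕ, l.Prime ∧ V.LiesOverPrime l)
    (hRorb : ∀ V ∈ R, ∀ W ∈ R, ∀ σ ∈ galOf L, σ • V = W → V = W)
    (hcover : ∀ (l : ℕ) (V : ValuationSubring LL), l.Prime → V.LiesOverPrime l →
      ¬ IsNormOn p L K (Dec V) b → ∃ σ ∈ galOf L, σ • V ∈ R) :
    ∑ V ∈ R, theta Y χ V b = 0 := by
  classical
  have hp := (Fact.out : p.Prime)
  have hp2 : p ≠ 2 := by omega
  have hA : OpenIn (galOf L) ⊤ := open_top_of_field L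
  have hc : Coc (galOf L) (χ.sym b) := χ.coc_sym hb0 (mem_fixed hbL)
  have ht : Cob (galOf L) fun σ τ => χ.sym b σ τ ^ p := cob_sym_pow_p χ hb0 (mem_fixed hbL)
  -- the bad primes
  obtain ⟨F, hF, hFψ⟩ := χ.openIn
  obtain ⟨S₁, hS₁⟩ := exists_finset_eq_one hb0
  obtain ⟨S₂, hS₂⟩ := exists_finset_unramified F
  choose lR hlR hlR' using hR
  set S₀ := S₁ ∪ S₂ ∪ R.attach.image fun V => lR V.1 V.2
  have hout : ∀ (l : ℕ) (V : ValuationSubring LL), l.Prime → V.LiesOverPrime l → l ∉ S₀ →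
      Cob ((galOf L) ⊓ Dec V) (χ.sym b) := fun l V hl hV hlS => by
    simp only [S₀, Finset.mem_union, not_or] at hlS
    have hv := hS₁ l V hl hV hlS.1.1
    refine (isNormOn_iff_cob χ hK hb0 hbL V).1 (isNormOn_unit hloc χ hK hbL hb0 hl hV
      (fun σ hσ hσI => hK ▸ hFψ (Subgroup.mem_inf.2 ⟨hσ, hS₂ l V hl hV hlS.1.2 hσI⟩))
      ((V.valuation_le_one_iff _).1 hv.le) ((V.valuation_le_one_iff _).1 ?_))
    rw [map_inv₀, hv, inv_one]
  obtain ⟨n, hn, hlayer⟩ := exists_eq_layer hnorm hloc hp3 Y hA hc ht S₀ hout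
  obtain ⟨β, hβ0, hβ, hsim⟩ := hlayer n le_rfl
  haveI := hA.finite_quotient
  haveI := Fintype.ofFinite (↥(⊤ : Subgroup GG) ⧸ (galOf L).subgroupOf ⊤)
  set a := nrm (galOf L) ⊤ β
  have ha : ∀ σ : GG, σ a = a := fun σ => nrm_fixed hA hβ (Subgroup.mem_top σ)
  have ha0 : a ≠ 0 := nrm_ne hA hβ0
  obtain ⟨S₃, hS₃⟩ := exists_finset_eq_one ha0
  set S' := ((S₀ ∪ S₃).filter Nat.Prime) ∪ {p}
  have hpr : ∀ l ∈ S', l.Prime := fun l hl => by
    rcases Finset.mem_union.1 hl with h | h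
    · exact (Finset.mem_filter.1 h).2
    · rw [Finset.mem_singleton.1 h]; exact hp
  let W : ℕ → ValuationSubring LL := fun l =>
    if h : l.Prime then (Frobenius.exists_liesOverPrime l h).choose else ⊤
  have hW : ∀ l ∈ S', (W l).LiesOverPrime l := fun l hl => by
    simp only [W, dif_pos (hpr l hl)]
    exact (Frobenius.exists_liesOverPrime l (hpr l hl)).choose_spec
  have hprod := Y.product n a ha0 ha S' (Finset.mem_union_right _ (Finset.mem_singleton_self p))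
    hpr (fun l hl hlS X hX => hS₃ l X hl hX fun h => hlS (Finset.mem_union_left _
      (Finset.mem_filter.2 ⟨Finset.mem_union_right _ h, hl⟩))) W hW
  -- the places over each prime
  let Q := ↥(⊤ : Subgroup GG) ⧸ (galOf L).subgroupOf ⊤
  let key : ℕ → Q → Set (ValuationSubring LL) := fun l q => placeKey (galOf L) ((q.out : GG)⁻¹ • W l)
  let orb : ℕ → Finset (Set (ValuationSubring LL)) := fun l => Finset.univ.image (key l)
  let val : Set (ValuationSubring LL) → ZMod p := fun O =>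
    if h : O.Nonempty then theta Y χ h.choose b else 0
  have hval : ∀ (l : ℕ) (V : ValuationSubring LL), l.Prime → V.LiesOverPrime l →
      val (placeKey (galOf L) V) = theta Y χ V b := fun l V hl hV => by
    have hne : (placeKey (galOf L) V).Nonempty := ⟨V, 1, one_mem (galOf L), one_smul _ _⟩
    simp only [val, dif_pos hne]
    obtain ⟨σ, hσ, h⟩ := hne.choose_spec
    rw [← h]
    exact theta_orbit hloc hp3 Y χ hσ hl hV hbL hb0
  -- one orbit of cosets gives one place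
  have horbit : ∀ l ∈ S', ∀ O ∈ orb l,
      (∀ σ ∈ Dec (W l), σ (∏ q ∈ Finset.univ.filter (fun q => key l q = O), (q.out : GG) β) =
        ∏ q ∈ Finset.univ.filter (fun q => key l q = O), (q.out : GG) β) ∧
      (∏ q ∈ Finset.univ.filter (fun q => key l q = O), (q.out : GG) β) ≠ 0 ∧
      Y.Φ (W l) n (∏ q ∈ Finset.univ.filter (fun q => key l q = O), (q.out : GG) β) =
        (((val O).val * p ^ (n - 1) : ℕ) : ZMod (p ^ n)) := by
    intro l hl O hO
    obtain ⟨q₀, -, rfl⟩ := Finset.mem_image.1 hO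
    set g : GG := (q₀.out : GG)
    set V := g⁻¹ • W l with hVdef
    have hV : V.LiesOverPrime l := Places.liesOverPrime_smul (W l) g⁻¹ (hW l hl)
    have hgV : g • V = W l := smul_inv_smul g (W l)
    set H := (galOf L) ⊓ Dec V
    have hH : LocalSub V H := localSub_galOf L
    have hC : conjH g (Dec V) = Dec (W l) := by rw [conjH_dec, hgV]
    have hopen : OpenIn (conjH g H) (Dec (W l)) := hC ▸ hH.openIn.conj g
    have hyfix : ∀ t ∈ conjH g H, t (g β) = g β := fun t ht => by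
      have h := congrArg g (hβ _ (Subgroup.mem_inf.1 (mem_conjH.1 ht)).1)
      rwa [← AlgEquiv.mul_apply, show g * (g⁻¹ * t * g) = t * g by group, AlgEquiv.mul_apply] at h
    have hdec : ∀ q : Q, key l q = key l q₀ → ∃ d ∈ Dec (W l), ∃ σ ∈ (galOf L), (q.out : GG) = d * g * σ := by
      intro q hq
      obtain ⟨σ, hσ, h⟩ := placeKey_eq_iff.1 hq
      refine ⟨(q.out : GG) * σ⁻¹ * g⁻¹, ?_, σ, hσ, by group⟩
      rw [MulAction.mem_stabilizer_iff, mul_smul, mul_smul, ← h, inv_smul_smul, smul_inv_smul]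
    choose d hd σd hσd he using hdec
    let ι := {q : Q // key l q = key l q₀}
    let r : ι → ↥(Dec (W l)) := fun q => ⟨d q.1 q.2, hd q.1 q.2⟩
    have hr : Function.Bijective fun q : ι =>
        (QuotientGroup.mk (r q) : ↥(Dec (W l)) ⧸ (conjH g H).subgroupOf (Dec (W l))) := by
      constructor
      · intro q q' h
        have h1 := QuotientGroup.eq.1 h
        rw [Subgroup.mem_subgroupOf, mem_conjH] at h1
        have h2 := (Subgroup.mem_inf.1 h1).1
        simp only [r, Subgroup.coe_mul, Subgroup.coe_inv] at h2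
        refine Subtype.ext ?_
        rw [← q.1.out_eq', ← q'.1.out_eq']
        refine QuotientGroup.eq.2 ?_
        rw [Subgroup.mem_subgroupOf, Subgroup.coe_mul, Subgroup.coe_inv, he q.1 q.2, he q'.1 q'.2]
        have h3 := mul_mem (mul_mem (inv_mem (hσd q.1 q.2)) h2) (hσd q'.1 q'.2)
        convert h3 using 1
        group
      · intro x
        induction x using QuotientGroup.induction_on with
        | H x =>
          let q : Q := QuotientGroup.mk ⟨(x : GG) * g, Subgroup.mem_top _⟩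
          have hq1 : (q.out : GG)⁻¹ * ((x : GG) * g) ∈ (galOf L) := by
            simpa [Subgroup.mem_subgroupOf] using QuotientGroup.eq.1 (QuotientGroup.out_eq' q)
          have hqkey : key l q = key l q₀ := by
            refine placeKey_eq_iff.2 ⟨((q.out : GG)⁻¹ * ((x : GG) * g))⁻¹, inv_mem hq1, ?_⟩
            rw [smul_smul, show ((q.out : GG)⁻¹ * ((x : GG) * g))⁻¹ * (q.out : GG)⁻¹ =
              g⁻¹ * (x : GG)⁻¹ by group, mul_smul, MulAction.mem_stabilizer_iff.1 (inv_mem x.2)]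
          refine ⟨⟨q, hqkey⟩, QuotientGroup.eq.2 ?_⟩
          simp only [r, Subgroup.mem_subgroupOf, mem_conjH, Subgroup.coe_mul, Subgroup.coe_inv]
          refine Subgroup.mem_inf.2 ⟨?_, ?_⟩
          · have h3 := mul_mem (hσd q hqkey) hq1
            rw [he q hqkey] at h3
            convert h3 using 1
            group
          · rw [← mem_dec_smul, hgV]
            exact mul_mem (inv_mem (hd q hqkey)) x.2
    have hX : ∏ q ∈ Finset.univ.filter (fun q => key l q = key l q₀), (q.out : GG) β =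
        g (nrm H (Dec V) β) := by
      rw [← nrm_conj g hH.openIn fun t ht => hβ t (Subgroup.mem_inf.1 ht).1, hC,
        nrm_eq_prod hyfix r hr, Finset.prod_subtype (p := fun q => key l q = key l q₀) _
          (fun q => by simp) fun q : Q => (q.out : GG) β]
      refine Finset.prod_congr rfl fun q _ => ?_
      conv_lhs => rw [he q.1 q.2, AlgEquiv.mul_apply, hβ _ (hσd q.1 q.2), AlgEquiv.mul_apply]
    have hs : Sim H (χ.sym b) (symR (p ^ n) (Y.ψ n) β) := hsim.mono inf_le_left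
    have hβH : ∀ σ ∈ H, σ β = β := fun σ hσ => hβ σ (Subgroup.mem_inf.1 hσ).1
    obtain ⟨t, ht'⟩ := dvd_phi Y (hpr l hl) hV hH hn hβ0 hβH
      ((Sim.cob_iff (hs.pow p)).1 (tor_local χ hb0 hbL V))
    have hθ : theta Y χ V b = t :=
      invH_eq Y (hpr l hl) hV hH hn ⟨β, hβ0, hβH, hs, ht'⟩
    have hfix : ∀ σ ∈ Dec V, σ (nrm H (Dec V) β) = nrm H (Dec V) β := fun σ hσ =>
      nrm_fixed hH.openIn hβH hσ
    rw [hX]
    refine ⟨fun σ hσ => ?_, (EmbeddingLike.map_ne_zero_iff).2 (nrm_ne hH.openIn hβ0), ?_⟩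
    · have h := congrArg g (hfix _ (mem_dec_smul.1 (hgV ▸ hσ)))
      rwa [← AlgEquiv.mul_apply, show g * (g⁻¹ * σ * g) = σ * g by group, AlgEquiv.mul_apply] at h
    · rw [show key l q₀ = placeKey (galOf L) V from rfl, hval l V (hpr l hl) hV, hθ, ← ht', ← hgV]
      exact Y.Φ_conj g l V (hpr l hl) hV n _ hfix (nrm_ne hH.openIn hβ0)
  have hphi : ∀ l ∈ S', Y.Φ (W l) n a =
      ∑ O ∈ orb l, (((val O).val * p ^ (n - 1) : ℕ) : ZMod (p ^ n)) := by
    intro l hl
    have hsplit : a = ∏ O ∈ orb l,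
        ∏ q ∈ Finset.univ.filter (fun q => key l q = O), (q.out : GG) β := by
      rw [Finset.prod_fiberwise_of_maps_to fun q _ => Finset.mem_image_of_mem (key l) (Finset.mem_univ q)]
      exact nrm_eq_prod_out
    rw [hsplit]
    clear hsplit
    suffices key' : ∀ T : Finset (Set (ValuationSubring LL)), T ⊆ orb l →
        (∀ σ ∈ Dec (W l), σ (∏ O ∈ T, ∏ q ∈ Finset.univ.filter (fun q => key l q = O), (q.out : GG) β) =
          ∏ O ∈ T, ∏ q ∈ Finset.univ.filter (fun q => key l q = O), (q.out : GG) β) ∧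
        (∏ O ∈ T, ∏ q ∈ Finset.univ.filter (fun q => key l q = O), (q.out : GG) β) ≠ 0 ∧
        Y.Φ (W l) n (∏ O ∈ T, ∏ q ∈ Finset.univ.filter (fun q => key l q = O), (q.out : GG) β) =
          ∑ O ∈ T, (((val O).val * p ^ (n - 1) : ℕ) : ZMod (p ^ n)) from
      (key' (orb l) subset_rfl).2.2
    intro T
    induction T using Finset.induction_on with
    | empty =>
      intro _
      simp [phi_one Y (hpr l hl) (hW l hl)]
    | insert O T hO ih =>
      intro hsub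
      rw [Finset.prod_insert hO, Finset.sum_insert hO]
      obtain ⟨h1, h2, h3⟩ := horbit l hl O (hsub (Finset.mem_insert_self O T))
      obtain ⟨i1, i2, i3⟩ := ih fun x hx => hsub (Finset.mem_insert_of_mem hx)
      refine ⟨fun σ hσ => by rw [map_mul, h1 σ hσ, i1 σ hσ], mul_ne_zero h2 i2, ?_⟩
      rw [Y.Φ_mul l (W l) (hpr l hl) (hW l hl) n _ _ h1 i1 h2 i2, h3, i3]
  rw [Finset.sum_congr rfl hphi] at hprod
  have hkeymem : ∀ l ∈ S', ∀ O ∈ orb l, ∃ V, V.LiesOverPrime l ∧ O = placeKey (galOf L) V := by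
    intro l hl O hO
    obtain ⟨q, -, rfl⟩ := Finset.mem_image.1 hO
    exact ⟨_, Places.liesOverPrime_smul (W l) _ (hW l hl), rfl⟩
  have hmemorb : ∀ l ∈ S', ∀ V : ValuationSubring LL, V.LiesOverPrime l →
      placeKey (galOf L) V ∈ orb l := by
    intro l hl V hV
    obtain ⟨g, rfl⟩ := Places.exists_smul_eq (hpr l hl) (hW l hl) hV
    let q : Q := QuotientGroup.mk ⟨g⁻¹, Subgroup.mem_top _⟩
    have hq1 : (q.out : GG)⁻¹ * g⁻¹ ∈ (galOf L) := by
      simpa [Subgroup.mem_subgroupOf] using QuotientGroup.eq.1 (QuotientGroup.out_eq' q)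
    refine Finset.mem_image.2 ⟨q, Finset.mem_univ _, placeKey_eq_iff.2 ⟨_, inv_mem hq1, ?_⟩⟩
    rw [smul_smul]
    congr 1
    group
  have hdisj : (S' : Set ℕ).PairwiseDisjoint orb := fun l hl l' hl' hne =>
    Finset.disjoint_left.2 fun O hO hO' => hne (by
      obtain ⟨V, hV, rfl⟩ := hkeymem l hl O hO
      obtain ⟨V', hV', h⟩ := hkeymem l' hl' _ hO'
      obtain ⟨σ, -, rfl⟩ := placeKey_eq_iff.1 h
      exact prime_unique (hpr l hl) (hpr l' hl') (Places.liesOverPrime_smul V σ hV) hV')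
  rw [← Finset.sum_biUnion hdisj, ← natCast_val_sum' hn] at hprod
  have h0 : ∑ O ∈ S'.biUnion orb, val O = 0 :=
    eq_of_natCast_mul hn (hprod.trans (by rw [ZMod.val_zero, zero_mul, Nat.cast_zero]))
  rw [← h0]
  refine Finset.sum_of_injOn (placeKey (galOf L)) (fun V hV W' hW' h => ?_) (fun V hV => ?_)
    (fun O hO hO' => ?_) fun V hV => (hval _ V (hlR V hV) (hlR' V hV)).symm
  · obtain ⟨σ, hσ, h'⟩ := placeKey_eq_iff.1 h
    exact hRorb V hV W' hW' σ hσ h'
  · have hl : lR V hV ∈ S' := Finset.mem_union_left _ (Finset.mem_filter.2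
      ⟨Finset.mem_union_left _ (Finset.mem_union_right _
        (Finset.mem_image.2 ⟨⟨V, hV⟩, Finset.mem_attach _ _, rfl⟩)), hlR V hV⟩)
    exact Finset.mem_biUnion.2 ⟨_, hl, hmemorb _ hl V (hlR' V hV)⟩
  · obtain ⟨l, hl, hOl⟩ := Finset.mem_biUnion.1 hO
    obtain ⟨V, hV, rfl⟩ := hkeymem l hl O hOl
    rw [hval l V (hpr l hl) hV]
    refine invH_of_cob Y (hpr l hl) hV (localSub_galOf L) ?_
    by_contra hcob
    obtain ⟨σ, hσ, hσR⟩ := hcover l V (hpr l hl) hV fun h =>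
      hcob ((isNormOn_iff_cob χ hK hb0 hbL V).1 h)
    exact hO' ⟨σ • V, hσR, (placeKey_eq_iff.2 ⟨σ, hσ, rfl⟩).symm⟩

/-- **The cyclic reciprocity.** -/
theorem targetCyclic_of (hloc : LocalFacts) (hnorm : TargetNormTheorem) (hlayer : TargetLayer) :
    TargetCyclic := by
  intro p _ hp3 L _ ζ hζ hζL ψ hlev hadd hne K hLK hKmem
  have hp2 : p ≠ 2 := by omega
  replace hp3 : 2 < p := by omega
  obtain ⟨Y⟩ := hlayer hloc p hp3
  obtain ⟨F, hF, hψ⟩ := hlev
  let χ : CycChar (galOf L) p :=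
    CycChar.ofNe hadd ⟨F, hF, fun g _ s _ hs => hψ g s hs⟩ hne
  have hK : galOf K = χ.ker := SetLike.ext fun σ => hKmem σ
  haveI hKfd : FiniteDimensional ℚ K := by
    obtain ⟨K', hK', hg⟩ := exists_field_of_open (χ.openIn.trans (open_top_of_field L))
    have e : K = K' := le_antisymm (galOf_le_iff.1 (hg.trans hK.symm).le)
      (galOf_le_iff.1 (hg.trans hK.symm).ge)
    rw [e]
    exact hK'
  refine ⟨{
    norm_theorem := fun b hb hb0 h => hnorm hloc p hp3 L K inferInstance hKfd hLK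
      ⟨ζ, hζL, hζ⟩ (fun σ hσ τ hτ => ?_) (by rw [hK]; exact (ker_relIndex χ).2) b hb hb0 h
    θ := theta Y χ
    θ_mul := fun l V hl hV a b ha hb ha0 hb0 => ?_
    θ_norm := fun l V hl hV b hb hb0 h => ?_
    θ_detect := fun l V hl hV hidx b hb hb0 h => ?_
    units_norm := fun l V hl hV hI b hb hb0 h1 h2 =>
      isNormOn_unit hloc χ hK hb hb0 hl hV hI h1 h2
    θ_conj := fun γ lam hγ hψ l V hl hV b hb hb0 =>
      theta_conj hloc hp3 Y χ γ lam hγ hψ hl hV hb hb0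
    θ_sum := fun b hb hb0 R hR hRorb hcover =>
      theta_sum hloc hp3 Y χ hnorm hK hb hb0 R hR hRorb hcover }⟩
  · rw [hK] at hτ ⊢
    simpa using χ.conj_mem (inv_mem hσ) hτ
  · have e : χ.sym (a * b) = fun σ τ => χ.sym a σ τ * χ.sym b σ τ := by
      funext σ τ; exact χ.sym_mul a b σ τ
    simp only [theta, e]
    exact invH_mul Y hl hV hloc hp2 (localSub_galOf L) (coc_local χ ha0 ha V)
      (tor_local χ ha0 ha V) (coc_local χ hb0 hb V) (tor_local χ hb0 hb V)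
  · exact invH_of_cob Y hl hV (localSub_galOf L) ((isNormOn_iff_cob χ hK hb0 hb V).1 h)
  · refine (isNormOn_iff_cob χ hK hb0 hb V).2 (cob_of_invH_eq_zero Y hl hV hloc hp2
      (localSub_galOf L) hζ (fun σ hσ => mem_fixed hζL σ (Subgroup.mem_inf.1 hσ).1) ?_
      (coc_local χ hb0 hb V) (tor_local χ hb0 hb V) h)
    rwa [Subgroup.inf_relIndex_right]

end FLTAgent.Lowering.P1.Brauer
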