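import Fermat.Agent.Lowering.P1.Local.Target
import Fermat.Agent.Lowering.P1.Brauer.Layer
import Fermat.Agent.Lowering.P1.Brauer.Tame.Target
import Fermat.Agent.Lowering.P1.Brauer.Invariants
import Fermat.Agent.Lowering.P1.Brauer.Reciprocity

/-!
# Part B reduced to the norm theorem
-/

set_option autoImplicit false

namespace FLTAgent.Lowering.P1.Brauer

/-- The invariants, from the norm theorem alone. -/
theorem targetInvariants_of_norm (h : TargetNormTheorem) : TargetInvariants :=
  targetInvariants_of targetLocal h targetLayer targetTame

/-- The cyclic reciprocity, from the norm theorem alone. -/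
theorem targetCyclic_of_norm (h : TargetNormTheorem) : TargetCyclic :=
  targetCyclic_of targetLocal h targetLayer

end FLTAgent.Lowering.P1.Brauer
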