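import Fermat.Agent.Lowering.P1.Interface

/-!
# Level-constant multiplicative cochains on closed subgroups of the absolute Galois group

Coboundaries, Hilbert 90, and multiplication by the index of an open subgroup.
-/

set_option autoImplicit false
set_option linter.style.haveILetI false

noncomputable section

namespace FLTAgent.Lowering.P1.Brauer

local notation "LL" => AlgebraicClosure ℚ
local notation "GG" => (AlgebraicClosure ℚ ≃ₐ[ℚ] AlgebraicClosure ℚ)

variable {H H' : Subgroup GG}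

/-- `H'` contains the elements of `H` fixing some number field. -/
def OpenIn (H' H : Subgroup GG) : Prop :=
  ∃ E : IntermediateField ℚ LL, FiniteDimensional ℚ E ∧ H ⊓ E.fixingSubgroup ≤ H'

/-- A function on `H` constant on the cosets of an open subgroup. -/
def LevOn (H : Subgroup GG) {α : Type} (f : GG → α) : Prop :=
  ∃ E : IntermediateField ℚ LL, FiniteDimensional ℚ E ∧
    ∀ g ∈ H, ∀ s ∈ H, s ∈ E.fixingSubgroup → f (g * s) = f g

/-- The same in two variables. -/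
def LevOn₂ (H : Subgroup GG) {α : Type} (c : GG → GG → α) : Prop :=
  ∃ E : IntermediateField ℚ LL, FiniteDimensional ℚ E ∧
    ∀ g ∈ H, ∀ g' ∈ H, ∀ s ∈ H, s ∈ E.fixingSubgroup → ∀ s' ∈ H, s' ∈ E.fixingSubgroup →
      c (g * s) (g' * s') = c g g'

theorem integral_coe (x : LL) : IsIntegral ℚ x :=
  ((AlgebraicClosure.isAlgebraic ℚ).isAlgebraic x).isIntegral

theorem fix_conj {E : IntermediateField ℚ LL} [Normal ℚ E] {s : GG} (hs : s ∈ E.fixingSubgroup)
    (g : GG) : g⁻¹ * s * g ∈ E.fixingSubgroup := by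
  rw [IntermediateField.mem_fixingSubgroup_iff] at hs ⊢
  intro x hx
  have hgx : g x ∈ E := by
    have h := AlgEquiv.restrictNormal_commutes g E ⟨x, hx⟩
    exact h ▸ SetLike.coe_mem _
  show g⁻¹ (s (g x)) = x
  rw [hs _ hgx]
  exact g.symm_apply_apply x

theorem exists_normal_le (E : IntermediateField ℚ LL) [FiniteDimensional ℚ E] :
    ∃ N : IntermediateField ℚ LL, FiniteDimensional ℚ N ∧ Normal ℚ N ∧ E ≤ N :=
  haveI : Normal ℚ LL := normal_iff.2 fun x => ⟨integral_coe x,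
    IsAlgClosed.splits _⟩
  ⟨IntermediateField.normalClosure ℚ E LL, normalClosure.is_finiteDimensional ℚ E LL,
    normalClosure.normal ℚ E LL, IntermediateField.le_normalClosure E⟩

theorem finite_quot (E : IntermediateField ℚ LL) [FiniteDimensional ℚ E] [Normal ℚ E]
    {α : Type} (f : GG → α) (S : Set GG)
    (hf : ∀ g ∈ S, ∀ g' ∈ S, g'⁻¹ * g ∈ E.fixingSubgroup → f g = f g') :
    (f '' S).Finite := by
  classical
  let res : GG →* (E ≃ₐ[ℚ] E) := AlgEquiv.restrictNormalHom E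
  have key : ∀ g ∈ S, ∀ g' ∈ S, res g = res g' → f g = f g' := fun g hg g' hg' h => by
    refine hf g hg g' hg' ?_
    rw [IntermediateField.mem_fixingSubgroup_iff]
    intro x hx
    have h1 : res (g'⁻¹ * g) = 1 := by rw [map_mul, map_inv, h, inv_mul_cancel]
    have h2 := AlgEquiv.restrictNormal_commutes (g'⁻¹ * g) E ⟨x, hx⟩
    exact h2.symm.trans (congrArg (fun e : E ≃ₐ[ℚ] E => ((e ⟨x, hx⟩ : E) : LL)) h1)
  refine Set.Finite.subset (Set.finite_range fun t : {t : E ≃ₐ[ℚ] E // ∃ g ∈ S, res g = t} =>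
    f t.2.choose) ?_
  rintro _ ⟨g, hg, rfl⟩
  exact ⟨⟨res g, g, hg, rfl⟩, key _ (Exists.choose_spec (⟨g, hg, rfl⟩ : ∃ g' ∈ S, res g' = res g)).1 g hg
    (Exists.choose_spec (⟨g, hg, rfl⟩ : ∃ g' ∈ S, res g' = res g)).2⟩

theorem LevOn.mono {α : Type} {f : GG → α} (h : LevOn H f) (hle : H' ≤ H) : LevOn H' f :=
  let ⟨E, hE, hf⟩ := h
  ⟨E, hE, fun g hg s hs => hf g (hle hg) s (hle hs)⟩

theorem LevOn.finite {α : Type} {f : GG → α} (h : LevOn H f) : (f '' (H : Set GG)).Finite := by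
  obtain ⟨E, hE, hf⟩ := h
  obtain ⟨N, hN, hNn, hEN⟩ := exists_normal_le E
  refine finite_quot N f _ fun g hg g' hg' hs => ?_
  have := hf g' hg' _ (mul_mem (inv_mem hg') hg) (IntermediateField.fixingSubgroup_antitone hEN hs)
  rwa [mul_inv_cancel_left] at this

theorem LevOn.map₂ {α β γ : Type} {f : GG → α} {f' : GG → β} (h : LevOn H f) (h' : LevOn H f')
    (F : α → β → γ) : LevOn H fun g => F (f g) (f' g) := by
  obtain ⟨E, hE, hf⟩ := h
  obtain ⟨E', hE', hf'⟩ := h'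
  exact ⟨E ⊔ E', inferInstance, fun g hg s hs hsE => by
    simp only [hf g hg s hs (IntermediateField.fixingSubgroup_antitone le_sup_left hsE),
      hf' g hg s hs (IntermediateField.fixingSubgroup_antitone le_sup_right hsE)]⟩

theorem LevOn.map {α β : Type} {f : GG → α} (h : LevOn H f) (F : α → β) :
    LevOn H fun g => F (f g) :=
  h.map₂ h fun a _ => F a

theorem levOn_const {α : Type} (a : α) : LevOn H fun _ => a :=
  ⟨⊥, inferInstance, fun _ _ _ _ _ => rfl⟩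

/-- A function of right cosets of an open subgroup is level constant. -/
theorem levOn_of_coset {α : Type} {f : GG → α} (ho : OpenIn H' H)
    (hf : ∀ g ∈ H, ∀ h ∈ H', f (g * h) = f g) : LevOn H f :=
  let ⟨E, hE, hle⟩ := ho
  ⟨E, hE, fun g hg s hs hsE => hf g hg s (hle ⟨hs, hsE⟩)⟩

theorem OpenIn.finite_quotient (ho : OpenIn H' H) : Finite (↥H ⧸ H'.subgroupOf H) := by
  classical
  let f : GG → Option (↥H ⧸ H'.subgroupOf H) := fun g =>
    if hg : g ∈ H then some (QuotientGroup.mk ⟨g, hg⟩) else none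
  have hf : LevOn H f := by
    refine levOn_of_coset (H' := H' ⊓ H) ?_ fun g hg h hh => ?_
    · obtain ⟨E, hE, hle⟩ := ho
      exact ⟨E, hE, le_inf hle inf_le_left⟩
    · simp only [f, dif_pos hg, dif_pos (mul_mem hg hh.2)]
      refine congrArg some (QuotientGroup.eq.2 ?_)
      simpa [Subgroup.mem_subgroupOf, mul_assoc] using hh.1
  have := (hf.finite.preimage (Option.some_injective _).injOn)
  refine Set.finite_univ_iff.1 (this.subset fun q _ => ?_)
  induction q using QuotientGroup.induction_on with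
  | H z => exact ⟨z, z.2, by simp [f]⟩

/-! ### Cochains -/

/-- The coboundary of a one cochain. -/
def dlt (f : GG → LL) (σ τ : GG) : LL := σ (f τ) * f σ / f (σ * τ)

/-- A level-constant two cocycle on `H`. -/
structure Coc (H : Subgroup GG) (c : GG → GG → LL) : Prop where
  lev : LevOn₂ H c
  ne : ∀ σ ∈ H, ∀ τ ∈ H, c σ τ ≠ 0
  assoc : ∀ σ ∈ H, ∀ τ ∈ H, ∀ ρ ∈ H, σ (c τ ρ) * c σ (τ * ρ) = c (σ * τ) ρ * c σ τ

/-- A coboundary on `H`. -/
def Cob (H : Subgroup GG) (c : GG → GG → LL) : Prop :=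
  ∃ f : GG → LL, LevOn H f ∧ (∀ σ ∈ H, f σ ≠ 0) ∧ ∀ σ ∈ H, ∀ τ ∈ H, c σ τ = dlt f σ τ

theorem dlt_mul (f f' : GG → LL) (σ τ : GG) :
    dlt (fun g => f g * f' g) σ τ = dlt f σ τ * dlt f' σ τ := by
  simp only [dlt, map_mul]
  ring

theorem dlt_inv (f : GG → LL) (σ τ : GG) : dlt (fun g => (f g)⁻¹) σ τ = (dlt f σ τ)⁻¹ := by
  simp only [dlt, map_inv₀, div_eq_mul_inv, _root_.mul_inv_rev, inv_inv]
  ring

theorem dlt_ne {f : GG → LL} {σ τ : GG} (h1 : f σ ≠ 0) (h2 : f τ ≠ 0) (h3 : f (σ * τ) ≠ 0) :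
    dlt f σ τ ≠ 0 :=
  div_ne_zero (mul_ne_zero ((EmbeddingLike.map_ne_zero_iff).2 h2) h1) h3

theorem Coc.mono {c : GG → GG → LL} (h : Coc H c) (hle : H' ≤ H) : Coc H' c where
  lev := let ⟨E, hE, hc⟩ := h.lev
    ⟨E, hE, fun g hg g' hg' s hs hsE s' hs' hsE' =>
      hc g (hle hg) g' (hle hg') s (hle hs) hsE s' (hle hs') hsE'⟩
  ne σ hσ τ hτ := h.ne σ (hle hσ) τ (hle hτ)
  assoc σ hσ τ hτ ρ hρ := h.assoc σ (hle hσ) τ (hle hτ) ρ (hle hρ)

theorem Cob.mono {c : GG → GG → LL} (h : Cob H c) (hle : H' ≤ H) : Cob H' c :=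
  let ⟨f, hf, hne, hc⟩ := h
  ⟨f, hf.mono hle, fun σ hσ => hne σ (hle hσ), fun σ hσ τ hτ => hc σ (hle hσ) τ (hle hτ)⟩

theorem Cob.congr {c c' : GG → GG → LL} (h : Cob H c) (he : ∀ σ ∈ H, ∀ τ ∈ H, c' σ τ = c σ τ) :
    Cob H c' :=
  let ⟨f, hf, hne, hc⟩ := h
  ⟨f, hf, hne, fun σ hσ τ hτ => (he σ hσ τ hτ).trans (hc σ hσ τ hτ)⟩

theorem cob_one : Cob H fun _ _ => 1 :=
  ⟨fun _ => 1, levOn_const 1, fun _ _ => one_ne_zero, fun σ _ τ _ => by simp [dlt]⟩

theorem Cob.mul {c c' : GG → GG → LL} (h : Cob H c) (h' : Cob H c') :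
    Cob H fun σ τ => c σ τ * c' σ τ := by
  obtain ⟨f, hf, hne, hc⟩ := h
  obtain ⟨f', hf', hne', hc'⟩ := h'
  exact ⟨fun g => f g * f' g, hf.map₂ hf' (· * ·), fun σ hσ => mul_ne_zero (hne σ hσ) (hne' σ hσ),
    fun σ hσ τ hτ => by simp only [dlt_mul, hc σ hσ τ hτ, hc' σ hσ τ hτ]⟩

theorem Cob.inv {c : GG → GG → LL} (h : Cob H c) : Cob H fun σ τ => (c σ τ)⁻¹ := by
  obtain ⟨f, hf, hne, hc⟩ := h
  exact ⟨fun g => (f g)⁻¹, hf.map (·⁻¹), fun σ hσ => inv_ne_zero (hne σ hσ),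
    fun σ hσ τ hτ => by simp only [dlt_inv, hc σ hσ τ hτ]⟩

theorem Cob.pow {c : GG → GG → LL} (h : Cob H c) (n : ℕ) : Cob H fun σ τ => c σ τ ^ n := by
  induction n with
  | zero => simpa using cob_one
  | succ n ih => simpa [pow_succ] using ih.mul h

theorem Coc.one_left {c : GG → GG → LL} (h : Coc H c) {τ : GG} (hτ : τ ∈ H) :
    c 1 τ = c 1 1 := by
  have := h.assoc 1 (one_mem H) 1 (one_mem H) τ hτ
  simp only [AlgEquiv.one_apply, one_mul] at this
  exact mul_left_cancel₀ (h.ne 1 (one_mem H) τ hτ) this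

theorem Coc.one_right {c : GG → GG → LL} (h : Coc H c) {σ : GG} (hσ : σ ∈ H) :
    c σ 1 = σ (c 1 1) := by
  have := h.assoc σ hσ 1 (one_mem H) 1 (one_mem H)
  simp only [mul_one] at this
  exact (mul_right_cancel₀ (h.ne σ hσ 1 (one_mem H)) this).symm

theorem levOn₂_dlt {f : GG → LL} (hf : LevOn H f) : LevOn₂ H (dlt f) := by
  obtain ⟨E, hE, hf'⟩ := hf
  obtain ⟨A, hA⟩ := (LevOn.finite ⟨E, hE, hf'⟩).exists_finset_coe
  haveI : FiniteDimensional ℚ (IntermediateField.adjoin ℚ (A : Set LL)) :=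
    IntermediateField.finiteDimensional_adjoin fun x _ => integral_coe x
  obtain ⟨N, hN, hNn, hle⟩ := exists_normal_le (E ⊔ IntermediateField.adjoin ℚ (A : Set LL))
  have hfix : ∀ s ∈ N.fixingSubgroup, s ∈ E.fixingSubgroup := fun s hs =>
    IntermediateField.fixingSubgroup_antitone (le_sup_left.trans hle) hs
  refine ⟨N, hN, fun g hg g' hg' s hs hsE s' hs' hsE' => ?_⟩
  have h1 : f (g * s * (g' * s')) = f (g * g') := by
    rw [show g * s * (g' * s') = g * g' * ((g'⁻¹ * s * g') * s') by group]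
    exact hf' _ (mul_mem hg hg') _ (mul_mem (mul_mem (mul_mem (inv_mem hg') hs) hg') hs')
      (hfix _ (mul_mem (fix_conj hsE g') hsE'))
  have h2 : s (f g') = f g' := by
    refine (IntermediateField.mem_fixingSubgroup_iff _ _).1 hsE _ (hle ?_)
    refine le_sup_right (a := E) (IntermediateField.subset_adjoin ℚ _ ?_)
    rw [hA]; exact ⟨g', hg', rfl⟩
  simp only [dlt, AlgEquiv.mul_apply, h1, hf' g hg s hs (hfix _ hsE),
    hf' g' hg' s' hs' (hfix _ hsE'), h2]

theorem coc_dlt {f : GG → LL} (hf : LevOn H f) (hne : ∀ σ ∈ H, f σ ≠ 0) : Coc H (dlt f) where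
  lev := levOn₂_dlt hf
  ne σ hσ τ hτ := dlt_ne (hne σ hσ) (hne τ hτ) (hne _ (mul_mem hσ hτ))
  assoc σ hσ τ hτ ρ hρ := by
    have h1 := hne _ (mul_mem hσ hτ)
    have h2 := hne _ (mul_mem (mul_mem hσ hτ) hρ)
    have h3 : σ (f (τ * ρ)) ≠ 0 := (EmbeddingLike.map_ne_zero_iff).2 (hne _ (mul_mem hτ hρ))
    simp only [dlt, map_div₀, map_mul, AlgEquiv.mul_apply, ← mul_assoc]
    field_simp

theorem Coc.div {c c' : GG → GG → LL} (h : Coc H c) (h' : Coc H c') :
    Coc H fun σ τ => c σ τ / c' σ τ where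
  lev := by
    obtain ⟨E, hE, hc⟩ := h.lev
    obtain ⟨E', hE', hc'⟩ := h'.lev
    exact ⟨E ⊔ E', inferInstance, fun g hg g' hg' s hs hsE s' hs' hsE' => by
      simp only [hc g hg g' hg' s hs (IntermediateField.fixingSubgroup_antitone le_sup_left hsE) s' hs'
          (IntermediateField.fixingSubgroup_antitone le_sup_left hsE'),
        hc' g hg g' hg' s hs (IntermediateField.fixingSubgroup_antitone le_sup_right hsE) s' hs'
          (IntermediateField.fixingSubgroup_antitone le_sup_right hsE')]⟩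
  ne σ hσ τ hτ := div_ne_zero (h.ne σ hσ τ hτ) (h'.ne σ hσ τ hτ)
  assoc σ hσ τ hτ ρ hρ := by
    rw [map_div₀, div_mul_div_comm, div_mul_div_comm, h.assoc σ hσ τ hτ ρ hρ,
      h'.assoc σ hσ τ hτ ρ hρ]

/-- Hilbert 90. -/
theorem hilbert90 {f : GG → LL} (hf : LevOn H f) (hne : ∀ σ ∈ H, f σ ≠ 0)
    (hcoc : ∀ σ ∈ H, ∀ τ ∈ H, f (σ * τ) = σ (f τ) * f σ) :
    ∃ u : LL, u ≠ 0 ∧ ∀ σ ∈ H, f σ = σ u / u := by
  classical
  obtain ⟨E, hE, hf'⟩ := hf
  obtain ⟨N, hN, hNn, hEN⟩ := exists_normal_le E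
  let res : GG →* (N ≃ₐ[ℚ] N) := AlgEquiv.restrictNormalHom N
  have hres : ∀ (g : GG) (x : N), ((res g x : N) : LL) = g (x : LL) :=
    fun g x => AlgEquiv.restrictNormal_commutes g N x
  have hkey : ∀ g ∈ H, ∀ g' ∈ H, res g = res g' → f g = f g' := fun g hg g' hg' h => by
    have hs : g'⁻¹ * g ∈ E.fixingSubgroup := by
      refine IntermediateField.fixingSubgroup_antitone hEN ?_
      rw [IntermediateField.mem_fixingSubgroup_iff]
      intro x hx
      rw [← hres (g'⁻¹ * g) ⟨x, hx⟩, map_mul, map_inv, h, inv_mul_cancel]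
      rfl
    have := hf' g' hg' _ (mul_mem (inv_mem hg') hg) hs
    rwa [mul_inv_cancel_left] at this
  let T := {t : N ≃ₐ[ℚ] N // ∃ g ∈ H, res g = t}
  haveI : Fintype T := Fintype.ofFinite T
  let lift : T → GG := fun t => t.2.choose
  have hlift : ∀ t : T, lift t ∈ H ∧ res (lift t) = t.1 := fun t => t.2.choose_spec
  let χ : T → (N →* LL) := fun t =>
    ((N.val.toRingHom.comp t.1.toAlgHom.toRingHom).toMonoidHom)
  have hinj : Function.Injective χ := fun t t' h => Subtype.ext <| AlgEquiv.ext fun x =>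
    Subtype.ext (DFunLike.congr_fun h x)
  have hli := (linearIndependent_monoidHom N LL).comp χ hinj
  obtain ⟨z, hz⟩ : ∃ z : N, ∑ t, f (lift t) * ((t.1 z : N) : LL) ≠ 0 := by
    by_contra hall
    push Not at hall
    obtain ⟨t₀⟩ : Nonempty T := ⟨⟨res 1, 1, one_mem H, rfl⟩⟩
    refine hne _ (hlift t₀).1 (Fintype.linearIndependent_iff.1 hli (fun t => f (lift t)) ?_ t₀)
    funext x
    simpa [χ, Finset.sum_apply] using hall x
  refine ⟨(∑ t, f (lift t) * ((t.1 z : N) : LL))⁻¹, inv_ne_zero hz, fun σ hσ => ?_⟩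
  set u := ∑ t, f (lift t) * ((t.1 z : N) : LL)
  have hσu : σ u * f σ = u := by
    simp only [u, map_sum, map_mul, Finset.sum_mul]
    let e : T → T := fun t => ⟨res σ * t.1, σ * lift t, mul_mem hσ (hlift t).1, by
      rw [map_mul, (hlift t).2]⟩
    have he : Function.Bijective e := (Finite.injective_iff_bijective).1 fun t t' h =>
      Subtype.ext (mul_left_cancel (congrArg Subtype.val h))
    refine Fintype.sum_bijective e he _ _ fun t => ?_
    show σ (f (lift t)) * σ ((t.1 z : N) : LL) * f σ =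
      f (lift (e t)) * (((res σ * t.1) z : N) : LL)
    rw [hkey _ (hlift (e t)).1 _ (mul_mem hσ (hlift t).1)
        ((hlift (e t)).2.trans (by rw [map_mul, (hlift t).2])),
      hcoc σ hσ _ (hlift t).1, AlgEquiv.mul_apply, hres]
    ring
  have hσz : σ u ≠ 0 := (EmbeddingLike.map_ne_zero_iff).2 hz
  rw [map_inv₀, div_inv_eq_mul, inv_mul_eq_div, eq_div_iff hσz, mul_comm]
  exact hσu

theorem Coc.mul {c c' : GG → GG → LL} (h : Coc H c) (h' : Coc H c') :
    Coc H fun σ τ => c σ τ * c' σ τ where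
  lev := by
    obtain ⟨E, hE, hc⟩ := h.lev
    obtain ⟨E', hE', hc'⟩ := h'.lev
    exact ⟨E ⊔ E', inferInstance, fun g hg g' hg' s hs hsE s' hs' hsE' => by
      simp only [hc g hg g' hg' s hs (IntermediateField.fixingSubgroup_antitone le_sup_left hsE) s' hs'
          (IntermediateField.fixingSubgroup_antitone le_sup_left hsE'),
        hc' g hg g' hg' s hs (IntermediateField.fixingSubgroup_antitone le_sup_right hsE) s' hs'
          (IntermediateField.fixingSubgroup_antitone le_sup_right hsE')]⟩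
  ne σ hσ τ hτ := mul_ne_zero (h.ne σ hσ τ hτ) (h'.ne σ hσ τ hτ)
  assoc σ hσ τ hτ ρ hρ := by
    rw [map_mul, mul_mul_mul_comm, h.assoc σ hσ τ hτ ρ hρ, h'.assoc σ hσ τ hτ ρ hρ,
      mul_mul_mul_comm]

/-- A class dying on an open subgroup `H'` has a representative which is trivial in the second
variable on `H'`. -/
theorem exists_normalised {c : GG → GG → LL} (hc : Coc H c) (hle : H' ≤ H) (ho : OpenIn H' H)
    (h : Cob H' c) : ∃ c₂ : GG → GG → LL, Coc H c₂ ∧ Cob H (fun σ τ => c σ τ / c₂ σ τ) ∧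
      (∀ σ ∈ H, ∀ t ∈ H', c₂ σ t = 1) ∧
      ∀ σ ∈ H, ∀ τ ∈ H, ∀ t ∈ H', c₂ σ (τ * t) = c₂ σ τ := by
  classical
  obtain ⟨f, hf, hfne, hcf⟩ := h
  set Q := ↥H ⧸ H'.subgroupOf H
  have hmk : ∀ g (hg : g ∈ H) (t) (ht : t ∈ H'),
      (QuotientGroup.mk ⟨g * t, mul_mem hg (hle ht)⟩ : Q) = QuotientGroup.mk ⟨g, hg⟩ :=
    fun g hg t ht => QuotientGroup.eq.2 (by
      simp [Subgroup.mem_subgroupOf, mul_assoc, inv_mem ht])
  let rep : GG → GG := fun g =>
    if hg : g ∈ H then ((QuotientGroup.mk ⟨g, hg⟩ : Q).out : GG) else 1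
  have hrepH : ∀ g, rep g ∈ H := fun g => by
    by_cases hg : g ∈ H <;> simp [rep, hg, one_mem]
  have hrep' : ∀ g ∈ H, (rep g)⁻¹ * g ∈ H' := fun g hg => by
    simp only [rep, dif_pos hg]
    have h := QuotientGroup.eq.1 ((QuotientGroup.mk ⟨g, hg⟩ : Q).out_eq')
    simpa [Subgroup.mem_subgroupOf] using h
  have hrepmul : ∀ g ∈ H, ∀ t ∈ H', rep (g * t) = rep g := fun g hg t ht => by
    simp only [rep, dif_pos hg, dif_pos (mul_mem hg (hle ht))]
    exact congrArg (fun q : Q => (q.out : GG)) (hmk g hg t ht)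
  -- first make it trivial on pairs in `H'`
  let fx : GG → LL := fun g => if g ∈ H' then f g else 1
  have hfx : LevOn H fx := by
    obtain ⟨E, hE, hf'⟩ := hf
    obtain ⟨E', hE', hle'⟩ := ho
    refine ⟨E ⊔ E', inferInstance, fun g hg s hs hsE => ?_⟩
    have hsH' : s ∈ H' := hle' ⟨hs, IntermediateField.fixingSubgroup_antitone le_sup_right hsE⟩
    by_cases hgH' : g ∈ H'
    · simp only [fx, if_pos hgH', if_pos (mul_mem hgH' hsH')]
      exact hf' g hgH' s hsH' (IntermediateField.fixingSubgroup_antitone le_sup_left hsE)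
    · have : g * s ∉ H' := fun hh => hgH' (by simpa using mul_mem hh (inv_mem hsH'))
      simp [fx, hgH', this]
  have hfxne : ∀ g ∈ H, fx g ≠ 0 := fun g _ => by
    by_cases hgH' : g ∈ H' <;> simp [fx, hgH', hfne]
  let c₁ : GG → GG → LL := fun σ τ => c σ τ / dlt fx σ τ
  have hc₁ : Coc H c₁ := hc.div (coc_dlt hfx hfxne)
  have h₁ : ∀ s ∈ H', ∀ t ∈ H', c₁ s t = 1 := fun s hs t ht => by
    have e : dlt fx s t = dlt f s t := by simp [dlt, fx, hs, ht, mul_mem hs ht]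
    simp only [c₁, e, hcf s hs t ht]
    exact div_self (dlt_ne (hfne s hs) (hfne t ht) (hfne _ (mul_mem hs ht)))
  -- then in the second variable
  let g₀ : GG → LL := fun g => c₁ (rep g) ((rep g)⁻¹ * g)
  have hg₀ : LevOn H g₀ := by
    obtain ⟨E, hE, hce⟩ := hc₁.lev
    obtain ⟨E', hE', hle'⟩ := ho
    refine ⟨E ⊔ E', inferInstance, fun g hg s hs hsE => ?_⟩
    have hsH' : s ∈ H' := hle' ⟨hs, IntermediateField.fixingSubgroup_antitone le_sup_right hsE⟩
    simp only [g₀, hrepmul g hg s hsH']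
    have := hce (rep g) (hrepH g) _ (hle (hrep' g hg)) 1 (one_mem H) (one_mem _) s hs
      (IntermediateField.fixingSubgroup_antitone le_sup_left hsE)
    rwa [mul_one, mul_assoc] at this
  have hg₀ne : ∀ g ∈ H, g₀ g ≠ 0 := fun g hg => hc₁.ne _ (hrepH g) _ (hle (hrep' g hg))
  let c₂ : GG → GG → LL := fun σ τ => c₁ σ τ * dlt g₀ σ τ
  have hc₂ : Coc H c₂ := hc₁.mul (coc_dlt hg₀ hg₀ne)
  have hg₀1 : ∀ t ∈ H', g₀ t = 1 := fun t ht => by
    have h1 : rep t ∈ H' := by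
      have := mul_mem ht (inv_mem (hrep' t (hle ht)))
      simpa [mul_assoc] using this
    exact h₁ _ h1 _ (hrep' t (hle ht))
  have h11 : c₁ 1 1 = 1 := h₁ 1 (one_mem _) 1 (one_mem _)
  have hA : ∀ g ∈ H, ∀ t ∈ H', c₂ (rep g) t = 1 := fun g hg t ht => by
    have hr : rep g ∈ H := hrepH g
    have e1 : g₀ (rep g) = 1 := by
      have hrr : rep (rep g) = rep g := by
        have := hrepmul g hg _ (inv_mem (hrep' g hg))
        simpa using this
      simp only [g₀, hrr, inv_mul_cancel, hc₁.one_right hr, h11, map_one]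
    have e2 : g₀ (rep g * t) = c₁ (rep g) t := by
      have hrr : rep (rep g * t) = rep g := by
        rw [hrepmul _ hr t ht]
        have := hrepmul g hg _ (inv_mem (hrep' g hg))
        simpa using this
      simp only [g₀, hrr, inv_mul_cancel_left]
    simp only [c₂, dlt, hg₀1 t ht, map_one, e1, e2, mul_one]
    rw [one_div, mul_inv_cancel₀ (hc₁.ne _ hr _ (hle ht))]
  have h₂ : ∀ s ∈ H', ∀ t ∈ H', c₂ s t = 1 := fun s hs t ht => by
    simp [c₂, dlt, h₁ s hs t ht, hg₀1 s hs, hg₀1 t ht, hg₀1 _ (mul_mem hs ht)]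
  have hB : ∀ σ ∈ H, ∀ t ∈ H', c₂ σ t = 1 := fun σ hσ t ht => by
    have h := hc₂.assoc (rep σ) (hrepH σ) _ (hle (hrep' σ hσ)) t (hle ht)
    rw [h₂ _ (hrep' σ hσ) t ht, map_one, one_mul, hA σ hσ _ (mul_mem (hrep' σ hσ) ht),
      hA σ hσ _ (hrep' σ hσ), mul_one, mul_inv_cancel_left] at h
    exact h.symm
  refine ⟨c₂, hc₂, ⟨fun g => fx g * (g₀ g)⁻¹, hfx.map₂ (hg₀.map (·⁻¹)) (· * ·),
    fun g hg => mul_ne_zero (hfxne g hg) (inv_ne_zero (hg₀ne g hg)), fun σ hσ τ hτ => ?_⟩, hB,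
    fun σ hσ τ hτ t ht => ?_⟩
  · have hd := dlt_ne (hfxne σ hσ) (hfxne τ hτ) (hfxne _ (mul_mem hσ hτ))
    have hd' := dlt_ne (hg₀ne σ hσ) (hg₀ne τ hτ) (hg₀ne _ (mul_mem hσ hτ))
    have := hc.ne σ hσ τ hτ
    rw [dlt_mul, dlt_inv]
    simp only [c₂, c₁]
    field_simp
  · have h := hc₂.assoc σ hσ τ hτ t (hle ht)
    rwa [hB τ hτ t ht, map_one, one_mul, hB _ (mul_mem hσ hτ) t ht, one_mul] at h

/-- The index of an open subgroup kills the classes which die on it. -/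
theorem cob_pow_index {c : GG → GG → LL} (hc : Coc H c) (hle : H' ≤ H) (ho : OpenIn H' H)
    (h : Cob H' c) : Cob H fun σ τ => c σ τ ^ (H'.relIndex H) := by
  classical
  obtain ⟨c₂, hc₂, hd, -, hright⟩ := exists_normalised hc hle ho h
  haveI := ho.finite_quotient
  set Q := ↥H ⧸ H'.subgroupOf H
  haveI : Fintype Q := Fintype.ofFinite _
  have hm : H'.relIndex H = Fintype.card Q := by
    rw [← Nat.card_eq_fintype_card]
    rfl
  let f : GG → LL := fun σ => ∏ q : Q, c₂ σ (q.out : GG)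
  have hf : LevOn H f := by
    obtain ⟨E, hE, hce⟩ := hc₂.lev
    refine ⟨E, hE, fun g hg s hs hsE => Finset.prod_congr rfl fun q _ => ?_⟩
    have := hce g hg _ q.out.2 s hs hsE 1 (one_mem H) (one_mem _)
    rwa [mul_one] at this
  have hne : ∀ σ ∈ H, f σ ≠ 0 := fun σ hσ => Finset.prod_ne_zero_iff.2 fun q _ =>
    hc₂.ne σ hσ _ q.out.2
  have h₂ : Cob H fun σ τ => c₂ σ τ ^ (H'.relIndex H) := ⟨f, hf, hne, fun σ hσ τ hτ => by
    have hperm : ∏ q : Q, c₂ σ (τ * (q.out : GG)) = f σ := by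
      let e : Q → Q := fun q => (⟨τ, hτ⟩ : ↥H) • q
      refine Fintype.prod_bijective e (MulAction.bijective _) _ _ fun q => ?_
      have he : e q = QuotientGroup.mk (⟨τ, hτ⟩ * q.out) := by
        conv_lhs => rw [← q.out_eq']
        rfl
      have hmem := QuotientGroup.eq.1 (((e q).out_eq').trans he)
      rw [Subgroup.mem_subgroupOf] at hmem
      have := hright σ hσ _ (e q).out.2 _ hmem
      rw [← this]
      congr 1
      simp
    have key : ∀ q : Q, σ (c₂ τ (q.out : GG)) * c₂ σ (τ * (q.out : GG)) =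
        c₂ (σ * τ) (q.out : GG) * c₂ σ τ := fun q => hc₂.assoc σ hσ τ hτ _ q.out.2
    have h := Finset.prod_congr rfl fun q (_ : q ∈ Finset.univ) => key q
    simp only [Finset.prod_mul_distrib, Finset.prod_const, Finset.card_univ, hperm,
      ← map_prod] at h
    rw [dlt, hm, eq_div_iff (hne _ (mul_mem hσ hτ)), mul_comm]
    exact h.symm⟩
  refine ((hd.pow (H'.relIndex H)).mul h₂).congr fun σ hσ τ hτ => ?_
  rw [← mul_pow, div_mul_cancel₀ _ (hc₂.ne σ hσ τ hτ)]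

end FLTAgent.Lowering.P1.Brauer
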