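import Fermat.Agent.Lowering.P1.Brauer.LocalInv

/-!
# Conjugation of local classes and their invariants
-/

set_option autoImplicit false
set_option linter.style.haveILetI false
set_option linter.unusedSectionVars false
set_option maxHeartbeats 1000000

noncomputable section

open scoped Pointwise

namespace FLTAgent.Lowering.P1.Brauer

local notation "LL" => AlgebraicClosure ℚ
local notation "GG" => (AlgebraicClosure ℚ ≃ₐ[ℚ] AlgebraicClosure ℚ)
local notation "Dec" => ValuationSubring.decompositionSubgroup ℚ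

theorem mem_dec_smul {γ σ : GG} {V : ValuationSubring LL} :
    σ ∈ Dec (γ • V) ↔ γ⁻¹ * σ * γ ∈ Dec V := by
  rw [MulAction.mem_stabilizer_iff, MulAction.mem_stabilizer_iff, mul_smul, mul_smul,
    inv_smul_eq_iff]

/-- Conjugation of a cochain. -/
def conjC (γ : GG) (c : GG → GG → LL) (σ τ : GG) : LL := γ (c (γ⁻¹ * σ * γ) (γ⁻¹ * τ * γ))

/-- The conjugate of a subgroup. -/
def conjH (γ : GG) (H : Subgroup GG) : Subgroup GG :=
  H.comap (MulAut.conj γ⁻¹).toMonoidHom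

theorem mem_conjH {γ : GG} {H : Subgroup GG} {σ : GG} : σ ∈ conjH γ H ↔ γ⁻¹ * σ * γ ∈ H := by
  simp [conjH]

theorem conjH_dec (γ : GG) (V : ValuationSubring LL) : conjH γ (Dec V) = Dec (γ • V) :=
  SetLike.ext fun _ => mem_conjH.trans mem_dec_smul.symm

theorem LevOn.conj {H : Subgroup GG} {α : Type} {f : GG → α} (γ : GG) (h : LevOn H f) :
    LevOn (conjH γ H) fun σ => f (γ⁻¹ * σ * γ) := by
  obtain ⟨E, hE, hf⟩ := h
  obtain ⟨N, hN, hNn, hle⟩ := exists_normal_le E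
  refine ⟨N, hN, fun g hg s hs hsE => ?_⟩
  have h1 := hf _ (mem_conjH.1 hg) _ (mem_conjH.1 hs)
    (IntermediateField.fixingSubgroup_antitone hle (fix_conj hsE γ))
  beta_reduce
  rw [show γ⁻¹ * (g * s) * γ = γ⁻¹ * g * γ * (γ⁻¹ * s * γ) by group]
  exact h1

theorem Sim.conj {H : Subgroup GG} {c c' : GG → GG → LL} (γ : GG) (h : Sim H c c') :
    Sim (conjH γ H) (conjC γ c) (conjC γ c') := by
  obtain ⟨f, hf, hne, hc⟩ := h
  refine ⟨fun σ => γ (f (γ⁻¹ * σ * γ)), (hf.conj γ).map (fun x => γ x),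
    fun σ hσ => (EmbeddingLike.map_ne_zero_iff).2 (hne _ (mem_conjH.1 hσ)), fun σ hσ τ hτ => ?_⟩
  simp only [conjC]
  rw [hc _ (mem_conjH.1 hσ) _ (mem_conjH.1 hτ), map_mul]
  congr 1
  simp only [dlt, map_div₀, map_mul]
  congr 2
  · rw [AlgEquiv.mul_apply, AlgEquiv.mul_apply, ← AlgEquiv.mul_apply γ γ⁻¹, mul_inv_cancel,
      AlgEquiv.one_apply]
  · rw [show γ⁻¹ * σ * γ * (γ⁻¹ * τ * γ) = γ⁻¹ * (σ * τ) * γ by group]

theorem OpenIn.conj {A B : Subgroup GG} (γ : GG) (h : OpenIn A B) :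
    OpenIn (conjH γ A) (conjH γ B) := by
  obtain ⟨E, hE, hle⟩ := h
  obtain ⟨N, hN, hNn, hEN⟩ := exists_normal_le E
  exact ⟨N, hN, fun σ hσ => mem_conjH.2 (hle (Subgroup.mem_inf.2 ⟨mem_conjH.1 (Subgroup.mem_inf.1 hσ).1,
    IntermediateField.fixingSubgroup_antitone hEN (fix_conj (Subgroup.mem_inf.1 hσ).2 γ)⟩))⟩

theorem nrm_conj {A B : Subgroup GG} (γ : GG) (ho : OpenIn A B) {y : LL}
    (hy : ∀ t ∈ A, t y = y) : nrm (conjH γ A) (conjH γ B) (γ y) = γ (nrm A B y) := by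
  haveI := ho.finite_quotient
  haveI := Fintype.ofFinite (↥B ⧸ A.subgroupOf B)
  have hy' : ∀ t ∈ conjH γ A, t (γ y) = γ y := fun t ht => by
    have h := congrArg γ (hy _ (mem_conjH.1 ht))
    rwa [← AlgEquiv.mul_apply, show γ * (γ⁻¹ * t * γ) = t * γ by group, AlgEquiv.mul_apply] at h
  have hmem : ∀ q : ↥B ⧸ A.subgroupOf B, γ * (q.out : GG) * γ⁻¹ ∈ conjH γ B := fun q => by
    rw [mem_conjH, show γ⁻¹ * (γ * (q.out : GG) * γ⁻¹) * γ = (q.out : GG) by group]
    exact q.out.2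
  let r : (↥B ⧸ A.subgroupOf B) → ↥(conjH γ B) := fun q => ⟨_, hmem q⟩
  have hr : Function.Bijective fun q =>
      (QuotientGroup.mk (r q) : ↥(conjH γ B) ⧸ (conjH γ A).subgroupOf (conjH γ B)) := by
    constructor
    · intro q q' h
      rw [← q.out_eq', ← q'.out_eq']
      refine QuotientGroup.eq.2 ?_
      have h' := QuotientGroup.eq.1 h
      rw [Subgroup.mem_subgroupOf, mem_conjH] at h'
      simp only [r, Subgroup.coe_mul, Subgroup.coe_inv] at h'
      rw [show γ⁻¹ * ((γ * (q.out : GG) * γ⁻¹)⁻¹ * (γ * (q'.out : GG) * γ⁻¹)) * γ =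
        (q.out : GG)⁻¹ * q'.out by group] at h'
      simpa [Subgroup.mem_subgroupOf] using h'
    · intro x
      induction x using QuotientGroup.induction_on with
      | H g =>
        refine ⟨QuotientGroup.mk ⟨_, mem_conjH.1 g.2⟩, QuotientGroup.eq.2 ?_⟩
        have h := QuotientGroup.eq.1 (QuotientGroup.out_eq'
          (QuotientGroup.mk (⟨_, mem_conjH.1 g.2⟩ : ↥B) : ↥B ⧸ A.subgroupOf B))
        simp only [Subgroup.mem_subgroupOf, Subgroup.coe_mul, Subgroup.coe_inv] at h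
        simp only [r, Subgroup.mem_subgroupOf, mem_conjH, Subgroup.coe_mul, Subgroup.coe_inv]
        convert h using 1
        group
  rw [nrm_eq_prod hy' r hr, nrm_eq_prod_out, map_prod]
  refine Finset.prod_congr rfl fun q _ => ?_
  show (γ * (q.out : GG) * γ⁻¹) (γ y) = γ ((q.out : GG) y)
  rw [← AlgEquiv.mul_apply, inv_mul_cancel_right, AlgEquiv.mul_apply]

variable {p : ℕ} [Fact p.Prime] (Y : CycloLayer p) {H : Subgroup GG} {V : ValuationSubring LL}
  {l : ℕ} (hl : l.Prime) (hV : V.LiesOverPrime l)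

theorem LocalSub.conj (γ : GG) (hH : LocalSub V H) : LocalSub (γ • V) (conjH γ H) :=
  ⟨fun σ hσ => mem_dec_smul.2 (hH.le (mem_conjH.1 hσ)), conjH_dec γ V ▸ hH.openIn.conj γ⟩

theorem psi_conj (n : ℕ) (γ σ : GG) : Y.ψ n (γ⁻¹ * σ * γ) = Y.ψ n σ := by
  have h := Y.mul n γ γ⁻¹
  rw [mul_inv_cancel, psi_one Y n] at h
  rw [Y.mul, Y.mul]
  linear_combination -h

include hl hV in
theorem hasInv_conj (γ : GG) (hH : LocalSub V H) {n : ℕ} {c : GG → GG → LL} {t : ZMod p}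
    (h : HasInv Y V H n c t) : HasInv Y (γ • V) (conjH γ H) n (conjC γ c) t := by
  obtain ⟨b, hb0, hb, hs, he⟩ := h
  refine ⟨γ b, (EmbeddingLike.map_ne_zero_iff).2 hb0, fun σ hσ => ?_,
    (hs.conj γ).trans (Sim.of_eq fun σ _ τ _ => ?_), ?_⟩
  · have h1 := congrArg γ (hb _ (mem_conjH.1 hσ))
    rwa [← AlgEquiv.mul_apply, show γ * (γ⁻¹ * σ * γ) = σ * γ by group, AlgEquiv.mul_apply] at h1
  · simp only [conjC, symR, psi_conj]
    split_ifs
    exacts [rfl, map_one γ]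
  · rw [← conjH_dec γ V, nrm_conj γ hH.openIn hb, Y.Φ_conj γ l V hl hV n _
      (fun σ hσ => nrm_fixed hH.openIn hb hσ) (nrm_ne hH.openIn hb0), he]

include hl hV in
theorem invH_conj (hloc : LocalFacts) (hp2 : p ≠ 2) (γ : GG) (hH : LocalSub V H)
    {c : GG → GG → LL} (hc : Coc H c) (ht : Cob H fun σ τ => c σ τ ^ p) :
    invH Y (γ • V) (conjH γ H) (conjC γ c) = invH Y V H c := by
  obtain ⟨n, hn, hne⟩ := exists_nonzero Y hl hV hH
  exact invH_eq Y hl (Places.liesOverPrime_smul V γ hV) (hH.conj γ) hn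
    (hasInv_conj Y hl hV γ hH (hasInv_invH Y hl hV hloc hp2 hH hc ht (hne n le_rfl)))

end FLTAgent.Lowering.P1.Brauer
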