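import Fermat.Agent.Lowering.P1.Brauer.Split
import Fermat.Agent.Lowering.P1.Local.Target

/-!
# The cyclotomic layer: the logarithm modulo a power of `p` and the global character
-/

set_option autoImplicit false
set_option linter.style.haveILetI false
set_option linter.unusedSectionVars false

noncomputable section

open scoped Pointwise

namespace FLTAgent.Lowering.P1.Brauer.Layer

local notation "LL" => AlgebraicClosure ℚ
local notation "GG" => (AlgebraicClosure ℚ ≃ₐ[ℚ] AlgebraicClosure ℚ)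

variable {p : ℕ} [hp : Fact p.Prime]

open Classical in
/-- The exponent of `1 + p` in the `p - 1` power of a residue modulo `p ^ (n + 1)`. -/
def lam (n : ℕ) (x : ZMod (p ^ (n + 1))) : ZMod (p ^ n) :=
  if h : ∃ k : ℕ, x ^ (p - 1) = (1 + p : ZMod (p ^ (n + 1))) ^ k then (h.choose : ZMod (p ^ n)) else 0

theorem isUnit_one_add (n : ℕ) : IsUnit (1 + p : ZMod (p ^ (n + 1))) := by
  rw [← Nat.cast_one (R := ZMod _), ← Nat.cast_add, ZMod.isUnit_iff_coprime]
  refine Nat.Coprime.pow_right _ ?_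
  simp

theorem one_add_pow_iff (hp2 : p ≠ 2) (n i j : ℕ) :
    (1 + p : ZMod (p ^ (n + 1))) ^ i = (1 + p) ^ j ↔ (i : ZMod (p ^ n)) = j := by
  have hord : orderOf (isUnit_one_add (p := p) n).unit = p ^ n := by
    rw [← orderOf_injective _ Units.coeHom_injective, Units.coeHom_apply, IsUnit.unit_spec]
    exact ZMod.orderOf_one_add_prime hp.out hp2 n
  rw [ZMod.natCast_eq_natCast_iff', ← hord, ← Nat.ModEq, ← pow_eq_pow_iff_modEq, ← Units.val_inj,
    Units.val_pow_eq_pow_val, Units.val_pow_eq_pow_val, IsUnit.unit_spec]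

theorem lam_eq (hp2 : p ≠ 2) {n : ℕ} {x : ZMod (p ^ (n + 1))} {k : ℕ}
    (h : x ^ (p - 1) = (1 + p : ZMod (p ^ (n + 1))) ^ k) : lam n x = k := by
  have hex : ∃ k : ℕ, x ^ (p - 1) = (1 + p : ZMod (p ^ (n + 1))) ^ k := ⟨k, h⟩
  rw [lam, dif_pos hex]
  exact (one_add_pow_iff hp2 n _ _).1 (hex.choose_spec.symm.trans h)

theorem exists_exp (hp2 : p ≠ 2) (n : ℕ) {x : ZMod (p ^ (n + 1))} (hx : IsUnit x) :
    ∃ k : ℕ, x ^ (p - 1) = (1 + p : ZMod (p ^ (n + 1))) ^ k := by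
  classical
  haveI := ZMod.isCyclic_units_of_prime_pow p hp.out hp2 (n + 1)
  haveI : NeZero (p ^ (n + 1)) := ⟨(pow_pos hp.out.pos _).ne'⟩
  set γ := (isUnit_one_add (p := p) n).unit
  have hγ : orderOf γ = p ^ n := by
    rw [← orderOf_injective _ Units.coeHom_injective, Units.coeHom_apply, IsUnit.unit_spec]
    exact ZMod.orderOf_one_add_prime hp.out hp2 n
  let S : Finset (ZMod (p ^ (n + 1)))ˣ := Finset.univ.filter fun a => a ^ (p ^ n) = 1
  let T : Finset (ZMod (p ^ (n + 1)))ˣ := (Finset.range (p ^ n)).image fun i => γ ^ i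
  have hT : T.card = p ^ n := by
    rw [Finset.card_image_of_injOn, Finset.card_range]
    intro i hi j hj h
    rw [Finset.coe_range, Set.mem_Iio, ← hγ] at hi hj
    exact pow_injOn_Iio_orderOf hi hj h
  have hTS : T ⊆ S := fun a ha => by
    obtain ⟨i, -, rfl⟩ := Finset.mem_image.1 ha
    refine Finset.mem_filter.2 ⟨Finset.mem_univ _, ?_⟩
    rw [← pow_mul, mul_comm, pow_mul, ← hγ, pow_orderOf_eq_one, one_pow]
  have hmem : hx.unit ^ (p - 1) ∈ S := by
    refine Finset.mem_filter.2 ⟨Finset.mem_univ _, ?_⟩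
    rw [← pow_mul, ← orderOf_dvd_iff_pow_eq_one]
    refine (orderOf_dvd_natCard _).trans ?_
    rw [Nat.card_eq_fintype_card, ZMod.card_units_eq_totient, Nat.totient_prime_pow_succ hp.out,
      mul_comm]
  rw [← Finset.eq_of_subset_of_card_le hTS
    (by rw [hT]; exact IsCyclic.card_pow_eq_one_le (pow_pos hp.out.pos n))] at hmem
  obtain ⟨i, -, hi⟩ := Finset.mem_image.1 hmem
  refine ⟨i, ?_⟩
  have h := congrArg Units.val hi
  rw [Units.val_pow_eq_pow_val, Units.val_pow_eq_pow_val, IsUnit.unit_spec, IsUnit.unit_spec] at h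
  exact h.symm

theorem lam_mul (hp2 : p ≠ 2) {n : ℕ} {x y : ZMod (p ^ (n + 1))} (hx : IsUnit x) (hy : IsUnit y) :
    lam n (x * y) = lam n x + lam n y := by
  obtain ⟨i, hi⟩ := exists_exp hp2 n hx
  obtain ⟨j, hj⟩ := exists_exp hp2 n hy
  rw [lam_eq hp2 hi, lam_eq hp2 hj, ← Nat.cast_add]
  exact lam_eq hp2 (by rw [mul_pow, hi, hj, ← pow_add])

theorem lam_one (hp2 : p ≠ 2) (n : ℕ) : lam n (1 : ZMod (p ^ (n + 1))) = 0 := by
  rw [lam_eq hp2 (k := 0) (by simp), Nat.cast_zero]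

theorem lam_pow (hp2 : p ≠ 2) {n : ℕ} {x : ZMod (p ^ (n + 1))} (hx : IsUnit x) (m : ℕ) :
    lam n (x ^ m) = m * lam n x := by
  induction m with
  | zero => simp [lam_one hp2]
  | succ m ih => rw [pow_succ, lam_mul hp2 (hx.pow m) hx, ih, Nat.cast_succ, add_mul, one_mul]

theorem lam_neg_one (hp2 : p ≠ 2) (n : ℕ) : lam n (-1 : ZMod (p ^ (n + 1))) = 0 := by
  obtain ⟨k, hk⟩ := hp.out.odd_of_ne_two hp2
  have he : (-1 : ZMod (p ^ (n + 1))) ^ (p - 1) = 1 := by
    rw [show p - 1 = 2 * k by omega, pow_mul]; simp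
  rw [lam_eq hp2 (k := 0) (by rw [he, pow_zero]), Nat.cast_zero]

theorem isUnit_natCast {n r : ℕ} (hr : ¬ p ∣ r) : IsUnit (r : ZMod (p ^ n)) := by
  rw [ZMod.isUnit_iff_coprime]
  exact Nat.Coprime.pow_right _ ((hp.out.coprime_iff_not_dvd.2 hr).symm)

theorem lam_compat (hp2 : p ≠ 2) (n : ℕ) {r : ℕ} (hr : ¬ p ∣ r) :
    ((lam (n + 1) (r : ZMod (p ^ (n + 1 + 1)))).val : ZMod (p ^ n)) =
      lam n (r : ZMod (p ^ (n + 1))) := by
  obtain ⟨k, hk⟩ := exists_exp hp2 (n + 1) (isUnit_natCast (n := n + 1 + 1) hr)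
  have hdvd : p ^ (n + 1) ∣ p ^ (n + 1 + 1) := pow_dvd_pow p (by omega)
  have hk' := congrArg (ZMod.castHom hdvd (ZMod (p ^ (n + 1)))) hk
  simp only [map_pow, map_add, map_one, map_natCast] at hk'
  rw [lam_eq hp2 hk, lam_eq hp2 hk', ZMod.val_natCast, ZMod.natCast_eq_natCast_iff',
    Nat.mod_mod_of_dvd _ (pow_dvd_pow p (by omega))]

theorem exists_lam_eq (hp2 : p ≠ 2) (n : ℕ) (t : ZMod (p ^ n)) :
    ∃ r : ℕ, ¬ p ∣ r ∧ lam n (r : ZMod (p ^ (n + 1))) = t := by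
  haveI : NeZero (p ^ n) := ⟨(pow_pos hp.out.pos _).ne'⟩
  have hu : IsUnit ((p - 1 : ℕ) : ZMod (p ^ n)) :=
    isUnit_natCast (fun h => by
      have := hp.out.two_le
      have := Nat.le_of_dvd (by omega) h
      omega)
  obtain ⟨u, hu⟩ := hu
  set j := ((↑u⁻¹ : ZMod (p ^ n)) * t).val
  refine ⟨(1 + p) ^ j, fun h => ?_, ?_⟩
  · have h1 : p ∣ 1 + p := hp.out.dvd_of_dvd_pow h
    exact hp.out.not_dvd_one ((Nat.dvd_add_left dvd_rfl).1 h1)
  · rw [lam_eq hp2 (k := j * (p - 1)) (by push_cast; rw [pow_mul]), Nat.cast_mul,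
      ZMod.natCast_zmod_val, ← hu, mul_comm, ← mul_assoc, Units.mul_inv, one_mul]

theorem exists_padic_lam (hp2 : p ≠ 2) {r : ℕ} (hr : ¬ p ∣ r) (hr1 : 1 < r) :
    ∃ e : ℕ, ∀ n, e < n → ∃ u : ZMod (p ^ n), IsUnit u ∧
      lam n (r : ZMod (p ^ (n + 1))) = (p : ZMod (p ^ n)) ^ e * u := by
  have hp1 : 1 ≤ p - 1 := by have := hp.out.two_le; omega
  set N := r ^ (p - 1) - 1
  have hN1 : 1 < r ^ (p - 1) := Nat.one_lt_pow (by omega) hr1
  obtain ⟨a, m, hm, hN⟩ := Nat.exists_eq_pow_mul_and_not_dvd (show N ≠ 0 by omega) p hp.out.ne_one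
  have hpN : p ∣ N := by
    have h := Nat.ModEq.pow_totient ((hp.out.coprime_iff_not_dvd).2 hr).symm
    rw [Nat.totient_prime hp.out] at h
    exact (Nat.modEq_iff_dvd' (le_of_lt hN1)).1 h.symm
  obtain ⟨e, rfl⟩ : ∃ e, a = e + 1 := ⟨a - 1, by
    rcases Nat.eq_zero_or_pos a with rfl | ha
    · rw [pow_zero, one_mul] at hN
      exact absurd (hN ▸ hpN) hm
    · omega⟩
  refine ⟨e, fun n hn => ?_⟩
  haveI : NeZero (p ^ n) := ⟨(pow_pos hp.out.pos _).ne'⟩
  obtain ⟨k, hk⟩ := exists_exp hp2 n (isUnit_natCast (n := n + 1) hr)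
  -- the exponent is divisible by exactly this power
  have key : ∀ b, b ≤ n → (p ^ b ∣ k ↔ b ≤ e) := by
    intro b hb
    have hdvd : p ^ (b + 1) ∣ p ^ (n + 1) := pow_dvd_pow p (by omega)
    have hk' := congrArg (ZMod.castHom hdvd (ZMod (p ^ (b + 1)))) hk
    simp only [map_pow, map_add, map_one, map_natCast] at hk'
    have h1 : (p ^ b ∣ k) ↔ ((r : ZMod (p ^ (b + 1))) ^ (p - 1) = 1) := by
      have h2 := one_add_pow_iff hp2 b k 0
      rw [pow_zero, Nat.cast_zero, ZMod.natCast_eq_zero_iff] at h2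
      rw [hk', h2]
    rw [h1]
    have h3 : (r : ZMod (p ^ (b + 1))) ^ (p - 1) = (N : ZMod (p ^ (b + 1))) + 1 := by
      rw [← Nat.cast_pow, show r ^ (p - 1) = N + 1 by omega, Nat.cast_succ]
    rw [h3, add_eq_right, ZMod.natCast_eq_zero_iff, hN]
    constructor
    · intro h
      by_contra hbe
      have h4 : p ^ (e + 1 + 1) ∣ p ^ (e + 1) * m := (pow_dvd_pow p (by omega)).trans h
      rw [pow_succ p (e + 1), Nat.mul_dvd_mul_iff_left (pow_pos hp.out.pos _)] at h4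
      exact hm h4
    · intro h
      exact (pow_dvd_pow p (by omega)).trans (dvd_mul_right _ _)
  obtain ⟨w, hw⟩ := (key e hn.le).2 le_rfl
  refine ⟨(w : ZMod (p ^ n)), isUnit_natCast fun hpw => ?_, by rw [lam_eq hp2 hk, hw, Nat.cast_mul, Nat.cast_pow]⟩
  obtain ⟨v, rfl⟩ := hpw
  have := (key (e + 1) hn).1 ⟨v, by rw [hw, pow_succ]; ring⟩
  omega

/-! ### The global character -/

theorem exists_zeta (p : ℕ) [Fact p.Prime] (n : ℕ) : ∃ ζ : LL, IsPrimitiveRoot ζ (p ^ (n + 1)) :=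
  haveI : NeZero (p ^ (n + 1)) := ⟨(pow_pos (Fact.out : p.Prime).pos _).ne'⟩
  HasEnoughRootsOfUnity.exists_primitiveRoot LL _

/-- A primitive root of unity of order `p ^ (n + 1)`. -/
def zeta (p : ℕ) [Fact p.Prime] (n : ℕ) : LL := (exists_zeta p n).choose

theorem zeta_spec (n : ℕ) : IsPrimitiveRoot (zeta p n) (p ^ (n + 1)) := (exists_zeta p n).choose_spec

open Classical in
/-- The exponent of an automorphism on roots of unity of `p`-power order. -/
def cyc (p : ℕ) [Fact p.Prime] (n : ℕ) (σ : GG) : ℕ :=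
  if h : ∃ j : ℕ, σ (zeta p n) = zeta p n ^ j then h.choose else 1

theorem cyc_spec (n : ℕ) (σ : GG) : σ (zeta p n) = zeta p n ^ cyc p n σ := by
  haveI : NeZero (p ^ (n + 1)) := ⟨(pow_pos hp.out.pos _).ne'⟩
  have hex : ∃ j : ℕ, σ (zeta p n) = zeta p n ^ j := by
    obtain ⟨j, -, hj⟩ := (zeta_spec (p := p) n).eq_pow_of_pow_eq_one (ξ := σ (zeta p n))
      (by rw [← map_pow, (zeta_spec n).pow_eq_one, map_one])
    exact ⟨j, hj.symm⟩
  rw [cyc, dif_pos hex]
  exact hex.choose_spec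

theorem cast_cyc_of_eq {n j : ℕ} {σ : GG} (h : σ (zeta p n) = zeta p n ^ j) :
    (cyc p n σ : ZMod (p ^ (n + 1))) = j := by
  rw [cyc_spec n σ] at h
  haveI : NeZero (p ^ (n + 1)) := ⟨(pow_pos hp.out.pos _).ne'⟩
  rw [ZMod.natCast_eq_natCast_iff']
  have hz := zeta_spec (p := p) n
  rw [pow_eq_pow_mod (cyc p n σ) hz.pow_eq_one, pow_eq_pow_mod j hz.pow_eq_one] at h
  exact hz.pow_inj (Nat.mod_lt _ (pow_pos hp.out.pos _)) (Nat.mod_lt _ (pow_pos hp.out.pos _)) h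

theorem cyc_not_dvd (n : ℕ) (σ : GG) : ¬ p ∣ cyc p n σ := by
  intro h
  have hp' := (zeta_spec (p := p) n).map_of_injective (f := σ) σ.injective
  rw [cyc_spec, (zeta_spec n).pow_iff_coprime (pow_pos hp.out.pos _)] at hp'
  exact hp.out.not_dvd_one (hp'.gcd_eq_one ▸ Nat.dvd_gcd h (dvd_pow_self p (by omega)))

/-- The character of the layer. -/
def psi (p : ℕ) [Fact p.Prime] (n : ℕ) (σ : GG) : ZMod (p ^ n) :=
  lam n (cyc p n σ : ZMod (p ^ (n + 1)))

theorem psi_of_eq {n j : ℕ} {σ : GG} (h : σ (zeta p n) = zeta p n ^ j) :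
    psi p n σ = lam n (j : ZMod (p ^ (n + 1))) := by
  rw [psi, cast_cyc_of_eq h]

theorem psi_mul (hp2 : p ≠ 2) (n : ℕ) (σ τ : GG) : psi p n (σ * τ) = psi p n σ + psi p n τ := by
  have h : (σ * τ) (zeta p n) = zeta p n ^ (cyc p n σ * cyc p n τ) := by
    rw [AlgEquiv.mul_apply, cyc_spec n τ, map_pow, cyc_spec n σ, ← pow_mul]
  rw [psi_of_eq h, Nat.cast_mul, lam_mul hp2 (isUnit_natCast (cyc_not_dvd n σ))
    (isUnit_natCast (cyc_not_dvd n τ))]
  rfl

theorem psi_lev (n : ℕ) : LevC (MonoidHom.id GG) (psi p n) := by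
  refine ⟨IntermediateField.adjoin ℚ {zeta p n},
    IntermediateField.adjoin.finiteDimensional (integral_coe _), fun g s hs => ?_⟩
  have hs' : s (zeta p n) = zeta p n := (IntermediateField.mem_fixingSubgroup_iff _ _).1 hs _
    (IntermediateField.mem_adjoin_simple_self ℚ _)
  exact psi_of_eq (by rw [AlgEquiv.mul_apply, hs', cyc_spec n g])

theorem psi_compat (hp2 : p ≠ 2) (n : ℕ) (σ : GG) :
    ((psi p (n + 1) σ).val : ZMod (p ^ n)) = psi p n σ := by
  haveI : NeZero (p ^ (n + 1 + 1)) := ⟨(pow_pos hp.out.pos _).ne'⟩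
  obtain ⟨i, -, hi⟩ := (zeta_spec (p := p) (n + 1)).eq_pow_of_pow_eq_one (ξ := zeta p n)
    (by rw [pow_succ p (n + 1), pow_mul, (zeta_spec n).pow_eq_one, one_pow])
  rw [psi, lam_compat hp2 n (cyc_not_dvd (n + 1) σ)]
  exact (psi_of_eq (by rw [← hi, map_pow, cyc_spec (n + 1) σ, ← pow_mul, ← pow_mul, mul_comm])).symm

theorem psi_inertia {l : ℕ} {V : ValuationSubring LL} (hl : l.Prime) (hV : V.LiesOverPrime l)
    (hlp : l ≠ p) (hp2 : p ≠ 2) (n : ℕ) {σ : GG} (hσ : σ ∈ V.inertiaSubgroupIn ℚ) : psi p n σ = 0 := by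
  have hN : ¬ l ∣ p ^ (n + 1) := fun h => hlp ((Nat.prime_dvd_prime_iff_eq hl hp.out).1 (hl.dvd_of_dvd_pow h))
  have hz := (zeta_spec (p := p) n).pow_eq_one
  have hσD := Places.inertia_le_decomposition V hσ
  have h : σ (zeta p n) = zeta p n := Loc.eq_of_res_eq hl hV hN
    (by rw [← map_pow, hz, map_one]) hz (FlatLocal.IsIne.res_map (σ := ⟨σ, hσD⟩) hσ
      (FlatLocal.mem_of_val_le_one (Mazur.valuation_root_of_unity V (pow_pos hp.out.pos _).ne' hz).le))
  rw [psi_of_eq (j := 1) (by rw [h, pow_one]), Nat.cast_one, lam_one hp2]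

theorem psi_pow (hp2 : p ≠ 2) (n : ℕ) (σ : GG) (j : ℕ) : psi p n (σ ^ j) = j * psi p n σ := by
  induction j with
  | zero => rw [pow_zero, psi_of_eq (j := 1) (by simp), Nat.cast_one, lam_one hp2, Nat.cast_zero, zero_mul]
  | succ j ih => rw [pow_succ, psi_mul hp2, ih, Nat.cast_succ, add_mul, one_mul]

theorem exists_psi_frob {l : ℕ} {V : ValuationSubring LL} (hl : l.Prime) (hV : V.LiesOverPrime l)
    (hlp : l ≠ p) (hp2 : p ≠ 2) (n : ℕ) :
    (∃ σ ∈ V.decompositionSubgroup ℚ, psi p n σ = lam n (l : ZMod (p ^ (n + 1)))) ∧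
      ∀ σ ∈ V.decompositionSubgroup ℚ, ∃ j : ℕ, psi p n σ = j * lam n (l : ZMod (p ^ (n + 1))) := by
  haveI : Fact l.Prime := ⟨hl⟩
  have hln : ¬ p ∣ l := fun h => hlp ((Nat.prime_dvd_prime_iff_eq hp.out hl).1 h).symm
  have hz := zeta_spec (p := p) n
  set a := Nat.totient (p ^ (n + 1))
  have ha : 0 < a := Nat.totient_pos.2 (pow_pos hp.out.pos _)
  obtain ⟨s, hs⟩ := (Nat.modEq_iff_dvd' (Nat.one_le_pow _ _ hl.pos)).1
    (Nat.ModEq.pow_totient (Nat.Coprime.pow_right (n + 1)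
      ((hp.out.coprime_iff_not_dvd.2 hln).symm))).symm
  have hza : zeta p n ^ (l ^ a - 1) = 1 := by rw [hs, pow_mul, hz.pow_eq_one, one_pow]
  have hzV : zeta p n ∈ V := FlatLocal.mem_of_val_le_one
    (Mazur.valuation_root_of_unity V (pow_pos hp.out.pos _).ne' hz.pow_eq_one).le
  refine ⟨?_, fun σ hσ => ?_⟩
  · obtain ⟨φ, hφ⟩ := FlatLocal.exists_frob hV
    refine ⟨φ, φ.2, psi_of_eq ?_⟩
    refine Loc.eq_of_res_eq hl hV (Loc.not_dvd_pow_sub_one hl ha) (by rw [← map_pow, hza, map_one])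
      (by rw [← pow_mul, mul_comm, pow_mul, hza, one_pow]) ?_
    rw [← FlatLocal.smul_res φ hzV, hφ, FlatLocal.res_pow hzV]
  · obtain ⟨j, hj⟩ := Loc.exists_exponent hl hV hσ ha hza
    exact ⟨j, by rw [psi_of_eq hj, Nat.cast_pow, lam_pow hp2 (isUnit_natCast hln)]⟩

theorem val_zeta_pow_sub_one {V : ValuationSubring LL} {n u : ℕ} (hu : ¬ p ∣ u) :
    V.valuation (zeta p n ^ u - 1) = V.valuation (zeta p n - 1) := by
  have hz := zeta_spec (p := p) n
  have hzV : zeta p n ∈ V := (V.valuation_le_one_iff _).1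
    (Mazur.valuation_root_of_unity V (pow_pos hp.out.pos _).ne' hz.pow_eq_one).le
  have key : ∀ {x : LL} (_ : x ∈ V) (k : ℕ), V.valuation (x ^ k - 1) ≤ V.valuation (x - 1) := by
    intro x hx k
    rw [← geom_sum_mul, map_mul]
    exact mul_le_of_le_one_left' ((V.valuation_le_one_iff _).2 (sum_mem fun i _ => pow_mem hx i))
  refine le_antisymm (key hzV u) ?_
  obtain ⟨v, -, hv⟩ := Nat.exists_mul_mod_eq_one_of_coprime
    (Nat.Coprime.pow_right (n + 1) ((hp.out.coprime_iff_not_dvd.2 hu).symm))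
    (Nat.one_lt_pow (by omega) hp.out.one_lt)
  conv_lhs => rw [show zeta p n = (zeta p n ^ u) ^ v by
    rw [← pow_mul, pow_eq_pow_mod _ hz.pow_eq_one, hv, pow_one]]
  exact key (pow_mem hzV u) v

/-- The decomposition group at `p` moves a root of unity of `p`-power order to all conjugates. -/
theorem exists_dec_of_exponent {V : ValuationSubring LL} (hV : V.LiesOverPrime p) (n : ℕ) {u : ℕ}
    (hu : ¬ p ∣ u) : ∃ σ ∈ V.decompositionSubgroup ℚ, σ (zeta p n) = zeta p n ^ u := by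
  classical
  haveI : NeZero (p ^ (n + 1)) := ⟨(pow_pos hp.out.pos _).ne'⟩
  have hz := zeta_spec (p := p) n
  set S : Finset LL := (primitiveRoots (p ^ (n + 1)) LL).filter fun μ =>
    ∃ σ ∈ V.decompositionSubgroup ℚ, σ (zeta p n) = μ
  suffices h : S = primitiveRoots (p ^ (n + 1)) LL by
    have hmem : zeta p n ^ u ∈ S := by
      rw [h, mem_primitiveRoots (pow_pos hp.out.pos _)]
      exact (hz.pow_iff_coprime (pow_pos hp.out.pos _) u).2
        (Nat.Coprime.pow_right (n + 1) ((hp.out.coprime_iff_not_dvd.2 hu).symm))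
    exact (Finset.mem_filter.1 hmem).2
  set P := primitiveRoots (p ^ (n + 1)) LL
  have hP : ∀ μ ∈ P, V.valuation (1 - μ) = V.valuation (zeta p n - 1) := by
    intro μ hμ
    rw [mem_primitiveRoots (pow_pos hp.out.pos _)] at hμ
    obtain ⟨i, -, hi, rfl⟩ := (hz.isPrimitiveRoot_iff).1 hμ
    rw [Valuation.map_sub_swap, val_zeta_pow_sub_one fun h => hp.out.not_dvd_one
      (hi.gcd_eq_one ▸ Nat.dvd_gcd h (dvd_pow_self p (by omega)))]
  have hprodP : ∏ μ ∈ P, (1 - μ) = (p : LL) := by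
    have h1 := congrArg (Polynomial.eval (1 : LL)) (Polynomial.cyclotomic_eq_prod_X_sub_primitiveRoots hz)
    rw [Polynomial.eval_one_cyclotomic_prime_pow, Polynomial.eval_prod] at h1
    simpa using h1.symm
  have hvP : V.valuation (zeta p n - 1) ^ P.card = V.valuation (p : LL) := by
    rw [← hprodP, map_prod, Finset.prod_congr rfl hP, Finset.prod_const]
  have hstable : ∀ g ∈ V.decompositionSubgroup ℚ, ∀ μ ∈ S, g μ ∈ S := by
    intro g hg μ hμ
    obtain ⟨hμP, σ, hσ, rfl⟩ := Finset.mem_filter.1 hμ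
    refine Finset.mem_filter.2 ⟨?_, g * σ, mul_mem hg hσ, rfl⟩
    rw [mem_primitiveRoots (pow_pos hp.out.pos _)] at hμP ⊢
    exact hμP.map_of_injective g.injective
  have hfix : ∏ μ ∈ S, (1 - μ) ∈ localField ⊥ V := by
    refine Loc.mem_localField_bot.2 fun g hg => ?_
    rw [map_prod]
    refine Finset.prod_bij' (fun μ _ => g μ) (fun μ _ => g⁻¹ μ) (fun μ hμ => hstable g hg μ hμ)
      (fun μ hμ => hstable g⁻¹ (inv_mem hg) μ hμ) (fun μ _ => g.symm_apply_apply μ)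
      (fun μ _ => g.apply_symm_apply μ) fun μ _ => by rw [map_sub, map_one]
  have hzS : zeta p n ∈ S :=
    Finset.mem_filter.2 ⟨(mem_primitiveRoots (pow_pos hp.out.pos _)).2 hz, 1, one_mem _, rfl⟩
  have hne : ∏ μ ∈ S, (1 - μ) ≠ 0 := Finset.prod_ne_zero_iff.2 fun μ hμ => sub_ne_zero.2 fun e => by
    have := (mem_primitiveRoots (pow_pos hp.out.pos _)).1 (Finset.mem_filter.1 hμ).1
    rw [← e] at this
    have h1 := this.unique IsPrimitiveRoot.one
    have : 1 < p ^ (n + 1) := Nat.one_lt_pow (by omega) hp.out.one_lt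
    omega
  obtain ⟨k, hk⟩ := Loc.zpow_val_of_mem_bot hp.out hV hfix hne
  rw [map_prod, Finset.prod_congr rfl fun μ hμ => hP μ (Finset.mem_filter.1 hμ).1,
    Finset.prod_const] at hk
  refine Finset.eq_of_subset_of_card_le (Finset.filter_subset _ _) ?_
  have hkey : (S.card : ℤ) = k * P.card := by
    refine Mazur.zpow_valuation_injective V hp.out hV ?_
    show V.valuation (p : LL) ^ (S.card : ℤ) = V.valuation (p : LL) ^ (k * P.card)
    rw [zpow_mul, ← hk, zpow_natCast, zpow_natCast, ← pow_mul, mul_comm, pow_mul, hvP]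
  have hS0 : (0 : ℤ) < S.card := by exact_mod_cast Finset.card_pos.2 ⟨_, hzS⟩
  have hk1 : 1 ≤ k := by
    by_contra h
    have hle : k * (P.card : ℤ) ≤ 0 :=
      mul_nonpos_of_nonpos_of_nonneg (by omega) (Int.natCast_nonneg _)
    omega
  exact_mod_cast (le_mul_of_one_le_left (Int.natCast_nonneg _) hk1).trans_eq hkey.symm

theorem exists_psi_dec {V : ValuationSubring LL} (hV : V.LiesOverPrime p) (hp2 : p ≠ 2) (n : ℕ)
    (t : ZMod (p ^ n)) : ∃ σ ∈ V.decompositionSubgroup ℚ, psi p n σ = t := by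
  obtain ⟨r, hr, hrt⟩ := exists_lam_eq hp2 n t
  obtain ⟨σ, hσ, hσr⟩ := exists_dec_of_exponent hV n hr
  exact ⟨σ, hσ, by rw [psi_of_eq hσr, hrt]⟩

end FLTAgent.Lowering.P1.Brauer.Layer
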