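import Fermat.Agent.Lowering.P1.Brauer.LayerChar

/-!
# The cyclotomic layer: the local symbols
-/

set_option autoImplicit false
set_option linter.style.haveILetI false
set_option linter.unusedSectionVars false

noncomputable section

open scoped Pointwise

namespace FLTAgent.Lowering.P1.Brauer.Layer

local notation "LL" => AlgebraicClosure ℚ
local notation "GG" => (AlgebraicClosure ℚ ≃ₐ[ℚ] AlgebraicClosure ℚ)

variable {p : ℕ} [hp : Fact p.Prime]

/-- The value and the unit part of a number modulo `l ^ (n + 1)`. -/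
def Rep (V : ValuationSubring LL) (l n : ℕ) (a : LL) (k : ℤ) (r : ℕ) : Prop :=
  l.Prime ∧ V.LiesOverPrime l ∧ V.valuation a = V.valuation (l : LL) ^ k ∧
    V.valuation (a / (l : LL) ^ k - r) ≤ V.valuation ((l : LL) ^ (n + 1))

open Classical in
/-- The value of the symbol on given data. -/
def symVal (p l n : ℕ) [Fact p.Prime] (k : ℤ) (r : ℕ) : ZMod (p ^ n) :=
  if l = p then -lam n (r : ZMod (p ^ (n + 1))) else (k : ZMod (p ^ n)) * lam n (l : ZMod (p ^ (n + 1)))

open Classical in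
/-- The local symbol of the layer. -/
def phi (p : ℕ) [Fact p.Prime] (V : ValuationSubring LL) (n : ℕ) (a : LL) : ZMod (p ^ n) :=
  if h : ∃ l k r, Rep V l n a k r then
    symVal p h.choose n h.choose_spec.choose h.choose_spec.choose_spec.choose
  else 0

theorem prime_unique {V : ValuationSubring LL} {l l' : ℕ} (hl : l.Prime) (hl' : l'.Prime)
    (h : V.LiesOverPrime l) (h' : V.LiesOverPrime l') : l = l' := by
  by_contra hne
  obtain ⟨a, b, hab⟩ := Nat.isCoprime_iff_coprime.2 ((Nat.coprime_primes hl hl').2 hne)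
  refine (Ideal.IsPrime.ne_top inferInstance : Frobenius.centre V ≠ ⊤)
    ((Ideal.eq_top_iff_one _).2 ?_)
  rw [show (1 : integralClosure ℤ LL) = (a : integralClosure ℤ LL) * (l : integralClosure ℤ LL) +
    (b : integralClosure ℤ LL) * (l' : integralClosure ℤ LL) by exact_mod_cast hab.symm]
  exact add_mem (Ideal.mul_mem_left _ _ (Places.natCast_mem_centre V h))
    (Ideal.mul_mem_left _ _ (Places.natCast_mem_centre V h'))

theorem val_natCast_eq_one {V : ValuationSubring LL} {l r : ℕ} (hl : l.Prime)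
    (hV : V.LiesOverPrime l) (hr : ¬ l ∣ r) : V.valuation (r : LL) = 1 := by
  refine le_antisymm (Loc.val_natCast_le_one r) (not_lt.1 fun hlt => ?_)
  obtain ⟨a, b, hab⟩ := Nat.isCoprime_iff_coprime.2 ((hl.coprime_iff_not_dvd).2 hr)
  have h1 : (1 : LL) = (a : LL) * (l : LL) + (b : LL) * (r : LL) := by exact_mod_cast hab.symm
  have hint : ∀ z : ℤ, V.valuation (z : LL) ≤ 1 := fun z =>
    (V.valuation_le_one_iff _).2 (intCast_mem V z)
  have h2 : V.valuation ((a : LL) * (l : LL) + (b : LL) * (r : LL)) < 1 := by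
    refine (Valuation.map_add _ _ _).trans_lt (max_lt ?_ ?_)
    · rw [map_mul]
      exact lt_of_le_of_lt (mul_le_of_le_one_left' (hint a)) (Mazur.valuation_natCast_lt_one V hV)
    · rw [map_mul]
      exact lt_of_le_of_lt (mul_le_of_le_one_left' (hint b)) hlt
  rw [← h1, map_one] at h2
  exact h2.false

theorem dvd_of_val_le {V : ValuationSubring LL} {l : ℕ} (hl : l.Prime) (hV : V.LiesOverPrime l)
    {d N : ℕ} (h : V.valuation (d : LL) ≤ V.valuation ((l : LL) ^ N)) : l ^ N ∣ d := by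
  rcases eq_or_ne d 0 with rfl | hd
  · exact dvd_zero _
  obtain ⟨j, m, hm, rfl⟩ := Nat.exists_eq_pow_mul_and_not_dvd hd l hl.ne_one
  refine (pow_dvd_pow l ?_).trans (dvd_mul_right _ _)
  by_contra hjN
  push_cast at h
  rw [map_mul, val_natCast_eq_one hl hV hm, mul_one, map_pow, map_pow] at h
  exact absurd h (not_le.2 (pow_lt_pow_right_of_lt_one₀
    (zero_lt_iff.2 (Mazur.valuation_natCast_ne_zero V hl)) (Mazur.valuation_natCast_lt_one V hV)
    (by omega)))

theorem natCast_eq_of_val {V : ValuationSubring LL} {l : ℕ} (hl : l.Prime) (hV : V.LiesOverPrime l)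
    {r r' N : ℕ} (h : V.valuation ((r : LL) - r') ≤ V.valuation ((l : LL) ^ N)) :
    (r : ZMod (l ^ N)) = r' := by
  wlog hle : r' ≤ r generalizing r r'
  · exact (this (by rwa [Valuation.map_sub_swap]) (by omega)).symm
  rw [← Nat.cast_sub hle] at h
  have := dvd_of_val_le hl hV h
  rw [← ZMod.natCast_eq_zero_iff, Nat.cast_sub hle, sub_eq_zero] at this
  exact this

theorem rep_not_dvd {V : ValuationSubring LL} {l n : ℕ} {a : LL} {k : ℤ} {r : ℕ}
    (h : Rep V l n a k r) : ¬ l ∣ r := by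
  obtain ⟨hl, hV, hk, hr⟩ := h
  have hl0 : V.valuation (l : LL) ≠ 0 := Mazur.valuation_natCast_ne_zero V hl
  have hu : V.valuation (a / (l : LL) ^ k) = 1 := by
    rw [map_div₀, map_zpow₀, hk, div_self (zpow_ne_zero _ hl0)]
  have hlt : V.valuation ((l : LL) ^ (n + 1)) < 1 := by
    rw [map_pow]; exact pow_lt_one₀ zero_le (Mazur.valuation_natCast_lt_one V hV) (by omega)
  rintro ⟨c, rfl⟩
  have h1 : V.valuation ((l * c : ℕ) : LL) < 1 := by
    push_cast; rw [map_mul]
    exact lt_of_le_of_lt (mul_le_of_le_one_right' (Loc.val_natCast_le_one c))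
      (Mazur.valuation_natCast_lt_one V hV)
  rw [show a / (l : LL) ^ k = (a / (l : LL) ^ k - ((l * c : ℕ) : LL)) + ((l * c : ℕ) : LL) by ring] at hu
  exact ((Valuation.map_add _ _ _).trans_lt (max_lt (hr.trans_lt hlt) h1)).ne hu

theorem symVal_unique {V : ValuationSubring LL} {l l' n : ℕ} {a : LL} {k k' : ℤ} {r r' : ℕ}
    (h : Rep V l n a k r) (h' : Rep V l' n a k' r') : symVal p l n k r = symVal p l' n k' r' := by
  obtain ⟨hl, hV, hk, hr⟩ := h
  obtain ⟨hl', hV', hk', hr'⟩ := h'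
  obtain rfl := prime_unique hl hl' hV hV'
  obtain rfl : k = k' := Mazur.zpow_valuation_injective V hl hV (by
    show V.valuation _ ^ k = V.valuation _ ^ k'
    rw [← hk', ← hk])
  unfold symVal
  split_ifs with hlp
  · congr 2
    have h2 := natCast_eq_of_val hl hV (r := r) (r' := r') (N := n + 1) (by
      rw [show (r : LL) - (r' : LL) =
        (a / (l : LL) ^ k - (r' : LL)) - (a / (l : LL) ^ k - (r : LL)) by ring]
      exact Valuation.map_sub_le _ hr' hr)
    subst hlp
    exact h2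
  · rfl

theorem phi_eq {V : ValuationSubring LL} {l n : ℕ} {a : LL} {k : ℤ} {r : ℕ}
    (h : Rep V l n a k r) : phi p V n a = symVal p l n k r := by
  have hex : ∃ l k r, Rep V l n a k r := ⟨l, k, r, h⟩
  rw [phi, dif_pos hex]
  exact symVal_unique hex.choose_spec.choose_spec.choose_spec h

theorem exists_rep {V : ValuationSubring LL} {l : ℕ} (hl : l.Prime) (hV : V.LiesOverPrime l) (n : ℕ)
    {a : LL} (ha : ∀ σ ∈ V.decompositionSubgroup ℚ, σ a = a) (ha0 : a ≠ 0) :
    ∃ k r, Rep V l n a k r := by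
  haveI : FiniteDimensional ℚ (⊥ : IntermediateField ℚ LL) := inferInstance
  have haF : a ∈ localField ⊥ V := Loc.mem_localField_bot.2 ha
  obtain ⟨k, hk⟩ := Loc.zpow_val_of_mem_bot hl hV haF ha0
  set u := a / (l : LL) ^ k
  have hl0 : V.valuation (l : LL) ≠ 0 := Mazur.valuation_natCast_ne_zero V hl
  have hu : V.valuation u = 1 := by
    rw [map_div₀, map_zpow₀, hk, div_self (zpow_ne_zero _ hl0)]
  have hlt : V.valuation ((l : LL) ^ (n + 1)) < 1 := by
    rw [map_pow]; exact pow_lt_one₀ zero_le (Mazur.valuation_natCast_lt_one V hV) (by omega)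
  obtain ⟨z, hz, hzu⟩ := Loc.targetDense ⊥ inferInstance l V hl hV u
    (div_mem haF (zpow_mem (natCast_mem _ l) k)) ((l : LL) ^ (n + 1))
    (pow_ne_zero _ (Nat.cast_ne_zero.2 hl.ne_zero))
  obtain ⟨q, rfl⟩ := IntermediateField.mem_bot.1 hz
  rw [eq_ratCast] at hzu
  have hqv : V.valuation (q : LL) = 1 := by
    rw [show (q : LL) = u - (u - q) by ring,
      Valuation.map_sub_eq_of_lt_left _ (hu.symm ▸ hzu.trans_lt hlt), hu]
  have hden : ¬ l ∣ q.den := by
    intro hd
    have hnum : ¬ l ∣ q.num.natAbs := fun hn =>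
      hl.not_dvd_one (q.reduced.gcd_eq_one ▸ Nat.dvd_gcd hn hd)
    have h1 : V.valuation (q.num : LL) = 1 := by
      rcases Int.natAbs_eq q.num with h | h
      · rw [h, Int.cast_natCast]; exact val_natCast_eq_one hl hV hnum
      · rw [h, Int.cast_neg, Int.cast_natCast, Valuation.map_neg]; exact val_natCast_eq_one hl hV hnum
    obtain ⟨c, hc⟩ := hd
    have h2 : V.valuation (q.den : LL) < 1 := by
      rw [hc]; push_cast; rw [map_mul]
      exact lt_of_le_of_lt (mul_le_of_le_one_right' (Loc.val_natCast_le_one c))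
        (Mazur.valuation_natCast_lt_one V hV)
    rw [Rat.cast_def, map_div₀, h1, one_div, inv_eq_one] at hqv
    exact h2.ne hqv
  obtain ⟨s, t, hst⟩ := Nat.isCoprime_iff_coprime.2
    (Nat.Coprime.pow_right (n + 1) ((hl.coprime_iff_not_dvd.2 hden).symm))
  set r : ℕ := ((q.num * s) % (l ^ (n + 1) : ℕ)).toNat
  refine ⟨k, r, hl, hV, hk, ?_⟩
  have hN : (0 : ℤ) < ((l ^ (n + 1) : ℕ) : ℤ) := by exact_mod_cast pow_pos hl.pos _
  obtain ⟨c, hc⟩ : ∃ c : ℤ, (r : ℤ) * q.den = q.num + ((l ^ (n + 1) : ℕ) : ℤ) * c := by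
    refine ⟨-(q.num * s / ((l ^ (n + 1) : ℕ) : ℤ)) * q.den - q.num * t, ?_⟩
    rw [Int.toNat_of_nonneg (Int.emod_nonneg _ hN.ne'), Int.emod_def]
    linear_combination q.num * hst
  rw [show u - (r : LL) = (u - (q : LL)) + ((q : LL) - (r : LL)) by ring]
  refine Valuation.map_add_le _ hzu ?_
  have hd0 : (q.den : LL) ≠ 0 := Nat.cast_ne_zero.2 q.den_nz
  have hcL : (r : LL) * (q.den : LL) = (q.num : LL) + (l : LL) ^ (n + 1) * (c : LL) := by
    exact_mod_cast congrArg (fun z : ℤ => (z : LL)) hc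
  rw [show (q : LL) - (r : LL) = -((l : LL) ^ (n + 1) * (c : LL)) / (q.den : LL) by
    rw [Rat.cast_def, eq_div_iff hd0, sub_mul, div_mul_cancel₀ _ hd0, hcL]; ring,
    map_div₀, Valuation.map_neg, map_mul, val_natCast_eq_one hl hV hden, div_one]
  exact mul_le_of_le_one_right' ((V.valuation_le_one_iff _).2 (intCast_mem V c))

theorem phi_natCast {V : ValuationSubring LL} {l n r : ℕ} (hl : l.Prime) (hV : V.LiesOverPrime l)
    (hr : ¬ l ∣ r) : phi p V n (r : LL) = symVal p l n 0 r :=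
  phi_eq ⟨hl, hV, by rw [zpow_zero, val_natCast_eq_one hl hV hr],
    by rw [zpow_zero, div_one, sub_self, map_zero]; exact zero_le⟩

theorem phi_prime_zpow {V : ValuationSubring LL} {l n : ℕ} (hl : l.Prime) (hV : V.LiesOverPrime l)
    (k : ℤ) : phi p V n ((l : LL) ^ k) = symVal p l n k 1 :=
  phi_eq ⟨hl, hV, map_zpow₀ _ _ _, by
    rw [div_self (zpow_ne_zero _ (Nat.cast_ne_zero.2 hl.ne_zero)), Nat.cast_one, sub_self, map_zero]
    exact zero_le⟩

theorem phi_mul (hp2 : p ≠ 2) {V : ValuationSubring LL} {l : ℕ} (hl : l.Prime)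
    (hV : V.LiesOverPrime l) (n : ℕ) {a b : LL}
    (ha : ∀ σ ∈ V.decompositionSubgroup ℚ, σ a = a) (hb : ∀ σ ∈ V.decompositionSubgroup ℚ, σ b = b)
    (ha0 : a ≠ 0) (hb0 : b ≠ 0) : phi p V n (a * b) = phi p V n a + phi p V n b := by
  obtain ⟨k, r, hrep⟩ := exists_rep hl hV n ha ha0
  obtain ⟨k', r', hrep'⟩ := exists_rep hl hV n hb hb0
  have hl0 : V.valuation (l : LL) ≠ 0 := Mazur.valuation_natCast_ne_zero V hl
  have hl0' : (l : LL) ≠ 0 := Nat.cast_ne_zero.2 hl.ne_zero
  have h : Rep V l n (a * b) (k + k') (r * r') := by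
    obtain ⟨-, -, hk, hr⟩ := hrep
    obtain ⟨-, -, hk', hr'⟩ := hrep'
    refine ⟨hl, hV, by rw [map_mul, hk, hk', zpow_add₀ hl0], ?_⟩
    have hu : V.valuation (b / (l : LL) ^ k') ≤ 1 := by
      rw [map_div₀, map_zpow₀, hk', div_self (zpow_ne_zero _ hl0)]
    rw [zpow_add₀ hl0', Nat.cast_mul, show a * b / ((l : LL) ^ k * (l : LL) ^ k') - (r : LL) * r' =
      (a / (l : LL) ^ k - r) * (b / (l : LL) ^ k') + r * (b / (l : LL) ^ k' - r') by
        rw [mul_div_mul_comm]; ring]
    refine Valuation.map_add_le _ ?_ ?_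
    · rw [map_mul]; exact (mul_le_of_le_one_right' hu).trans hr
    · rw [map_mul]; exact (mul_le_of_le_one_left' (Loc.val_natCast_le_one r)).trans hr'
  rw [phi_eq h, phi_eq hrep, phi_eq hrep']
  unfold symVal
  split_ifs with hlp
  · subst hlp
    rw [Nat.cast_mul, lam_mul hp2 (isUnit_natCast (rep_not_dvd hrep))
      (isUnit_natCast (rep_not_dvd hrep')), neg_add]
  · push_cast; ring

theorem phi_compat (hp2 : p ≠ 2) {V : ValuationSubring LL} {l : ℕ} (hl : l.Prime)
    (hV : V.LiesOverPrime l) (n : ℕ) {a : LL}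
    (ha : ∀ σ ∈ V.decompositionSubgroup ℚ, σ a = a) (ha0 : a ≠ 0) :
    ((phi p V (n + 1) a).val : ZMod (p ^ n)) = phi p V n a := by
  haveI : NeZero (p ^ (n + 1)) := ⟨(pow_pos hp.out.pos _).ne'⟩
  obtain ⟨k, r, hrep⟩ := exists_rep hl hV (n + 1) ha ha0
  have h' : Rep V l n a k r := by
    refine ⟨hrep.1, hrep.2.1, hrep.2.2.1, hrep.2.2.2.trans ?_⟩
    rw [map_pow, map_pow]
    exact pow_le_pow_right_of_le_one' (Loc.val_natCast_le_one l) (by omega)
  rw [phi_eq hrep, phi_eq h']
  have hd : p ^ n ∣ p ^ (n + 1) := pow_dvd_pow p (by omega)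
  have hcast : ∀ x : ZMod (p ^ (n + 1)),
      ((x.val : ℕ) : ZMod (p ^ n)) = ZMod.castHom hd (ZMod (p ^ n)) x := fun x => by
    conv_rhs => rw [← ZMod.natCast_zmod_val x]
    rw [map_natCast]
  rw [hcast]
  unfold symVal
  split_ifs with hlp
  · subst hlp
    rw [map_neg, ← hcast, lam_compat hp2 n (rep_not_dvd hrep)]
  · rw [map_mul, map_intCast, ← hcast, lam_compat hp2 n fun hd' =>
      hlp ((Nat.prime_dvd_prime_iff_eq hp.out hl).1 hd').symm]

theorem smul_rep {V : ValuationSubring LL} {l n : ℕ} {a : LL} {k : ℤ} {r : ℕ} (γ : GG)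
    (h : Rep V l n a k r) : Rep (γ • V) l n (γ a) k r := by
  obtain ⟨hl, hV, hk, hr⟩ := h
  refine ⟨hl, Places.liesOverPrime_smul _ γ hV, ?_, ?_⟩
  · rw [← map_zpow₀, show ((l : LL) ^ k) = γ ((l : LL) ^ k) by rw [map_zpow₀, map_natCast]]
    rw [← map_zpow₀] at hk
    exact le_antisymm ((Loc.smul_val_le_iff γ rfl _ _).2 hk.le) ((Loc.smul_val_le_iff γ rfl _ _).2 hk.ge)
  · have := (Loc.smul_val_le_iff γ (rfl : γ • V = γ • V) _ _).2 hr
    simpa [map_sub, map_div₀, map_pow, map_zpow₀] using this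

theorem phi_conj (γ : GG) {V : ValuationSubring LL} {l : ℕ} (hl : l.Prime)
    (hV : V.LiesOverPrime l) (n : ℕ) {a : LL}
    (ha : ∀ σ ∈ V.decompositionSubgroup ℚ, σ a = a) (ha0 : a ≠ 0) :
    phi p (γ • V) n (γ a) = phi p V n a := by
  obtain ⟨k, r, hrep⟩ := exists_rep hl hV n ha ha0
  rw [phi_eq hrep, phi_eq (smul_rep γ hrep)]

theorem phi_unit {V : ValuationSubring LL} {l : ℕ} (hl : l.Prime)
    (hV : V.LiesOverPrime l) (hlp : l ≠ p) (n : ℕ) {a : LL}
    (ha : ∀ σ ∈ V.decompositionSubgroup ℚ, σ a = a) (hv : V.valuation a = 1) :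
    phi p V n a = 0 := by
  have ha0 : a ≠ 0 := fun e => by simp [e] at hv
  obtain ⟨k, r, hrep⟩ := exists_rep hl hV n ha ha0
  have hk : k = 0 := Mazur.zpow_valuation_injective V hl hV (by
    show V.valuation _ ^ k = V.valuation _ ^ (0 : ℤ)
    rw [← hrep.2.2.1, hv, zpow_zero])
  rw [phi_eq hrep, symVal, if_neg hlp, hk, Int.cast_zero, zero_mul]

/-- The symbols of the rationals sum to zero. -/
theorem phi_product (hp2 : p ≠ 2) (n : ℕ) {a : LL} (ha0 : a ≠ 0) (ha : ∀ σ : GG, σ a = a)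
    {S : Finset ℕ} (hpS : p ∈ S) (hS : ∀ l ∈ S, l.Prime)
    (hout : ∀ l : ℕ, l.Prime → l ∉ S → ∀ W : ValuationSubring LL, W.LiesOverPrime l →
      W.valuation a = 1)
    (V : ℕ → ValuationSubring LL) (hV : ∀ l ∈ S, (V l).LiesOverPrime l) :
    ∑ l ∈ S, phi p (V l) n a = 0 := by
  classical
  haveI := Mazur.isGalois_QQb
  obtain ⟨q, hq⟩ := IntermediateField.mem_bot.1 ((InfiniteGalois.mem_bot_iff_fixed a).2 ha)
  rw [eq_ratCast] at hq
  subst hq
  have hq0 : q ≠ 0 := fun e => ha0 (by simp [e])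
  have hnum0 : q.num.natAbs ≠ 0 := by simpa using hq0
  -- prime divisors are in the set
  have hin : ∀ l : ℕ, l.Prime → (l ∣ q.num.natAbs ∨ l ∣ q.den) → l ∈ S := by
    intro l hl hd
    by_contra hlS
    obtain ⟨W, hW⟩ := Frobenius.exists_liesOverPrime l hl
    have h1 := hout l hl hlS W hW
    have hlt : ∀ m : ℕ, l ∣ m → W.valuation (m : LL) < 1 := fun m ⟨c, hc⟩ => by
      rw [hc]; push_cast; rw [map_mul]
      exact lt_of_le_of_lt (mul_le_of_le_one_right' (Loc.val_natCast_le_one c))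
        (Mazur.valuation_natCast_lt_one W hW)
    have habs : W.valuation (q.num : LL) = W.valuation (q.num.natAbs : LL) := by
      rcases Int.natAbs_eq q.num with h | h
      · conv_lhs => rw [h, Int.cast_natCast]
      · conv_lhs => rw [h, Int.cast_neg, Int.cast_natCast, Valuation.map_neg]
    rw [Rat.cast_def, map_div₀, habs, div_eq_one_iff_eq
      ((Valuation.ne_zero_iff _).2 (Nat.cast_ne_zero.2 q.den_nz))] at h1
    rcases hd with hd | hd
    · have hden : ¬ l ∣ q.den := fun h => hl.not_dvd_one (q.reduced.gcd_eq_one ▸ Nat.dvd_gcd hd h)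
      exact (hlt _ hd).ne (h1.trans (val_natCast_eq_one hl hW hden))
    · have hnum : ¬ l ∣ q.num.natAbs := fun h => hl.not_dvd_one (q.reduced.gcd_eq_one ▸ Nat.dvd_gcd h hd)
      exact (hlt _ hd).ne (h1.symm.trans (val_natCast_eq_one hl hW hnum))
  set T : LL → ZMod (p ^ n) := fun x => ∑ l ∈ S, phi p (V l) n x
  have hTmul : ∀ x y : LL, (∀ σ : GG, σ x = x) → (∀ σ : GG, σ y = y) → x ≠ 0 → y ≠ 0 →
      T (x * y) = T x + T y := fun x y hx hy hx0 hy0 => by
    simp only [T, ← Finset.sum_add_distrib]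
    exact Finset.sum_congr rfl fun l hl =>
      phi_mul hp2 (hS l hl) (hV l hl) n (fun σ _ => hx σ) (fun σ _ => hy σ) hx0 hy0
  have hfixn : ∀ (m : ℕ) (σ : GG), σ (m : LL) = m := fun m σ => map_natCast σ m
  have hT1 : T 1 = 0 := by
    have h := hTmul 1 1 (fun σ => map_one σ) (fun σ => map_one σ) one_ne_zero one_ne_zero
    rw [one_mul] at h
    exact left_eq_add.1 h
  have hTneg : T (-1) = 0 := by
    refine Finset.sum_eq_zero fun l hl => ?_
    have hl' := hS l hl
    by_cases hlp : l = p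
    · subst hlp
      obtain ⟨k, r, hrep⟩ := exists_rep hl' (hV l hl) n (a := (-1 : LL)) (by simp) (by simp)
      have hk : k = 0 := Mazur.zpow_valuation_injective (V l) hl' (hV l hl) (by
        show (V l).valuation _ ^ k = (V l).valuation _ ^ (0 : ℤ)
        rw [← hrep.2.2.1, Valuation.map_neg, map_one, zpow_zero])
      have hr := hrep.2.2.2
      rw [hk, zpow_zero, div_one] at hr
      have hcast : (r : ZMod (l ^ (n + 1))) = -1 := by
        rw [← sub_eq_zero, sub_neg_eq_add, ← Nat.cast_one (R := ZMod (l ^ (n + 1))), ← Nat.cast_add,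
          ZMod.natCast_eq_zero_iff]
        refine dvd_of_val_le hl' (hV l hl) ?_
        push_cast
        rw [← Valuation.map_neg, show -((r : LL) + 1) = -1 - r by ring]
        exact hr
      rw [phi_eq hrep, symVal, if_pos rfl, hcast, lam_neg_one hp2, neg_zero]
    · exact phi_unit hl' (hV l hl) hlp n (by simp) (by rw [Valuation.map_neg, map_one])
  have hTnat : ∀ m : ℕ, m ≠ 0 → (∀ l : ℕ, l.Prime → l ∣ m → l ∈ S) → T (m : LL) = 0 := by
    intro m
    induction m using Nat.recOnMul with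
    | zero => intro h; exact absurd rfl h
    | one => intros; rw [Nat.cast_one]; exact hT1
    | prime l hl =>
      intro _ hall
      have hlS := hall l hl dvd_rfl
      have hzero : ∀ l' ∈ S, l' ≠ l → l' ≠ p → phi p (V l') n (l : LL) = 0 := fun l' hl' hne hne' =>
        phi_unit (hS l' hl') (hV l' hl') hne' n (fun σ _ => hfixn l σ)
          (val_natCast_eq_one (hS l' hl') (hV l' hl') fun h => hne
            ((Nat.prime_dvd_prime_iff_eq (hS l' hl') hl).1 h))
      have hself : phi p (V l) n (l : LL) = symVal p l n 1 1 := by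
        have := phi_prime_zpow (p := p) (n := n) hl (hV l hlS) 1
        rwa [zpow_one] at this
      by_cases hlp : l = p
      · subst hlp
        refine Finset.sum_eq_zero fun l' hl' => ?_
        by_cases hne : l' = l
        · subst hne
          rw [hself, symVal, if_pos rfl, Nat.cast_one, lam_one hp2, neg_zero]
        · exact hzero l' hl' hne hne
      · rw [show T (l : LL) = phi p (V l) n (l : LL) + phi p (V p) n (l : LL) from
          Finset.sum_eq_add l p hlp (fun l' hl' hne => hzero l' hl' hne.1 hne.2)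
            (fun h => absurd hlS h) (fun h => absurd hpS h),
          hself, phi_natCast hp.out (hV p hpS) (fun h => hlp
            ((Nat.prime_dvd_prime_iff_eq hp.out hl).1 h).symm), symVal, symVal, if_neg hlp, if_pos rfl,
          Int.cast_one, one_mul, add_neg_cancel]
    | mul a b iha ihb =>
      intro hab hall
      rw [mul_ne_zero_iff] at hab
      rw [Nat.cast_mul, hTmul _ _ (hfixn a) (hfixn b) (Nat.cast_ne_zero.2 hab.1)
        (Nat.cast_ne_zero.2 hab.2), iha hab.1 (fun l hl h => hall l hl (h.mul_right b)),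
        ihb hab.2 (fun l hl h => hall l hl (h.mul_left a)), add_zero]
  have hden : T ((q.den : LL)⁻¹) = 0 := by
    have h := hTmul (q.den : LL) (q.den : LL)⁻¹ (hfixn _) (fun σ => by rw [map_inv₀, map_natCast])
      (Nat.cast_ne_zero.2 q.den_nz) (inv_ne_zero (Nat.cast_ne_zero.2 q.den_nz))
    rw [mul_inv_cancel₀ (Nat.cast_ne_zero.2 q.den_nz), hT1, hTnat _ q.den_nz
      (fun l hl h => hin l hl (Or.inr h)), zero_add] at h
    exact h.symm
  have hnum : T (q.num : LL) = 0 := by
    rcases Int.natAbs_eq q.num with h | h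
    · rw [h, Int.cast_natCast]
      exact hTnat _ hnum0 fun l hl hd => hin l hl (Or.inl hd)
    · rw [h, Int.cast_neg, Int.cast_natCast, ← neg_one_mul, hTmul _ _ (fun σ => by simp) (hfixn _)
        (by simp) (Nat.cast_ne_zero.2 hnum0), hTneg,
        hTnat _ hnum0 fun l hl hd => hin l hl (Or.inl hd), add_zero]
  show T (q : LL) = 0
  rw [Rat.cast_def, div_eq_mul_inv, hTmul _ _ (fun σ => map_intCast σ _)
    (fun σ => by rw [map_inv₀, map_natCast]) (by simpa using hq0)
    (inv_ne_zero (Nat.cast_ne_zero.2 q.den_nz)), hnum, hden, add_zero]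

end FLTAgent.Lowering.P1.Brauer.Layer
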