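import Fermat.Agent.Lowering.P1.Brauer.Cyclic

/-!
# Relations between symbols

Linearity in both entries, inflation, and for Kummer characters: skew symmetry and the comparison
with cup products.
-/

set_option autoImplicit false
set_option linter.style.haveILetI false

noncomputable section

namespace FLTAgent.Lowering.P1.Brauer

local notation "LL" => AlgebraicClosure ℚ
local notation "GG" => (AlgebraicClosure ℚ ≃ₐ[ℚ] AlgebraicClosure ℚ)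

variable {H H' : Subgroup GG}

/-- Two cochains differ by a coboundary. -/
def Sim (H : Subgroup GG) (c c' : GG → GG → LL) : Prop :=
  ∃ f : GG → LL, LevOn H f ∧ (∀ σ ∈ H, f σ ≠ 0) ∧ ∀ σ ∈ H, ∀ τ ∈ H, c σ τ = c' σ τ * dlt f σ τ

theorem Sim.refl (c : GG → GG → LL) : Sim H c c :=
  ⟨fun _ => 1, levOn_const 1, fun _ _ => one_ne_zero, fun σ _ τ _ => by simp [dlt]⟩

theorem Sim.of_eq {c c' : GG → GG → LL} (h : ∀ σ ∈ H, ∀ τ ∈ H, c σ τ = c' σ τ) : Sim H c c' :=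
  ⟨fun _ => 1, levOn_const 1, fun _ _ => one_ne_zero, fun σ hσ τ hτ => by simp [dlt, h σ hσ τ hτ]⟩

theorem Sim.symm {c c' : GG → GG → LL} (h : Sim H c c') : Sim H c' c := by
  obtain ⟨f, hf, hne, hc⟩ := h
  refine ⟨fun g => (f g)⁻¹, hf.map (·⁻¹), fun σ hσ => inv_ne_zero (hne σ hσ), fun σ hσ τ hτ => ?_⟩
  rw [dlt_inv, hc σ hσ τ hτ,
    mul_inv_cancel_right₀ (dlt_ne (hne σ hσ) (hne τ hτ) (hne _ (mul_mem hσ hτ)))]

theorem Sim.trans {c c' c'' : GG → GG → LL} (h : Sim H c c') (h' : Sim H c' c'') :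
    Sim H c c'' := by
  obtain ⟨f, hf, hne, hc⟩ := h
  obtain ⟨f', hf', hne', hc'⟩ := h'
  refine ⟨fun g => f' g * f g, hf'.map₂ hf (· * ·), fun σ hσ => mul_ne_zero (hne' σ hσ) (hne σ hσ),
    fun σ hσ τ hτ => ?_⟩
  rw [dlt_mul, hc σ hσ τ hτ, hc' σ hσ τ hτ, mul_assoc]

theorem Sim.mul {c c' d d' : GG → GG → LL} (h : Sim H c c') (h' : Sim H d d') :
    Sim H (fun σ τ => c σ τ * d σ τ) fun σ τ => c' σ τ * d' σ τ := by
  obtain ⟨f, hf, hne, hc⟩ := h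
  obtain ⟨f', hf', hne', hc'⟩ := h'
  refine ⟨fun g => f g * f' g, hf.map₂ hf' (· * ·), fun σ hσ => mul_ne_zero (hne σ hσ) (hne' σ hσ),
    fun σ hσ τ hτ => ?_⟩
  simp only [dlt_mul, hc σ hσ τ hτ, hc' σ hσ τ hτ]
  ring

theorem Sim.pow {c c' : GG → GG → LL} (h : Sim H c c') (n : ℕ) :
    Sim H (fun σ τ => c σ τ ^ n) fun σ τ => c' σ τ ^ n := by
  induction n with
  | zero => exact Sim.of_eq fun σ _ τ _ => by simp
  | succ n ih => simpa [pow_succ] using ih.mul h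

theorem Sim.mono {c c' : GG → GG → LL} (h : Sim H c c') (hle : H' ≤ H) : Sim H' c c' :=
  let ⟨f, hf, hne, hc⟩ := h
  ⟨f, hf.mono hle, fun σ hσ => hne σ (hle hσ), fun σ hσ τ hτ => hc σ (hle hσ) τ (hle hτ)⟩

theorem cob_iff_sim {c : GG → GG → LL} : Cob H c ↔ Sim H c fun _ _ => 1 := by
  simp [Cob, Sim]

theorem Sim.cob_iff {c c' : GG → GG → LL} (h : Sim H c c') : Cob H c ↔ Cob H c' := by
  rw [cob_iff_sim, cob_iff_sim]
  exact ⟨h.symm.trans, h.trans⟩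

theorem sim_of_cob_div {c c' : GG → GG → LL} (h : Cob H fun σ τ => c σ τ / c' σ τ)
    (hne : ∀ σ ∈ H, ∀ τ ∈ H, c' σ τ ≠ 0) : Sim H c c' := by
  obtain ⟨f, hf, hfne, hc⟩ := h
  exact ⟨f, hf, hfne, fun σ hσ τ hτ => by
    rw [← hc σ hσ τ hτ, mul_div_cancel₀ _ (hne σ hσ τ hτ)]⟩

/-- A power of a fixed element with exponent a coboundary. -/
theorem cob_zpow_delta {b : LL} (hb0 : b ≠ 0) (hb : ∀ σ ∈ H, σ b = b) {w : GG → ℤ}
    (hw : LevOn H w) : Cob H fun σ τ => b ^ (w σ + w τ - w (σ * τ)) :=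
  ⟨fun σ => b ^ w σ, hw.map (b ^ ·), fun _ _ => zpow_ne_zero _ hb0, fun σ hσ τ _ => by
    simp only [dlt, map_zpow₀, hb σ hσ]
    rw [← zpow_add₀ hb0, ← zpow_sub₀ hb0, add_comm (w τ)]⟩

/-- The carry of a character with values in `ZMod n`, as an integer. -/
def carry (n : ℕ) (ψ : GG → ZMod n) (σ τ : GG) : ℤ :=
  if n ≤ (ψ σ).val + (ψ τ).val then 1 else 0

/-- The symbol of a character and an element, without surjectivity. -/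
def symR (n : ℕ) (ψ : GG → ZMod n) (b : LL) (σ τ : GG) : LL :=
  if n ≤ (ψ σ).val + (ψ τ).val then b else 1

theorem CycChar.sym_eq {n : ℕ} (χ : CycChar H n) (b : LL) : χ.sym b = symR n χ.ψ b := rfl

theorem symR_eq_zpow (n : ℕ) (ψ : GG → ZMod n) (b : LL) (σ τ : GG) :
    symR n ψ b σ τ = b ^ carry n ψ σ τ := by
  unfold symR carry
  split_ifs <;> simp

theorem symR_ne {n : ℕ} (ψ : GG → ZMod n) {b : LL} (hb0 : b ≠ 0) (σ τ : GG) :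
    symR n ψ b σ τ ≠ 0 := by
  rw [symR_eq_zpow]; exact zpow_ne_zero _ hb0

theorem symR_mul {n : ℕ} (ψ : GG → ZMod n) (a b : LL) (σ τ : GG) :
    symR n ψ (a * b) σ τ = symR n ψ a σ τ * symR n ψ b σ τ := by
  unfold symR; split_ifs <;> simp

theorem symR_pow {n : ℕ} (ψ : GG → ZMod n) (a : LL) (m : ℕ) (σ τ : GG) :
    symR n ψ (a ^ m) σ τ = symR n ψ a σ τ ^ m := by
  unfold symR; split_ifs <;> simp

theorem n_mul_carry {n : ℕ} [NeZero n] {ψ : GG → ZMod n}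
    (hψ : ∀ σ ∈ H, ∀ τ ∈ H, ψ (σ * τ) = ψ σ + ψ τ) {σ τ : GG} (hσ : σ ∈ H) (hτ : τ ∈ H) :
    (n : ℤ) * carry n ψ σ τ = (ψ σ).val + (ψ τ).val - (ψ (σ * τ)).val := by
  have h1 := ZMod.val_lt (ψ σ)
  have h2 := ZMod.val_lt (ψ τ)
  rw [hψ σ hσ τ hτ, carry]
  split_ifs with h
  · have := ZMod.val_add_val_of_le h
    omega
  · rw [ZMod.val_add_of_lt (not_le.1 h)]
    push_cast
    ring

/-- Symbols whose exponents differ by a coboundary agree. -/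
theorem sim_zpow {b : LL} (hb0 : b ≠ 0) (hb : ∀ σ ∈ H, σ b = b) {e e' : GG → GG → ℤ} {w : GG → ℤ}
    (hw : LevOn H w) (h : ∀ σ ∈ H, ∀ τ ∈ H, e σ τ = e' σ τ + (w σ + w τ - w (σ * τ))) :
    Sim H (fun σ τ => b ^ e σ τ) fun σ τ => b ^ e' σ τ := by
  obtain ⟨f, hf, hne, hc⟩ := cob_zpow_delta hb0 hb hw
  exact ⟨f, hf, hne, fun σ hσ τ hτ => by
    beta_reduce
    rw [h σ hσ τ hτ, zpow_add₀ hb0]
    exact congrArg (_ * ·) (hc σ hσ τ hτ)⟩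

/-- The `n`th power of a symbol is trivial. -/
theorem cob_symR_pow_self {n : ℕ} [NeZero n] {ψ : GG → ZMod n}
    (hψ : ∀ σ ∈ H, ∀ τ ∈ H, ψ (σ * τ) = ψ σ + ψ τ) (hl : LevOn H ψ) {b : LL} (hb0 : b ≠ 0)
    (hb : ∀ σ ∈ H, σ b = b) : Cob H fun σ τ => symR n ψ b σ τ ^ n :=
  (cob_zpow_delta hb0 hb (hl.map fun x => ((x.val : ℕ) : ℤ))).congr fun σ hσ τ hτ => by
    rw [symR_eq_zpow, ← zpow_natCast, ← zpow_mul, mul_comm, n_mul_carry hψ hσ hτ]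

/-- Additivity in the character. -/
theorem sim_symR_add {n : ℕ} [NeZero n] {ψ₁ ψ₂ ψ₃ : GG → ZMod n}
    (h₁ : ∀ σ ∈ H, ∀ τ ∈ H, ψ₁ (σ * τ) = ψ₁ σ + ψ₁ τ) (hl₁ : LevOn H ψ₁)
    (h₂ : ∀ σ ∈ H, ∀ τ ∈ H, ψ₂ (σ * τ) = ψ₂ σ + ψ₂ τ) (hl₂ : LevOn H ψ₂)
    (h₃ : ∀ σ ∈ H, ψ₃ σ = ψ₁ σ + ψ₂ σ) {b : LL} (hb0 : b ≠ 0) (hb : ∀ σ ∈ H, σ b = b) :
    Sim H (symR n ψ₃ b) fun σ τ => symR n ψ₁ b σ τ * symR n ψ₂ b σ τ := by
  have hψ₃ : ∀ σ ∈ H, ∀ τ ∈ H, ψ₃ (σ * τ) = ψ₃ σ + ψ₃ τ := fun σ hσ τ hτ => by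
    rw [h₃ _ (mul_mem hσ hτ), h₃ σ hσ, h₃ τ hτ, h₁ σ hσ τ hτ, h₂ σ hσ τ hτ]; ring
  let w : GG → ℤ := fun σ => if n ≤ (ψ₁ σ).val + (ψ₂ σ).val then -1 else 0
  have hw : LevOn H w := hl₁.map₂ hl₂ fun x y => if n ≤ x.val + y.val then -1 else 0
  have hv : ∀ σ ∈ H, ((ψ₃ σ).val : ℤ) = (ψ₁ σ).val + (ψ₂ σ).val + n * w σ := fun σ hσ => by
    rw [h₃ σ hσ]
    simp only [w]
    split_ifs with h
    · have := ZMod.val_add_val_of_le h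
      omega
    · rw [ZMod.val_add_of_lt (not_le.1 h)]; push_cast; ring
  refine ((Sim.of_eq fun σ _ τ _ => symR_eq_zpow n ψ₃ b σ τ).trans
    (sim_zpow hb0 hb (e' := fun σ τ => carry n ψ₁ σ τ + carry n ψ₂ σ τ) hw fun σ hσ τ hτ => ?_)).trans
    (Sim.of_eq fun σ _ τ _ => by rw [zpow_add₀ hb0, symR_eq_zpow, symR_eq_zpow])
  refine mul_left_cancel₀ (Int.natCast_ne_zero.2 (NeZero.ne n)) ?_
  rw [mul_add, mul_add, n_mul_carry hψ₃ hσ hτ, n_mul_carry h₁ hσ hτ, n_mul_carry h₂ hσ hτ,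
    hv σ hσ, hv τ hτ, hv _ (mul_mem hσ hτ)]
  ring

theorem symR_zero {n : ℕ} [NeZero n] {ψ : GG → ZMod n} (b : LL) {σ τ : GG} (hσ : ψ σ = 0) :
    symR n ψ b σ τ = 1 := by
  have := ZMod.val_lt (ψ τ)
  rw [symR, hσ, ZMod.val_zero, if_neg (by omega)]

/-- Multiples of the character. -/
theorem sim_symR_smul {n : ℕ} [NeZero n] {ψ : GG → ZMod n}
    (hψ : ∀ σ ∈ H, ∀ τ ∈ H, ψ (σ * τ) = ψ σ + ψ τ) (hl : LevOn H ψ) (a : ℕ) {b : LL}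
    (hb0 : b ≠ 0) (hb : ∀ σ ∈ H, σ b = b) :
    Sim H (symR n (fun σ => (a : ZMod n) * ψ σ) b) fun σ τ => symR n ψ b σ τ ^ a := by
  induction a with
  | zero => exact Sim.of_eq fun σ _ τ _ => by rw [symR_zero b (by simp), pow_zero]
  | succ a ih =>
    refine (sim_symR_add (ψ₁ := fun σ => (a : ZMod n) * ψ σ) (ψ₂ := ψ)
      (fun σ hσ τ hτ => by rw [hψ σ hσ τ hτ, mul_add]) (hl.map fun x => (a : ZMod n) * x) hψ hl
      (fun σ _ => by rw [Nat.cast_succ, add_mul, one_mul]) hb0 hb).trans ?_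
    exact (ih.mul (Sim.refl (symR n ψ b))).trans (Sim.of_eq fun σ _ τ _ => (pow_succ _ _).symm)

/-- Inflation: the reduction of a character. -/
theorem sim_symR_cast {n d m : ℕ} [NeZero n] [NeZero d] (hnm : n = d * m) {ψ : GG → ZMod n}
    {ψ' : GG → ZMod d} (hψ : ∀ σ ∈ H, ∀ τ ∈ H, ψ (σ * τ) = ψ σ + ψ τ) (hl : LevOn H ψ)
    (h' : ∀ σ ∈ H, ψ' σ = ((ψ σ).val : ZMod d)) {b : LL} (hb0 : b ≠ 0)
    (hb : ∀ σ ∈ H, σ b = b) : Sim H (symR n ψ (b ^ m)) (symR d ψ' b) := by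
  have hψ' : ∀ σ ∈ H, ∀ τ ∈ H, ψ' (σ * τ) = ψ' σ + ψ' τ := fun σ hσ τ hτ => by
    rw [h' _ (mul_mem hσ hτ), h' σ hσ, h' τ hτ, hψ σ hσ τ hτ, ← Nat.cast_add]
    rw [ZMod.natCast_eq_natCast_iff', ZMod.val_add]
    exact Nat.mod_mod_of_dvd _ ⟨m, hnm⟩
  let w : GG → ℤ := fun σ => (((ψ σ).val / d : ℕ) : ℤ)
  have hw : LevOn H w := hl.map fun x => ((x.val / d : ℕ) : ℤ)
  have hv : ∀ σ ∈ H, ((ψ σ).val : ℤ) = (ψ' σ).val + d * w σ := fun σ hσ => by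
    rw [h' σ hσ, ZMod.val_natCast]
    simp only [w]
    exact_mod_cast (Nat.mod_add_div _ _).symm
  refine (Sim.of_eq fun σ _ τ _ => ?_).trans ((sim_zpow hb0 hb
    (e := fun σ τ => (m : ℤ) * carry n ψ σ τ) (e' := carry d ψ') hw fun σ hσ τ hτ => ?_).trans
    (Sim.of_eq fun σ _ τ _ => (symR_eq_zpow d ψ' b σ τ).symm))
  · rw [symR_eq_zpow, ← zpow_natCast, ← zpow_mul]
  · refine mul_left_cancel₀ (Int.natCast_ne_zero.2 (NeZero.ne d)) ?_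
    rw [mul_add, n_mul_carry hψ' hσ hτ, ← mul_assoc,
      show ((d : ℤ) * (m : ℤ)) = (n : ℤ) by exact_mod_cast hnm.symm, n_mul_carry hψ hσ hτ,
      hv σ hσ, hv τ hτ, hv _ (mul_mem hσ hτ)]
    ring

/-- A character with values in the multiples of `q` has the same carries. -/
theorem symR_scale {n n' q : ℕ} (hn : n = q * n') (hq : 0 < q) {ψ : GG → ZMod n}
    {ψ' : GG → ZMod n'} {σ τ : GG} (hσ : (ψ σ).val = q * (ψ' σ).val)
    (hτ : (ψ τ).val = q * (ψ' τ).val) (b : LL) : symR n ψ b σ τ = symR n' ψ' b σ τ := by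
  simp only [symR, hσ, hτ, ← mul_add, hn]
  exact if_congr ⟨fun h => Nat.le_of_mul_le_mul_left h hq, Nat.mul_le_mul_left q⟩ rfl rfl

/-! ### Kummer characters -/

section Kummer

variable {p : ℕ} [Fact p.Prime]

/-- A character nonzero on `H` with prime order has a generator. -/
def CycChar.ofNe {ψ : GG → ZMod p} (hψ : ∀ σ ∈ H, ∀ τ ∈ H, ψ (σ * τ) = ψ σ + ψ τ)
    (hl : LevOn H ψ) (h : ∃ σ ∈ H, ψ σ ≠ 0) : CycChar H p where
  ψ := ψ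
  gen := h.choose ^ ((ψ h.choose)⁻¹).val
  one_lt := (Fact.out : p.Prime).one_lt
  mul := hψ
  gen_mem := pow_mem h.choose_spec.1 _
  ψ_gen := by
    obtain ⟨h1, h2⟩ := h.choose_spec
    have hone : ψ 1 = 0 := by
      have := hψ 1 (one_mem H) 1 (one_mem H)
      rwa [one_mul, left_eq_add] at this
    have key : ∀ k : ℕ, ψ (h.choose ^ k) = (k : ZMod p) * ψ h.choose := fun k => by
      induction k with
      | zero => simp [hone]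
      | succ k ih =>
        rw [pow_succ, hψ _ (pow_mem h1 k) _ h1, ih, Nat.cast_succ, add_mul, one_mul]
    rw [key, ZMod.natCast_zmod_val, inv_mul_cancel₀ h2]
  lev := hl

variable {ζ : LL} (hζ : IsPrimitiveRoot ζ p)

include hζ in
theorem zeta_pow_val_add (x y : ZMod p) :
    ζ ^ (x + y).val = ζ ^ x.val * ζ ^ y.val := by
  rw [← pow_add, ZMod.val_add]
  exact (pow_eq_pow_mod _ hζ.pow_eq_one).symm

include hζ in
/-- A character is a Kummer character. -/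
theorem exists_kummer (hζH : ∀ σ ∈ H, σ ζ = ζ) {ψ : GG → ZMod p}
    (hψ : ∀ σ ∈ H, ∀ τ ∈ H, ψ (σ * τ) = ψ σ + ψ τ) (hl : LevOn H ψ) :
    ∃ α : LL, α ≠ 0 ∧ (∀ σ ∈ H, σ α = ζ ^ (ψ σ).val * α) ∧ ∀ σ ∈ H, σ (α ^ p) = α ^ p := by
  obtain ⟨u, hu0, hu⟩ := hilbert90 (H := H) (f := fun σ => ζ ^ (ψ σ).val)
    (hl.map fun x => ζ ^ x.val) (fun σ _ => pow_ne_zero _ (hζ.ne_zero (NeZero.ne p)))
    fun σ hσ τ hτ => by
      rw [hψ σ hσ τ hτ, zeta_pow_val_add hζ, map_pow, hζH σ hσ, mul_comm]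
  refine ⟨u, hu0, fun σ hσ => by rw [hu σ hσ, div_mul_cancel₀ _ hu0], fun σ hσ => ?_⟩
  rw [map_pow]
  conv_lhs => rw [show σ u = σ u / u * u from (div_mul_cancel₀ _ hu0).symm, ← hu σ hσ, mul_pow,
    ← pow_mul, mul_comm _ p, pow_mul, hζ.pow_eq_one, one_pow, one_mul]

include hζ in
/-- The symbol of a Kummer character and minus its element is trivial. -/
theorem cob_symR_neg_self (hp : p ≠ 2) {ψ : GG → ZMod p}
    (hψ : ∀ σ ∈ H, ∀ τ ∈ H, ψ (σ * τ) = ψ σ + ψ τ) (hl : LevOn H ψ) {α : LL} (hα0 : α ≠ 0)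
    (hα : ∀ σ ∈ H, σ α = ζ ^ (ψ σ).val * α) : Cob H (symR p ψ (-α ^ p)) := by
  by_cases h : ∃ σ ∈ H, ψ σ ≠ 0
  swap
  · push Not at h
    exact (cob_one (H := H)).congr fun σ hσ τ _ => symR_zero _ (h σ hσ)
  let χ := CycChar.ofNe hψ hl h
  refine χ.cob_sym_of_norm ⟨-α, neg_ne_zero.2 hα0, fun t ht => ?_, ?_⟩
  · rw [map_neg, hα t ht.1, show ψ t = 0 from ht.2, ZMod.val_zero, pow_zero, one_mul]
  · have hi : ∀ i < p, (χ.gen ^ i) (-α) = -(ζ ^ i * α) := fun i hi => by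
      rw [map_neg, hα _ (χ.pow_mem' i), show ψ (χ.gen ^ i) = (i : ZMod p) from χ.ψ_pow i,
        ZMod.val_cast_of_lt hi]
    rw [Finset.prod_congr rfl fun i hi' => hi i (Finset.mem_range.1 hi')]
    have hodd : Odd p := (Fact.out : p.Prime).odd_of_ne_two hp
    rw [show (fun i => -(ζ ^ i * α)) = fun i => (-α) * ζ ^ i by funext i; ring,
      Finset.prod_mul_distrib, Finset.prod_const, Finset.card_range, hodd.neg_pow,
      Finset.prod_pow_eq_pow_sum, Finset.sum_range_id]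
    obtain ⟨k, hk⟩ := hodd
    have e : p * (p - 1) / 2 = p * k := by
      rw [show p - 1 = 2 * k by omega, ← mul_assoc, mul_comm p 2, mul_assoc,
        Nat.mul_div_cancel_left _ two_pos]
    rw [e, pow_mul, hζ.pow_eq_one, one_pow, mul_one]

include hζ in
/-- Skew symmetry. -/
theorem cob_symR_skew (hp : p ≠ 2) {ψ φ : GG → ZMod p}
    (hψ : ∀ σ ∈ H, ∀ τ ∈ H, ψ (σ * τ) = ψ σ + ψ τ) (hlψ : LevOn H ψ)
    (hφ : ∀ σ ∈ H, ∀ τ ∈ H, φ (σ * τ) = φ σ + φ τ) (hlφ : LevOn H φ) {α β : LL}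
    (hα0 : α ≠ 0) (hα : ∀ σ ∈ H, σ α = ζ ^ (ψ σ).val * α) (hαp : ∀ σ ∈ H, σ (α ^ p) = α ^ p)
    (hβ0 : β ≠ 0) (hβ : ∀ σ ∈ H, σ β = ζ ^ (φ σ).val * β) (hβp : ∀ σ ∈ H, σ (β ^ p) = β ^ p) :
    Cob H fun σ τ => symR p ψ (β ^ p) σ τ * symR p φ (α ^ p) σ τ := by
  have hab : ∀ σ ∈ H, σ (α * β) = ζ ^ (ψ σ + φ σ).val * (α * β) := fun σ hσ => by
    rw [map_mul, hα σ hσ, hβ σ hσ, zeta_pow_val_add hζ]; ring
  have hs : ∀ σ ∈ H, ∀ τ ∈ H,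
      ψ (σ * τ) + φ (σ * τ) = ψ σ + φ σ + (ψ τ + φ τ) := fun σ hσ τ hτ => by
    rw [hψ σ hσ τ hτ, hφ σ hσ τ hτ]; ring
  have h0 := cob_symR_neg_self hζ hp hs (hlψ.map₂ hlφ (· + ·)) (mul_ne_zero hα0 hβ0) hab
  have hfix : ∀ σ ∈ H, σ (-(α * β) ^ p) = -(α * β) ^ p := fun σ hσ => by
    rw [map_neg, mul_pow, map_mul, hαp σ hσ, hβp σ hσ]
  have h1 := ((sim_symR_add hψ hlψ hφ hlφ (fun σ _ => rfl)
    (neg_ne_zero.2 (pow_ne_zero _ (mul_ne_zero hα0 hβ0))) hfix).cob_iff).1 h0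
  have h2 := ((cob_symR_neg_self hζ hp hψ hlψ hα0 hα).mul
    (cob_symR_neg_self hζ hp hφ hlφ hβ0 hβ)).inv
  refine (h1.mul h2).congr fun σ _ τ _ => ?_
  have e1 : -(α * β) ^ p = -α ^ p * β ^ p := by ring
  have e2 : -(α * β) ^ p = -β ^ p * α ^ p := by ring
  conv_rhs => rw [show symR p ψ (-(α * β) ^ p) σ τ = symR p ψ (-α ^ p) σ τ * symR p ψ (β ^ p) σ τ by
    rw [e1, symR_mul], show symR p φ (-(α * β) ^ p) σ τ = symR p φ (-β ^ p) σ τ * symR p φ (α ^ p) σ τ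
    by rw [e2, symR_mul]]
  have n1 := symR_ne ψ (neg_ne_zero.2 (pow_ne_zero p hα0)) σ τ
  have n2 := symR_ne φ (neg_ne_zero.2 (pow_ne_zero p hβ0)) σ τ
  field_simp

include hζ in
/-- The cup product of two characters is a symbol. -/
theorem cob_cup_mul_symR {ψ φ : GG → ZMod p}
    (hψ : ∀ σ ∈ H, ∀ τ ∈ H, ψ (σ * τ) = ψ σ + ψ τ) (hlψ : LevOn H ψ) {δ : LL} (hδ0 : δ ≠ 0)
    (hδ : ∀ σ ∈ H, σ δ = ζ ^ (φ σ).val * δ) :
    Cob H fun σ τ => ζ ^ (φ σ * ψ τ).val * symR p ψ (δ ^ p) σ τ := by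
  refine ⟨fun σ => δ ^ (ψ σ).val, hlψ.map fun x => δ ^ x.val, fun _ _ => pow_ne_zero _ hδ0,
    fun σ hσ τ hτ => ?_⟩
  have hne : δ ^ (ψ (σ * τ)).val ≠ 0 := pow_ne_zero _ hδ0
  beta_reduce
  rw [dlt, eq_div_iff hne, map_pow, hδ σ hσ, mul_pow, ← pow_mul, ZMod.val_mul,
    ← pow_eq_pow_mod _ hζ.pow_eq_one, symR_eq_zpow]
  have hc := n_mul_carry hψ hσ hτ
  have hcarry : carry p ψ σ τ = ((if p ≤ (ψ σ).val + (ψ τ).val then 1 else 0 : ℕ) : ℤ) := by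
    unfold carry; split_ifs <;> simp
  rw [hcarry] at hc ⊢
  rw [zpow_natCast, ← pow_mul, mul_assoc, ← pow_add, mul_assoc (ζ ^ _), ← pow_add]
  congr 2
  omega

end Kummer

end FLTAgent.Lowering.P1.Brauer
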