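import Fermat.Agent.Lowering.P1.Brauer.Place
import Fermat.Agent.Lowering.P1.Brauer.Sym

/-!
# Local classes killed by `p`

Over an open subgroup of a decomposition group every class killed by `p` dies on the kernel of
every character of order `p`: the classes form one line.
-/

set_option autoImplicit false
set_option linter.style.haveILetI false
set_option linter.unusedSectionVars false

noncomputable section

namespace FLTAgent.Lowering.P1.Brauer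

local notation "LL" => AlgebraicClosure ℚ
local notation "GG" => (AlgebraicClosure ℚ ≃ₐ[ℚ] AlgebraicClosure ℚ)

variable {H H' : Subgroup GG} {p : ℕ} [Fact p.Prime]

theorem Sim.ne {c c' : GG → GG → LL} (h : Sim H c c')
    (hne : ∀ σ ∈ H, ∀ τ ∈ H, c' σ τ ≠ 0) : ∀ σ ∈ H, ∀ τ ∈ H, c σ τ ≠ 0 := by
  obtain ⟨f, -, hf, hc⟩ := h
  intro σ hσ τ hτ
  rw [hc σ hσ τ hτ]
  exact mul_ne_zero (hne σ hσ τ hτ) (dlt_ne (hf σ hσ) (hf τ hτ) (hf _ (mul_mem hσ hτ)))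

/-- Exponents of a class killed by `n` only matter modulo `n`. -/
theorem sim_pow_of_modEq {c : GG → GG → LL} {n a b : ℕ} (ht : Cob H fun σ τ => c σ τ ^ n)
    (hab : a ≡ b [MOD n]) : Sim H (fun σ τ => c σ τ ^ a) fun σ τ => c σ τ ^ b := by
  have key : ∀ a, Sim H (fun σ τ => c σ τ ^ a) fun σ τ => c σ τ ^ (a % n) := fun a => by
    refine (Sim.of_eq fun σ _ τ _ => ?_).trans (((Sim.refl fun σ τ => c σ τ ^ (a % n)).mul
      (cob_iff_sim.1 (ht.pow (a / n)))).trans (Sim.of_eq fun σ _ τ _ => mul_one _))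
    rw [← pow_mul, ← pow_add, Nat.mod_add_div]
  exact (key a).trans ((show (fun σ τ => c σ τ ^ (a % n)) = fun σ τ => c σ τ ^ (b % n) by
    rw [show a % n = b % n from hab]) ▸ (key b).symm)

theorem cob_of_coprime {c : GG → GG → LL} {n m : ℕ} (hn : 1 < n)
    (h : Cob H fun σ τ => c σ τ ^ n) (hm : Cob H fun σ τ => c σ τ ^ m) (hco : Nat.Coprime m n) :
    Cob H c := by
  obtain ⟨u, -, hu⟩ := Nat.exists_mul_mod_eq_one_of_coprime hco hn
  have h1 : Sim H (fun σ τ => c σ τ ^ (m * u)) fun σ τ => c σ τ ^ 1 :=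
    sim_pow_of_modEq h (by rw [Nat.ModEq, hu, Nat.mod_eq_of_lt hn])
  refine ((h1.cob_iff).1 ?_).congr fun σ _ τ _ => (pow_one _).symm
  exact (hm.pow u).congr fun σ _ τ _ => (pow_mul _ _ _)

theorem cob_symR_ker {n : ℕ} (χ : CycChar H n) (b : LL) : Cob χ.ker (χ.sym b) := by
  haveI := χ.neZero
  exact (cob_one (H := χ.ker)).congr fun σ hσ τ _ => by rw [χ.sym_eq]; exact symR_zero b hσ.2

theorem cob_sym_pow_p (χ : CycChar H p) {b : LL} (hb0 : b ≠ 0) (hb : ∀ σ ∈ H, σ b = b) :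
    Cob H fun σ τ => χ.sym b σ τ ^ p := by
  rw [χ.sym_eq]
  exact cob_symR_pow_self χ.mul χ.lev hb0 hb

/-- The Kummer character of an element. -/
theorem exists_kummer_char {ζ : LL} (hζ : IsPrimitiveRoot ζ p) (hζH : ∀ σ ∈ H, σ ζ = ζ) {d : LL}
    (hd0 : d ≠ 0) (hd : ∀ σ ∈ H, σ d = d) :
    ∃ (ψ : GG → ZMod p) (δ : LL), (∀ σ ∈ H, ∀ τ ∈ H, ψ (σ * τ) = ψ σ + ψ τ) ∧ LevOn H ψ ∧
      δ ≠ 0 ∧ δ ^ p = d ∧ ∀ σ ∈ H, σ δ = ζ ^ (ψ σ).val * δ := by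
  classical
  have hp0 : 0 < p := (Fact.out : p.Prime).pos
  obtain ⟨δ, hδ⟩ := IsAlgClosed.exists_pow_nat_eq d hp0
  have hδ0 : δ ≠ 0 := fun h => hd0 (by rw [← hδ, h, zero_pow hp0.ne'])
  have hroot : ∀ σ ∈ H, ∃ i : ZMod p, σ δ = ζ ^ i.val * δ := fun σ hσ => by
    obtain ⟨i, hi, he⟩ := hζ.eq_pow_of_pow_eq_one (show (σ δ / δ) ^ p = 1 by
      rw [div_pow, ← map_pow, hδ, hd σ hσ, div_self hd0])
    exact ⟨(i : ZMod p), by rw [ZMod.val_cast_of_lt hi, he, div_mul_cancel₀ _ hδ0]⟩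
  let G : LL → ZMod p := fun w => if h : ∃ i : ZMod p, w = ζ ^ i.val * δ then h.choose else 0
  have hG : ∀ σ ∈ H, σ δ = ζ ^ (G (σ δ)).val * δ := fun σ hσ => by
    simp only [G, dif_pos (hroot σ hσ)]
    exact (hroot σ hσ).choose_spec
  refine ⟨fun σ => G (σ δ), δ, fun σ hσ τ hτ => ?_, ?_, hδ0, hδ, hG⟩
  · have h1 : ζ ^ (G ((σ * τ) δ)).val * δ = ζ ^ (G (σ δ) + G (τ δ)).val * δ := by
      rw [← hG _ (mul_mem hσ hτ), zeta_pow_val_add hζ, AlgEquiv.mul_apply, hG τ hτ, map_mul,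
        map_pow, hζH σ hσ, hG σ hσ]
      rw [show G (ζ ^ (G (σ δ)).val * δ) = G (σ δ) by rw [← hG σ hσ]]
      rw [show G (ζ ^ (G (τ δ)).val * δ) = G (τ δ) by rw [← hG τ hτ]]
      ring
    exact ZMod.val_injective p (hζ.pow_inj (ZMod.val_lt _) (ZMod.val_lt _)
      (mul_right_cancel₀ hδ0 h1))
  · haveI : FiniteDimensional ℚ (IntermediateField.adjoin ℚ ({δ} : Set LL)) :=
      IntermediateField.adjoin.finiteDimensional (integral_coe δ)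
    refine ⟨_, this, fun g _ s _ hs => ?_⟩
    show G ((g * s) δ) = G (g δ)
    rw [AlgEquiv.mul_apply, (IntermediateField.mem_fixingSubgroup_iff _ _).1 hs δ
      (IntermediateField.mem_adjoin_simple_self ℚ δ)]

/-- The norm index hypothesis. -/
def NormIndex (p : ℕ) (H : Subgroup GG) : Prop :=
  ∀ χ : CycChar H p, ∃ b₀ : LL, b₀ ≠ 0 ∧ (∀ σ ∈ H, σ b₀ = b₀) ∧ ¬ χ.IsNorm b₀ ∧
    ∀ b : LL, b ≠ 0 → (∀ σ ∈ H, σ b = b) → ∃ i < p, χ.IsNorm (b * b₀ ^ i)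

/-- Every symbol is a power of the one of a given element which is not a norm. -/
theorem exists_sim_pow (hidx : NormIndex p H) (χ : CycChar H p) {d : LL} (hd0 : d ≠ 0)
    (hd : ∀ σ ∈ H, σ d = d) (hdn : ¬ Cob H (χ.sym d)) {b : LL} (hb0 : b ≠ 0)
    (hb : ∀ σ ∈ H, σ b = b) : ∃ k : ℕ, Sim H (χ.sym b) fun σ τ => χ.sym d σ τ ^ k := by
  obtain ⟨b₀, hb₀0, hb₀, -, hall⟩ := hidx χ
  have ht := cob_sym_pow_p χ hb₀0 hb₀
  have key : ∀ b : LL, b ≠ 0 → (∀ σ ∈ H, σ b = b) →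
      ∃ i : ℕ, Sim H (χ.sym b) fun σ τ => χ.sym b₀ σ τ ^ i := fun b hb0 hb => by
    obtain ⟨i, -, hN⟩ := hall b hb0 hb
    refine ⟨(p - 1) * i, ?_⟩
    have hp := (Fact.out : p.Prime).one_le
    have h1 : Sim H (fun σ τ => χ.sym b₀ σ τ ^ (p * i)) fun _ _ => 1 :=
      cob_iff_sim.1 ((ht.pow i).congr fun σ _ τ _ => (pow_mul _ _ _))
    refine (Sim.of_eq fun σ _ τ _ => (mul_one _).symm).trans
      (((Sim.refl (χ.sym b)).mul h1.symm).trans ?_)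
    refine (Sim.of_eq fun σ _ τ _ => ?_).trans (((cob_iff_sim.1 (χ.cob_sym_of_norm hN)).mul
      (Sim.refl fun σ τ => χ.sym b₀ σ τ ^ ((p - 1) * i))).trans
      (Sim.of_eq fun σ _ τ _ => one_mul _))
    rw [χ.sym_mul, χ.sym_pow, mul_assoc, ← pow_add]
    congr 2
    rw [Nat.sub_mul, one_mul]
    exact (Nat.add_sub_cancel' (Nat.le_mul_of_pos_left i hp)).symm
  obtain ⟨i, hi⟩ := key b hb0 hb
  obtain ⟨j, hj⟩ := key d hd0 hd
  have hj0 : (j : ZMod p) ≠ 0 := fun h => hdn (hj.cob_iff.2 (by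
    obtain ⟨t, rfl⟩ := (ZMod.natCast_eq_zero_iff j p).1 h
    exact (ht.pow t).congr fun σ _ τ _ => pow_mul _ _ _))
  refine ⟨((i : ZMod p) * (j : ZMod p)⁻¹).val, hi.trans ?_⟩
  refine (sim_pow_of_modEq ht ?_).trans (((Sim.of_eq fun σ _ τ _ => pow_mul _ _ _).trans
    ((hj.symm).pow _)))
  rw [← ZMod.natCast_eq_natCast_iff, Nat.cast_mul, ZMod.natCast_zmod_val]
  field_simp

/-- The line of classes does not depend on the character. -/
theorem sim_sym_line (hp2 : p ≠ 2) {ζ : LL} (hζ : IsPrimitiveRoot ζ p)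
    (hζH : ∀ σ ∈ H, σ ζ = ζ) (hidx : NormIndex p H) (χ χ' : CycChar H p) {b : LL} (hb0 : b ≠ 0)
    (hb : ∀ σ ∈ H, σ b = b) :
    ∃ b' : LL, b' ≠ 0 ∧ (∀ σ ∈ H, σ b' = b') ∧ Sim H (χ.sym b) (χ'.sym b') := by
  -- an element which is a norm for neither
  obtain ⟨d, hd0, hd, hdχ, hdχ'⟩ : ∃ d : LL, d ≠ 0 ∧ (∀ σ ∈ H, σ d = d) ∧ ¬ Cob H (χ.sym d) ∧
      ¬ Cob H (χ'.sym d) := by
    obtain ⟨x, hx0, hx, hxn, -⟩ := hidx χ
    obtain ⟨y, hy0, hy, hyn, -⟩ := hidx χ'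
    by_cases h1 : Cob H (χ'.sym x)
    swap
    · exact ⟨x, hx0, hx, fun h => hxn (χ.norm_of_cob_sym h), h1⟩
    by_cases h2 : Cob H (χ.sym y)
    swap
    · exact ⟨y, hy0, hy, h2, fun h => hyn (χ'.norm_of_cob_sym h)⟩
    refine ⟨x * y, mul_ne_zero hx0 hy0, fun σ hσ => by rw [map_mul, hx σ hσ, hy σ hσ],
      fun h => hxn (χ.norm_of_cob_sym ?_), fun h => hyn (χ'.norm_of_cob_sym ?_)⟩
    · refine (h.mul h2.inv).congr fun σ _ τ _ => ?_
      rw [χ.sym_mul, mul_inv_cancel_right₀]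
      rw [χ.sym_eq]; exact symR_ne _ hy0 σ τ
    · refine (h.mul h1.inv).congr fun σ _ τ _ => ?_
      rw [χ'.sym_mul, mul_comm (χ'.sym x σ τ), mul_inv_cancel_right₀]
      rw [χ'.sym_eq]; exact symR_ne _ hx0 σ τ
  obtain ⟨ψd, δ, hψd, hlψd, hδ0, hδp, hδ⟩ := exists_kummer_char hζ hζH hd0 hd
  have hδfix : ∀ σ ∈ H, σ (δ ^ p) = δ ^ p := fun σ hσ => by rw [hδp, hd σ hσ]
  -- both symbols at `d` lie in the line of the character of `d`
  have hskew : ∀ χ₁ : CycChar H p, ∃ a : LL, a ≠ 0 ∧ (∀ σ ∈ H, σ a = a) ∧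
      Cob H fun σ τ => χ₁.sym d σ τ * symR p ψd a σ τ := fun χ₁ => by
    obtain ⟨α, hα0, hα, hαp⟩ := exists_kummer hζ hζH χ₁.mul χ₁.lev
    refine ⟨α ^ p, pow_ne_zero _ hα0, hαp, ?_⟩
    have := cob_symR_skew hζ hp2 χ₁.mul χ₁.lev hψd hlψd hα0 hα hαp hδ0 hδ hδfix
    rw [hδp] at this
    exact this
  obtain ⟨a, ha0, ha, hac⟩ := hskew χ
  obtain ⟨c, hc0, hc, hcc⟩ := hskew χ'
  have hne : ∃ σ ∈ H, ψd σ ≠ 0 := by
    by_contra hall
    push Not at hall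
    exact hdχ (hac.congr fun σ hσ τ _ => by rw [symR_zero a (hall σ hσ), mul_one])
  let χd := CycChar.ofNe hψd hlψd hne
  have han : ¬ Cob H (χd.sym a) := fun h => hdχ ((hac.mul h.inv).congr fun σ _ τ _ => by
    rw [χd.sym_eq]; exact (mul_inv_cancel_right₀ (symR_ne _ ha0 σ τ) _).symm)
  obtain ⟨k, hk⟩ := exists_sim_pow hidx χd ha0 ha han hc0 hc
  have hcn : ¬ Cob H (χd.sym c) := fun h => hdχ' ((hcc.mul h.inv).congr fun σ _ τ _ => by
    rw [χd.sym_eq]; exact (mul_inv_cancel_right₀ (symR_ne _ hc0 σ τ) _).symm)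
  obtain ⟨k', hk'⟩ := exists_sim_pow hidx χd hc0 hc hcn ha0 ha
  -- so the symbol of `χ` at `d` is a power of the one of `χ'`
  have hd' : Sim H (χ.sym d) fun σ τ => χ'.sym d σ τ ^ k' := by
    have s1 : Sim H (χ.sym d) fun σ τ => (χd.sym a σ τ)⁻¹ :=
      sim_of_cob_div (hac.congr fun σ _ τ _ => by rw [div_inv_eq_mul, χd.sym_eq]; rfl)
        fun σ _ τ _ => inv_ne_zero (by rw [χd.sym_eq]; exact symR_ne _ ha0 σ τ)
    have s2 : Sim H (χ'.sym d) fun σ τ => (χd.sym c σ τ)⁻¹ :=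
      sim_of_cob_div (hcc.congr fun σ _ τ _ => by rw [div_inv_eq_mul, χd.sym_eq]; rfl)
        fun σ _ τ _ => inv_ne_zero (by rw [χd.sym_eq]; exact symR_ne _ hc0 σ τ)
    refine s1.trans (Sim.trans ?_ ((s2.pow k').symm))
    obtain ⟨f, hf, hfne, hfc⟩ := hk'
    exact ⟨fun g => (f g)⁻¹, hf.map (·⁻¹), fun σ hσ => inv_ne_zero (hfne σ hσ), fun σ hσ τ hτ => by
      beta_reduce
      rw [dlt_inv, hfc σ hσ τ hτ, mul_inv, inv_pow]⟩
  obtain ⟨m, hm⟩ := exists_sim_pow hidx χ hd0 hd hdχ hb0 hb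
  refine ⟨d ^ (k' * m), pow_ne_zero _ hd0, fun σ hσ => by rw [map_pow, hd σ hσ], ?_⟩
  exact hm.trans ((hd'.pow m).trans (Sim.of_eq fun σ _ τ _ => by rw [χ'.sym_pow, ← pow_mul]))

/-- A class dying on one kernel dies on every kernel. -/
theorem cob_ker_change (hp2 : p ≠ 2) {ζ : LL} (hζ : IsPrimitiveRoot ζ p)
    (hζH : ∀ σ ∈ H, σ ζ = ζ) (hidx : NormIndex p H) (χ χ' : CycChar H p) {c : GG → GG → LL}
    (hc : Coc H c) (h : Cob χ.ker c) : Cob χ'.ker c := by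
  obtain ⟨b, hb0, hb, hd⟩ := χ.exists_eq_sym hc h
  obtain ⟨b', -, -, hs⟩ := sim_sym_line hp2 hζ hζH hidx χ χ' hb0 hb
  have h1 : Sim H c (χ'.sym b') :=
    (sim_of_cob_div hd fun σ hσ τ hτ => by rw [χ.sym_eq]; exact symR_ne _ hb0 σ τ).trans hs
  exact ((h1.mono χ'.ker_le).cob_iff).2 (cob_symR_ker χ' b')

/-- A class is trivial on an open normal subgroup. -/
theorem exists_cob_level {c : GG → GG → LL} (hc : Coc H c) {E₀ : IntermediateField ℚ LL}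
    [FiniteDimensional ℚ E₀] :
    ∃ E : IntermediateField ℚ LL, FiniteDimensional ℚ E ∧ Normal ℚ E ∧ E₀ ≤ E ∧
      Cob (H ⊓ E.fixingSubgroup) c := by
  obtain ⟨E₁, hE₁, hlev⟩ := hc.lev
  haveI : FiniteDimensional ℚ (IntermediateField.adjoin ℚ ({c 1 1} : Set LL)) :=
    IntermediateField.adjoin.finiteDimensional (integral_coe _)
  obtain ⟨E, hEf, hEn, hle⟩ :=
    exists_normal_le (E₀ ⊔ (E₁ ⊔ IntermediateField.adjoin ℚ ({c 1 1} : Set LL)))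
  refine ⟨E, hEf, hEn, le_sup_left.trans hle, fun _ => c 1 1, levOn_const _,
    fun _ _ => hc.ne 1 (one_mem H) 1 (one_mem H), fun σ hσ τ hτ => ?_⟩
  have hfix : ∀ s ∈ E.fixingSubgroup, s ∈ E₁.fixingSubgroup := fun s hs =>
    IntermediateField.fixingSubgroup_antitone ((le_sup_left.trans le_sup_right).trans hle) hs
  have h1 : c σ τ = c 1 1 := by
    have := hlev 1 (one_mem H) 1 (one_mem H) σ hσ.1 (hfix σ hσ.2) τ hτ.1 (hfix τ hτ.2)
    rwa [one_mul, one_mul] at this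
  have h2 : σ (c 1 1) = c 1 1 := (IntermediateField.mem_fixingSubgroup_iff _ _).1 hσ.2 _
    (hle (le_sup_right (a := E₀) (le_sup_right (a := E₁)
      (IntermediateField.mem_adjoin_simple_self ℚ (c 1 1)))))
  rw [h1, dlt, h2, mul_div_cancel_right₀ _ (hc.ne 1 (one_mem H) 1 (one_mem H))]

end FLTAgent.Lowering.P1.Brauer
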