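import Fermat.Agent.Lowering.P1.Brauer.LocalKill

/-!
# Local classes killed by `p` die on the kernel of every character of order `p`
-/

set_option autoImplicit false
set_option linter.style.haveILetI false
set_option linter.unusedSectionVars false
set_option maxHeartbeats 1000000

noncomputable section

namespace FLTAgent.Lowering.P1.Brauer

local notation "LL" => AlgebraicClosure ℚ
local notation "GG" => (AlgebraicClosure ℚ ≃ₐ[ℚ] AlgebraicClosure ℚ)

namespace CycChar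

variable {H : Subgroup GG} {n : ℕ} (χ : CycChar H n)

theorem isNorm_one : χ.IsNorm 1 := ⟨1, one_ne_zero, fun _ _ => map_one _, by simp⟩

theorem isNorm_mul {a b : LL} (ha : χ.IsNorm a) (hb : χ.IsNorm b) : χ.IsNorm (a * b) := by
  obtain ⟨y, hy0, hy, h⟩ := ha
  obtain ⟨z, hz0, hz, h'⟩ := hb
  exact ⟨y * z, mul_ne_zero hy0 hz0, fun t ht => by rw [map_mul, hy t ht, hz t ht],
    by simp only [map_mul, Finset.prod_mul_distrib, h, h']⟩

theorem isNorm_inv {a : LL} (ha : χ.IsNorm a) : χ.IsNorm a⁻¹ := by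
  obtain ⟨y, hy0, hy, h⟩ := ha
  exact ⟨y⁻¹, inv_ne_zero hy0, fun t ht => by rw [map_inv₀, hy t ht],
    by simp only [map_inv₀, Finset.prod_inv_distrib, h]⟩

theorem isNorm_zpow {a : LL} (ha : χ.IsNorm a) (k : ℤ) : χ.IsNorm (a ^ k) := by
  have hn : ∀ m : ℕ, χ.IsNorm (a ^ m) := fun m => by
    induction m with
    | zero => simpa using χ.isNorm_one
    | succ m ih => simpa [pow_succ] using χ.isNorm_mul ih ha
  obtain ⟨m, rfl | rfl⟩ := k.eq_nat_or_neg
  · simpa using hn m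
  · simpa using χ.isNorm_inv (hn m)

theorem isNorm_pow_self {a : LL} (ha0 : a ≠ 0) (ha : ∀ σ ∈ H, σ a = a) : χ.IsNorm (a ^ n) :=
  ⟨a, ha0, fun t ht => ha t ht.1, by
    rw [Finset.prod_congr rfl fun i _ => ha _ (χ.pow_mem' i), Finset.prod_const, Finset.card_range]⟩

/-- The reduction modulo `p` of a character of `p`-power order. -/
def red {p : ℕ} [Fact p.Prime] {M : ℕ} (χ : CycChar H (p ^ M)) : CycChar H p where
  ψ σ := ((χ.ψ σ).val : ZMod p)
  gen := χ.gen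
  one_lt := (Fact.out : p.Prime).one_lt
  mul σ hσ τ hτ := by
    haveI := χ.neZero
    have hM : M ≠ 0 := fun h => by
      have := χ.one_lt
      rw [h, pow_zero] at this
      omega
    rw [χ.mul σ hσ τ hτ, ← Nat.cast_add, ZMod.natCast_eq_natCast_iff', ZMod.val_add]
    exact Nat.mod_mod_of_dvd _ (dvd_pow_self p hM)
  gen_mem := χ.gen_mem
  ψ_gen := by
    haveI : Fact (1 < p ^ M) := ⟨χ.one_lt⟩
    rw [χ.ψ_gen, ZMod.val_one, Nat.cast_one]
  lev := χ.lev.map fun x => (x.val : ZMod p)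

theorem ker_le_red {p : ℕ} [Fact p.Prime] {M : ℕ} (χ : CycChar H (p ^ M)) :
    χ.ker ≤ χ.red.ker := fun σ hσ => ⟨hσ.1, by
  show ((χ.ψ σ).val : ZMod p) = 0
  rw [hσ.2, ZMod.val_zero, Nat.cast_zero]⟩

theorem sim_sym_red {p : ℕ} [Fact p.Prime] {M : ℕ} (hM : 0 < M) (χ : CycChar H (p ^ M)) {b : LL}
    (hb0 : b ≠ 0) (hb : ∀ σ ∈ H, σ b = b) :
    Sim H (χ.sym (b ^ p ^ (M - 1))) (χ.red.sym b) := by
  haveI := χ.neZero
  exact sim_symR_cast (by rw [← pow_succ']; congr 1; omega) χ.mul χ.lev (fun σ _ => rfl) hb0 hb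

end CycChar

variable {H : Subgroup GG} {p : ℕ} [Fact p.Prime] {l : ℕ} {V : ValuationSubring LL}
  (hloc : LocalFacts) (hl : l.Prime) (hV : V.LiesOverPrime l) {ζ : LL}

include hloc hl hV in
/-- In an unramified extension of degree `p` the valuations of norms are multiples of `p`. -/
theorem dvd_of_isNorm_zpow (hζ : IsPrimitiveRoot ζ p) (hζH : ∀ σ ∈ H, σ ζ = ζ)
    (hH : LocalSub V H) (χ : CycChar H p) (hI : H ⊓ V.inertiaSubgroupIn ℚ ≤ χ.ker) {π : LL}
    (hπ0 : π ≠ 0) (hπ : ∀ σ ∈ H, σ π = π)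
    (hval : ∀ z : LL, z ≠ 0 → (∀ σ ∈ H, σ z = z) → ∃ k : ℤ, V.valuation z = V.valuation π ^ k)
    {i : ℤ} (h : χ.IsNorm (π ^ i)) : (p : ℤ) ∣ i := by
  by_contra hdvd
  have hco : IsCoprime i (p : ℤ) :=
    ((Nat.prime_iff_prime_int.1 (Fact.out : p.Prime)).coprime_iff_not_dvd.2 hdvd).symm
  obtain ⟨u, w, huw⟩ := hco
  have hπN : χ.IsNorm π := by
    have h' := χ.isNorm_mul (χ.isNorm_zpow h u) (χ.isNorm_zpow (χ.isNorm_pow_self hπ0 hπ) w)
    rwa [← zpow_natCast π p, ← zpow_mul, ← zpow_mul, ← zpow_add₀ hπ0, mul_comm i u,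
      mul_comm (p : ℤ) w, huw, zpow_one] at h'
  obtain ⟨b₀, hb₀0, hb₀, hnot, -⟩ := local_index hloc hl hV hζ hζH hH χ
  obtain ⟨k, hk⟩ := hval b₀ hb₀0 hb₀
  have hπk : π ^ k ≠ 0 := zpow_ne_zero _ hπ0
  have hv : V.valuation (b₀ / π ^ k) = 1 := by
    rw [map_div₀, map_zpow₀, ← hk, div_self ((Valuation.ne_zero_iff _).2 hb₀0)]
  refine hnot ?_
  rw [← mul_div_cancel₀ b₀ hπk]
  refine χ.isNorm_mul (χ.isNorm_zpow hπN k) (unit_norm hloc hl hV hH χ hI (div_ne_zero hb₀0 hπk)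
    (fun σ hσ => by rw [map_div₀, map_zpow₀, hb₀ σ hσ, hπ σ hσ])
    ((V.valuation_le_one_iff _).1 hv.le) ((V.valuation_le_one_iff _).1 ?_))
  rw [map_inv₀, hv, inv_one]

include hloc hl hV in
theorem cob_ker_of_torsion_mu (hp2 : p ≠ 2) (hζ : IsPrimitiveRoot ζ p)
    (hζH : ∀ σ ∈ H, σ ζ = ζ) (hH : LocalSub V H) {c : GG → GG → LL} (hc : Coc H c)
    (ht : Cob H fun σ τ => c σ τ ^ p) (χ : CycChar H p) : Cob χ.ker c := by
  obtain ⟨M, hM, χM, hcob⟩ := exists_cob_unr_of_torsion hloc hl hV hp2 hζ hζH hH hc ht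
  haveI := χM.neZero
  obtain ⟨m, rfl⟩ : ∃ m, M = m + 1 := ⟨M - 1, by omega⟩
  obtain ⟨b, hb0, hb, hd⟩ := χM.exists_eq_sym hc hcob
  obtain ⟨π, hπ0, -, hπ, hval⟩ := exists_uniformiser hl hV hloc.dense hH
  obtain ⟨i, hi⟩ := hval b hb0 hb
  have hπi : π ^ i ≠ 0 := zpow_ne_zero _ hπ0
  have hv : V.valuation (b / π ^ i) = 1 := by
    rw [map_div₀, map_zpow₀, ← hi, div_self ((Valuation.ne_zero_iff _).2 hb0)]
  have hunit := (unit_norm_tower hloc hl hV m hH χM.toCycChar χM.inertia (div_ne_zero hb0 hπi)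
    (fun σ hσ => by rw [map_div₀, map_zpow₀, hb σ hσ, hπ σ hσ])
    ((V.valuation_le_one_iff _).1 hv.le)
    ((V.valuation_le_one_iff _).1 (by rw [map_inv₀, hv, inv_one]))).1
  have hsim : Sim H c (χM.sym (π ^ i)) := by
    refine (sim_of_cob_div hd fun σ _ τ _ => by rw [χM.sym_eq]; exact symR_ne _ hb0 σ τ).trans ?_
    refine (Sim.of_eq fun σ _ τ _ => ?_).trans (((Sim.refl (χM.sym (π ^ i))).mul
      (cob_iff_sim.1 (χM.cob_sym_of_norm hunit))).trans (Sim.of_eq fun σ _ τ _ => mul_one _))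
    rw [← χM.sym_mul, mul_div_cancel₀ _ hπi]
  have key : ∀ t, t ≤ m → ((p ^ t : ℕ) : ℤ) ∣ i := by
    intro t
    induction t with
    | zero => simp
    | succ t ih =>
      intro htm
      obtain ⟨i', rfl⟩ := ih (by omega)
      rw [pow_succ, Nat.cast_mul]
      refine mul_dvd_mul_left _ (dvd_of_isNorm_zpow hloc hl hV hζ hζH hH χM.toCycChar.red
        ((χM.inertia).trans χM.toCycChar.ker_le_red) hπ0 hπ hval (CycChar.norm_of_cob_sym _ ?_))
      have h1 : Cob H fun σ τ => χM.sym (π ^ ((p ^ t : ℕ) * i' : ℤ)) σ τ ^ p :=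
        (Sim.cob_iff (hsim.pow p)).1 ht
      refine (Sim.cob_iff (χM.toCycChar.sim_sym_red hM (zpow_ne_zero _ hπ0)
        fun σ hσ => by rw [map_zpow₀, hπ σ hσ])).1 ((h1.pow (p ^ (m - (t + 1)))).congr
          fun σ _ τ _ => ?_)
      rw [← pow_mul, ← χM.sym_pow]
      refine congrFun (congrFun (congrArg χM.sym ?_) σ) τ
      rw [← zpow_natCast, ← zpow_natCast, ← zpow_mul, ← zpow_mul, ← pow_succ']
      congr 1
      rw [show m + 1 - 1 = t + (m - (t + 1) + 1) by omega, pow_add, Nat.cast_mul]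
      ring
  obtain ⟨i', hi'⟩ := key m le_rfl
  refine cob_ker_change hp2 hζ hζH (normIndex_of_local hloc hl hV hζ hζH hH) χM.toCycChar.red χ hc ?_
  have h2 : Sim H c (χM.toCycChar.red.sym (π ^ i')) := by
    refine hsim.trans ?_
    rw [hi', mul_comm, zpow_mul, zpow_natCast, show p ^ m = p ^ (m + 1 - 1) by simp]
    exact χM.toCycChar.sim_sym_red hM (zpow_ne_zero _ hπ0)
      fun σ hσ => by rw [map_zpow₀, hπ σ hσ]
  exact ((h2.mono χM.toCycChar.red.ker_le).cob_iff).2 (cob_symR_ker _ _)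

/-- The elements fixing a root of unity. -/
def fixZ (hζ : IsPrimitiveRoot ζ p) : Subgroup GG := (hζ.autToPow ℚ).ker

theorem mem_fixZ (hζ : IsPrimitiveRoot ζ p) {σ : GG} : σ ∈ fixZ hζ ↔ σ ζ = ζ := by
  have h := hζ.autToPow_spec ℚ σ
  rw [fixZ, MonoidHom.mem_ker]
  constructor
  · intro e
    rw [e, Units.val_one, ZMod.val_one, pow_one] at h
    exact h.symm
  · intro e
    refine Units.ext (ZMod.val_injective p ?_)
    rw [Units.val_one, ZMod.val_one]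
    refine hζ.pow_inj (ZMod.val_lt _) (Fact.out : p.Prime).one_lt ?_
    rw [pow_one]
    exact h.trans e

theorem fixZ_relIndex (hζ : IsPrimitiveRoot ζ p) (A : Subgroup GG) :
    ¬ p ∣ (A ⊓ fixZ hζ).relIndex A := by
  intro h
  rw [inf_comm, Subgroup.inf_relIndex_right] at h
  haveI : (fixZ hζ).Normal := MonoidHom.normal_ker _
  have h1 : (fixZ hζ).relIndex A ∣ p - 1 := by
    refine (Subgroup.relIndex_dvd_index_of_normal (H := (fixZ hζ)) (K := A)).trans ?_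
    rw [fixZ, Subgroup.index_ker]
    refine (Subgroup.card_subgroup_dvd_card _).trans ?_
    rw [Nat.card_eq_fintype_card, ZMod.card_units p]
  have h2 := (Fact.out : p.Prime).two_le
  have := Nat.le_of_dvd (by omega) (h.trans h1)
  omega

theorem openIn_inf_fixZ (hζ : IsPrimitiveRoot ζ p) (A : Subgroup GG) : OpenIn (A ⊓ fixZ hζ) A :=
  ⟨IntermediateField.adjoin ℚ ({ζ} : Set LL),
    IntermediateField.adjoin.finiteDimensional (integral_coe ζ), fun _ hσ =>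
    Subgroup.mem_inf.2 ⟨(Subgroup.mem_inf.1 hσ).1, (mem_fixZ hζ).2
      ((IntermediateField.mem_fixingSubgroup_iff _ _).1 (Subgroup.mem_inf.1 hσ).2 ζ
        (IntermediateField.mem_adjoin_simple_self ℚ ζ))⟩⟩

include hloc hl hV in
/-- A local class killed by `p` dies on the kernel of every character of order `p`. -/
theorem cob_ker_of_torsion (hp2 : p ≠ 2) (hH : LocalSub V H) {c : GG → GG → LL} (hc : Coc H c)
    (ht : Cob H fun σ τ => c σ τ ^ p) (χ : CycChar H p) : Cob χ.ker c := by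
  have hp := (Fact.out : p.Prime)
  haveI : NeZero (p : LL) := ⟨Nat.cast_ne_zero.2 hp.ne_zero⟩
  obtain ⟨ζ, hζ⟩ := HasEnoughRootsOfUnity.exists_primitiveRoot LL p
  have hgen : χ.gen ^ (p - 1) ∈ H ⊓ fixZ hζ := Subgroup.mem_inf.2 ⟨χ.pow_mem' _, by
    rw [fixZ, MonoidHom.mem_ker, map_pow]
    exact ZMod.units_pow_card_sub_one_eq_one p _⟩
  let χ' : CycChar (H ⊓ fixZ hζ) p := CycChar.ofNe (ψ := χ.ψ)
    (fun σ hσ τ hτ => χ.mul σ hσ.1 τ hτ.1) (χ.lev.mono inf_le_left) ⟨_, hgen, by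
      rw [χ.ψ_pow, Ne, ZMod.natCast_eq_zero_iff]
      intro h
      have h2 := hp.two_le
      have := Nat.le_of_dvd (by omega) h
      omega⟩
  have hH' : LocalSub V (H ⊓ fixZ hζ) :=
    ⟨inf_le_left.trans hH.le, (openIn_inf_fixZ hζ H).trans hH.openIn⟩
  have hζH : ∀ σ ∈ H ⊓ fixZ hζ, σ ζ = ζ := fun σ hσ => (mem_fixZ hζ).1 (Subgroup.mem_inf.1 hσ).2
  have h1 := cob_ker_of_torsion_mu hloc hl hV hp2 hζ hζH hH' (hc.mono inf_le_left) (ht.mono inf_le_left) χ'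
  have hle : χ.ker ⊓ fixZ hζ ≤ χ'.ker := fun σ hσ =>
    ⟨Subgroup.mem_inf.2 ⟨(Subgroup.mem_inf.1 hσ).1.1, (Subgroup.mem_inf.1 hσ).2⟩,
      (Subgroup.mem_inf.1 hσ).1.2⟩
  refine cob_of_coprime hp.one_lt (ht.mono χ.ker_le)
    (cob_pow_index (hc.mono χ.ker_le) inf_le_left (openIn_inf_fixZ hζ χ.ker) (h1.mono hle))
    ((Nat.Prime.coprime_iff_not_dvd hp).2 (fixZ_relIndex hζ χ.ker)).symm

end FLTAgent.Lowering.P1.Brauer
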