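import Fermat.Agent.Lowering.P1.Brauer.Sym
import Fermat.Agent.Lowering.P1.LocalInterface

/-!
# The independent inputs of the reciprocity part

The norm theorem of a Kummer extension of prime degree, the cyclotomic layer over the rationals
with its product formula, and the tame facts at auxiliary primes.
-/

set_option autoImplicit false

noncomputable section

open scoped Pointwise

namespace FLTAgent.Lowering.P1.Brauer

local notation "LL" => AlgebraicClosure ℚ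
local notation "GG" => (AlgebraicClosure ℚ ≃ₐ[ℚ] AlgebraicClosure ℚ)

/-- The norm theorem of Hasse for Kummer extensions of degree `p`. -/
def TargetNormTheorem : Prop :=
  LocalFacts → ∀ (p : ℕ) [Fact p.Prime], 2 < p →
    ∀ (L K : IntermediateField ℚ LL), FiniteDimensional ℚ L → FiniteDimensional ℚ K → L ≤ K →
      (∃ ζ ∈ L, IsPrimitiveRoot ζ p) →
      (∀ σ ∈ galOf L, ∀ τ ∈ galOf K, σ * τ * σ⁻¹ ∈ galOf K) →
      (galOf K).relIndex (galOf L) = p →
      ∀ b ∈ L, b ≠ 0 →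
        (∀ (l : ℕ) (V : ValuationSubring LL), l.Prime → V.LiesOverPrime l →
          IsNormOn p L K (V.decompositionSubgroup ℚ) b) → IsNormOn p L K ⊤ b

/-- The `p`-part of the cyclotomic tower over the rationals with its local symbols. The value
`Φ V n b` is only meaningful for `b` fixed by the decomposition group of `V`. -/
structure CycloLayer (p : ℕ) [Fact p.Prime] where
  ψ : ∀ n : ℕ, GG → ZMod (p ^ n)
  lev : ∀ n, LevC (MonoidHom.id GG) (ψ n)
  mul : ∀ n σ τ, ψ n (σ * τ) = ψ n σ + ψ n τ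
  surj : ∀ n, ∃ σ, ψ n σ = 1
  compat : ∀ n σ, ((ψ (n + 1) σ).val : ZMod (p ^ n)) = ψ n σ
  big : ∀ (l : ℕ) (V : ValuationSubring LL), l.Prime → V.LiesOverPrime l →
    ∃ e : ℕ, ∀ n, ∃ σ ∈ V.decompositionSubgroup ℚ, ψ n σ = (p : ZMod (p ^ n)) ^ e
  Φ : ValuationSubring LL → ∀ n : ℕ, LL → ZMod (p ^ n)
  Φ_mul : ∀ (l : ℕ) (V : ValuationSubring LL), l.Prime → V.LiesOverPrime l → ∀ (n : ℕ) (a b : LL),
    (∀ σ ∈ V.decompositionSubgroup ℚ, σ a = a) → (∀ σ ∈ V.decompositionSubgroup ℚ, σ b = b) →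
      a ≠ 0 → b ≠ 0 → Φ V n (a * b) = Φ V n a + Φ V n b
  Φ_compat : ∀ (l : ℕ) (V : ValuationSubring LL), l.Prime → V.LiesOverPrime l →
    ∀ (n : ℕ) (a : LL), (∀ σ ∈ V.decompositionSubgroup ℚ, σ a = a) → a ≠ 0 →
      ((Φ V (n + 1) a).val : ZMod (p ^ n)) = Φ V n a
  Φ_conj : ∀ (γ : GG) (l : ℕ) (V : ValuationSubring LL), l.Prime → V.LiesOverPrime l →
    ∀ (n : ℕ) (a : LL), (∀ σ ∈ V.decompositionSubgroup ℚ, σ a = a) → a ≠ 0 →
      Φ (γ • V) n (γ a) = Φ V n a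
  Φ_cob : ∀ (l : ℕ) (V : ValuationSubring LL), l.Prime → V.LiesOverPrime l →
    ∀ (n : ℕ) (a : LL), (∀ σ ∈ V.decompositionSubgroup ℚ, σ a = a) → a ≠ 0 →
      Cob (V.decompositionSubgroup ℚ) (symR (p ^ n) (ψ n) a) → Φ V n a = 0
  Φ_surj : ∀ (l : ℕ) (V : ValuationSubring LL), l.Prime → V.LiesOverPrime l →
    ∀ n : ℕ, (∃ σ ∈ V.decompositionSubgroup ℚ, ψ n σ ≠ 0) →
      ∃ a : LL, a ≠ 0 ∧ (∀ σ : GG, σ a = a) ∧ Φ V n a ≠ 0
  Φ_unit : ∀ (l : ℕ) (V : ValuationSubring LL), l.Prime → V.LiesOverPrime l → l ≠ p →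
    ∀ (n : ℕ) (a : LL), (∀ σ ∈ V.decompositionSubgroup ℚ, σ a = a) → V.valuation a = 1 →
      Φ V n a = 0
  product : ∀ (n : ℕ) (a : LL), a ≠ 0 → (∀ σ : GG, σ a = a) → ∀ S : Finset ℕ, p ∈ S →
    (∀ l ∈ S, l.Prime) →
    (∀ l : ℕ, l.Prime → l ∉ S → ∀ W : ValuationSubring LL, W.LiesOverPrime l →
      W.valuation a = 1) →
    ∀ V : ℕ → ValuationSubring LL, (∀ l ∈ S, (V l).LiesOverPrime l) →
      ∑ l ∈ S, Φ (V l) n a = 0

/-- The cyclotomic layer exists. -/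
def TargetLayer : Prop :=
  LocalFacts → ∀ (p : ℕ) [Fact p.Prime], 2 < p → Nonempty (CycloLayer p)

/-- A cochain of a subgroup with values in `ZMod p` as a multiplicative cochain. -/
def expCochain {p : ℕ} (ζ : LL) (H : Subgroup GG) (c : ↥H → ↥H → ZMod p) (g h : GG) : LL :=
  letI := Classical.decPred (· ∈ H)
  if hg : g ∈ H then (if hh : h ∈ H then ζ ^ (c ⟨g, hg⟩ ⟨h, hh⟩).val else 1) else 1

/-- The tame facts at auxiliary primes. -/
def TargetTame : Prop :=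
  LocalFacts → ∀ (p : ℕ) [Fact p.Prime] (D : Datum p) (k : Type) [Field k] [Algebra (ZMod p) k]
    [FiniteDimensional (ZMod p) k],
    ∀ (q : ℕ) (V : ValuationSubring LL), D.IsAuxPrime 1 q → V.LiesOverPrime q →
      (FiniteDimensional k ↥(D.cocycles k 0 (V.decompositionSubgroup ℚ).subtype) ∧
        Module.finrank k ↥(D.cocycles k 0 (V.decompositionSubgroup ℚ).subtype) ≤
          Module.finrank k ↥(D.cobs k 0 (V.decompositionSubgroup ℚ).subtype) + 2) ∧
      ∀ ζ : LL, IsPrimitiveRoot ζ p →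
        ∀ y ∈ D.cocycles k 1 (V.decompositionSubgroup ℚ).subtype,
          y ∉ D.cobs k 1 (V.decompositionSubgroup ℚ).subtype →
          ∃ x ∈ D.cocycles k 0 (V.decompositionSubgroup ℚ).subtype, ∃ φ : k →ₗ[ZMod p] ZMod p,
            ¬ Cob (V.decompositionSubgroup ℚ) (expCochain ζ (V.decompositionSubgroup ℚ)
              fun g h => φ (D.cup k (V.decompositionSubgroup ℚ).subtype x y g h))

end FLTAgent.Lowering.P1.Brauer
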