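import Fermat.Agent.Lowering.P1.Brauer.Norm
import Fermat.Agent.Lowering.P1.Brauer.LocalTriv
import Fermat.Agent.Lowering.P1.Brauer.Split

/-!
# The invariant of a local class killed by `p`

It is read off in the cyclotomic layers: the class is the symbol of a layer and an element, whose
norm to the local field of the rationals has a local symbol in the multiples of `p ^ (n - 1)`.
-/

set_option autoImplicit false
set_option linter.style.haveILetI false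
set_option linter.unusedSectionVars false
set_option maxHeartbeats 1000000

noncomputable section

open scoped Pointwise

namespace FLTAgent.Lowering.P1.Brauer

local notation "LL" => AlgebraicClosure ℚ
local notation "GG" => (AlgebraicClosure ℚ ≃ₐ[ℚ] AlgebraicClosure ℚ)
local notation "Dec" => ValuationSubring.decompositionSubgroup ℚ

variable {p : ℕ} [Fact p.Prime] (Y : CycloLayer p) {H H' : Subgroup GG} {V : ValuationSubring LL}
  {l : ℕ}

theorem psi_levOn (n : ℕ) : LevOn H (Y.ψ n) :=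
  let ⟨F, hF, h⟩ := Y.lev n
  ⟨F, hF, fun g _ s _ hs => h g s hs⟩

theorem psi_one (n : ℕ) : Y.ψ n 1 = 0 := by
  have h := Y.mul n 1 1
  rwa [one_mul, left_eq_add] at h

theorem psi_pow (n : ℕ) (σ : GG) (k : ℕ) : Y.ψ n (σ ^ k) = (k : ZMod (p ^ n)) * Y.ψ n σ := by
  induction k with
  | zero => simp [psi_one Y n]
  | succ k ih => rw [pow_succ, Y.mul, ih, Nat.cast_succ]; ring

theorem nrm_pow (ho : OpenIn H H') (b : LL) (k : ℕ) :
    nrm H H' (b ^ k) = nrm H H' b ^ k := by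
  induction k with
  | zero => rw [pow_zero, pow_zero, nrm_of_fixed ho fun σ _ => map_one σ, one_pow]
  | succ k ih => rw [pow_succ, nrm_mul ho, ih, pow_succ]

/-- The symbol of the layer is the symbol of the scaled character. -/
theorem layer_sym {n t : ℕ} (htn : t < n) (χ : CycChar H (p ^ (n - t)))
    (hval : ∀ σ ∈ H, (Y.ψ n σ).val = p ^ t * (χ.ψ σ).val) (b : LL) :
    ∀ σ ∈ H, ∀ τ ∈ H, symR (p ^ n) (Y.ψ n) b σ τ = χ.sym b σ τ := fun σ hσ τ hτ => by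
  rw [χ.sym_eq]
  exact symR_scale (by rw [← pow_add, Nat.add_sub_cancel' htn.le])
    (pow_pos (Fact.out : p.Prime).pos t) (hval σ hσ) (hval τ hτ) b

theorem coc_symR {n : ℕ} {b : LL} (hb0 : b ≠ 0) (hb : ∀ σ ∈ H, σ b = b) :
    Coc H (symR (p ^ n) (Y.ψ n) b) := by
  haveI : NeZero (p ^ n) := ⟨pow_ne_zero _ (Fact.out : p.Prime).ne_zero⟩
  by_cases h : ∃ σ ∈ H, Y.ψ n σ ≠ 0
  · obtain ⟨t, htn, χ, hval, -⟩ := exists_scaled (fun σ _ τ _ => Y.mul n σ τ) (psi_levOn Y n) h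
    have h1 := χ.coc_sym hb0 hb
    have he := layer_sym Y htn χ hval b
    refine ⟨?_, fun σ _ τ _ => symR_ne _ hb0 σ τ, fun σ hσ τ hτ ρ hρ => ?_⟩
    · obtain ⟨E, hE, hl⟩ := h1.lev
      refine ⟨E, hE, fun g hg g' hg' s hs hsE s' hs' hsE' => ?_⟩
      rw [he _ (mul_mem hg hs) _ (mul_mem hg' hs'), he g hg g' hg']
      exact hl g hg g' hg' s hs hsE s' hs' hsE'
    · rw [he τ hτ ρ hρ, he σ hσ _ (mul_mem hτ hρ), he _ (mul_mem hσ hτ) ρ hρ, he σ hσ τ hτ]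
      exact h1.assoc σ hσ τ hτ ρ hρ
  · push Not at h
    exact ⟨⟨⊥, inferInstance, fun g hg _ _ s hs _ _ _ _ => by
        rw [symR_zero b (h _ (mul_mem hg hs)), symR_zero b (h g hg)]⟩,
      fun σ hσ τ _ => by rw [symR_zero b (h σ hσ)]; exact one_ne_zero,
      fun σ hσ τ hτ ρ _ => by
        rw [symR_zero b (h τ hτ), symR_zero b (h σ hσ), symR_zero b (h _ (mul_mem hσ hτ)),
          symR_zero b (h σ hσ), map_one]⟩

/-- The relation defining the invariant at one level. -/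
def HasInv (V : ValuationSubring LL) (H : Subgroup GG) (n : ℕ) (c : GG → GG → LL) (t : ZMod p) :
    Prop :=
  ∃ b : LL, b ≠ 0 ∧ (∀ σ ∈ H, σ b = b) ∧ Sim H c (symR (p ^ n) (Y.ψ n) b) ∧
    Y.Φ V n (nrm H (Dec V) b) = ((t.val * p ^ (n - 1) : ℕ) : ZMod (p ^ n))

/-- The invariant. -/
def invH (V : ValuationSubring LL) (H : Subgroup GG) (c : GG → GG → LL) : ZMod p :=
  letI := Classical.propDecidable (∃ t, ∃ n₀, ∀ n, n₀ ≤ n → HasInv Y V H n c t)
  if h : ∃ t, ∃ n₀, ∀ n, n₀ ≤ n → HasInv Y V H n c t then h.choose else 0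

variable (hl : l.Prime) (hV : V.LiesOverPrime l)

include hl hV in
theorem phi_one (n : ℕ) : Y.Φ V n 1 = 0 := by
  have h := Y.Φ_mul l V hl hV n 1 1 (fun σ _ => map_one σ) (fun σ _ => map_one σ) one_ne_zero
    one_ne_zero
  rwa [one_mul, left_eq_add] at h

include hl hV in
theorem phi_pow (n : ℕ) {a : LL} (ha0 : a ≠ 0) (ha : ∀ σ ∈ Dec V, σ a = a) (k : ℕ) :
    Y.Φ V n (a ^ k) = (k : ZMod (p ^ n)) * Y.Φ V n a := by
  induction k with
  | zero => rw [pow_zero, phi_one Y hl hV, Nat.cast_zero, zero_mul]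
  | succ k ih =>
    rw [pow_succ, Y.Φ_mul l V hl hV n _ _ (fun σ hσ => by rw [map_pow, ha σ hσ]) ha
      (pow_ne_zero _ ha0) ha0, ih, Nat.cast_succ]
    ring

theorem eq_of_natCast_mul {n : ℕ} (hn : 0 < n) {t t' : ZMod p}
    (h : ((t.val * p ^ (n - 1) : ℕ) : ZMod (p ^ n)) = ((t'.val * p ^ (n - 1) : ℕ) : ZMod (p ^ n))) :
    t = t' := by
  have hp := (Fact.out : p.Prime)
  rw [ZMod.natCast_eq_natCast_iff', show p ^ n = p * p ^ (n - 1) by
    rw [← pow_succ']; congr 1; omega, Nat.mul_mod_mul_right, Nat.mul_mod_mul_right,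
    Nat.mod_eq_of_lt (ZMod.val_lt t), Nat.mod_eq_of_lt (ZMod.val_lt t')] at h
  exact ZMod.val_injective p (Nat.eq_of_mul_eq_mul_right (pow_pos hp.pos _) h)

theorem natCast_val_add {n : ℕ} (hn : 0 < n) (t t' : ZMod p) :
    (((t + t').val * p ^ (n - 1) : ℕ) : ZMod (p ^ n)) =
      ((t.val * p ^ (n - 1) : ℕ) : ZMod (p ^ n)) + ((t'.val * p ^ (n - 1) : ℕ) : ZMod (p ^ n)) := by
  rw [← Nat.cast_add, ZMod.natCast_eq_natCast_iff', show p ^ n = p * p ^ (n - 1) by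
    rw [← pow_succ']; congr 1; omega, ← add_mul, Nat.mul_mod_mul_right, Nat.mul_mod_mul_right,
    ZMod.val_add, Nat.mod_mod]

include hl hV in
/-- Norms from the kernel of a layer have trivial symbol. -/
theorem phi_nrm_of_ker {A : Subgroup GG} (hA : LocalSub V A) (n : ℕ)
    (hker : ∀ σ ∈ A, Y.ψ n σ = 0) {y : LL} (hy0 : y ≠ 0) (hy : ∀ t ∈ A, t y = y) :
    Y.Φ V n (nrm A (Dec V) y) = 0 := by
  haveI : NeZero (p ^ n) := ⟨pow_ne_zero _ (Fact.out : p.Prime).ne_zero⟩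
  refine Y.Φ_cob l V hl hV n _ (fun σ hσ => nrm_fixed hA.openIn hy hσ) (nrm_ne hA.openIn hy0) ?_
  by_cases h : ∃ σ ∈ Dec V, Y.ψ n σ ≠ 0
  · obtain ⟨t, htn, χ, hval, hzero⟩ := exists_scaled (fun σ _ τ _ => Y.mul n σ τ) (psi_levOn Y n) h
    refine Cob.congr (χ.cob_sym_of_norm ?_) (layer_sym Y htn χ hval _)
    have hle : A ≤ χ.ker := fun σ hσ => (hzero σ (hA.le hσ)).1 (hker σ hσ)
    have ho : OpenIn A χ.ker :=
      let ⟨E, hE, h⟩ := hA.openIn; ⟨E, hE, (inf_le_inf_right _ χ.ker_le).trans h⟩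
    refine (isNorm_iff_nrm χ _).2 ⟨nrm A χ.ker y, nrm_ne ho hy0,
      fun σ hσ => nrm_fixed ho hy hσ, ?_⟩
    exact nrm_trans hle χ.ker_le ho χ.openIn hy
  · push Not at h
    exact (cob_one (H := Dec V)).congr fun σ hσ τ _ => symR_zero _ (h σ hσ)

include hl hV in
/-- Well-definedness. -/
theorem phi_nrm_of_cob (hH : LocalSub V H) (n : ℕ) {b : LL} (hb0 : b ≠ 0)
    (hb : ∀ σ ∈ H, σ b = b) (h : Cob H (symR (p ^ n) (Y.ψ n) b)) :
    Y.Φ V n (nrm H (Dec V) b) = 0 := by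
  by_cases hne : ∃ σ ∈ H, Y.ψ n σ ≠ 0
  · obtain ⟨t, htn, χ, hval, hzero⟩ :=
      exists_scaled (fun σ _ τ _ => Y.mul n σ τ) (psi_levOn Y n) hne
    obtain ⟨y, hy0, hy, hyb⟩ := (isNorm_iff_nrm χ b).1 (χ.norm_of_cob_sym
      (h.congr fun σ hσ τ hτ => (layer_sym Y htn χ hval b σ hσ τ hτ).symm))
    rw [← hyb, nrm_trans χ.ker_le hH.le χ.openIn hH.openIn hy]
    exact phi_nrm_of_ker Y hl hV (hH.ker χ) n
      (fun σ hσ => (hzero σ (χ.ker_le hσ)).2 hσ) hy0 hy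
  · push Not at hne
    exact phi_nrm_of_ker Y hl hV hH n hne hb0 hb

include hl hV in
theorem phi_eq_of_sim (hH : LocalSub V H) (n : ℕ) {b b' : LL} (hb0 : b ≠ 0) (hb0' : b' ≠ 0)
    (hb : ∀ σ ∈ H, σ b = b) (hb' : ∀ σ ∈ H, σ b' = b')
    (h : Sim H (symR (p ^ n) (Y.ψ n) b) (symR (p ^ n) (Y.ψ n) b')) :
    Y.Φ V n (nrm H (Dec V) b) = Y.Φ V n (nrm H (Dec V) b') := by
  have hd : ∀ σ ∈ H, σ (b / b') = b / b' := fun σ hσ => by rw [map_div₀, hb σ hσ, hb' σ hσ]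
  have hd0 : b / b' ≠ 0 := div_ne_zero hb0 hb0'
  have hcob : Cob H (symR (p ^ n) (Y.ψ n) (b / b')) := by
    obtain ⟨f, hf, hne, hc⟩ := h
    refine ⟨f, hf, hne, fun σ hσ τ hτ => ?_⟩
    have e := hc σ hσ τ hτ
    conv_lhs at e => rw [← div_mul_cancel₀ b hb0', symR_mul, mul_comm]
    exact mul_left_cancel₀ (symR_ne _ hb0' σ τ) e
  rw [← div_mul_cancel₀ b hb0', nrm_mul hH.openIn,
    Y.Φ_mul l V hl hV n _ _ (fun σ hσ => nrm_fixed hH.openIn hd hσ)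
      (fun σ hσ => nrm_fixed hH.openIn hb' hσ) (nrm_ne hH.openIn hd0) (nrm_ne hH.openIn hb0'),
    phi_nrm_of_cob Y hl hV hH n hd0 hd hcob, zero_add]

include hl hV in
theorem hasInv_unique (hH : LocalSub V H) {n : ℕ} (hn : 0 < n) {c c' : GG → GG → LL}
    (hcc : Sim H c c') {t t' : ZMod p} (h : HasInv Y V H n c t) (h' : HasInv Y V H n c' t') :
    t = t' := by
  obtain ⟨b, hb0, hb, hs, he⟩ := h
  obtain ⟨b', hb0', hb', hs', he'⟩ := h'
  refine eq_of_natCast_mul hn ?_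
  rw [← he, ← he']
  exact phi_eq_of_sim Y hl hV hH n hb0 hb0' hb hb' (hs.symm.trans (hcc.trans hs'))

include hl hV in
theorem hasInv_succ (hH : LocalSub V H) {n : ℕ} (hn : 0 < n) {c : GG → GG → LL} {t : ZMod p}
    (h : HasInv Y V H n c t) : HasInv Y V H (n + 1) c t := by
  have hp := (Fact.out : p.Prime)
  haveI : NeZero (p ^ n) := ⟨pow_ne_zero _ hp.ne_zero⟩
  haveI : NeZero (p ^ (n + 1)) := ⟨pow_ne_zero _ hp.ne_zero⟩
  obtain ⟨b, hb0, hb, hs, he⟩ := h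
  refine ⟨b ^ p, pow_ne_zero _ hb0, fun σ hσ => by rw [map_pow, hb σ hσ], hs.trans
    (sim_symR_cast (pow_succ p n) (fun σ _ τ _ => Y.mul (n + 1) σ τ) (psi_levOn Y (n + 1))
      (fun σ _ => (Y.compat n σ).symm) hb0 hb).symm, ?_⟩
  set x := nrm H (Dec V) b
  have hx : ∀ σ ∈ Dec V, σ x = x := fun σ hσ => nrm_fixed hH.openIn hb hσ
  have hx0 : x ≠ 0 := nrm_ne hH.openIn hb0
  have hpow : nrm H (Dec V) (b ^ p) = x ^ p := nrm_pow hH.openIn b p
  rw [hpow, phi_pow Y hl hV _ hx0 hx]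
  have hc := (Y.Φ_compat l V hl hV n x hx hx0).trans he
  rw [ZMod.natCast_eq_natCast_iff'] at hc
  conv_lhs => rw [← ZMod.natCast_zmod_val (Y.Φ V (n + 1) x), ← Nat.cast_mul]
  generalize (Y.Φ V (n + 1) x).val = v at hc ⊢
  rw [ZMod.natCast_eq_natCast_iff', Nat.add_sub_cancel, pow_succ' p n, Nat.mul_mod_mul_left, hc,
    ← Nat.mul_mod_mul_left]
  congr 1
  conv_rhs => rw [show p ^ n = p * p ^ (n - 1) by rw [← pow_succ']; congr 1; omega]
  ring

include hl hV in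
theorem hasInv_le (hH : LocalSub V H) {n m : ℕ} (hn : 0 < n) (hnm : n ≤ m) {c : GG → GG → LL}
    {t : ZMod p} (h : HasInv Y V H n c t) : HasInv Y V H m c t := by
  induction m, hnm using Nat.le_induction with
  | base => exact h
  | succ m hm ih => exact hasInv_succ Y hl hV hH (hn.trans_le hm) ih

include hl hV in
/-- The invariant can be computed at any level. -/
theorem invH_eq (hH : LocalSub V H) {n : ℕ} (hn : 0 < n) {c : GG → GG → LL} {t : ZMod p}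
    (h : HasInv Y V H n c t) : invH Y V H c = t := by
  have hex : ∃ t, ∃ n₀, ∀ m, n₀ ≤ m → HasInv Y V H m c t :=
    ⟨t, n, fun m hm => hasInv_le Y hl hV hH hn hm h⟩
  rw [invH, dif_pos hex]
  obtain ⟨n₀, h₀⟩ := hex.choose_spec
  exact hasInv_unique Y hl hV hH (lt_max_of_lt_left hn) (Sim.refl c)
    (h₀ _ (le_max_right n n₀)) (hasInv_le Y hl hV hH hn (le_max_left n n₀) h)

include hl hV in
theorem exists_nonzero (hH : LocalSub V H) :
    ∃ n₁, 0 < n₁ ∧ ∀ n, n₁ ≤ n → ∃ σ ∈ H, Y.ψ n σ ≠ 0 := by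
  have hp := (Fact.out : p.Prime)
  obtain ⟨e, he⟩ := Y.big l V hl hV
  obtain ⟨E₀, hE₀, hle⟩ := hH.openIn
  obtain ⟨E, hEf, hEn, hE₀E⟩ := exists_normal_le E₀
  set N := Nat.card (E ≃ₐ[ℚ] E)
  have hN : 0 < N := Nat.card_pos
  refine ⟨e + N + 1, Nat.succ_pos _, fun n hn => ?_⟩
  obtain ⟨σ, hσ, hσe⟩ := he n
  refine ⟨σ ^ N, hle ⟨pow_mem hσ _, IntermediateField.fixingSubgroup_antitone hE₀E ?_⟩, ?_⟩
  · rw [IntermediateField.mem_fixingSubgroup_iff]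
    intro x hx
    have h1 : AlgEquiv.restrictNormalHom E (σ ^ N) = 1 := by rw [map_pow]; exact pow_card_eq_one'
    have h2 := AlgEquiv.restrictNormal_commutes (σ ^ N) E ⟨x, hx⟩
    exact h2.symm.trans (congrArg (fun f : E ≃ₐ[ℚ] E => ((f ⟨x, hx⟩ : E) : LL)) h1)
  · rw [psi_pow, hσe, ← Nat.cast_pow, ← Nat.cast_mul, Ne, ZMod.natCast_eq_zero_iff]
    intro h
    have h1 : p ^ (N + 1) * p ^ e ∣ N * p ^ e := by
      rw [← pow_add]
      exact (pow_dvd_pow p (by omega)).trans h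
    have h2 := Nat.le_of_dvd hN (Nat.dvd_of_mul_dvd_mul_right (pow_pos hp.pos e) h1)
    have h3 := Nat.lt_pow_self (n := N + 1) hp.one_lt
    omega

include hl hV in
theorem dvd_phi (hH : LocalSub V H) {n : ℕ} (hn : 0 < n) {b : LL} (hb0 : b ≠ 0)
    (hb : ∀ σ ∈ H, σ b = b) (h : Cob H fun σ τ => symR (p ^ n) (Y.ψ n) b σ τ ^ p) :
    ∃ t : ZMod p, Y.Φ V n (nrm H (Dec V) b) = ((t.val * p ^ (n - 1) : ℕ) : ZMod (p ^ n)) := by
  have hp := (Fact.out : p.Prime)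
  haveI : NeZero (p ^ n) := ⟨pow_ne_zero _ hp.ne_zero⟩
  set x := nrm H (Dec V) b
  have hx : ∀ σ ∈ Dec V, σ x = x := fun σ hσ => nrm_fixed hH.openIn hb hσ
  have h0 := phi_nrm_of_cob Y hl hV hH n (pow_ne_zero p hb0)
    (fun σ hσ => by rw [map_pow, hb σ hσ]) (h.congr fun σ _ τ _ => symR_pow _ _ _ _ _)
  have hpow : ∀ k : ℕ, nrm H (Dec V) (b ^ k) = x ^ k := nrm_pow hH.openIn b
  rw [hpow, phi_pow Y hl hV n (nrm_ne hH.openIn hb0) hx,
    ← ZMod.natCast_zmod_val (Y.Φ V n x), ← Nat.cast_mul, ZMod.natCast_eq_zero_iff] at h0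
  obtain ⟨u, hu⟩ : p ^ (n - 1) ∣ (Y.Φ V n x).val := by
    generalize (Y.Φ V n x).val = v at h0 ⊢
    rw [show p ^ n = p * p ^ (n - 1) by rw [← pow_succ']; congr 1; omega] at h0
    exact Nat.dvd_of_mul_dvd_mul_left hp.pos h0
  refine ⟨(u : ZMod p), ?_⟩
  conv_lhs => rw [← ZMod.natCast_zmod_val (Y.Φ V n x), hu]
  rw [ZMod.val_natCast, ZMod.natCast_eq_natCast_iff', show p ^ n = p * p ^ (n - 1) by
    rw [← pow_succ']; congr 1; omega, mul_comm (p ^ (n - 1)) u, Nat.mul_mod_mul_right,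
    Nat.mul_mod_mul_right, Nat.mod_mod]

variable (hloc : LocalFacts) (hp2 : p ≠ 2)

include hloc hp2 hl hV in
theorem exists_hasInv (hH : LocalSub V H) {c : GG → GG → LL} (hc : Coc H c)
    (ht : Cob H fun σ τ => c σ τ ^ p) {n : ℕ} (hn : ∃ σ ∈ H, Y.ψ n σ ≠ 0) :
    ∃ t, HasInv Y V H n c t := by
  obtain ⟨s, hsn, χ, hval, -⟩ := exists_scaled (fun σ _ τ _ => Y.mul n σ τ) (psi_levOn Y n) hn
  haveI := χ.neZero
  obtain ⟨b, hb0, hb, hd⟩ := χ.exists_eq_sym hc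
    ((cob_ker_of_torsion hloc hl hV hp2 hH hc ht χ.red).mono χ.ker_le_red)
  have hs : Sim H c (symR (p ^ n) (Y.ψ n) b) :=
    (sim_of_cob_div hd fun σ _ τ _ => by rw [χ.sym_eq]; exact symR_ne _ hb0 σ τ).trans
      (Sim.of_eq fun σ hσ τ hτ => (layer_sym Y hsn χ hval b σ hσ τ hτ).symm)
  obtain ⟨t, ht'⟩ := dvd_phi Y hl hV hH (by omega : 0 < n) hb0 hb ((Sim.cob_iff (hs.pow p)).1 ht)
  exact ⟨t, b, hb0, hb, hs, ht'⟩

include hloc hp2 hl hV in
theorem hasInv_invH (hH : LocalSub V H) {c : GG → GG → LL} (hc : Coc H c)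
    (ht : Cob H fun σ τ => c σ τ ^ p) {n : ℕ} (hn : ∃ σ ∈ H, Y.ψ n σ ≠ 0) :
    HasInv Y V H n c (invH Y V H c) := by
  obtain ⟨t, h⟩ := exists_hasInv Y hl hV hloc hp2 hH hc ht hn
  have hn0 : 0 < n := Nat.pos_of_ne_zero fun h0 => by
    obtain ⟨σ, -, hσ⟩ := hn
    subst h0
    exact hσ (Subsingleton.elim (α := ZMod 1) _ _)
  rw [invH_eq Y hl hV hH hn0 h]
  exact h

include hl hV in
theorem invH_of_cob (hH : LocalSub V H) {c : GG → GG → LL} (h : Cob H c) : invH Y V H c = 0 :=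
  invH_eq Y hl hV hH Nat.one_pos ⟨1, one_ne_zero, fun σ _ => map_one σ,
    (cob_iff_sim.1 h).trans (Sim.of_eq fun σ _ τ _ => by unfold symR; split_ifs <;> rfl), by
      rw [nrm_of_fixed hH.openIn fun σ _ => map_one σ, one_pow, phi_one Y hl hV, ZMod.val_zero,
        zero_mul, Nat.cast_zero]⟩

include hloc hp2 hl hV in
theorem invH_congr (hH : LocalSub V H) {c c' : GG → GG → LL} (hc : Coc H c)
    (ht : Cob H fun σ τ => c σ τ ^ p) (hs : Sim H c c') :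
    invH Y V H c' = invH Y V H c := by
  obtain ⟨n₁, hn₁, hne⟩ := exists_nonzero Y hl hV hH
  obtain ⟨b, hb0, hb, hsb, he⟩ := hasInv_invH Y hl hV hloc hp2 hH hc ht (hne n₁ le_rfl)
  exact invH_eq Y hl hV hH hn₁ ⟨b, hb0, hb, hs.symm.trans hsb, he⟩

include hloc hp2 hl hV in
theorem invH_mul (hH : LocalSub V H) {c c' : GG → GG → LL} (hc : Coc H c)
    (ht : Cob H fun σ τ => c σ τ ^ p) (hc' : Coc H c') (ht' : Cob H fun σ τ => c' σ τ ^ p) :
    invH Y V H (fun σ τ => c σ τ * c' σ τ) = invH Y V H c + invH Y V H c' := by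
  obtain ⟨n₁, hn₁, hne⟩ := exists_nonzero Y hl hV hH
  obtain ⟨b, hb0, hb, hsb, he⟩ := hasInv_invH Y hl hV hloc hp2 hH hc ht (hne n₁ le_rfl)
  obtain ⟨b', hb0', hb', hsb', he'⟩ := hasInv_invH Y hl hV hloc hp2 hH hc' ht' (hne n₁ le_rfl)
  refine invH_eq Y hl hV hH hn₁ ⟨b * b', mul_ne_zero hb0 hb0',
    fun σ hσ => by rw [map_mul, hb σ hσ, hb' σ hσ],
    (hsb.mul hsb').trans (Sim.of_eq fun σ _ τ _ => (symR_mul _ _ _ _ _).symm), ?_⟩
  rw [nrm_mul hH.openIn, Y.Φ_mul l V hl hV _ _ _ (fun σ hσ => nrm_fixed hH.openIn hb hσ)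
    (fun σ hσ => nrm_fixed hH.openIn hb' hσ) (nrm_ne hH.openIn hb0) (nrm_ne hH.openIn hb0'), he,
    he', natCast_val_add hn₁]

include hloc hp2 hl hV in
theorem invH_pow (hH : LocalSub V H) {c : GG → GG → LL} (hc : Coc H c)
    (ht : Cob H fun σ τ => c σ τ ^ p) (k : ℕ) :
    invH Y V H (fun σ τ => c σ τ ^ k) = (k : ZMod p) * invH Y V H c := by
  induction k with
  | zero =>
    rw [Nat.cast_zero, zero_mul]
    exact invH_of_cob Y hl hV hH (cob_one.congr fun σ _ τ _ => pow_zero _)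
  | succ k ih =>
    have hk : Coc H fun σ τ => c σ τ ^ k := by
      clear ih
      induction k with
      | zero =>
        exact ⟨⟨⊥, inferInstance, fun _ _ _ _ _ _ _ _ _ _ => by simp⟩,
          fun _ _ _ _ => by simp, fun _ _ _ _ _ _ => by simp⟩
      | succ k ih => simpa [pow_succ] using ih.mul hc
    rw [show (fun σ τ => c σ τ ^ (k + 1)) = fun σ τ => c σ τ ^ k * c σ τ by
      funext σ τ; rw [pow_succ], invH_mul Y hl hV hloc hp2 hH hk
        ((ht.pow k).congr fun σ _ τ _ => by rw [← pow_mul, ← pow_mul, mul_comm]) hc ht, ih,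
      Nat.cast_succ]
    ring

include hloc hp2 hl hV in
/-- Restriction multiplies by the index. -/
theorem invH_res (hH : LocalSub V H) (hH' : LocalSub V H') (hle : H' ≤ H) {c : GG → GG → LL}
    (hc : Coc H c) (ht : Cob H fun σ τ => c σ τ ^ p) :
    invH Y V H' c = (H'.relIndex H : ZMod p) * invH Y V H c := by
  have hp := (Fact.out : p.Prime)
  obtain ⟨n₁, hn₁, hne⟩ := exists_nonzero Y hl hV hH
  obtain ⟨b, hb0, hb, hs, he⟩ := hasInv_invH Y hl hV hloc hp2 hH hc ht (hne n₁ le_rfl)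
  refine invH_eq Y hl hV hH' hn₁ ⟨b, hb0, fun σ hσ => hb σ (hle hσ), hs.mono hle, ?_⟩
  have ho : OpenIn H' H :=
    let ⟨E, hE, h⟩ := hH'.openIn; ⟨E, hE, (inf_le_inf_right _ hH.le).trans h⟩
  set m := H'.relIndex H
  have h1 : nrm H' (Dec V) b = nrm H (Dec V) b ^ m := by
    rw [← nrm_trans hle hH.le ho hH.openIn fun σ hσ => hb σ (hle hσ), nrm_of_fixed ho hb,
      nrm_pow hH.openIn]
  rw [h1, phi_pow Y hl hV _ (nrm_ne hH.openIn hb0) (fun σ hσ => nrm_fixed hH.openIn hb hσ), he,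
    ← Nat.cast_mul, ZMod.natCast_eq_natCast_iff', show p ^ n₁ = p * p ^ (n₁ - 1) by
      rw [← pow_succ']; congr 1; omega, ← mul_assoc, Nat.mul_mod_mul_right, Nat.mul_mod_mul_right,
    ZMod.val_mul, ZMod.val_natCast, Nat.mod_mod, Nat.mod_mul_mod]

include hloc hp2 hl hV in
/-- Some class of the decomposition group has nonzero invariant. -/
theorem exists_invH_ne_zero :
    ∃ c : GG → GG → LL, Coc (Dec V) c ∧ (Cob (Dec V) fun σ τ => c σ τ ^ p) ∧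
      invH Y V (Dec V) c ≠ 0 := by
  classical
  have hp := (Fact.out : p.Prime)
  obtain ⟨n₁, hn₁, hne⟩ := exists_nonzero Y hl hV (localSub_self (V := V))
  have hex : ∃ j, ∃ σ ∈ Dec V, Y.ψ j σ ≠ 0 := ⟨n₁, hne n₁ le_rfl⟩
  have hj := Nat.find_spec hex
  set j := Nat.find hex
  have hj0 : 0 < j := Nat.pos_of_ne_zero fun h0 => by
    obtain ⟨σ, -, hσ⟩ := hj
    rw [h0] at hσ
    exact hσ (Subsingleton.elim (α := ZMod 1) _ _)
  obtain ⟨t, htj, χ, hval, -⟩ := exists_scaled (fun σ _ τ _ => Y.mul j σ τ) (psi_levOn Y j) hj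
  have htj' : t = j - 1 := by
    have h1 : Y.ψ (j - 1) χ.gen = 0 := by
      by_contra h
      exact Nat.find_min hex (show j - 1 < j by omega) ⟨_, χ.gen_mem, h⟩
    rw [← Y.compat, Nat.sub_add_cancel hj0, hval _ χ.gen_mem, χ.ψ_gen,
      ZMod.natCast_eq_zero_iff] at h1
    haveI : Fact (1 < p ^ (j - t)) := ⟨χ.one_lt⟩
    rw [ZMod.val_one, mul_one, Nat.pow_dvd_pow_iff_le_right hp.one_lt] at h1
    omega
  subst htj'
  haveI := χ.neZero
  obtain ⟨a, ha0, ha, haΦ⟩ := Y.Φ_surj l V hl hV j hj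
  have hsym := layer_sym Y htj χ hval a
  have ht : Cob (Dec V) fun σ τ => symR (p ^ j) (Y.ψ j) a σ τ ^ p := by
    have h1 : p ^ (j - (j - 1)) = p := by rw [show j - (j - 1) = 1 by omega, pow_one]
    refine (cob_symR_pow_self χ.mul χ.lev ha0 fun σ _ => ha σ).congr fun σ hσ τ hτ => ?_
    rw [hsym σ hσ τ hτ, ← χ.sym_eq]
    exact congrArg _ h1.symm
  refine ⟨_, coc_symR Y (n := j) ha0 fun σ _ => ha σ, ht, fun h0 => haΦ ?_⟩
  obtain ⟨b, hb0, hb, hs, he⟩ := hasInv_invH Y hl hV hloc hp2 localSub_self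
    (coc_symR Y (n := j) ha0 fun σ _ => ha σ) ht hj
  rw [h0, ZMod.val_zero, zero_mul, Nat.cast_zero] at he
  have := phi_eq_of_sim Y hl hV (localSub_self (V := V)) j ha0 hb0 (fun σ _ => ha σ) hb hs
  rw [he, nrm_of_fixed (localSub_self (V := V)).openIn (fun σ _ => ha σ), Subgroup.relIndex_self,
    pow_one] at this
  exact this

include hloc hp2 hl hV in
/-- Over a field with the roots of unity, of local degree prime to `p`, the invariant detects. -/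
theorem cob_of_invH_eq_zero (hH : LocalSub V H) {ζ : LL} (hζ : IsPrimitiveRoot ζ p)
    (hζH : ∀ σ ∈ H, σ ζ = ζ) (hidx : ¬ p ∣ H.relIndex (Dec V)) {c : GG → GG → LL} (hc : Coc H c)
    (ht : Cob H fun σ τ => c σ τ ^ p) (h0 : invH Y V H c = 0) : Cob H c := by
  obtain ⟨c₀, hc₀D, ht₀D, hne₀⟩ := exists_invH_ne_zero Y hl hV hloc hp2
  have hc₀ := hc₀D.mono hH.le
  have ht₀ := ht₀D.mono hH.le
  have hne : invH Y V H c₀ ≠ 0 := by
    rw [invH_res Y hl hV hloc hp2 localSub_self hH hH.le hc₀D ht₀D]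
    exact mul_ne_zero (fun h => hidx ((ZMod.natCast_eq_zero_iff _ _).1 h)) hne₀
  obtain ⟨n₁, -, hnz⟩ := exists_nonzero Y hl hV hH
  obtain ⟨s, -, χ, -, -⟩ := exists_scaled (fun σ _ τ _ => Y.mul n₁ σ τ) (psi_levOn Y n₁) (hnz n₁ le_rfl)
  set χ₁ := χ.red
  obtain ⟨d, hd0, hd, hcd⟩ := χ₁.exists_eq_sym hc₀
    (cob_ker_of_torsion hloc hl hV hp2 hH hc₀ ht₀ χ₁)
  obtain ⟨b, hb0, hb, hcb⟩ := χ₁.exists_eq_sym hc (cob_ker_of_torsion hloc hl hV hp2 hH hc ht χ₁)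
  have hsd : Sim H c₀ (χ₁.sym d) :=
    sim_of_cob_div hcd fun σ _ τ _ => by rw [χ₁.sym_eq]; exact symR_ne _ hd0 σ τ
  have hdn : ¬ Cob H (χ₁.sym d) := fun h =>
    hne (invH_of_cob Y hl hV hH (hsd.cob_iff.2 h))
  obtain ⟨k, hk⟩ := exists_sim_pow (normIndex_of_local hloc hl hV hζ hζH hH) χ₁ hd0 hd hdn hb0 hb
  have hs : Sim H c fun σ τ => c₀ σ τ ^ k :=
    (sim_of_cob_div hcb fun σ _ τ _ => by rw [χ₁.sym_eq]; exact symR_ne _ hb0 σ τ).trans
      (hk.trans (hsd.pow k).symm)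
  have e := invH_congr Y hl hV hloc hp2 hH hc ht hs
  rw [h0, invH_pow Y hl hV hloc hp2 hH hc₀ ht₀, mul_eq_zero, or_iff_left hne,
    ZMod.natCast_eq_zero_iff] at e
  obtain ⟨u, rfl⟩ := e
  exact hs.cob_iff.2 ((ht₀.pow u).congr fun σ _ τ _ => pow_mul _ _ _)

end FLTAgent.Lowering.P1.Brauer
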