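import Fermat.Agent.Lowering.P1.Brauer.LocalBr

/-!
# Every local class killed by `p` is killed by every extension of degree `p`
-/

set_option autoImplicit false
set_option linter.style.haveILetI false
set_option linter.unusedSectionVars false
set_option maxHeartbeats 1000000

noncomputable section

namespace FLTAgent.Lowering.P1.Brauer

local notation "LL" => AlgebraicClosure ℚ
local notation "GG" => (AlgebraicClosure ℚ ≃ₐ[ℚ] AlgebraicClosure ℚ)

/-- An unramified character of degree `p ^ M`. -/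
structure UnrChar (H : Subgroup GG) (V : ValuationSubring LL) (n : ℕ) extends CycChar H n where
  inertia : H ⊓ V.inertiaSubgroupIn ℚ ≤ toCycChar.ker

variable {H : Subgroup GG} {p : ℕ} [Fact p.Prime] {l : ℕ} {V : ValuationSubring LL}
  (hloc : LocalFacts) (hl : l.Prime) (hV : V.LiesOverPrime l)

include hloc hl hV in
theorem exists_unrChar (hH : LocalSub V H) (M : ℕ) (hM : 0 < M) :
    Nonempty (UnrChar H V (p ^ M)) := by
  obtain ⟨E₀, hE₀, hle₀⟩ := hH.openIn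
  obtain ⟨E, hEf, hEn, hE₀E⟩ := exists_normal_le E₀
  obtain ⟨L, hLf, hL⟩ := exists_field_of_sup H E
  have hLD : galOf L ⊓ V.decompositionSubgroup ℚ = H := by
    rw [hL]
    exact sup_inf_dec hH.le fun x hx =>
      hle₀ ⟨hx.1, IntermediateField.fixingSubgroup_antitone hE₀E hx.2⟩
  obtain ⟨ψ, hlev, hadd, hine, hsurj⟩ := hloc.unramified p L hLf l V hl hV M
  rw [hLD] at hadd hsurj
  choose g hg hg1 using hsurj
  obtain ⟨F, hF, hψ⟩ := hlev
  refine ⟨⟨⟨ψ, g 1, Nat.one_lt_pow hM.ne' (Fact.out : p.Prime).one_lt, hadd, hg 1, hg1 1,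
    ⟨F, hF, fun x _ s _ hs => hψ x s hs⟩⟩, fun σ hσ => ⟨hσ.1, hine σ ⟨?_, hσ.2⟩⟩⟩⟩
  exact ((hLD.symm ▸ hσ.1 : σ ∈ galOf L ⊓ V.decompositionSubgroup ℚ)).1

include hl hV in
/-- Kernels of unramified characters are nested. -/
theorem unr_ker_le (hH : LocalSub V H) {M M' : ℕ} (hMM : M ≤ M') (χ : UnrChar H V (p ^ M))
    (χ' : UnrChar H V (p ^ M')) : χ'.ker ≤ χ.ker := by
  obtain ⟨φ, hφ, hgen⟩ := exists_generator hl hV hH (U := χ.ker ⊓ χ'.ker)
    (le_inf χ.inertia χ'.inertia) (χ.openIn.inf χ'.openIn)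
  have hpow : ∀ (n : ℕ) (η : CycChar H n) (j : ℕ), η.ψ (φ ^ j) = (j : ZMod n) * η.ψ φ :=
    fun n η j => by
      induction j with
      | zero => simp [η.map_one']
      | succ j ih => rw [pow_succ, η.mul _ (pow_mem hφ j) _ hφ, ih, Nat.cast_succ]; ring
  have hval : ∀ (n : ℕ) (η : CycChar H n) (σ : GG), σ ∈ H → ∀ j : ℕ,
      (φ ^ j)⁻¹ * σ ∈ η.ker → η.ψ σ = (j : ZMod n) * η.ψ φ := fun n η σ hσ j hj => by
    have h := hj.2
    rw [η.mul _ (inv_mem (pow_mem hφ j)) _ hσ, η.map_inv' (pow_mem hφ j), neg_add_eq_zero,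
      hpow] at h
    exact h.symm
  intro σ hσ
  obtain ⟨j, hj⟩ := hgen _ χ'.gen_mem
  obtain ⟨i, hi⟩ := hgen σ hσ.1
  have hunit : IsUnit (χ'.ψ φ) := isUnit_of_dvd_one ⟨(j : ZMod (p ^ M')), by
    rw [mul_comm, ← hval _ χ'.toCycChar _ χ'.gen_mem j hj.2, χ'.ψ_gen]⟩
  have h0 := hval _ χ'.toCycChar σ hσ.1 i hi.2
  rw [show χ'.ψ σ = 0 from hσ.2, eq_comm, hunit.mul_left_eq_zero, ZMod.natCast_eq_zero_iff] at h0
  refine ⟨hσ.1, ?_⟩
  show χ.ψ σ = 0
  rw [hval _ χ.toCycChar σ hσ.1 i hi.1,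
    (ZMod.natCast_eq_zero_iff _ _).2 ((pow_dvd_pow p hMM).trans h0), zero_mul]

theorem relIndex_coprime {P U : Subgroup GG} (hP : P ≤ H) (hU : U ≤ H)
    (hn : (U.subgroupOf H).Normal) (hcop : ¬ p ∣ P.relIndex H) {M : ℕ}
    (hUM : U.relIndex H = p ^ M) : ¬ p ∣ (P ⊓ U).relIndex U := by
  have hp := (Fact.out : p.Prime)
  have h1 : (P ⊓ U).relIndex U * U.relIndex H = (P ⊓ U).relIndex P * P.relIndex H := by
    rw [Subgroup.relIndex_mul_relIndex _ _ _ inf_le_right hU,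
      Subgroup.relIndex_mul_relIndex _ _ _ inf_le_left hP]
  have h2 : (P ⊓ U).relIndex P ∣ p ^ M := by
    haveI := hn
    rw [inf_comm, Subgroup.inf_relIndex_right, ← hUM,
      ← Subgroup.relIndex_subgroupOf hP, Subgroup.relIndex]
    exact Subgroup.relIndex_dvd_index_of_normal (H := U.subgroupOf H) (K := P.subgroupOf H)
  obtain ⟨i, hi, he⟩ := (Nat.dvd_prime_pow hp).1 h2
  rw [hUM, he] at h1
  rintro ⟨t, ht⟩
  rw [ht] at h1
  have h3 : p ^ (M + 1) ∣ p ^ i * P.relIndex H := ⟨t, by rw [← h1, pow_succ]; ring⟩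
  have h4 : p ^ (M + 1) ∣ p ^ i := ((hp.coprime_iff_not_dvd.2 hcop).pow_left _).dvd_of_dvd_mul_right h3
  have := (Nat.pow_dvd_pow_iff_le_right hp.one_lt).1 h4
  omega

theorem ker_relIndex {n : ℕ} (χ : CycChar H n) :
    (χ.ker.subgroupOf H).Normal ∧ χ.ker.relIndex H = n := by
  haveI := χ.neZero
  let f : ↥H →* Multiplicative (ZMod n) :=
    { toFun := fun σ => Multiplicative.ofAdd (χ.ψ (σ : GG))
      map_one' := by simp [χ.map_one']
      map_mul' := fun σ τ => by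
        simp [χ.mul (σ : GG) σ.2 (τ : GG) τ.2] }
  have hk : f.ker = χ.ker.subgroupOf H := by
    ext σ
    simp [f, Subgroup.mem_subgroupOf, CycChar.ker, MonoidHom.mem_ker, σ.2]
  refine ⟨hk ▸ f.normal_ker, ?_⟩
  rw [Subgroup.relIndex, ← hk, Subgroup.index_ker,
    MonoidHom.range_eq_top.2 fun x => ⟨⟨χ.gen ^ (Multiplicative.toAdd x).val, χ.pow_mem' _⟩, by
      simp [f, χ.ψ_pow]⟩, Subgroup.card_top]
  exact (Nat.card_congr Multiplicative.toAdd).trans (Nat.card_zmod n)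

variable {ζ : LL}

include hloc hl hV in
theorem normIndex_of_local (hζ : IsPrimitiveRoot ζ p) {A : Subgroup GG}
    (hζA : ∀ σ ∈ A, σ ζ = ζ) (hA : LocalSub V A) : NormIndex p A :=
  fun χ => local_index hloc hl hV hζ hζA hA χ

include hloc hl hV in
/-- A class dying on a normal subgroup of index `p` dies on some unramified kernel. -/
theorem exists_cob_unr (hp2 : p ≠ 2) (hζ : IsPrimitiveRoot ζ p) (hζH : ∀ σ ∈ H, σ ζ = ζ)
    (hH : LocalSub V H) {c : GG → GG → LL} (hc : Coc H c) {A : Subgroup GG} (hAH : A ≤ H)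
    (hA : LocalSub V A) (χA : CycChar A p) (hB : Cob χA.ker c) {N M : ℕ}
    (hN : ∀ σ ∈ H, σ ^ N ∈ A) (hN0 : 0 < N) (hMN : M ≤ N) :
    ∃ χ : UnrChar H V (p ^ (N + 1)), Cob (A ⊓ χ.ker) c ∧
      ∀ χM : UnrChar H V (p ^ M), χ.ker ≤ χM.ker := by
  have hp := (Fact.out : p.Prime)
  obtain ⟨χ⟩ := exists_unrChar (p := p) hloc hl hV hH (N + 1) (by omega)
  haveI := χ.neZero
  refine ⟨χ, ?_, fun χM => unr_ker_le hl hV hH (by omega) χM χ⟩
  have hne : ∃ t : ℕ, ∃ σ ∈ A, ¬ p ^ (t + 1) ∣ (χ.ψ σ).val := by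
    refine ⟨N, _, hN _ χ.gen_mem, ?_⟩
    rw [χ.ψ_pow, ZMod.val_natCast]
    intro h
    have h1 : p ^ (N + 1) ∣ N := (Nat.dvd_mod_iff dvd_rfl).1 h
    have h2 := Nat.le_of_dvd hN0 h1
    have h3 := Nat.lt_pow_self (n := N + 1) hp.one_lt
    omega
  classical
  obtain ⟨σ₀, hσ₀, hσ₀v⟩ := Nat.find_spec hne
  set t := Nat.find hne
  have hall : ∀ σ ∈ A, p ^ t ∣ (χ.ψ σ).val := fun σ hσ => by
    by_contra h
    rcases Nat.eq_zero_or_pos t with ht | ht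
    · exact h (by rw [ht, pow_zero]; exact one_dvd _)
    · exact Nat.find_min hne (show t - 1 < t by omega)
        ⟨σ, hσ, by rwa [Nat.sub_add_cancel ht]⟩
  have ht : t + 1 ≤ N + 1 := by
    by_contra h
    have h1 : p ^ t ∣ (χ.ψ σ₀).val := hall σ₀ hσ₀
    rcases Nat.eq_zero_or_pos (χ.ψ σ₀).val with h0 | h0
    · exact hσ₀v (by rw [h0]; exact dvd_zero _)
    · have h2 := Nat.le_of_dvd h0 h1
      have h3 := ZMod.val_lt (χ.ψ σ₀)
      have h4 := Nat.pow_le_pow_right hp.pos (show N + 1 ≤ t by omega)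
      omega
  let ψ' : GG → ZMod p := fun σ => (((χ.ψ σ).val / p ^ t : ℕ) : ZMod p)
  have hψ' : ∀ σ ∈ A, ∀ τ ∈ A, ψ' (σ * τ) = ψ' σ + ψ' τ := fun σ hσ τ hτ => by
    simp only [ψ']
    obtain ⟨a, ha⟩ := hall σ hσ
    obtain ⟨b, hb⟩ := hall τ hτ
    obtain ⟨u, hu⟩ : ∃ u, p ^ (N + 1) = p ^ t * (p * u) :=
      ⟨p ^ (N - t), by rw [← pow_succ', ← pow_add]; congr 1; omega⟩
    have hP : 0 < p ^ t := pow_pos hp.pos _
    rw [χ.mul σ (hAH hσ) τ (hAH hτ), ← Nat.cast_add, ZMod.natCast_eq_natCast_iff', ZMod.val_add,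
      ha, hb, ← mul_add, hu, Nat.mul_mod_mul_left, Nat.mul_div_cancel_left _ hP,
      Nat.mul_div_cancel_left _ hP, Nat.mul_div_cancel_left _ hP,
      Nat.mod_mod_of_dvd _ (dvd_mul_right p u)]
  let χ₁ : CycChar A p := CycChar.ofNe hψ'
    ((χ.lev.mono hAH).map fun x => ((x.val / p ^ t : ℕ) : ZMod p)) ⟨σ₀, hσ₀, fun h => hσ₀v (by
      obtain ⟨a, ha⟩ := hall σ₀ hσ₀
      replace h : (((χ.ψ σ₀).val / p ^ t : ℕ) : ZMod p) = 0 := h
      rw [ha, Nat.mul_div_cancel_left _ (pow_pos hp.pos _), ZMod.natCast_eq_zero_iff] at h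
      rw [ha, pow_succ]
      exact mul_dvd_mul_left _ h)⟩
  have h1 := cob_ker_change hp2 hζ (fun σ hσ => hζH σ (hAH hσ))
    (normIndex_of_local hloc hl hV hζ (fun σ hσ => hζH σ (hAH hσ)) hA) χA χ₁ (hc.mono hAH) hB
  refine h1.mono fun σ hσ => ⟨hσ.1, ?_⟩
  show (((χ.ψ σ).val / p ^ t : ℕ) : ZMod p) = 0
  rw [show χ.ψ σ = 0 from hσ.2.2, ZMod.val_zero, Nat.zero_div, Nat.cast_zero]

/-- The elements of `H` with image in `Q`. -/
def preImg {G : Type} [Group G] (f : ↥H →* G) (Q : Subgroup G) : Subgroup GG :=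
  (Q.comap f).map H.subtype

theorem mem_preImg {G : Type} [Group G] {f : ↥H →* G} {Q : Subgroup G} {σ : GG} :
    σ ∈ preImg f Q ↔ ∃ h : σ ∈ H, f ⟨σ, h⟩ ∈ Q := by
  simp [preImg]

theorem preImg_le {G : Type} [Group G] (f : ↥H →* G) (Q : Subgroup G) : preImg f Q ≤ H :=
  Subgroup.map_subtype_le _

/-- The character of a normal subgroup of index `p`. -/
theorem exists_quot_char {G : Type} [Group G] (f : ↥H →* G) {Q : Subgroup G} (Q₁ : Subgroup Q)
    [Q₁.Normal] (hidx : Q₁.index = p) :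
    ∃ ψ : GG → ZMod p, (∀ σ ∈ preImg f Q, ∀ τ ∈ preImg f Q, ψ (σ * τ) = ψ σ + ψ τ) ∧
      ∀ σ ∈ preImg f Q, (ψ σ = 0 ↔ σ ∈ preImg f (Q₁.map Q.subtype)) := by
  classical
  let e : (Q ⧸ Q₁) ≃* Multiplicative (ZMod p) := mulEquivOfPrimeCardEq (p := p)
    (by rw [← Subgroup.index_eq_card, hidx])
    ((Nat.card_congr Multiplicative.toAdd).trans (Nat.card_zmod p))
  let ψ : GG → ZMod p := fun σ => if h : σ ∈ H then
    (if hq : f ⟨σ, h⟩ ∈ Q then
      Multiplicative.toAdd (e (QuotientGroup.mk (⟨_, hq⟩ : Q))) else 0) else 0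
  have hψ : ∀ (σ : GG) (h : σ ∈ H) (hq : f ⟨σ, h⟩ ∈ Q),
      ψ σ = Multiplicative.toAdd (e (QuotientGroup.mk (⟨_, hq⟩ : Q))) := fun σ h hq => by
    simp only [ψ, dif_pos h, dif_pos hq]
  refine ⟨ψ, fun σ hσ τ hτ => ?_, fun σ hσ => ?_⟩
  · obtain ⟨h1, q1⟩ := mem_preImg.1 hσ
    obtain ⟨h2, q2⟩ := mem_preImg.1 hτ
    have he : f ⟨σ * τ, mul_mem h1 h2⟩ = f ⟨σ, h1⟩ * f ⟨τ, h2⟩ := map_mul f ⟨σ, h1⟩ ⟨τ, h2⟩
    have q12 : f ⟨σ * τ, mul_mem h1 h2⟩ ∈ Q := he.symm ▸ mul_mem q1 q2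
    rw [hψ _ (mul_mem h1 h2) q12, hψ σ h1 q1, hψ τ h2 q2, ← toAdd_mul,
      ← map_mul, ← QuotientGroup.mk_mul]
    exact congrArg (fun q : Q => Multiplicative.toAdd (e (QuotientGroup.mk q))) (Subtype.ext he)
  · obtain ⟨h1, q1⟩ := mem_preImg.1 hσ
    rw [hψ σ h1 q1, mem_preImg]
    refine ⟨fun h => ⟨h1, ⟨⟨_, q1⟩, ?_, rfl⟩⟩, fun ⟨_, ⟨x, hx, hxe⟩⟩ => ?_⟩
    · exact (QuotientGroup.eq_one_iff _).1 (e.map_eq_one_iff.1 (toAdd_eq_zero.1 h))
    · rw [toAdd_eq_zero, e.map_eq_one_iff, QuotientGroup.eq_one_iff]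
      have hxx : (⟨_, q1⟩ : Q) = x := Subtype.ext hxe.symm
      rwa [hxx]

theorem preImg_index {G : Type} [Group G] (f : ↥H →* G) (hf : Function.Surjective f)
    (Q : Subgroup G) : (preImg f Q).relIndex H = Q.index := by
  rw [← Subgroup.index_comap_of_surjective _ hf, Subgroup.relIndex]
  congr 1
  exact Subgroup.comap_map_eq_self_of_injective H.subtype_injective _

include hloc hl hV in
/-- A local class killed by `p` dies on some unramified kernel. -/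
theorem exists_cob_unr_of_torsion (hp2 : p ≠ 2) (hζ : IsPrimitiveRoot ζ p)
    (hζH : ∀ σ ∈ H, σ ζ = ζ) (hH : LocalSub V H) {c : GG → GG → LL} (hc : Coc H c)
    (ht : Cob H fun σ τ => c σ τ ^ p) : ∃ M, 0 < M ∧ ∃ χ : UnrChar H V (p ^ M), Cob χ.ker c := by
  classical
  obtain ⟨E₀, hE₀, hle₀⟩ := hH.openIn
  obtain ⟨E, hEf, hEn, hE₀E, hS⟩ := exists_cob_level hc (E₀ := E₀)
  let R : ↥H →* (E ≃ₐ[ℚ] E) := (AlgEquiv.restrictNormalHom E).comp H.subtype
  have hker : ∀ x : ↥H, R x = 1 → (x : GG) ∈ E.fixingSubgroup := fun x hx => by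
    rw [IntermediateField.mem_fixingSubgroup_iff]
    intro y hy
    have h := AlgEquiv.restrictNormal_commutes (x : GG) E ⟨y, hy⟩
    rw [show (x : GG).restrictNormal E = R x from rfl, hx] at h
    simpa using h.symm
  have hSle : ∀ Q : Subgroup R.range, H ⊓ E.fixingSubgroup ≤ preImg R.rangeRestrict Q :=
    fun Q σ hσ => by
    obtain ⟨hσH, hσE⟩ := Subgroup.mem_inf.1 hσ
    have h1 : R ⟨σ, hσH⟩ = 1 := AlgEquiv.ext fun y => Subtype.ext
      ((AlgEquiv.restrictNormal_commutes σ E y).trans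
        ((IntermediateField.mem_fixingSubgroup_iff _ _).1 hσE _ y.2))
    refine mem_preImg.2 ⟨hσH, ?_⟩
    rw [show R.rangeRestrict ⟨σ, hσH⟩ = 1 from Subtype.ext h1]
    exact one_mem Q
  obtain ⟨P⟩ : Nonempty (Sylow p R.range) := inferInstance
  suffices key : ∀ Q : Subgroup R.range, Q ≤ P →
      ∃ M, 0 < M ∧ ∃ χ : UnrChar H V (p ^ M), Cob (preImg R.rangeRestrict Q ⊓ χ.ker) c by
    obtain ⟨M, hM, χ, hχ⟩ := key P le_rfl
    refine ⟨M, hM, χ, ?_⟩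
    have hcop : ¬ p ∣ (preImg R.rangeRestrict P).relIndex H := by
      rw [preImg_index _ R.rangeRestrict_surjective]
      exact P.not_dvd_index
    have hx := relIndex_coprime (preImg_le R.rangeRestrict P) χ.ker_le (ker_relIndex χ.toCycChar).1 hcop
      (ker_relIndex χ.toCycChar).2
    have ho : OpenIn (preImg R.rangeRestrict P ⊓ χ.ker) χ.ker :=
      ⟨E, hEf, fun σ hσ => by
        obtain ⟨h1, h2⟩ := Subgroup.mem_inf.1 hσ
        exact Subgroup.mem_inf.2 ⟨hSle P (Subgroup.mem_inf.2 ⟨χ.ker_le h1, h2⟩), h1⟩⟩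
    refine cob_of_coprime (Fact.out : p.Prime).one_lt (ht.mono χ.ker_le)
      (cob_pow_index (hc.mono χ.ker_le) inf_le_right ho hχ)
      ((Nat.Prime.coprime_iff_not_dvd Fact.out).2 hx).symm
  intro Q
  induction hQc : Nat.card Q using Nat.strong_induction_on generalizing Q with
  | h n ih =>
    intro hQP
    subst hQc
    by_cases hbot : Q = ⊥
    · obtain ⟨χ⟩ := exists_unrChar (p := p) hloc hl hV hH 1 Nat.one_pos
      refine ⟨1, Nat.one_pos, χ, hS.mono fun σ hσ => ?_⟩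
      obtain ⟨hσH, hq⟩ := mem_preImg.1 (Subgroup.mem_inf.1 hσ).1
      rw [hbot, Subgroup.mem_bot] at hq
      exact Subgroup.mem_inf.2 ⟨hσH, hker ⟨σ, hσH⟩ (congrArg Subtype.val hq)⟩
    have hpg : IsPGroup p Q := P.isPGroup'.to_le hQP
    obtain ⟨k, hk⟩ := hpg.exists_card_eq
    have hk0 : k ≠ 0 := fun h0 => hbot (Subgroup.card_eq_one.1 (by rw [hk, h0, pow_zero]))
    obtain ⟨Q₁, hQ₁⟩ := Sylow.exists_subgroup_card_pow_prime p (n := k - 1) (G := Q)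
      (hk ▸ pow_dvd_pow p (Nat.sub_le k 1))
    have hidx : Q₁.index = p := by
      have h := Q₁.card_mul_index
      rw [hQ₁, hk] at h
      have h2 : p ^ k = p ^ (k - 1) * p := by rw [← pow_succ]; congr 1; omega
      exact mul_left_cancel₀ (pow_ne_zero _ (Fact.out : p.Prime).ne_zero) (h.trans h2)
    haveI : Q₁.Normal := Subgroup.normal_of_index_eq_minFac_card
      (by rw [hidx, hk, (Fact.out : p.Prime).pow_minFac hk0])
    let Q' : Subgroup R.range := Q₁.map Q.subtype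
    have hQ'Q : Q' ≤ Q := Subgroup.map_subtype_le _
    have hlt : Nat.card Q' < Nat.card Q := by
      rw [show Nat.card Q' = Nat.card Q₁ from
        (Nat.card_congr (Subgroup.equivMapOfInjective Q₁ Q.subtype Q.subtype_injective).toEquiv).symm,
        hQ₁, hk]
      exact Nat.pow_lt_pow_right (Fact.out : p.Prime).one_lt (by omega)
    obtain ⟨M, hM, χM, hcob⟩ := ih _ hlt Q' rfl (hQ'Q.trans hQP)
    obtain ⟨ψ, hadd', hzero'⟩ := exists_quot_char R.rangeRestrict Q₁ hidx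
    set A := preImg R.rangeRestrict Q ⊓ χM.ker with hAdef
    by_cases hAB : A ≤ preImg R.rangeRestrict Q'
    · exact ⟨M, hM, χM, hcob.mono (le_inf hAB inf_le_right)⟩
    -- the character of `A` cutting out the smaller group
    have hA1 : A ≤ preImg R.rangeRestrict Q := inf_le_left
    have hA2 : A ≤ χM.ker := inf_le_right
    have hadd : ∀ σ ∈ A, ∀ τ ∈ A, ψ (σ * τ) = ψ σ + ψ τ := fun σ hσ τ hτ =>
      hadd' σ (hA1 hσ) τ (hA1 hτ)
    obtain ⟨σ₁, hσ₁, hσ₁'⟩ := SetLike.not_le_iff_exists.1 hAB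
    have hlev : LevOn A ψ := ⟨E, hEf, fun g hg s hs hsE => by
      rw [hadd g hg s hs, (hzero' s (hA1 hs)).2
        (hSle Q' (Subgroup.mem_inf.2 ⟨preImg_le _ _ (hA1 hs), hsE⟩)), add_zero]⟩
    let χA : CycChar A p :=
      CycChar.ofNe hadd hlev ⟨σ₁, hσ₁, fun h => hσ₁' ((hzero' σ₁ (hA1 hσ₁)).1 h)⟩
    have hA : LocalSub V A := ⟨hA1.trans ((preImg_le _ _).trans hH.le),
      (OpenIn.inf ⟨E, hEf, hSle Q⟩ χM.openIn).trans hH.openIn⟩
    have hkerA : Cob χA.ker c := hcob.mono fun σ hσ =>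
      Subgroup.mem_inf.2 ⟨(hzero' σ (hA1 hσ.1)).1 hσ.2, hA2 hσ.1⟩
    let N := Nat.card (E ≃ₐ[ℚ] E) * p ^ M
    have hN : ∀ σ ∈ H, σ ^ N ∈ A := fun σ hσ => by
      refine Subgroup.mem_inf.2 ⟨mem_preImg.2 ⟨pow_mem hσ _, ?_⟩, pow_mem hσ _, ?_⟩
      · have h : R.rangeRestrict ⟨σ ^ N, pow_mem hσ _⟩ = 1 := Subtype.ext (by
          show R ((⟨σ, hσ⟩ : ↥H) ^ N) = 1
          rw [map_pow, pow_mul, pow_card_eq_one', one_pow])
        rw [h]; exact one_mem Q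
      · have : ∀ j : ℕ, χM.ψ (σ ^ j) = (j : ZMod (p ^ M)) * χM.ψ σ := fun j => by
          induction j with
          | zero => simp [χM.map_one']
          | succ j ih => rw [pow_succ, χM.mul _ (pow_mem hσ j) _ hσ, ih, Nat.cast_succ]; ring
        show χM.ψ (σ ^ N) = 0
        rw [this, Nat.cast_mul, ZMod.natCast_self, mul_zero, zero_mul]
    have hcard : 0 < Nat.card (E ≃ₐ[ℚ] E) := Nat.card_pos
    have hN0 : 0 < N := Nat.mul_pos hcard (pow_pos (Fact.out : p.Prime).pos _)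
    have hMN : M ≤ N := (Nat.lt_pow_self (n := M) (Fact.out : p.Prime).one_lt).le.trans
      (Nat.le_mul_of_pos_left _ hcard)
    obtain ⟨χ, hχ, hnest⟩ := exists_cob_unr hloc hl hV hp2 hζ hζH hH hc
      (hA1.trans (preImg_le _ _)) hA χA hkerA hN hN0 hMN
    exact ⟨N + 1, Nat.succ_pos _, χ,
      hχ.mono fun σ hσ => by
        obtain ⟨h1, h2⟩ := Subgroup.mem_inf.1 hσ
        exact Subgroup.mem_inf.2 ⟨Subgroup.mem_inf.2 ⟨h1, hnest χM h2⟩, h2⟩⟩

end FLTAgent.Lowering.P1.Brauer
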