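import Fermat.Agent.Lowering.P1.Brauer.Cyclic
import Fermat.Agent.Lowering.P1.Brauer.LocalKill

/-!
# Norms over cosets
-/

set_option autoImplicit false
set_option linter.style.haveILetI false
set_option linter.unusedSectionVars false

noncomputable section

namespace FLTAgent.Lowering.P1.Brauer

local notation "LL" => AlgebraicClosure ℚ
local notation "GG" => (AlgebraicClosure ℚ ≃ₐ[ℚ] AlgebraicClosure ℚ)

/-- The product of the conjugates over the cosets. -/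
def nrm (H' H : Subgroup GG) (y : LL) : LL :=
  ∏ᶠ q : ↥H ⧸ H'.subgroupOf H, (q.out : GG) y

variable {H H' H'' : Subgroup GG} {y : LL}

theorem apply_eq_of_coset (hy : ∀ t ∈ H', t y = y) {g h : GG} (h' : g⁻¹ * h ∈ H') : h y = g y := by
  conv_lhs => rw [← mul_inv_cancel_left g h, AlgEquiv.mul_apply, hy _ h']

/-- The product may be taken over any set of representatives. -/
theorem nrm_eq_prod (hy : ∀ t ∈ H', t y = y) {ι : Type} [Fintype ι] (r : ι → ↥H)
    (hr : Function.Bijective fun i => (QuotientGroup.mk (r i) : ↥H ⧸ H'.subgroupOf H)) :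
    nrm H' H y = ∏ i, (r i : GG) y := by
  rw [← finprod_eq_prod_of_fintype]
  refine (finprod_eq_of_bijective _ hr fun i => apply_eq_of_coset hy ?_).symm
  have h := QuotientGroup.eq.1
    (QuotientGroup.out_eq' (QuotientGroup.mk (r i) : ↥H ⧸ H'.subgroupOf H))
  simpa [Subgroup.mem_subgroupOf] using h

theorem nrm_eq_prod_out [Fintype (↥H ⧸ H'.subgroupOf H)] :
    nrm H' H y = ∏ q : ↥H ⧸ H'.subgroupOf H, (q.out : GG) y :=
  finprod_eq_prod_of_fintype _

theorem nrm_mul (ho : OpenIn H' H) (x z : LL) : nrm H' H (x * z) = nrm H' H x * nrm H' H z := by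
  haveI := ho.finite_quotient
  haveI := Fintype.ofFinite (↥H ⧸ H'.subgroupOf H)
  simp only [nrm_eq_prod_out, map_mul, Finset.prod_mul_distrib]

theorem nrm_ne (ho : OpenIn H' H) (hy0 : y ≠ 0) : nrm H' H y ≠ 0 := by
  haveI := ho.finite_quotient
  haveI := Fintype.ofFinite (↥H ⧸ H'.subgroupOf H)
  rw [nrm_eq_prod_out]
  exact Finset.prod_ne_zero_iff.2 fun q _ => (EmbeddingLike.map_ne_zero_iff).2 hy0

theorem nrm_fixed (ho : OpenIn H' H) (hy : ∀ t ∈ H', t y = y) {σ : GG} (hσ : σ ∈ H) :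
    σ (nrm H' H y) = nrm H' H y := by
  haveI := ho.finite_quotient
  haveI := Fintype.ofFinite (↥H ⧸ H'.subgroupOf H)
  rw [nrm_eq_prod_out, map_prod]
  let r : ↥H ⧸ H'.subgroupOf H → ↥H := fun q => ⟨σ, hσ⟩ * q.out
  have hr : Function.Bijective fun q => (QuotientGroup.mk (r q) : ↥H ⧸ H'.subgroupOf H) := by
    have h : (fun q => (QuotientGroup.mk (r q) : ↥H ⧸ H'.subgroupOf H)) =
        fun q => (⟨σ, hσ⟩ : ↥H) • q := by
      funext q
      show _ = _ • q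
      conv_rhs => rw [← q.out_eq']
      rfl
    rw [h]
    exact MulAction.bijective _
  exact (nrm_eq_prod_out.symm.trans (nrm_eq_prod hy r hr)).symm

theorem nrm_of_fixed (ho : OpenIn H' H) (hy : ∀ σ ∈ H, σ y = y) :
    nrm H' H y = y ^ H'.relIndex H := by
  haveI := ho.finite_quotient
  haveI := Fintype.ofFinite (↥H ⧸ H'.subgroupOf H)
  rw [nrm_eq_prod_out, Finset.prod_congr rfl fun q _ => hy _ q.out.2, Finset.prod_const,
    Finset.card_univ, ← Nat.card_eq_fintype_card]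
  rfl

/-- Transitivity. -/
theorem nrm_trans (h1 : H'' ≤ H') (h2 : H' ≤ H) (ho1 : OpenIn H'' H') (ho2 : OpenIn H' H)
    (hy : ∀ t ∈ H'', t y = y) : nrm H' H (nrm H'' H' y) = nrm H'' H y := by
  haveI := ho1.finite_quotient
  haveI := ho2.finite_quotient
  haveI := Fintype.ofFinite (↥H ⧸ H'.subgroupOf H)
  haveI := Fintype.ofFinite (↥H' ⧸ H''.subgroupOf H')
  let r : (↥H ⧸ H'.subgroupOf H) × (↥H' ⧸ H''.subgroupOf H') → ↥H :=
    fun x => x.1.out * ⟨(x.2.out : GG), h2 x.2.out.2⟩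
  have hmem : ∀ x : (↥H ⧸ H'.subgroupOf H) × (↥H' ⧸ H''.subgroupOf H'),
      (QuotientGroup.mk (r x) : ↥H ⧸ H'.subgroupOf H) = x.1 := fun x => by
    conv_rhs => rw [← x.1.out_eq']
    refine QuotientGroup.eq.2 ?_
    simp only [r, Subgroup.mem_subgroupOf, mul_inv_rev, Subgroup.coe_inv,
      inv_mul_cancel_right]
    exact inv_mem x.2.out.2
  have hr : Function.Bijective fun x => (QuotientGroup.mk (r x) : ↥H ⧸ H''.subgroupOf H) := by
    constructor
    · intro x x' h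
      have he : ((r x : GG))⁻¹ * (r x' : GG) ∈ H'' := by
        simpa [Subgroup.mem_subgroupOf] using QuotientGroup.eq.1 h
      have e1 : x.1 = x'.1 := by
        rw [← hmem x, ← hmem x']
        exact QuotientGroup.eq.2 (by simpa [Subgroup.mem_subgroupOf] using h1 he)
      refine Prod.ext e1 ?_
      rw [← x.2.out_eq', ← x'.2.out_eq']
      refine QuotientGroup.eq.2 ?_
      simpa [r, Subgroup.mem_subgroupOf, e1, mul_assoc] using he
    · intro q
      induction q using QuotientGroup.induction_on with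
      | H g =>
        let a : ↥H ⧸ H'.subgroupOf H := QuotientGroup.mk g
        have ha : (a.out : GG)⁻¹ * g ∈ H' := by
          simpa [Subgroup.mem_subgroupOf] using QuotientGroup.eq.1 (QuotientGroup.out_eq' a)
        refine ⟨⟨a, QuotientGroup.mk ⟨_, ha⟩⟩, QuotientGroup.eq.2 ?_⟩
        have hb := QuotientGroup.eq.1
          (QuotientGroup.out_eq' (QuotientGroup.mk ⟨_, ha⟩ : ↥H' ⧸ H''.subgroupOf H'))
        rw [Subgroup.mem_subgroupOf] at hb
        simpa [r, Subgroup.mem_subgroupOf, mul_assoc] using hb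
  rw [nrm_eq_prod hy r hr, Fintype.prod_prod_type, nrm_eq_prod_out]
  refine Finset.prod_congr rfl fun a _ => ?_
  rw [nrm_eq_prod_out, map_prod]
  rfl

/-- The norm from the kernel of a character. -/
theorem nrm_ker {n : ℕ} (χ : CycChar H n) (hy : ∀ t ∈ χ.ker, t y = y) :
    nrm χ.ker H y = ∏ i ∈ Finset.range n, (χ.gen ^ i) y := by
  haveI := χ.neZero
  let r : ZMod n → ↥H := fun i => ⟨χ.gen ^ i.val, χ.pow_mem' _⟩
  have hr : Function.Bijective fun i => (QuotientGroup.mk (r i) : ↥H ⧸ χ.ker.subgroupOf H) := by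
    refine ⟨fun i j h => ?_, fun q => ?_⟩
    · have h' : (χ.gen ^ i.val)⁻¹ * χ.gen ^ j.val ∈ χ.ker := by
        simpa [r, Subgroup.mem_subgroupOf] using QuotientGroup.eq.1 h
      have h2 := h'.2
      rwa [χ.mul _ (inv_mem (χ.pow_mem' _)) _ (χ.pow_mem' _), χ.map_inv' (χ.pow_mem' _), χ.ψ_pow,
        χ.ψ_pow, ZMod.natCast_zmod_val, ZMod.natCast_zmod_val, neg_add_eq_zero] at h2
    · induction q using QuotientGroup.induction_on with
      | H g =>
        refine ⟨χ.ψ (g : GG), QuotientGroup.eq.2 ?_⟩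
        rw [Subgroup.mem_subgroupOf]
        exact χ.mem_ker_of_eq (χ.pow_mem' _) g.2 (by rw [χ.ψ_pow, ZMod.natCast_zmod_val])
  rw [nrm_eq_prod hy r hr, ← prod_range_eq_zmod fun i : ZMod n => (r i : GG) y]
  exact Finset.prod_congr rfl fun i hi => by
    simp only [r, ZMod.val_cast_of_lt (Finset.mem_range.1 hi)]

theorem isNorm_iff_nrm {n : ℕ} (χ : CycChar H n) (b : LL) :
    χ.IsNorm b ↔ ∃ y : LL, y ≠ 0 ∧ (∀ t ∈ χ.ker, t y = y) ∧ nrm χ.ker H y = b :=
  exists_congr fun _ => and_congr_right fun _ => and_congr_right fun h => by rw [nrm_ker χ h]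

/-- A nonzero character takes its values on the multiples of a power of `p`. -/
theorem exists_scaled {p : ℕ} [Fact p.Prime] {n : ℕ} {ψ : GG → ZMod (p ^ n)}
    (hψ : ∀ σ ∈ H, ∀ τ ∈ H, ψ (σ * τ) = ψ σ + ψ τ) (hl : LevOn H ψ) (hne : ∃ σ ∈ H, ψ σ ≠ 0) :
    ∃ t < n, ∃ χ : CycChar H (p ^ (n - t)), (∀ σ ∈ H, (ψ σ).val = p ^ t * (χ.ψ σ).val) ∧
      ∀ σ ∈ H, (ψ σ = 0 ↔ σ ∈ χ.ker) := by
  classical
  have hp := (Fact.out : p.Prime)
  haveI : NeZero (p ^ n) := ⟨pow_ne_zero _ hp.ne_zero⟩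
  have hex : ∃ t, ∃ σ ∈ H, ¬ p ^ (t + 1) ∣ (ψ σ).val := by
    obtain ⟨σ, hσ, hσ0⟩ := hne
    refine ⟨(ψ σ).val, σ, hσ, fun h => ?_⟩
    have h1 := Nat.le_of_dvd (Nat.pos_of_ne_zero fun h0 => hσ0 ((ZMod.val_eq_zero _).1 h0)) h
    have h2 := Nat.lt_pow_self (n := (ψ σ).val + 1) hp.one_lt
    omega
  obtain ⟨σ₀, hσ₀, hσ₀v⟩ := Nat.find_spec hex
  set t := Nat.find hex
  have hall : ∀ σ ∈ H, p ^ t ∣ (ψ σ).val := fun σ hσ => by
    by_contra h
    rcases Nat.eq_zero_or_pos t with ht | ht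
    · exact h (by rw [ht, pow_zero]; exact one_dvd _)
    · exact Nat.find_min hex (show t - 1 < t by omega) ⟨σ, hσ, by rwa [Nat.sub_add_cancel ht]⟩
  have htn : t < n := by
    by_contra h
    refine hσ₀v ?_
    have h1 : (ψ σ₀).val = 0 := Nat.eq_zero_of_dvd_of_lt (hall σ₀ hσ₀)
      ((ZMod.val_lt _).trans_le (Nat.pow_le_pow_right hp.pos (not_lt.1 h)))
    rw [h1]; exact dvd_zero _
  have hn : p ^ n = p ^ t * p ^ (n - t) := by rw [← pow_add, Nat.add_sub_cancel' htn.le]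
  let ψ' : GG → ZMod (p ^ (n - t)) := fun σ => (((ψ σ).val / p ^ t : ℕ) : ZMod (p ^ (n - t)))
  have hψ' : ∀ σ ∈ H, ∀ τ ∈ H, ψ' (σ * τ) = ψ' σ + ψ' τ := fun σ hσ τ hτ => by
    simp only [ψ']
    obtain ⟨a, ha⟩ := hall σ hσ
    obtain ⟨b, hb⟩ := hall τ hτ
    rw [hψ σ hσ τ hτ, ← Nat.cast_add, ZMod.natCast_eq_natCast_iff', ZMod.val_add, ha, hb, hn,
      ← mul_add, Nat.mul_mod_mul_left, Nat.mul_div_cancel_left _ (pow_pos hp.pos _),
      Nat.mul_div_cancel_left _ (pow_pos hp.pos _), Nat.mul_div_cancel_left _ (pow_pos hp.pos _),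
      Nat.mod_mod]
  haveI : NeZero (p ^ (n - t)) := ⟨pow_ne_zero _ hp.ne_zero⟩
  have hunit : IsUnit (ψ' σ₀) := by
    obtain ⟨a, ha⟩ := hall σ₀ hσ₀
    simp only [ψ', ha, Nat.mul_div_cancel_left _ (pow_pos hp.pos t)]
    rw [ZMod.isUnit_iff_coprime]
    refine Nat.Coprime.pow_right _ ((Nat.Prime.coprime_iff_not_dvd hp).2 fun h => hσ₀v ?_).symm
    rw [ha, pow_succ]
    exact mul_dvd_mul_left _ h
  have key : ∀ σ ∈ H, ∀ k : ℕ, ψ' (σ ^ k) = (k : ZMod (p ^ (n - t))) * ψ' σ := fun σ hσ k => by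
    induction k with
    | zero =>
      have h1 := hψ' 1 (one_mem H) 1 (one_mem H)
      rw [one_mul, left_eq_add] at h1
      simp [h1]
    | succ k ih => rw [pow_succ, hψ' _ (pow_mem hσ k) _ hσ, ih, Nat.cast_succ]; ring
  let χ : CycChar H (p ^ (n - t)) :=
    { ψ := ψ'
      gen := σ₀ ^ ((hunit.unit⁻¹ : (ZMod (p ^ (n - t)))ˣ) : ZMod (p ^ (n - t))).val
      one_lt := Nat.one_lt_pow (by omega) hp.one_lt
      mul := hψ'
      gen_mem := pow_mem hσ₀ _
      ψ_gen := by rw [key σ₀ hσ₀, ZMod.natCast_zmod_val, IsUnit.val_inv_mul]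
      lev := hl.map fun x => ((x.val / p ^ t : ℕ) : ZMod (p ^ (n - t))) }
  have hval : ∀ σ ∈ H, (ψ σ).val = p ^ t * (χ.ψ σ).val := fun σ hσ => by
    obtain ⟨a, ha⟩ := hall σ hσ
    have hlt := ZMod.val_lt (ψ σ)
    rw [ha, hn] at hlt
    show (ψ σ).val = p ^ t * (((ψ σ).val / p ^ t : ℕ) : ZMod (p ^ (n - t))).val
    rw [ha, Nat.mul_div_cancel_left _ (pow_pos hp.pos t),
      ZMod.val_cast_of_lt (Nat.lt_of_mul_lt_mul_left hlt)]
  refine ⟨t, htn, χ, hval, fun σ hσ => ⟨fun h => ⟨hσ, ?_⟩, fun h => ?_⟩⟩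
  · show (((ψ σ).val / p ^ t : ℕ) : ZMod (p ^ (n - t))) = 0
    rw [h, ZMod.val_zero, Nat.zero_div, Nat.cast_zero]
  · refine (ZMod.val_eq_zero _).1 ?_
    rw [hval σ hσ, h.2, ZMod.val_zero, mul_zero]

end FLTAgent.Lowering.P1.Brauer
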